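import Mathlib
import Fermat.Agent.PT.Defs

/-!
# W3-PT / ALG-CHI2 (architect helper98): the partial Euler characteristic — frozen interface

Design = helper14's PT-GLOB design v1 (findings 791), points (A-INEQ), (A-V3):
for `V` normal of index `p` in `U` (open subgroups, coefficients `k` of characteristic `p`)

* `χ₂(V) ≤ p · χ₂(U)`, `χ₂ = 1 - h¹ + h²`                                    (`Chi2Ineq`);
* if equality holds, `res : H³(U, k) → H³(V, k)` is injective                 (`Chi2Res`);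
* if equality holds for ALL such pairs of a class of open subgroups closed under passing to open
  subgroups, then `H³(U, k) = 0` for all `U` in the class                     (`Chi2Van`).

Everything is on the `U`-side: `U ≤ G` open, group `↥U`, levels `L.comap U.subtype`, trivial
coefficients.

Leaves:
* `Chi2SES`  (E1): `χ₂` is sub-additive in short exact sequences; equality `⇒` `H³(A) → H³(B)`
               is injective;
* `Chi2Unip` (E2): `χ₂(W) ≤ dim W · χ₂(k)` for `W` unipotent; equality `⇒` `H³(k) → H³(W)`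
               (given by a fixed vector) is injective;
* `Chi2Shap` (E3): Shapiro for one group `U ⊇ V` in dimensions and for `H³`.
-/

set_option autoImplicit false

namespace Fermat.Agent.PT

section Defs

variable {k : Type} [Field k] {G : Type} [Group G]

/-- `H¹` and `H²` are finite dimensional. -/
def FinH12 (L : Lev G) {V : Type} [AddCommGroup V] [Module k V] (ρ : Representation k G V) :
    Prop :=
  Module.Finite k (HH1 L ρ) ∧ Module.Finite k (HH2 L ρ)

/-- The partial Euler characteristic `h⁰ - h¹ + h²`. -/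
noncomputable def chi2 (L : Lev G) {V : Type} [AddCommGroup V] [Module k V]
    (ρ : Representation k G V) : ℤ :=
  (Module.finrank k ρ.invariants : ℤ) - (Module.finrank k (HH1 L ρ) : ℤ)
    + (Module.finrank k (HH2 L ρ) : ℤ)

/-- The levels of an (open) subgroup. -/
abbrev chi2Lev (L : Lev G) (U : Subgroup G) : Lev ↥U := L.comap U.subtype

/-- The trivial module `k` of a subgroup. -/
abbrev chi2Triv (k : Type) [Field k] (U : Subgroup G) : Representation k ↥U k :=
  Representation.trivial k ↥U k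

/-- `χ₂(U) = 1 - h¹(U, k) + h²(U, k)`. -/
noncomputable def chi2U (k : Type) [Field k] (L : Lev G) (U : Subgroup G) : ℤ :=
  1 - (Module.finrank k (HH1 (chi2Lev L U) (chi2Triv k U)) : ℤ)
    + (Module.finrank k (HH2 (chi2Lev L U) (chi2Triv k U)) : ℤ)

end Defs

/-! ## Leaves -/

/-- (E1) `χ₂` in a short exact sequence `0 → V₁ → V₂ → V₃ → 0` of finite dimensional uniformly
discrete representations. -/
def Chi2SES : Prop :=
  ∀ (k : Type) [Field k] (G : Type) [Group G] (L : Lev G), L.Good →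
    ∀ (V₁ V₂ V₃ : Type) [AddCommGroup V₁] [Module k V₁] [AddCommGroup V₂] [Module k V₂]
      [AddCommGroup V₃] [Module k V₃] [FiniteDimensional k V₂]
      (ρ₁ : Representation k G V₁) (ρ₂ : Representation k G V₂) (ρ₃ : Representation k G V₃)
      (φ : V₁ →ₗ[k] V₂) (ψ : V₂ →ₗ[k] V₃),
      (∀ g v, φ (ρ₁ g v) = ρ₂ g (φ v)) → (∀ g v, ψ (ρ₂ g v) = ρ₃ g (ψ v)) →
      Function.Injective φ → Function.Surjective ψ → LinearMap.range φ = LinearMap.ker ψ →
      (∃ N ∈ L.sets, ∀ s ∈ N, ∀ v, ρ₂ s v = v) →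
      FinH12 L ρ₁ → FinH12 L ρ₃ →
      FinH12 L ρ₂ ∧ chi2 L ρ₂ ≤ chi2 L ρ₁ + chi2 L ρ₃ ∧
      (chi2 L ρ₂ = chi2 L ρ₁ + chi2 L ρ₃ →
        ∀ c ∈ Z3 L ρ₁, (fun x => φ (c x)) ∈ B3 L ρ₂ → c ∈ B3 L ρ₁)

/-- (E2) `χ₂` of a unipotent module: `Γ` acts on `W` through a finite `p`-group. -/
def Chi2Unip : Prop :=
  ∀ (p : ℕ) [Fact p.Prime] (k : Type) [Field k] [CharP k p] (Γ : Type) [Group Γ] (L : Lev Γ),
    L.Good → FinH12 L (Representation.trivial k Γ k) →
    ∀ (W : Type) [AddCommGroup W] [Module k W] [FiniteDimensional k W]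
      (τ : Representation k Γ W),
      (∃ N ∈ L.sets, ∀ s ∈ N, ∀ w, τ s w = w) →
      (∃ N' : Subgroup Γ, N'.Normal ∧ N'.FiniteIndex ∧ (∀ u : Γ, ∃ n : ℕ, u ^ p ^ n ∈ N') ∧
        ∀ s ∈ N', ∀ w, τ s w = w) →
      FinH12 L τ ∧
      chi2 L τ ≤ (Module.finrank k W : ℤ) * chi2 L (Representation.trivial k Γ k) ∧
      (chi2 L τ = (Module.finrank k W : ℤ) * chi2 L (Representation.trivial k Γ k) →
        ∀ w : W, w ≠ 0 → (∀ u, τ u w = w) →
          ∀ c ∈ Z3 L (Representation.trivial k Γ k), (fun x => c x • w) ∈ B3 L τ →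
            c ∈ B3 L (Representation.trivial k Γ k))

/-- (E3) Shapiro for `V ≤ U ≤ G`, `V` open: the cohomology of `V` with trivial coefficients is
the cohomology of `U` with coefficients in `Fun(U/V, k)`. -/
def Chi2Shap : Prop :=
  ∀ (k : Type) [Field k] (G : Type) [Group G] (L : Lev G), L.Good →
    ∀ (U V : Subgroup G) (hVU : V ≤ U), L.IsOpen V →
      (FinH12 (chi2Lev L U) (permRep k (V.subgroupOf U)) ↔ FinH12 (chi2Lev L V) (chi2Triv k V)) ∧
      (Module.finrank k (HH1 (chi2Lev L U) (permRep k (V.subgroupOf U))) =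
        Module.finrank k (HH1 (chi2Lev L V) (chi2Triv k V))) ∧
      (Module.finrank k (HH2 (chi2Lev L U) (permRep k (V.subgroupOf U))) =
        Module.finrank k (HH2 (chi2Lev L V) (chi2Triv k V))) ∧
      Module.finrank k (permRep k (V.subgroupOf U)).invariants = 1 ∧
      (H3Vanishes (chi2Lev L V) (chi2Triv k V) →
        H3Vanishes (chi2Lev L U) (permRep k (V.subgroupOf U))) ∧
      (∀ c ∈ Z3 (chi2Lev L U) (chi2Triv k U),
        res3 k k (Subgroup.inclusion hVU) c ∈ B3 (chi2Lev L V) (chi2Triv k V) →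
        (fun x => c x • (fun _ : ↥U ⧸ V.subgroupOf U => (1 : k))) ∈
          B3 (chi2Lev L U) (permRep k (V.subgroupOf U)))

/-! ## Targets -/

/-- (A-INEQ) `χ₂(V) ≤ p χ₂(U)` for `V` normal of index `p` in `U`. -/
def Chi2Ineq : Prop :=
  ∀ (p : ℕ) [Fact p.Prime] (k : Type) [Field k] [CharP k p] (G : Type) [Group G] (L : Lev G),
    L.Good → ∀ (U V : Subgroup G), V ≤ U → L.IsOpen V → (V.subgroupOf U).Normal →
      V.relIndex U = p → FinH12 (chi2Lev L U) (chi2Triv k U) →
      FinH12 (chi2Lev L V) (chi2Triv k V) ∧ chi2U k L V ≤ (p : ℤ) * chi2U k L U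

/-- (A-RES) in case of equality the restriction `H³(U, k) → H³(V, k)` is injective. -/
def Chi2Res : Prop :=
  ∀ (p : ℕ) [Fact p.Prime] (k : Type) [Field k] [CharP k p] (G : Type) [Group G] (L : Lev G),
    L.Good → ∀ (U V : Subgroup G) (hVU : V ≤ U), L.IsOpen V → (V.subgroupOf U).Normal →
      V.relIndex U = p → FinH12 (chi2Lev L U) (chi2Triv k U) →
      chi2U k L V = (p : ℤ) * chi2U k L U →
      ∀ c ∈ Z3 (chi2Lev L U) (chi2Triv k U),
        res3 k k (Subgroup.inclusion hVU) c ∈ B3 (chi2Lev L V) (chi2Triv k V) →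
        c ∈ B3 (chi2Lev L U) (chi2Triv k U)

/-- (A-V3) multiplicativity of `χ₂` in all steps of degree `p` implies `H³ = 0`. -/
def Chi2Van : Prop :=
  ∀ (p : ℕ) [Fact p.Prime] (k : Type) [Field k] [CharP k p] (G : Type) [Group G] (L : Lev G),
    L.Good → ∀ C : Set (Subgroup G), (∀ U ∈ C, L.IsOpen U) →
      (∀ U ∈ C, ∀ V : Subgroup G, V ≤ U → L.IsOpen V → V ∈ C) →
      (∀ U ∈ C, FinH12 (chi2Lev L U) (chi2Triv k U)) →
      (∀ U ∈ C, ∀ V : Subgroup G, V ≤ U → L.IsOpen V → (V.subgroupOf U).Normal →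
        V.relIndex U = p → chi2U k L V = (p : ℤ) * chi2U k L U) →
      ∀ U ∈ C, H3Vanishes (chi2Lev L U) (chi2Triv k U)

end Fermat.Agent.PT
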