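import Mathlib
import Fermat.Agent.PT.Defs
import Fermat.Agent.PT.Iface

/-!
# W3-PT / ALG-VAN: skeleton (frozen definitions, leaf statements, assembly)

Targets: `VanAbs`, `LVanAbs` of `PT/Iface.lean`.

Route: a class `P` of representations that contains the permutation modules `permRep k U`
(`U` open, `χ|_U = 1`), the zero modules, and is closed under retracts and under extensions
with uniformly discrete middle term, contains every finite dimensional discrete representation:

* `h40v_Level`   : a level `N` acting trivially on `V` with `χ|_N = 1`;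
* `h40v_Sylow`   : `N ≤ U`, `[G : U]` prime to `p`, `U/N` a `p`-group;
* `h40v_FixedVec`: a `p`-group acting on a nonzero vector space in characteristic `p` fixes a
                   nonzero vector;
* `h40v_ind`     : the induced representation `Ind_U^G τ` on `Fun(G/U, W)` in the cocycle model
                   `(g f)(x) = τ(c(g, x)) f(g⁻¹ x)`, `c(g, x) = s(x)⁻¹ g s(g⁻¹ x)`;
* `h40v_IndDisc`, `h40v_IndRetract`, `h40v_IndExact` : its properties;
* `h40v_RetractH1/H3`, `h40v_ExtH1/H3` : closure properties of "`H¹` finite" and "`H³ = 0`".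
-/

set_option autoImplicit false

namespace Fermat.Agent.PT

/-! ## Frozen definitions -/

section Defs

variable {k : Type} [CommRing k] {G : Type} [Group G]

/-- Equivariant linear maps. -/
def h40v_IsHom {V W : Type} [AddCommGroup V] [Module k V] [AddCommGroup W] [Module k W]
    (ρ : Representation k G V) (σ : Representation k G W) (φ : V →ₗ[k] W) : Prop :=
  ∀ (g : G) (v : V), φ (ρ g v) = σ g (φ v)

lemma h40v_coc_mem (U : Subgroup G) (g : G) (x : G ⧸ U) :
    (Quotient.out x)⁻¹ * g * Quotient.out (g⁻¹ • x) ∈ U := by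
  rw [mul_assoc, ← QuotientGroup.eq]
  have h1 : ((g * Quotient.out (g⁻¹ • x) : G) : G ⧸ U) = g • ((Quotient.out (g⁻¹ • x) : G) : G ⧸ U) :=
    rfl
  rw [h1, QuotientGroup.out_eq', QuotientGroup.out_eq', smul_inv_smul]

/-- The cocycle `c(g, x) = s(x)⁻¹ g s(g⁻¹ x) ∈ U` of the section `s = Quotient.out`. -/
noncomputable def h40v_coc (U : Subgroup G) (g : G) (x : G ⧸ U) : U :=
  ⟨(Quotient.out x)⁻¹ * g * Quotient.out (g⁻¹ • x), h40v_coc_mem U g x⟩

@[simp] lemma h40v_coc_coe (U : Subgroup G) (g : G) (x : G ⧸ U) :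
    ((h40v_coc U g x : U) : G) = (Quotient.out x)⁻¹ * g * Quotient.out (g⁻¹ • x) := rfl

lemma h40v_coc_one (U : Subgroup G) (x : G ⧸ U) : h40v_coc U 1 x = 1 := by
  apply Subtype.ext
  simp

lemma h40v_coc_mul (U : Subgroup G) (g h : G) (x : G ⧸ U) :
    h40v_coc U (g * h) x = h40v_coc U g x * h40v_coc U h (g⁻¹ • x) := by
  apply Subtype.ext
  simp only [h40v_coc_coe, Subgroup.coe_mul, mul_inv_rev, mul_smul]
  group

/-- The induced representation `Ind_U^G τ` in the cocycle model: on `Fun(G/U, W)`,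
`(g f)(x) = τ(c(g, x)) f(g⁻¹ x)`. -/
noncomputable def h40v_ind (U : Subgroup G) {W : Type} [AddCommGroup W] [Module k W]
    (τ : Representation k U W) : Representation k G (G ⧸ U → W) where
  toFun g :=
    { toFun := fun f x => τ (h40v_coc U g x) (f (g⁻¹ • x))
      map_add' := fun f f' => by funext x; simp
      map_smul' := fun c f => by funext x; simp }
  map_one' := by
    ext f x
    simp [h40v_coc_one]
  map_mul' g h := by
    ext f x
    simp [h40v_coc_mul, mul_smul]

@[simp] lemma h40v_ind_apply (U : Subgroup G) {W : Type} [AddCommGroup W] [Module k W]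
    (τ : Representation k U W) (g : G) (f : G ⧸ U → W) (x : G ⧸ U) :
    h40v_ind U τ g f x = τ (h40v_coc U g x) (f (g⁻¹ • x)) := rfl

end Defs

/-! ## Leaf statements (frozen) -/

/-- Leaf a1: finiteness of `H¹` passes to retracts. -/
def h40v_RetractH1 : Prop :=
  ∀ (k : Type) [Field k] (G : Type) [Group G] (L : Lev G)
    (V W : Type) [AddCommGroup V] [Module k V] [AddCommGroup W] [Module k W]
    (ρ : Representation k G V) (σ : Representation k G W) (i : V →ₗ[k] W) (π : W →ₗ[k] V),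
    h40v_IsHom ρ σ i → h40v_IsHom σ ρ π → (∀ v, π (i v) = v) →
    Module.Finite k (HH1 L σ) → Module.Finite k (HH1 L ρ)

/-- Leaf a2: vanishing of `H³` passes to retracts. -/
def h40v_RetractH3 : Prop :=
  ∀ (k : Type) [Field k] (G : Type) [Group G] (L : Lev G)
    (V W : Type) [AddCommGroup V] [Module k V] [AddCommGroup W] [Module k W]
    (ρ : Representation k G V) (σ : Representation k G W) (i : V →ₗ[k] W) (π : W →ₗ[k] V),
    h40v_IsHom ρ σ i → h40v_IsHom σ ρ π → (∀ v, π (i v) = v) →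
    H3Vanishes L σ → H3Vanishes L ρ

/-- Leaf a3: finiteness of `H¹` passes to extensions with uniformly discrete middle term. -/
def h40v_ExtH1 : Prop :=
  ∀ (k : Type) [Field k] (G : Type) [Group G] (L : Lev G), L.Good →
    ∀ (V₁ V₂ V₃ : Type) [AddCommGroup V₁] [Module k V₁] [AddCommGroup V₂] [Module k V₂]
      [AddCommGroup V₃] [Module k V₃]
      (ρ₁ : Representation k G V₁) (ρ₂ : Representation k G V₂) (ρ₃ : Representation k G V₃)
      (φ : V₁ →ₗ[k] V₂) (ψ : V₂ →ₗ[k] V₃),
      h40v_IsHom ρ₁ ρ₂ φ → h40v_IsHom ρ₂ ρ₃ ψ → Function.Injective φ → Function.Surjective ψ →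
      LinearMap.range φ = LinearMap.ker ψ →
      (∃ N ∈ L.sets, ∀ s ∈ N, ∀ v, ρ₂ s v = v) →
      Module.Finite k (HH1 L ρ₁) → Module.Finite k (HH1 L ρ₃) → Module.Finite k (HH1 L ρ₂)

/-- Leaf a4: vanishing of `H³` passes to extensions with uniformly discrete middle term. -/
def h40v_ExtH3 : Prop :=
  ∀ (k : Type) [Field k] (G : Type) [Group G] (L : Lev G), L.Good →
    ∀ (V₁ V₂ V₃ : Type) [AddCommGroup V₁] [Module k V₁] [AddCommGroup V₂] [Module k V₂]
      [AddCommGroup V₃] [Module k V₃]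
      (ρ₁ : Representation k G V₁) (ρ₂ : Representation k G V₂) (ρ₃ : Representation k G V₃)
      (φ : V₁ →ₗ[k] V₂) (ψ : V₂ →ₗ[k] V₃),
      h40v_IsHom ρ₁ ρ₂ φ → h40v_IsHom ρ₂ ρ₃ ψ → Function.Injective φ → Function.Surjective ψ →
      LinearMap.range φ = LinearMap.ker ψ →
      (∃ N ∈ L.sets, ∀ s ∈ N, ∀ v, ρ₂ s v = v) →
      H3Vanishes L ρ₁ → H3Vanishes L ρ₃ → H3Vanishes L ρ₂

/-- Leaf b: a group acting through a finite `p`-group on a nonzero vector space over a field of
characteristic `p` fixes a nonzero vector. -/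
def h40v_FixedVec : Prop :=
  ∀ (p : ℕ) [Fact p.Prime] (k : Type) [Field k] [CharP k p] (U : Type) [Group U]
    (N : Subgroup U), N.Normal → N.FiniteIndex → (∀ u : U, ∃ n : ℕ, u ^ p ^ n ∈ N) →
    ∀ (W : Type) [AddCommGroup W] [Module k W] [Nontrivial W] (τ : Representation k U W),
      (∀ s ∈ N, ∀ w, τ s w = w) → ∃ w : W, w ≠ 0 ∧ ∀ u, τ u w = w

/-- Leaf c1: a level acting trivially on a finite dimensional discrete representation, on which
the character is trivial. -/
def h40v_Level : Prop :=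
  ∀ (k : Type) [Field k] (G : Type) [Group G] (L : Lev G) (χ : G →* kˣ),
    (∃ N ∈ L.sets, ∀ s ∈ N, χ s = 1) →
    ∀ (V : Type) [AddCommGroup V] [Module k V] [FiniteDimensional k V]
      (ρ : Representation k G V), IsDisc L ρ →
      ∃ N ∈ L.sets, (∀ s ∈ N, χ s = 1) ∧ ∀ s ∈ N, ∀ v, ρ s v = v

/-- Leaf c2: the preimage of a `p`-Sylow subgroup of `G/N`. -/
def h40v_Sylow : Prop :=
  ∀ (p : ℕ) [Fact p.Prime] (G : Type) [Group G] (N : Subgroup G), N.Normal → N.FiniteIndex →
    ∃ U : Subgroup G, N ≤ U ∧ U.index ≠ 0 ∧ ¬ p ∣ U.index ∧ ∀ u ∈ U, ∃ n : ℕ, u ^ p ^ n ∈ N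

/-- Leaf d1: the induced representation is uniformly discrete. -/
def h40v_IndDisc : Prop :=
  ∀ (k : Type) [Field k] (G : Type) [Group G] (U N : Subgroup G), N.Normal → ∀ hNU : N ≤ U,
    ∀ (W : Type) [AddCommGroup W] [Module k W] (τ : Representation k U W),
      (∀ (s : G) (hs : s ∈ N) (w : W), τ ⟨s, hNU hs⟩ w = w) →
      ∀ s ∈ N, ∀ f : G ⧸ U → W, h40v_ind U τ s f = f

/-- Leaf d2: `V` is a retract of `Ind_U^G Res_U V` when `[G : U]` is invertible. -/
def h40v_IndRetract : Prop :=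
  ∀ (k : Type) [Field k] (G : Type) [Group G] (U : Subgroup G), U.index ≠ 0 →
    ((U.index : ℕ) : k) ≠ 0 →
    ∀ (V : Type) [AddCommGroup V] [Module k V] (ρ : Representation k G V),
      ∃ (i : V →ₗ[k] (G ⧸ U → V)) (π : (G ⧸ U → V) →ₗ[k] V),
        h40v_IsHom ρ (h40v_ind U (resRep ρ U.subtype)) i ∧
        h40v_IsHom (h40v_ind U (resRep ρ U.subtype)) ρ π ∧ ∀ v, π (i v) = v

/-- Leaf d3: induction of the exact sequence `0 → k w → W → W' → 0` (`w` fixed by `U`). -/
def h40v_IndExact : Prop :=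
  ∀ (k : Type) [Field k] (G : Type) [Group G] (U : Subgroup G)
    (W W' : Type) [AddCommGroup W] [Module k W] [AddCommGroup W'] [Module k W']
    (τ : Representation k U W) (τ' : Representation k U W') (q : W →ₗ[k] W') (w : W),
    w ≠ 0 → (∀ u, τ u w = w) → (∀ u x, q (τ u x) = τ' u (q x)) → Function.Surjective q →
    LinearMap.ker q = Submodule.span k {w} →
    ∃ (φ : (G ⧸ U → k) →ₗ[k] (G ⧸ U → W)) (ψ : (G ⧸ U → W) →ₗ[k] (G ⧸ U → W')),
      h40v_IsHom (permRep k U) (h40v_ind U τ) φ ∧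
      h40v_IsHom (h40v_ind U τ) (h40v_ind U τ') ψ ∧
      Function.Injective φ ∧ Function.Surjective ψ ∧ LinearMap.range φ = LinearMap.ker ψ

end Fermat.Agent.PT
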