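import Mathlib
import Fermat.Agent.PT.Defs
import Fermat.Agent.PT.Alg.VanSkel

/-!
# W3-PT / ALG-VAN leaf e: the trivialising level and the Sylow level

* `h40s_level : h40v_Level` : a finite dimensional discrete representation is trivial on a level
  on which the character is trivial;
* `h40s_sylow : h40v_Sylow` : the preimage `U` of a `p`-Sylow subgroup of `G ⧸ N`.
-/

set_option autoImplicit false

namespace Fermat.Agent.PT

/-- A common lower bound in a level system for finitely many levels. -/
lemma h40s_exists_le {G : Type} [Group G] (L : Lev G) {ι : Type} (s : Finset ι)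
    (N : ι → Subgroup G) (hN : ∀ i ∈ s, N i ∈ L.sets) :
    ∃ M ∈ L.sets, ∀ i ∈ s, M ≤ N i := by
  classical
  induction s using Finset.induction_on with
  | empty =>
    obtain ⟨M, hM⟩ := L.nonempty
    exact ⟨M, hM, by simp⟩
  | insert a s _ ih =>
    obtain ⟨M, hM, hle⟩ := ih (fun i hi => hN i (Finset.mem_insert_of_mem hi))
    obtain ⟨M', hM', hle'⟩ := L.directed M hM (N a) (hN a (Finset.mem_insert_self a s))
    refine ⟨M', hM', fun i hi => ?_⟩
    rcases Finset.mem_insert.1 hi with rfl | hi
    · exact hle'.trans inf_le_right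
    · exact (hle'.trans inf_le_left).trans (hle i hi)

theorem h40s_level : h40v_Level := by
  intro k _ G _ L χ hχ V _ _ _ ρ hρ
  classical
  obtain ⟨Nχ, hNχ, hχN⟩ := hχ
  let b := Module.finBasis k V
  choose Nb hNb hfix using fun i => hρ (b i)
  obtain ⟨M, hM, hle⟩ := h40s_exists_le L (Finset.univ : Finset (Option (Fin (Module.finrank k V))))
    (fun o => o.elim Nχ Nb) (fun o _ => by
      cases o with
      | none => exact hNχ
      | some i => exact hNb i)
  refine ⟨M, hM, fun s hs => hχN s (hle none (Finset.mem_univ _) hs), fun s hs v => ?_⟩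
  have h1 : ρ s = LinearMap.id := by
    apply b.ext
    intro i
    exact hfix i s (hle (some i) (Finset.mem_univ _) hs)
  rw [h1]
  rfl

theorem h40s_sylow : h40v_Sylow := by
  intro p _ G _ N hNn hNf
  classical
  have : Finite (G ⧸ N) := Subgroup.finite_quotient_of_finiteIndex
  obtain ⟨P⟩ : Nonempty (Sylow p (G ⧸ N)) := inferInstance
  have hsurj : Function.Surjective (QuotientGroup.mk' N) := QuotientGroup.mk'_surjective N
  have hidx : ((P : Subgroup (G ⧸ N)).comap (QuotientGroup.mk' N)).index
      = (P : Subgroup (G ⧸ N)).index := Subgroup.index_comap_of_surjective _ hsurj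
  refine ⟨(P : Subgroup (G ⧸ N)).comap (QuotientGroup.mk' N), ?_, ?_, ?_, ?_⟩
  · intro s hs
    rw [Subgroup.mem_comap]
    have : QuotientGroup.mk' N s = 1 := (QuotientGroup.eq_one_iff s).2 hs
    rw [this]
    exact Subgroup.one_mem _
  · rw [hidx]
    exact Subgroup.FiniteIndex.index_ne_zero
  · rw [hidx]
    exact P.not_dvd_index
  · intro u hu
    rw [Subgroup.mem_comap] at hu
    obtain ⟨n, hn⟩ := P.isPGroup' ⟨_, hu⟩
    refine ⟨n, ?_⟩
    have h1 : (QuotientGroup.mk' N u) ^ p ^ n = 1 := by
      have := congrArg Subtype.val hn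
      simpa using this
    rw [← map_pow] at h1
    exact (QuotientGroup.eq_one_iff _).1 h1

end Fermat.Agent.PT
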