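import Fermat.Agent.PT.Defs

/-!
# W3-PT, PT-ALG toolbox (ALG-TOOLS, sub-lead helper27), part 1

Shared elementary facts about the explicit level-constant cochain complexes of `PT/Defs.lean`.
Everything lives in the namespace `Fermat.Agent.PT.Tools`.

* (T1) `d1_d0`, `d2_d1`, `d3_d2` : `d ∘ d = 0`.
* level-constant calculus: `exists_level_fix1/2/3`, `isLC1_d0`, `isLC2_d1`, `isLC3_d2`.
* (T2) `B1_le_Z1`, `B2_le_Z2`, `B3_le_Z3`.
* (T3) `IsHom`, push-forward along an equivariant map commutes with `d`, preserves `Z`, `B`.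
* (T4) restriction along a continuous homomorphism commutes with `d`, preserves `Z`, `B`.
* (T5) lifting of level-constant cochains along a surjection, descent along an injection.
-/

set_option autoImplicit false

namespace Fermat.Agent.PT.Tools

open Fermat.Agent.PT

/-! ## (T1) `d ∘ d = 0` -/

section DD

variable {k : Type} [CommRing k] {G : Type} [Group G]
variable {V : Type} [AddCommGroup V] [Module k V] (ρ : Representation k G V)

theorem rho_mul (g h : G) (v : V) : ρ (g * h) v = ρ g (ρ h v) := by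
  rw [map_mul]; rfl

theorem d1_d0 (v : V) : d1 ρ (d0 ρ v) = 0 := by
  funext ⟨g, h⟩
  simp only [d1_apply, d0_apply, rho_mul, map_sub, Pi.zero_apply]
  abel

theorem d2_d1 (f : G → V) : d2 ρ (d1 ρ f) = 0 := by
  funext ⟨g, h, j⟩
  simp only [d2_apply, d1_apply, rho_mul, map_sub, map_add, mul_assoc, Pi.zero_apply]
  abel

theorem d3_d2 (f : G × G → V) : d3 ρ (d2 ρ f) = 0 := by
  funext ⟨g, h, j, l⟩
  simp only [d3_apply, d2_apply, rho_mul, map_sub, map_add, mul_assoc, Pi.zero_apply]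
  abel

theorem d1_comp_d0 : d1 ρ ∘ₗ d0 ρ = 0 := LinearMap.ext (d1_d0 ρ)
theorem d2_comp_d1 : d2 ρ ∘ₗ d1 ρ = 0 := LinearMap.ext (d2_d1 ρ)
theorem d3_comp_d2 : d3 ρ ∘ₗ d2 ρ = 0 := LinearMap.ext (d3_d2 ρ)

end DD

/-! ## Level-constant calculus -/

section Levels

variable {G : Type} [Group G]

/-- a level below finitely many levels. -/
theorem exists_level_le_of_finite (L : Lev G) {ι : Type*} (s : Finset ι) (N : ι → Subgroup G)
    (hN : ∀ i ∈ s, N i ∈ L.sets) : ∃ M ∈ L.sets, ∀ i ∈ s, M ≤ N i := by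
  classical
  induction s using Finset.induction_on with
  | empty =>
    obtain ⟨M, hM⟩ := L.nonempty
    exact ⟨M, hM, fun i hi => absurd hi (Finset.notMem_empty i)⟩
  | insert a s ha ih =>
    obtain ⟨M, hM, hle⟩ := ih (fun i hi => hN i (Finset.mem_insert_of_mem hi))
    obtain ⟨M', hM', hle'⟩ := L.directed M hM (N a) (hN a (Finset.mem_insert_self a s))
    refine ⟨M', hM', fun i hi => ?_⟩
    rcases Finset.mem_insert.mp hi with rfl | hi
    · exact hle'.trans inf_le_right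
    · exact (hle'.trans inf_le_left).trans (hle i hi)

variable {L : Lev G}

/-- a level-constant `1`-cochain for a good level system has finitely many values. -/
theorem finite_range1 (hL : L.Good) {X : Type*} {f : G → X} (hf : IsLC1 L f) :
    (Set.range f).Finite := by
  obtain ⟨N, hN, h⟩ := hf
  have := (hL N hN).2
  have : Finite (G ⧸ N) := Subgroup.finite_quotient_of_finiteIndex
  refine (Set.finite_range fun q : G ⧸ N => f q.out).subset ?_
  rintro _ ⟨g, rfl⟩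
  obtain ⟨s, hs⟩ := QuotientGroup.mk_out_eq_mul N g
  exact ⟨(g : G ⧸ N), by simp only [hs, h g s s.2]⟩

/-- a level-constant `2`-cochain for a good level system has finitely many values. -/
theorem finite_range2 (hL : L.Good) {X : Type*} {f : G × G → X} (hf : IsLC2 L f) :
    (Set.range f).Finite := by
  obtain ⟨N, hN, h⟩ := hf
  have := (hL N hN).2
  have : Finite (G ⧸ N) := Subgroup.finite_quotient_of_finiteIndex
  refine (Set.finite_range fun q : (G ⧸ N) × (G ⧸ N) => f (q.1.out, q.2.out)).subset ?_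
  rintro _ ⟨⟨g, g'⟩, rfl⟩
  obtain ⟨s, hs⟩ := QuotientGroup.mk_out_eq_mul N g
  obtain ⟨s', hs'⟩ := QuotientGroup.mk_out_eq_mul N g'
  exact ⟨((g : G ⧸ N), (g' : G ⧸ N)), by simp only [hs, hs', h g g' s s' s.2 s'.2]⟩

/-- a level-constant `3`-cochain for a good level system has finitely many values. -/
theorem finite_range3 (hL : L.Good) {X : Type*} {f : G × G × G → X} (hf : IsLC3 L f) :
    (Set.range f).Finite := by
  obtain ⟨N, hN, h⟩ := hf
  have := (hL N hN).2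
  have : Finite (G ⧸ N) := Subgroup.finite_quotient_of_finiteIndex
  refine (Set.finite_range fun q : (G ⧸ N) × (G ⧸ N) × (G ⧸ N) =>
    f (q.1.out, q.2.1.out, q.2.2.out)).subset ?_
  rintro _ ⟨⟨g, g', g''⟩, rfl⟩
  obtain ⟨s, hs⟩ := QuotientGroup.mk_out_eq_mul N g
  obtain ⟨s', hs'⟩ := QuotientGroup.mk_out_eq_mul N g'
  obtain ⟨s'', hs''⟩ := QuotientGroup.mk_out_eq_mul N g''
  exact ⟨((g : G ⧸ N), (g' : G ⧸ N), (g'' : G ⧸ N)),
    by simp only [hs, hs', hs'', h g g' g'' s s' s'' s.2 s'.2 s''.2]⟩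

variable {k : Type} [CommRing k] {V : Type} [AddCommGroup V] [Module k V]
  {ρ : Representation k G V}

/-- finitely many vectors of a discrete representation are fixed by a common level. -/
theorem exists_level_fixing (hρ : IsDisc L ρ) {T : Set V} (hT : T.Finite) :
    ∃ N ∈ L.sets, ∀ v ∈ T, ∀ s ∈ N, ρ s v = v := by
  classical
  choose N hN hfix using hρ
  obtain ⟨M, hM, hle⟩ := exists_level_le_of_finite L hT.toFinset N (fun i _ => hN i)
  exact ⟨M, hM, fun v hv s hs => hfix v s (hle v (hT.mem_toFinset.mpr hv) hs)⟩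

/-- a level-constant `1`-cochain with values in a discrete representation: a normal level of
constancy which fixes all values. -/
theorem exists_level_fix1 (hL : L.Good) (hρ : IsDisc L ρ) {x : G → V} (hx : IsLC1 L x) :
    ∃ N ∈ L.sets, N.Normal ∧ (∀ g s, s ∈ N → x (g * s) = x g) ∧
      ∀ g, ∀ s ∈ N, ρ s (x g) = x g := by
  obtain ⟨N₁, hN₁, hfix⟩ := exists_level_fixing hρ (finite_range1 hL hx)
  obtain ⟨N₀, hN₀, h⟩ := hx
  obtain ⟨N, hN, hle⟩ := L.directed N₀ hN₀ N₁ hN₁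
  exact ⟨N, hN, (hL N hN).1, fun g s hs => h g s (hle hs).1,
    fun g s hs => hfix _ ⟨g, rfl⟩ s (hle hs).2⟩

theorem exists_level_fix2 (hL : L.Good) (hρ : IsDisc L ρ) {x : G × G → V} (hx : IsLC2 L x) :
    ∃ N ∈ L.sets, N.Normal ∧
      (∀ g g' s s', s ∈ N → s' ∈ N → x (g * s, g' * s') = x (g, g')) ∧
      ∀ p, ∀ s ∈ N, ρ s (x p) = x p := by
  obtain ⟨N₁, hN₁, hfix⟩ := exists_level_fixing hρ (finite_range2 hL hx)
  obtain ⟨N₀, hN₀, h⟩ := hx
  obtain ⟨N, hN, hle⟩ := L.directed N₀ hN₀ N₁ hN₁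
  exact ⟨N, hN, (hL N hN).1, fun g g' s s' hs hs' => h g g' s s' (hle hs).1 (hle hs').1,
    fun p s hs => hfix _ ⟨p, rfl⟩ s (hle hs).2⟩

theorem exists_level_fix3 (hL : L.Good) (hρ : IsDisc L ρ) {x : G × G × G → V}
    (hx : IsLC3 L x) :
    ∃ N ∈ L.sets, N.Normal ∧
      (∀ g g' g'' s s' s'', s ∈ N → s' ∈ N → s'' ∈ N →
        x (g * s, g' * s', g'' * s'') = x (g, g', g'')) ∧
      ∀ p, ∀ s ∈ N, ρ s (x p) = x p := by
  obtain ⟨N₁, hN₁, hfix⟩ := exists_level_fixing hρ (finite_range3 hL hx)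
  obtain ⟨N₀, hN₀, h⟩ := hx
  obtain ⟨N, hN, hle⟩ := L.directed N₀ hN₀ N₁ hN₁
  exact ⟨N, hN, (hL N hN).1,
    fun g g' g'' s s' s'' hs hs' hs'' => h g g' g'' s s' s'' (hle hs).1 (hle hs').1 (hle hs'').1,
    fun p s hs => hfix _ ⟨p, rfl⟩ s (hle hs).2⟩

/-- `g s h s' = g h t` with `t` in the normal subgroup `N`. -/
theorem mul_mul_mul_eq {N : Subgroup G} (hn : N.Normal) (g h : G) {s s' : G} (hs : s ∈ N)
    (hs' : s' ∈ N) : ∃ t ∈ N, g * s * (h * s') = g * h * t :=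
  ⟨h⁻¹ * s * h * s', N.mul_mem (hn.conj_mem' s hs h) hs', by group⟩

/-- `d⁰ v` is level-constant. -/
theorem isLC1_d0 (hρ : IsDisc L ρ) (v : V) : IsLC1 L (d0 ρ v) := by
  obtain ⟨N, hN, h⟩ := hρ v
  exact ⟨N, hN, fun g s hs => by simp only [d0_apply, rho_mul, h s hs]⟩

/-- `d¹` of a level-constant cochain is level-constant. -/
theorem isLC2_d1 (hL : L.Good) (hρ : IsDisc L ρ) {x : G → V} (hx : IsLC1 L x) :
    IsLC2 L (d1 ρ x) := by
  obtain ⟨N, hN, hn, hc, hfix⟩ := exists_level_fix1 hL hρ hx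
  refine ⟨N, hN, fun g h s s' hs hs' => ?_⟩
  obtain ⟨t, ht, e⟩ := mul_mul_mul_eq hn g h hs hs'
  simp only [d1_apply]
  rw [e, hc (g * h) t ht, hc h s' hs', hc g s hs, rho_mul, hfix h s hs]

/-- `d²` of a level-constant cochain is level-constant. -/
theorem isLC3_d2 (hL : L.Good) (hρ : IsDisc L ρ) {x : G × G → V} (hx : IsLC2 L x) :
    IsLC3 L (d2 ρ x) := by
  obtain ⟨N, hN, hn, hc, hfix⟩ := exists_level_fix2 hL hρ hx
  refine ⟨N, hN, fun g h j s s' s'' hs hs' hs'' => ?_⟩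
  obtain ⟨t, ht, e⟩ := mul_mul_mul_eq hn g h hs hs'
  obtain ⟨t', ht', e'⟩ := mul_mul_mul_eq hn h j hs' hs''
  simp only [d2_apply]
  rw [e, e', hc (g * h) j t s'' ht hs'', hc g (h * j) s t' hs ht', hc h j s' s'' hs' hs'',
    hc g h s s' hs hs', rho_mul, hfix (h, j) s hs]

/-- `d³` of a level-constant cochain is constant on the cosets of a level. -/
theorem isLC4_d3 (hL : L.Good) (hρ : IsDisc L ρ) {x : G × G × G → V} (hx : IsLC3 L x) :
    ∃ N ∈ L.sets, ∀ g h j l s s' s'' s''' : G, s ∈ N → s' ∈ N → s'' ∈ N → s''' ∈ N →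
      d3 ρ x (g * s, h * s', j * s'', l * s''') = d3 ρ x (g, h, j, l) := by
  obtain ⟨N, hN, hn, hc, hfix⟩ := exists_level_fix3 hL hρ hx
  refine ⟨N, hN, fun g h j l s s' s'' s''' hs hs' hs'' hs''' => ?_⟩
  obtain ⟨t, ht, e⟩ := mul_mul_mul_eq hn g h hs hs'
  obtain ⟨t', ht', e'⟩ := mul_mul_mul_eq hn h j hs' hs''
  obtain ⟨t'', ht'', e''⟩ := mul_mul_mul_eq hn j l hs'' hs'''
  simp only [d3_apply]
  rw [e, e', e'', hc (g * h) j l t s'' s''' ht hs'' hs''', hc g (h * j) l s t' s''' hs ht' hs''',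
    hc g h (j * l) s s' t'' hs hs' ht'', hc h j l s' s'' s''' hs' hs'' hs''',
    hc g h j s s' s'' hs hs' hs'', rho_mul, hfix (h, j, l) s hs]

end Levels

/-! ## (T2) coboundaries are cocycles -/

section BZ

variable {k : Type} [CommRing k] {G : Type} [Group G] {L : Lev G}
variable {V : Type} [AddCommGroup V] [Module k V] {ρ : Representation k G V}

theorem B1_le_Z1 (hρ : IsDisc L ρ) : B1 ρ ≤ Z1 L ρ := by
  rintro f ⟨v, rfl⟩
  exact (mem_Z1 L ρ _).2 ⟨d1_d0 ρ v, isLC1_d0 hρ v⟩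

theorem B2_le_Z2 (hL : L.Good) (hρ : IsDisc L ρ) : B2 L ρ ≤ Z2 L ρ := by
  intro f hf
  obtain ⟨x, hx, rfl⟩ := (mem_B2 L ρ f).1 hf
  exact (mem_Z2 L ρ _).2 ⟨d2_d1 ρ x, isLC2_d1 hL hρ hx⟩

theorem B3_le_Z3 (hL : L.Good) (hρ : IsDisc L ρ) : B3 L ρ ≤ Z3 L ρ := by
  intro f hf
  obtain ⟨x, hx, rfl⟩ := (mem_B3 L ρ f).1 hf
  exact (mem_Z3 L ρ _).2 ⟨d3_d2 ρ x, isLC3_d2 hL hρ hx⟩

end BZ

/-! ## (T3) push-forward along an equivariant linear map -/

section Push

variable {k : Type} [CommRing k] {G : Type} [Group G] {L : Lev G}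
variable {V W : Type} [AddCommGroup V] [Module k V] [AddCommGroup W] [Module k W]

/-- `φ : V → W` is `G`-equivariant. -/
def IsHom (ρ : Representation k G V) (σ : Representation k G W) (φ : V →ₗ[k] W) : Prop :=
  ∀ g v, φ (ρ g v) = σ g (φ v)

variable {ρ : Representation k G V} {σ : Representation k G W} {φ : V →ₗ[k] W}

theorem isHom_id (ρ : Representation k G V) : IsHom ρ ρ LinearMap.id := fun _ _ => rfl

theorem IsHom.comp {U : Type} [AddCommGroup U] [Module k U] {τ : Representation k G U}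
    {ψ : W →ₗ[k] U} (hψ : IsHom σ τ ψ) (hφ : IsHom ρ σ φ) : IsHom ρ τ (ψ ∘ₗ φ) :=
  fun g v => by rw [LinearMap.comp_apply, hφ g v, hψ g (φ v), LinearMap.comp_apply]

theorem IsHom.map_invariants (h : IsHom ρ σ φ) {v : V} (hv : v ∈ ρ.invariants) :
    φ v ∈ σ.invariants := fun g => by rw [← h g v, hv g]

theorem d0_push (h : IsHom ρ σ φ) (v : V) : d0 σ (φ v) = φ.compLeft G (d0 ρ v) := by
  funext g
  simp only [d0_apply, LinearMap.compLeft_apply, Function.comp_apply, map_sub, h g v]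

theorem d1_push (h : IsHom ρ σ φ) (x : G → V) :
    d1 σ (φ.compLeft G x) = φ.compLeft (G × G) (d1 ρ x) := by
  funext ⟨g, g'⟩
  simp only [d1_apply, LinearMap.compLeft_apply, Function.comp_apply, map_sub, map_add]
  rw [h g (x g')]

theorem d2_push (h : IsHom ρ σ φ) (x : G × G → V) :
    d2 σ (φ.compLeft (G × G) x) = φ.compLeft (G × G × G) (d2 ρ x) := by
  funext ⟨g, g', g''⟩
  simp only [d2_apply, LinearMap.compLeft_apply, Function.comp_apply, map_sub, map_add]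
  rw [h g (x (g', g''))]

theorem d3_push (h : IsHom ρ σ φ) (x : G × G × G → V) :
    d3 σ (φ.compLeft (G × G × G) x) = φ.compLeft (G × G × G × G) (d3 ρ x) := by
  funext ⟨g, g', g'', g'''⟩
  simp only [d3_apply, LinearMap.compLeft_apply, Function.comp_apply, map_sub, map_add]
  rw [h g (x (g', g'', g'''))]

theorem isLC1_push {x : G → V} (hx : IsLC1 L x) (φ : V →ₗ[k] W) :
    IsLC1 L (φ.compLeft G x) := hx.comp φ

theorem isLC2_push {x : G × G → V} (hx : IsLC2 L x) (φ : V →ₗ[k] W) :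
    IsLC2 L (φ.compLeft (G × G) x) := hx.comp φ

theorem isLC3_push {x : G × G × G → V} (hx : IsLC3 L x) (φ : V →ₗ[k] W) :
    IsLC3 L (φ.compLeft (G × G × G) x) := hx.comp φ

theorem push_mem_Z1 (h : IsHom ρ σ φ) {x : G → V} (hx : x ∈ Z1 L ρ) :
    φ.compLeft G x ∈ Z1 L σ := by
  obtain ⟨h1, h2⟩ := (mem_Z1 L ρ x).1 hx
  exact (mem_Z1 L σ _).2 ⟨by rw [d1_push h, h1, map_zero], isLC1_push h2 φ⟩

theorem push_mem_Z2 (h : IsHom ρ σ φ) {x : G × G → V} (hx : x ∈ Z2 L ρ) :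
    φ.compLeft (G × G) x ∈ Z2 L σ := by
  obtain ⟨h1, h2⟩ := (mem_Z2 L ρ x).1 hx
  exact (mem_Z2 L σ _).2 ⟨by rw [d2_push h, h1, map_zero], isLC2_push h2 φ⟩

theorem push_mem_Z3 (h : IsHom ρ σ φ) {x : G × G × G → V} (hx : x ∈ Z3 L ρ) :
    φ.compLeft (G × G × G) x ∈ Z3 L σ := by
  obtain ⟨h1, h2⟩ := (mem_Z3 L ρ x).1 hx
  exact (mem_Z3 L σ _).2 ⟨by rw [d3_push h, h1, map_zero], isLC3_push h2 φ⟩

theorem push_mem_B1 (h : IsHom ρ σ φ) {x : G → V} (hx : x ∈ B1 ρ) :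
    φ.compLeft G x ∈ B1 σ := by
  obtain ⟨v, rfl⟩ := hx
  exact ⟨φ v, d0_push h v⟩

theorem push_mem_B2 (h : IsHom ρ σ φ) {x : G × G → V} (hx : x ∈ B2 L ρ) :
    φ.compLeft (G × G) x ∈ B2 L σ := by
  obtain ⟨c, hc, rfl⟩ := (mem_B2 L ρ x).1 hx
  exact (mem_B2 L σ _).2 ⟨φ.compLeft G c, isLC1_push hc φ, d1_push h c⟩

theorem push_mem_B3 (h : IsHom ρ σ φ) {x : G × G × G → V} (hx : x ∈ B3 L ρ) :
    φ.compLeft (G × G × G) x ∈ B3 L σ := by
  obtain ⟨c, hc, rfl⟩ := (mem_B3 L ρ x).1 hx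
  exact (mem_B3 L σ _).2 ⟨φ.compLeft (G × G) c, isLC2_push hc φ, d2_push h c⟩

end Push

/-! ## (T4) restriction along a continuous homomorphism -/

section Restr

variable {k : Type} [CommRing k] {G H : Type} [Group G] [Group H]
variable {V : Type} [AddCommGroup V] [Module k V]

/-- `f : H → G` is continuous for the level systems `L'` of `H` and `L` of `G`. -/
def IsCont (L' : Lev H) (L : Lev G) (f : H →* G) : Prop :=
  ∀ N ∈ L.sets, ∃ N' ∈ L'.sets, N' ≤ N.comap f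

theorem isCont_comap (L : Lev G) (f : H →* G) : IsCont (L.comap f) L f :=
  fun N hN => ⟨N.comap f, ⟨N, hN, rfl⟩, le_rfl⟩

variable {L' : Lev H} {L : Lev G} {f : H →* G} (ρ : Representation k G V)

theorem d0_res (f : H →* G) (v : V) : d0 (resRep ρ f) v = res1 k V f (d0 ρ v) := rfl

theorem d1_res (f : H →* G) (x : G → V) :
    d1 (resRep ρ f) (res1 k V f x) = res2 k V f (d1 ρ x) := by
  funext ⟨h, h'⟩
  simp only [d1_apply, res1_apply, res2_apply, resRep_apply, map_mul]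

theorem d2_res (f : H →* G) (x : G × G → V) :
    d2 (resRep ρ f) (res2 k V f x) = res3 k V f (d2 ρ x) := by
  funext ⟨h, h', h''⟩
  simp only [d2_apply, res2_apply, res3_apply, resRep_apply, map_mul]

theorem d3_res (f : H →* G) (x : G × G × G → V) (h h' h'' h''' : H) :
    d3 (resRep ρ f) (res3 k V f x) (h, h', h'', h''') = d3 ρ x (f h, f h', f h'', f h''') := by
  simp only [d3_apply, res3_apply, resRep_apply, map_mul]

variable {ρ}

theorem isDisc_res (hf : IsCont L' L f) (hρ : IsDisc L ρ) : IsDisc L' (resRep ρ f) := by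
  intro v
  obtain ⟨N, hN, h⟩ := hρ v
  obtain ⟨N', hN', hle⟩ := hf N hN
  exact ⟨N', hN', fun s hs => h (f s) (hle hs)⟩

theorem isLC1_res (hf : IsCont L' L f) {X : Type*} {x : G → X} (hx : IsLC1 L x) :
    IsLC1 L' (fun h => x (f h)) := by
  obtain ⟨N, hN, h⟩ := hx
  obtain ⟨N', hN', hle⟩ := hf N hN
  exact ⟨N', hN', fun g s hs => by
    show x (f (g * s)) = x (f g)
    rw [map_mul]; exact h (f g) (f s) (hle hs)⟩

theorem isLC2_res (hf : IsCont L' L f) {X : Type*} {x : G × G → X} (hx : IsLC2 L x) :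
    IsLC2 L' (fun p : H × H => x (f p.1, f p.2)) := by
  obtain ⟨N, hN, h⟩ := hx
  obtain ⟨N', hN', hle⟩ := hf N hN
  exact ⟨N', hN', fun g g' s s' hs hs' => by
    show x (f (g * s), f (g' * s')) = x (f g, f g')
    rw [map_mul, map_mul]; exact h (f g) (f g') (f s) (f s') (hle hs) (hle hs')⟩

theorem isLC3_res (hf : IsCont L' L f) {X : Type*} {x : G × G × G → X} (hx : IsLC3 L x) :
    IsLC3 L' (fun p : H × H × H => x (f p.1, f p.2.1, f p.2.2)) := by
  obtain ⟨N, hN, h⟩ := hx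
  obtain ⟨N', hN', hle⟩ := hf N hN
  exact ⟨N', hN', fun g g' g'' s s' s'' hs hs' hs'' => by
    show x (f (g * s), f (g' * s'), f (g'' * s'')) = x (f g, f g', f g'')
    rw [map_mul, map_mul, map_mul]
    exact h (f g) (f g') (f g'') (f s) (f s') (f s'') (hle hs) (hle hs') (hle hs'')⟩

theorem res_mem_lc1 (hf : IsCont L' L f) {x : G → V} (hx : IsLC1 L x) :
    IsLC1 L' (res1 k V f x) := isLC1_res hf hx

theorem res_mem_lc2 (hf : IsCont L' L f) {x : G × G → V} (hx : IsLC2 L x) :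
    IsLC2 L' (res2 k V f x) := isLC2_res hf hx

theorem res_mem_lc3 (hf : IsCont L' L f) {x : G × G × G → V} (hx : IsLC3 L x) :
    IsLC3 L' (res3 k V f x) := isLC3_res hf hx

theorem res_mem_Z1 (hf : IsCont L' L f) {x : G → V} (hx : x ∈ Z1 L ρ) :
    res1 k V f x ∈ Z1 L' (resRep ρ f) := by
  obtain ⟨h1, h2⟩ := (mem_Z1 L ρ x).1 hx
  exact (mem_Z1 L' _ _).2 ⟨by rw [d1_res, h1, map_zero], res_mem_lc1 hf h2⟩

theorem res_mem_Z2 (hf : IsCont L' L f) {x : G × G → V} (hx : x ∈ Z2 L ρ) :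
    res2 k V f x ∈ Z2 L' (resRep ρ f) := by
  obtain ⟨h1, h2⟩ := (mem_Z2 L ρ x).1 hx
  exact (mem_Z2 L' _ _).2 ⟨by rw [d2_res, h1, map_zero], res_mem_lc2 hf h2⟩

theorem res_mem_Z3 (hf : IsCont L' L f) {x : G × G × G → V} (hx : x ∈ Z3 L ρ) :
    res3 k V f x ∈ Z3 L' (resRep ρ f) := by
  obtain ⟨h1, h2⟩ := (mem_Z3 L ρ x).1 hx
  refine (mem_Z3 L' _ _).2 ⟨?_, res_mem_lc3 hf h2⟩
  funext ⟨h, h', h'', h'''⟩
  rw [d3_res, h1]
  rfl

theorem res_mem_B1 (f : H →* G) {x : G → V} (hx : x ∈ B1 ρ) :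
    res1 k V f x ∈ B1 (resRep ρ f) := by
  obtain ⟨v, rfl⟩ := hx
  exact ⟨v, d0_res ρ f v⟩

theorem res_mem_B2 (hf : IsCont L' L f) {x : G × G → V} (hx : x ∈ B2 L ρ) :
    res2 k V f x ∈ B2 L' (resRep ρ f) := by
  obtain ⟨c, hc, rfl⟩ := (mem_B2 L ρ x).1 hx
  exact (mem_B2 L' _ _).2 ⟨res1 k V f c, res_mem_lc1 hf hc, d1_res ρ f c⟩

theorem res_mem_B3 (hf : IsCont L' L f) {x : G × G × G → V} (hx : x ∈ B3 L ρ) :
    res3 k V f x ∈ B3 L' (resRep ρ f) := by
  obtain ⟨c, hc, rfl⟩ := (mem_B3 L ρ x).1 hx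
  exact (mem_B3 L' _ _).2 ⟨res2 k V f c, res_mem_lc2 hf hc, d2_res ρ f c⟩

end Restr

/-! ## (T5) lifting along surjections, descent along injections -/

section Lift

variable {G : Type} [Group G] {L : Lev G} {X Y : Type*}

theorem exists_lift1 {ψ : X → Y} (hψ : Function.Surjective ψ) {c : G → Y} (hc : IsLC1 L c) :
    ∃ c' : G → X, IsLC1 L c' ∧ ∀ g, ψ (c' g) = c g :=
  ⟨Function.surjInv hψ ∘ c, hc.comp _, fun g => Function.surjInv_eq hψ (c g)⟩

theorem exists_lift2 {ψ : X → Y} (hψ : Function.Surjective ψ) {c : G × G → Y}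
    (hc : IsLC2 L c) : ∃ c' : G × G → X, IsLC2 L c' ∧ ∀ p, ψ (c' p) = c p :=
  ⟨Function.surjInv hψ ∘ c, hc.comp _, fun p => Function.surjInv_eq hψ (c p)⟩

theorem exists_lift3 {ψ : X → Y} (hψ : Function.Surjective ψ) {c : G × G × G → Y}
    (hc : IsLC3 L c) : ∃ c' : G × G × G → X, IsLC3 L c' ∧ ∀ p, ψ (c' p) = c p :=
  ⟨Function.surjInv hψ ∘ c, hc.comp _, fun p => Function.surjInv_eq hψ (c p)⟩

theorem isLC1_of_comp_injective {φ : X → Y} (hφ : Function.Injective φ) {c : G → X}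
    (hc : IsLC1 L (φ ∘ c)) : IsLC1 L c := by
  obtain ⟨N, hN, h⟩ := hc
  exact ⟨N, hN, fun g s hs => hφ (h g s hs)⟩

theorem isLC2_of_comp_injective {φ : X → Y} (hφ : Function.Injective φ) {c : G × G → X}
    (hc : IsLC2 L (φ ∘ c)) : IsLC2 L c := by
  obtain ⟨N, hN, h⟩ := hc
  exact ⟨N, hN, fun g g' s s' hs hs' => hφ (h g g' s s' hs hs')⟩

theorem isLC3_of_comp_injective {φ : X → Y} (hφ : Function.Injective φ) {c : G × G × G → X}
    (hc : IsLC3 L (φ ∘ c)) : IsLC3 L c := by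
  obtain ⟨N, hN, h⟩ := hc
  exact ⟨N, hN, fun g g' g'' s s' s'' hs hs' hs'' => hφ (h g g' g'' s s' s'' hs hs' hs'')⟩

end Lift

end Fermat.Agent.PT.Tools
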