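import Mathlib
import Fermat.Agent.PT.Defs
import Fermat.Agent.PT.Alg.Chi2Iface
import Fermat.Agent.PT.Alg.Tools
import Fermat.Agent.PT.Alg.H40Sylow

/-!
# W3-PT / ALG-CHI2, leaf E4 (helper98): assembly

* `h98c_chi2Ineq : Chi2Unip → Chi2Shap → Chi2Ineq`
* `h98c_chi2Res  : Chi2Unip → Chi2Shap → Chi2Res`
* `h98c_chi2Van  : Chi2Res → Chi2Shap → Chi2Van`
-/

set_option autoImplicit false

namespace Fermat.Agent.PT

section Basic

variable {k : Type} [Field k] {G : Type} [Group G]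

lemma h98c_comap_good {H : Type} [Group H] (L : Lev G) (hL : L.Good) (f : H →* G) :
    (L.comap f).Good := by
  rintro _ ⟨N, hN, rfl⟩
  obtain ⟨hn, hf⟩ := hL N hN
  refine ⟨hn.comap f, ⟨?_⟩⟩
  rw [Subgroup.index_comap]
  haveI := hf
  haveI : N.IsFiniteRelIndex f.range := Subgroup.isFiniteRelIndex_of_finiteIndex
  exact Subgroup.IsFiniteRelIndex.relIndex_ne_zero

/-- the invariants of the trivial representation on `k` have dimension `1`. -/
lemma h98c_finrank_invariants_trivial (Γ : Type) [Group Γ] :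
    Module.finrank k (Representation.trivial k Γ k).invariants = 1 := by
  have h : (Representation.trivial k Γ k).invariants = ⊤ := by
    rw [eq_top_iff]
    intro v _
    rw [Representation.mem_invariants]
    intro g
    rfl
  rw [h, finrank_top, Module.finrank_self]

lemma h98c_chi2_trivial (L : Lev G) (U : Subgroup G) :
    chi2 (chi2Lev L U) (chi2Triv k U) = chi2U k L U := by
  unfold chi2 chi2U
  rw [h98c_finrank_invariants_trivial]
  rfl

/-- A permutation module of a normal subgroup is killed by that subgroup. -/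
lemma h98c_permRep_trivial (N : Subgroup G) [N.Normal] (s : G) (hs : s ∈ N)
    (f : (G ⧸ N) → k) : permRep k N s f = f := by
  funext x
  rw [permRep_apply]
  congr 1
  induction x using QuotientGroup.induction_on with
  | H g =>
    show ((s⁻¹ * g : G) : G ⧸ N) = (g : G ⧸ N)
    rw [QuotientGroup.eq]
    have := ‹N.Normal›.conj_mem s hs g⁻¹
    simpa [mul_assoc] using this

/-- the common set-up: `V` normal of index `p` in `U`. -/
lemma h98c_setup (p : ℕ) [Fact p.Prime] (L : Lev G) (U V : Subgroup G)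
    (hVo : L.IsOpen V) (hn : (V.subgroupOf U).Normal) (hidx : V.relIndex U = p) :
    ∃ _ : Finite (↥U ⧸ V.subgroupOf U),
      Module.finrank k ((↥U ⧸ V.subgroupOf U) → k) = p ∧
      (∃ N ∈ (chi2Lev L U).sets, ∀ s ∈ N, ∀ w, permRep k (V.subgroupOf U) s w = w) ∧
      (∃ N' : Subgroup ↥U, N'.Normal ∧ N'.FiniteIndex ∧ (∀ u : ↥U, ∃ n : ℕ, u ^ p ^ n ∈ N') ∧
        ∀ s ∈ N', ∀ w, permRep k (V.subgroupOf U) s w = w) := by
  classical
  have hp : p ≠ 0 := (Fact.out : p.Prime).ne_zero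
  have hfi : (V.subgroupOf U).FiniteIndex := ⟨by
    show V.relIndex U ≠ 0
    rw [hidx]; exact hp⟩
  have hfin : Finite (↥U ⧸ V.subgroupOf U) := Subgroup.finite_quotient_of_finiteIndex
  refine ⟨hfin, ?_, ?_, ?_⟩
  · have := Fintype.ofFinite (↥U ⧸ V.subgroupOf U)
    rw [Module.finrank_fintype_fun_eq_card, ← Nat.card_eq_fintype_card]
    exact hidx
  · obtain ⟨N₀, hN₀, hle⟩ := hVo
    refine ⟨N₀.comap U.subtype, ⟨N₀, hN₀, rfl⟩, fun s hs w => ?_⟩
    exact h98c_permRep_trivial (V.subgroupOf U) s (hle hs) w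
  · refine ⟨V.subgroupOf U, hn, hfi, fun u => ⟨1, ?_⟩, fun s hs w =>
      h98c_permRep_trivial (V.subgroupOf U) s hs w⟩
    rw [pow_one]
    have h1 : ((u : ↥U ⧸ V.subgroupOf U)) ^ p = 1 := by
      have h2 : Nat.card (↥U ⧸ V.subgroupOf U) = p := hidx
      rw [← h2]
      exact pow_card_eq_one'
    have h3 : ((u ^ p : ↥U) : ↥U ⧸ V.subgroupOf U) = 1 := by
      rw [QuotientGroup.mk_pow]
      exact h1
    exact (QuotientGroup.eq_one_iff _).1 h3

end Basic

theorem h98c_chi2Ineq (hUn : Chi2Unip) (hSh : Chi2Shap) : Chi2Ineq := by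
  intro p _ k _ _ G _ L hL U V hVU hVo hn hidx hfinU
  obtain ⟨hfin, hrank, hdisc, hunip⟩ := h98c_setup (k := k) p L U V hVo hn hidx
  have hLU : (chi2Lev L U).Good := h98c_comap_good L hL U.subtype
  obtain ⟨hF, hle, -⟩ := hUn p k ↥U (chi2Lev L U) hLU hfinU ((↥U ⧸ V.subgroupOf U) → k)
    (permRep k (V.subgroupOf U)) hdisc hunip
  obtain ⟨hiff, h1, h2, h0, -, -⟩ := hSh k G L hL U V hVU hVo
  refine ⟨hiff.1 hF, ?_⟩
  have e1 : chi2 (chi2Lev L U) (permRep k (V.subgroupOf U)) = chi2U k L V := by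
    unfold chi2 chi2U
    rw [h0, h1, h2]
    rfl
  rw [e1, hrank, h98c_chi2_trivial] at hle
  exact hle

theorem h98c_chi2Res (hUn : Chi2Unip) (hSh : Chi2Shap) : Chi2Res := by
  intro p _ k _ _ G _ L hL U V hVU hVo hn hidx hfinU heq c hc hres
  obtain ⟨hfin, hrank, hdisc, hunip⟩ := h98c_setup (k := k) p L U V hVo hn hidx
  have hLU : (chi2Lev L U).Good := h98c_comap_good L hL U.subtype
  obtain ⟨-, -, hinj⟩ := hUn p k ↥U (chi2Lev L U) hLU hfinU ((↥U ⧸ V.subgroupOf U) → k)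
    (permRep k (V.subgroupOf U)) hdisc hunip
  obtain ⟨-, h1, h2, h0, -, hB⟩ := hSh k G L hL U V hVU hVo
  have e1 : chi2 (chi2Lev L U) (permRep k (V.subgroupOf U)) = chi2U k L V := by
    unfold chi2 chi2U
    rw [h0, h1, h2]
    rfl
  have heq' : chi2 (chi2Lev L U) (permRep k (V.subgroupOf U))
      = (Module.finrank k ((↥U ⧸ V.subgroupOf U) → k) : ℤ)
        * chi2 (chi2Lev L U) (Representation.trivial k ↥U k) := by
    rw [e1, hrank, heq]
    congr 1
    exact (h98c_chi2_trivial L U).symm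
  refine hinj heq' (fun _ => (1 : k)) ?_ ?_ c hc (hB c hc hres)
  · intro h
    have := congrFun h ((1 : ↥U) : ↥U ⧸ V.subgroupOf U)
    simp at this
  · intro u
    funext x
    simp


/-! ## The vanishing of `H³` -/

section Van

variable {k : Type} [Field k] {G : Type} [Group G]

/-- `c` is constant modulo `N` (as a cochain on the subgroup `U`). -/
def h98c_NConst (N U : Subgroup G) (c : ↥U × ↥U × ↥U → k) : Prop :=
  ∀ g g' g'' s s' s'' : ↥U, (s : G) ∈ N → (s' : G) ∈ N → (s'' : G) ∈ N →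
    c (g * s, g' * s', g'' * s'') = c (g, g', g'')

/-- effaceability at the level: an `N`-constant cocycle on a subgroup of `N` is zero. -/
lemma h98c_base (N U : Subgroup G) (hUN : U ≤ N) (c : ↥U × ↥U × ↥U → k)
    (hc : d3 (chi2Triv k U) c = 0) (hN : h98c_NConst N U c) : c = 0 := by
  have h1 : ∀ g g' g'' : ↥U, c (g, g', g'') = c (1, 1, 1) := by
    intro g g' g''
    have := hN 1 1 1 g g' g'' (hUN g.2) (hUN g'.2) (hUN g''.2)
    simpa using this
  have h2 := congrFun hc (1, 1, 1, 1)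
  rw [d3_apply] at h2
  simp only [mul_one, Pi.zero_apply] at h2
  have h3 : c (1, 1, 1) = 0 := by
    have h4 : (chi2Triv k U) 1 (c (1, 1, 1)) = c (1, 1, 1) := rfl
    rw [h4] at h2
    simpa using h2
  funext ⟨g, g', g''⟩
  rw [h1, h3]
  rfl

lemma h98c_isCont_incl (L : Lev G) {U V : Subgroup G} (hVU : V ≤ U) :
    Tools.IsCont (chi2Lev L V) (chi2Lev L U) (Subgroup.inclusion hVU) := by
  rintro _ ⟨N, hN, rfl⟩
  exact ⟨N.comap V.subtype, ⟨N, hN, rfl⟩, fun s hs => hs⟩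

lemma h98c_res_mem_Z3 (L : Lev G) {U V : Subgroup G} (hVU : V ≤ U)
    {c : ↥U × ↥U × ↥U → k} (hc : c ∈ Z3 (chi2Lev L U) (chi2Triv k U)) :
    res3 k k (Subgroup.inclusion hVU) c ∈ Z3 (chi2Lev L V) (chi2Triv k V) := by
  have h1 : resRep (chi2Triv k U) (Subgroup.inclusion hVU) = chi2Triv k V := by
    ext g
    simp [resRep]
  have h2 := Tools.res_mem_Z3 (ρ := chi2Triv k U) (h98c_isCont_incl L hVU) hc
  rw [h1] at h2
  exact h2

lemma h98c_res_NConst (N : Subgroup G) {U V : Subgroup G} (hVU : V ≤ U)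
    {c : ↥U × ↥U × ↥U → k} (hc : h98c_NConst N U c) :
    h98c_NConst N V (res3 k k (Subgroup.inclusion hVU) c) := by
  intro g g' g'' s s' s'' hs hs' hs''
  simp only [res3_apply, map_mul]
  exact hc _ _ _ _ _ _ hs hs' hs''

/-- a normal subgroup of index `p` between `N` and `U` when `U/N` is a nontrivial `p`-group. -/
lemma h98c_exists_index_p (p : ℕ) [Fact p.Prime] (N U : Subgroup G) [hNn : N.Normal]
    (n : ℕ) (h : N.relIndex U = p ^ (n + 1)) :
    ∃ V : Subgroup G, N ⊓ U ≤ V ∧ V ≤ U ∧ (V.subgroupOf U).Normal ∧ V.relIndex U = p ∧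
      (N ⊓ U).relIndex V = p ^ n := by
  classical
  have hp : p.Prime := Fact.out
  haveI : (N.subgroupOf U).Normal := Subgroup.normal_subgroupOf
  have hcard : Nat.card (↥U ⧸ N.subgroupOf U) = p ^ (n + 1) := h
  haveI : Finite (↥U ⧸ N.subgroupOf U) :=
    Nat.finite_of_card_ne_zero (by rw [hcard]; exact pow_ne_zero _ hp.ne_zero)
  obtain ⟨H, hH⟩ := Sylow.exists_subgroup_card_pow_prime (G := ↥U ⧸ N.subgroupOf U) p (n := n)
    (by rw [hcard]; exact pow_dvd_pow p (Nat.le_succ n))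
  have hidx : H.index = p := by
    have h1 := H.card_mul_index
    rw [hH, hcard, pow_succ] at h1
    exact Nat.eq_of_mul_eq_mul_left (pow_pos hp.pos n) h1
  have hHn : H.Normal := by
    apply Subgroup.normal_of_index_eq_minFac_card
    rw [hidx, hcard, Nat.Prime.pow_minFac hp (Nat.succ_ne_zero n)]
  set V' : Subgroup ↥U := H.comap (QuotientGroup.mk' (N.subgroupOf U)) with hV'
  have hV'n : V'.Normal := hHn.comap _
  have hV'idx : V'.index = p := by
    rw [hV', Subgroup.index_comap_of_surjective _ (QuotientGroup.mk'_surjective _), hidx]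
  have hsub : (V'.map U.subtype).subgroupOf U = V' := by
    rw [← Subgroup.comap_subtype]
    exact Subgroup.comap_map_eq_self_of_injective (Subgroup.subtype_injective U) V'
  have hVU : V'.map U.subtype ≤ U := Subgroup.map_subtype_le V'
  have hNV : N ⊓ U ≤ V'.map U.subtype := by
    intro s hs
    refine ⟨⟨s, hs.2⟩, ?_, rfl⟩
    show QuotientGroup.mk' (N.subgroupOf U) ⟨s, hs.2⟩ ∈ H
    have : QuotientGroup.mk' (N.subgroupOf U) ⟨s, hs.2⟩ = 1 :=
      (QuotientGroup.eq_one_iff _).2 (Subgroup.mem_subgroupOf.2 hs.1)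
    rw [this]
    exact H.one_mem
  have hrel : (V'.map U.subtype).relIndex U = p := by
    show ((V'.map U.subtype).subgroupOf U).index = p
    rw [hsub, hV'idx]
  refine ⟨V'.map U.subtype, hNV, hVU, by rw [hsub]; exact hV'n, hrel, ?_⟩
  have h2 := Subgroup.relIndex_mul_relIndex (N ⊓ U) (V'.map U.subtype) U hNV hVU
  rw [hrel, Subgroup.inf_relIndex_right, h, pow_succ] at h2
  exact Nat.eq_of_mul_eq_mul_right hp.pos h2

/-- Step A: `U/N` a `p`-group. -/
lemma h98c_stepA (hR : Chi2Res) (p : ℕ) [Fact p.Prime] [CharP k p] (L : Lev G) (hL : L.Good)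
    (C : Set (Subgroup G)) (hclosed : ∀ U ∈ C, ∀ V : Subgroup G, V ≤ U → L.IsOpen V → V ∈ C)
    (hfin : ∀ U ∈ C, FinH12 (chi2Lev L U) (chi2Triv k U))
    (heq : ∀ U ∈ C, ∀ V : Subgroup G, V ≤ U → L.IsOpen V → (V.subgroupOf U).Normal →
        V.relIndex U = p → chi2U k L V = (p : ℤ) * chi2U k L U)
    (N : Subgroup G) (hN : N ∈ L.sets) :
    ∀ n : ℕ, ∀ U ∈ C, N ≤ U → N.relIndex U = p ^ n →
      ∀ c ∈ Z3 (chi2Lev L U) (chi2Triv k U), h98c_NConst N U c →
        c ∈ B3 (chi2Lev L U) (chi2Triv k U) := by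
  intro n
  induction n with
  | zero =>
    intro U _ _ hidx c hc hcN
    rw [pow_zero, Subgroup.relIndex_eq_one] at hidx
    have := h98c_base N U hidx c ((mem_Z3 _ _ _).1 hc).1 hcN
    rw [this]
    exact Submodule.zero_mem _
  | succ n ih =>
    intro U hU hNU hidx c hc hcN
    haveI : N.Normal := (hL N hN).1
    obtain ⟨V, hNV, hVU, hVn, hVidx, hNVidx⟩ := h98c_exists_index_p p N U n hidx
    rw [inf_eq_left.2 hNU] at hNV hNVidx
    have hVo : L.IsOpen V := ⟨N, hN, hNV⟩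
    have hVC : V ∈ C := hclosed U hU V hVU hVo
    have h1 := ih V hVC hNV hNVidx _ (h98c_res_mem_Z3 L hVU hc) (h98c_res_NConst N hVU hcN)
    exact hR p k G L hL U V hVU hVo hVn hVidx (hfin U hU) (heq U hU V hVU hVo hVn hVidx) c hc h1

/-- the preimage of a `p`-Sylow subgroup of `U/N`. -/
lemma h98c_exists_sylow (p : ℕ) [Fact p.Prime] (N U : Subgroup G) [hNn : N.Normal]
    (hNU : N ≤ U) (hfin : N.relIndex U ≠ 0) :
    ∃ U'' : Subgroup G, N ≤ U'' ∧ U'' ≤ U ∧ (∃ n, N.relIndex U'' = p ^ n) ∧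
      U''.relIndex U ≠ 0 ∧ ¬ p ∣ U''.relIndex U := by
  classical
  haveI : (N.subgroupOf U).Normal := Subgroup.normal_subgroupOf
  have hcard : Nat.card (↥U ⧸ N.subgroupOf U) = N.relIndex U := rfl
  haveI : Finite (↥U ⧸ N.subgroupOf U) := Nat.finite_of_card_ne_zero (by rw [hcard]; exact hfin)
  obtain ⟨P⟩ : Nonempty (Sylow p (↥U ⧸ N.subgroupOf U)) := inferInstance
  set U₀ : Subgroup ↥U := (P : Subgroup (↥U ⧸ N.subgroupOf U)).comap
    (QuotientGroup.mk' (N.subgroupOf U)) with hU₀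
  have hU₀idx : U₀.index = (P : Subgroup (↥U ⧸ N.subgroupOf U)).index := by
    rw [hU₀, Subgroup.index_comap_of_surjective _ (QuotientGroup.mk'_surjective _)]
  have hsub : (U₀.map U.subtype).subgroupOf U = U₀ := by
    rw [← Subgroup.comap_subtype]
    exact Subgroup.comap_map_eq_self_of_injective (Subgroup.subtype_injective U) U₀
  have hle : U₀.map U.subtype ≤ U := Subgroup.map_subtype_le U₀
  have hNle : N ≤ U₀.map U.subtype := by
    intro s hs
    refine ⟨⟨s, hNU hs⟩, ?_, rfl⟩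
    show QuotientGroup.mk' (N.subgroupOf U) ⟨s, hNU hs⟩ ∈ (P : Subgroup (↥U ⧸ N.subgroupOf U))
    have : QuotientGroup.mk' (N.subgroupOf U) ⟨s, hNU hs⟩ = 1 :=
      (QuotientGroup.eq_one_iff _).2 (Subgroup.mem_subgroupOf.2 hs)
    rw [this]
    exact Subgroup.one_mem _
  have hrel : (U₀.map U.subtype).relIndex U = (P : Subgroup (↥U ⧸ N.subgroupOf U)).index := by
    show ((U₀.map U.subtype).subgroupOf U).index = _
    rw [hsub, hU₀idx]
  have hPidx : (P : Subgroup (↥U ⧸ N.subgroupOf U)).index ≠ 0 := Subgroup.index_ne_zero_of_finite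
  refine ⟨U₀.map U.subtype, hNle, hle, ?_, by rw [hrel]; exact hPidx, by
    rw [hrel]; exact P.not_dvd_index⟩
  obtain ⟨n, hn⟩ := IsPGroup.iff_card.1 P.isPGroup'
  refine ⟨n, ?_⟩
  have h2 := Subgroup.relIndex_mul_relIndex N (U₀.map U.subtype) U hNle hle
  have h3 := (P : Subgroup (↥U ⧸ N.subgroupOf U)).card_mul_index
  rw [hrel, ← hcard, ← h3] at h2
  rw [← hn]
  exact Nat.eq_of_mul_eq_mul_right (Nat.pos_of_ne_zero hPidx) h2

end Van

theorem h98c_chi2Van (hR : Chi2Res) (hSh : Chi2Shap) : Chi2Van := by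
  intro p _ k _ _ G _ L hL C hopen hclosed hfin heq U hU c hc
  classical
  have hp : p.Prime := Fact.out
  obtain ⟨hc0, hclc⟩ := (mem_Z3 _ _ _).1 hc
  obtain ⟨_, ⟨N₀, hN₀, rfl⟩, hconst⟩ := hclc
  obtain ⟨N₁, hN₁, hN₁U⟩ := hopen U hU
  obtain ⟨N, hN, hNle⟩ := L.directed N₀ hN₀ N₁ hN₁
  have hNU : N ≤ U := fun s hs => hN₁U (hNle hs).2
  have hcN : h98c_NConst N U c := fun g g' g'' s s' s'' hs hs' hs'' =>
    hconst g g' g'' s s' s'' (hNle hs).1 (hNle hs').1 (hNle hs'').1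
  haveI : N.Normal := (hL N hN).1
  haveI : N.FiniteIndex := (hL N hN).2
  have hNfin : N.relIndex U ≠ 0 := by
    haveI : N.IsFiniteRelIndex U := Subgroup.isFiniteRelIndex_of_finiteIndex
    exact Subgroup.IsFiniteRelIndex.relIndex_ne_zero
  obtain ⟨U'', hNU'', hU''U, ⟨n, hn⟩, hidx0, hpidx⟩ := h98c_exists_sylow p N U hNU hNfin
  have hU''o : L.IsOpen U'' := ⟨N, hN, hNU''⟩
  have hU''C : U'' ∈ C := hclosed U hU U'' hU''U hU''o
  have h1 := h98c_stepA hR p L hL C hclosed hfin heq N hN n U'' hU''C hNU'' hn _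
    (h98c_res_mem_Z3 L hU''U hc) (h98c_res_NConst N hU''U hcN)
  obtain ⟨-, -, -, -, -, hB⟩ := hSh k G L hL U U'' hU''U hU''o
  obtain ⟨β, hβ, hdβ⟩ := (mem_B3 _ _ _).1 (hB c hc h1)
  haveI : (U''.subgroupOf U).FiniteIndex := ⟨hidx0⟩
  haveI : Finite (↥U ⧸ U''.subgroupOf U) := Subgroup.finite_quotient_of_finiteIndex
  haveI := Fintype.ofFinite (↥U ⧸ U''.subgroupOf U)
  let π : ((↥U ⧸ U''.subgroupOf U) → k) →ₗ[k] k := ∑ x, LinearMap.proj x
  have hπa : ∀ f : (↥U ⧸ U''.subgroupOf U) → k, π f = ∑ x, f x := by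
    intro f
    simp [π, LinearMap.sum_apply]
  have hπ : Tools.IsHom (permRep k (U''.subgroupOf U)) (chi2Triv k U) π := by
    intro g f
    rw [hπa, hπa]
    show ∑ x, f (g⁻¹ • x) = ∑ x, f x
    exact Equiv.sum_comp (MulAction.toPerm g⁻¹ : Equiv.Perm (↥U ⧸ U''.subgroupOf U)) f
  have hm : ((U''.relIndex U : ℕ) : k) ≠ 0 := by
    rw [Ne, CharP.cast_eq_zero_iff k p]
    exact hpidx
  have hcardm : (Fintype.card (↥U ⧸ U''.subgroupOf U) : k) = ((U''.relIndex U : ℕ) : k) := by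
    congr 1
    rw [← Nat.card_eq_fintype_card]
    rfl
  rw [mem_B3]
  refine ⟨((U''.relIndex U : ℕ) : k)⁻¹ • π.compLeft _ β, ?_, ?_⟩
  · exact (Tools.isLC2_push hβ π).comp (fun y => ((U''.relIndex U : ℕ) : k)⁻¹ • y)
  · rw [map_smul, Tools.d2_push hπ, hdβ]
    funext x
    simp only [Pi.smul_apply, LinearMap.compLeft_apply, Function.comp_apply, hπa, smul_eq_mul,
      mul_one, Finset.sum_const, Finset.card_univ, nsmul_eq_mul]
    rw [hcardm]
    field_simp

end Fermat.Agent.PT
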