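import Mathlib
import Fermat.Agent.PT.Defs
import Fermat.Agent.PT.Alg.VanSkel

/-!
# W3-PT / ALG-VAN leaf d (second seat): a `p`-group fixes a nonzero vector in characteristic `p`

`h40f_fixedVec : h40v_FixedVec`.
-/

set_option autoImplicit false

namespace Fermat.Agent.PT

theorem h40f_fixedVec : h40v_FixedVec := by
  intro p _ k _ _ U _ N hNn hNf hpow W _ _ _ τ htriv
  classical
  have hNn' : N.Normal := hNn
  have hNf' : N.FiniteIndex := hNf
  have hfinΓ : Finite (U ⧸ N) := Subgroup.finite_quotient_of_finiteIndex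
  -- the representation of the quotient
  let σ : (U ⧸ N) →* (W →ₗ[k] W) := QuotientGroup.lift N τ (fun s hs => by
    rw [MonoidHom.mem_ker]
    ext w
    exact htriv s hs w)
  have hσ : ∀ u : U, σ (u : U ⧸ N) = τ u := fun u => rfl
  have hPG : IsPGroup p (U ⧸ N) := by
    intro g
    induction g using QuotientGroup.induction_on with
    | H u =>
      obtain ⟨n, hn⟩ := hpow u
      refine ⟨n, ?_⟩
      rw [← QuotientGroup.mk_pow]
      exact (QuotientGroup.eq_one_iff _).2 hn
  -- a nonzero vector
  obtain ⟨w0, hw0⟩ := exists_ne (0 : W)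
  -- the `ZMod p`-structure
  let _ : Algebra (ZMod p) k := ZMod.algebra k p
  let _ : Module (ZMod p) W := Module.compHom W (algebraMap (ZMod p) k)
  have hsmul : ∀ (c : ZMod p) (w : W), c • w = (algebraMap (ZMod p) k c) • w := fun _ _ => rfl
  let A : Submodule (ZMod p) W := Submodule.span (ZMod p) (Set.range (fun γ : U ⧸ N => σ γ w0))
  have hfg : Module.Finite (ZMod p) A :=
    Module.Finite.span_of_finite (ZMod p) (Set.finite_range _)
  have hAfin : Finite A := Module.finite_of_finite (ZMod p)
  have hw0A : w0 ∈ A := by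
    apply Submodule.subset_span
    exact ⟨1, by simp⟩
  have hstab : ∀ (γ : U ⧸ N) (a : W), a ∈ A → σ γ a ∈ A := by
    intro γ a ha
    induction ha using Submodule.span_induction with
    | mem x hx =>
      obtain ⟨γ', rfl⟩ := hx
      apply Submodule.subset_span
      exact ⟨γ * γ', by simp [map_mul]⟩
    | zero => simp
    | add x y _ _ hx hy =>
      rw [map_add]
      exact Submodule.add_mem _ hx hy
    | smul c x _ hx =>
      rw [hsmul, map_smul, ← hsmul]
      exact Submodule.smul_mem _ c hx
  let _ : MulAction (U ⧸ N) A :=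
    { smul := fun γ a => ⟨σ γ a.1, hstab γ a.1 a.2⟩
      one_smul := fun a => Subtype.ext (by
        show σ 1 a.1 = a.1
        simp)
      mul_smul := fun γ γ' a => Subtype.ext (by
        show σ (γ * γ') a.1 = σ γ (σ γ' a.1)
        simp [map_mul]) }
  have hact : ∀ (γ : U ⧸ N) (a : A), ((γ • a : A) : W) = σ γ a.1 := fun _ _ => rfl
  -- `p` divides the cardinality
  have hp0 : ∀ w : W, p • w = 0 := by
    intro w
    rw [← Nat.cast_smul_eq_nsmul k, CharP.cast_eq_zero k p, zero_smul]
  have hdvd : p ∣ Nat.card A := by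
    have h1 : addOrderOf (⟨w0, hw0A⟩ : A) = p := by
      apply addOrderOf_eq_prime
      · apply Subtype.ext
        simpa using hp0 w0
      · intro h
        exact hw0 (congrArg Subtype.val h)
    have h2 := addOrderOf_dvd_natCard (⟨w0, hw0A⟩ : A)
    rwa [h1] at h2
  have h0 : (0 : A) ∈ MulAction.fixedPoints (U ⧸ N) A := by
    intro γ
    apply Subtype.ext
    rw [hact]
    simp
  obtain ⟨b, hb, hb0⟩ := hPG.exists_fixed_point_of_prime_dvd_card_of_fixed_point A hdvd h0
  refine ⟨b.1, fun h => hb0 (Subtype.ext h.symm), fun u => ?_⟩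
  have := congrArg Subtype.val (hb (u : U ⧸ N))
  rw [hact, hσ] at this
  exact this

end Fermat.Agent.PT
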