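import Mathlib
import Fermat.Agent.PT.Defs
import Fermat.Agent.PT.Alg.Chi2Iface
import Fermat.Agent.PT.Alg.H40FixedVec

/-!
# W3-PT / ALG-CHI2 leaf E2 (helper12): `Chi2SES → Chi2Unip`

`χ₂(W) ≤ dim W · χ₂(k)` for a unipotent module `W` (the group acts through a finite `p`-group,
`char k = p`), by induction on `dim W` along a fixed vector `w ≠ 0`:
`0 → k → W → W / k w → 0`; in case of equality `H³(k) → H³(W)` along ANY fixed vector is
injective.
-/

set_option autoImplicit false

namespace Fermat.Agent.PT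

section

variable {k : Type} [Field k] {Γ : Type} [Group Γ]

/-- The cohomology of the zero module. -/
theorem h12u_zero (L : Lev Γ) {W : Type} [AddCommGroup W] [Module k W] [Subsingleton W]
    (τ : Representation k Γ W) : FinH12 L τ ∧ chi2 L τ = 0 := by
  have hs1 : Subsingleton (HH1 L τ) := by
    refine ⟨fun a b => ?_⟩
    obtain ⟨a, rfl⟩ := Submodule.Quotient.mk_surjective _ a
    obtain ⟨b, rfl⟩ := Submodule.Quotient.mk_surjective _ b
    rw [show a = b from Subtype.ext (funext fun _ => Subsingleton.elim _ _)]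
  have hs2 : Subsingleton (HH2 L τ) := by
    refine ⟨fun a b => ?_⟩
    obtain ⟨a, rfl⟩ := Submodule.Quotient.mk_surjective _ a
    obtain ⟨b, rfl⟩ := Submodule.Quotient.mk_surjective _ b
    rw [show a = b from Subtype.ext (funext fun _ => Subsingleton.elim _ _)]
  have hs0 : Subsingleton τ.invariants :=
    ⟨fun a b => Subtype.ext (Subsingleton.elim _ _)⟩
  refine ⟨⟨inferInstance, inferInstance⟩, ?_⟩
  unfold chi2
  rw [Module.finrank_zero_of_subsingleton, Module.finrank_zero_of_subsingleton,
    Module.finrank_zero_of_subsingleton]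
  simp

/-- The line spanned by a fixed vector is stable. -/
theorem h12u_stab {W : Type} [AddCommGroup W] [Module k W] (τ : Representation k Γ W) {w : W}
    (hw : ∀ u, τ u w = w) (u : Γ) :
    Submodule.span k {w} ≤ (Submodule.span k {w}).comap (τ u) := by
  rw [Submodule.span_le]
  intro x hx
  rw [Set.mem_singleton_iff] at hx
  subst hx
  simp only [Submodule.comap_coe, Set.mem_preimage, SetLike.mem_coe, hw u]
  exact Submodule.mem_span_singleton_self _

/-- A subgroup acting trivially acts trivially on the quotient. -/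
theorem h12u_quot_triv {W : Type} [AddCommGroup W] [Module k W] (τ : Representation k Γ W)
    (S : Submodule k W) (hS : ∀ u, S ≤ S.comap (τ u)) {s : Γ} (hs : ∀ w, τ s w = w)
    (x : W ⧸ S) : τ.quotient S hS s x = x := by
  induction x using Submodule.Quotient.induction_on with
  | H x => rw [Representation.quotient_apply, Submodule.mapQ_apply, hs x]

/-- One step: the short exact sequence `0 → k → W → W / k w → 0` of a fixed vector. -/
theorem h12u_step (hSES : Chi2SES) (L : Lev Γ) (hL : L.Good)
    (hfin : FinH12 L (Representation.trivial k Γ k))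
    {W : Type} [AddCommGroup W] [Module k W] [FiniteDimensional k W]
    (τ : Representation k Γ W) (hN : ∃ N ∈ L.sets, ∀ s ∈ N, ∀ w, τ s w = w)
    (w : W) (hw0 : w ≠ 0) (hw : ∀ u, τ u w = w)
    (h3 : FinH12 L (τ.quotient (Submodule.span k {w}) (h12u_stab τ hw))) :
    FinH12 L τ ∧
      chi2 L τ ≤ chi2 L (Representation.trivial k Γ k) +
        chi2 L (τ.quotient (Submodule.span k {w}) (h12u_stab τ hw)) ∧
      (chi2 L τ = chi2 L (Representation.trivial k Γ k) +
          chi2 L (τ.quotient (Submodule.span k {w}) (h12u_stab τ hw)) →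
        ∀ c ∈ Z3 L (Representation.trivial k Γ k), (fun x => c x • w) ∈ B3 L τ →
          c ∈ B3 L (Representation.trivial k Γ k)) := by
  have h := hSES k Γ L hL k W (W ⧸ Submodule.span k {w}) (Representation.trivial k Γ k) τ
    (τ.quotient (Submodule.span k {w}) (h12u_stab τ hw))
    (LinearMap.toSpanSingleton k W w) (Submodule.mkQ _)
    (fun g a => by
      simp only [LinearMap.toSpanSingleton_apply, map_smul, hw g]
      rfl)
    (fun g v => by
      rw [Representation.quotient_apply]
      rfl)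
    (fun a b hab => by
      simp only [LinearMap.toSpanSingleton_apply] at hab
      exact smul_left_injective k hw0 hab)
    (Submodule.mkQ_surjective _)
    (by rw [Submodule.ker_mkQ, LinearMap.span_singleton_eq_range])
    hN hfin h3
  refine ⟨h.1, h.2.1, fun heq c hc hcB => h.2.2 heq c hc ?_⟩
  simpa only [LinearMap.toSpanSingleton_apply] using hcB

end

/-- **ALG-CHI2 leaf E2**: `Chi2SES → Chi2Unip`. -/
theorem h12u_chi2Unip (hSES : Chi2SES) : Chi2Unip := by
  intro p _ k _ _ Γ _ L hL hfin W _ _ _ τ hN hN'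
  -- the inequality, by induction on the dimension
  have key : ∀ (d : ℕ) (W : Type) [AddCommGroup W] [Module k W] [FiniteDimensional k W]
      (τ : Representation k Γ W), Module.finrank k W = d →
      (∃ N ∈ L.sets, ∀ s ∈ N, ∀ w, τ s w = w) →
      (∃ N' : Subgroup Γ, N'.Normal ∧ N'.FiniteIndex ∧ (∀ u : Γ, ∃ n : ℕ, u ^ p ^ n ∈ N') ∧
        ∀ s ∈ N', ∀ w, τ s w = w) →
      FinH12 L τ ∧ chi2 L τ ≤ (d : ℤ) * chi2 L (Representation.trivial k Γ k) := by
    intro d
    induction d with
    | zero =>
      intro W _ _ _ τ hd _ _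
      have : Subsingleton W := Module.finrank_zero_iff.1 hd
      obtain ⟨h1, h2⟩ := h12u_zero L τ
      exact ⟨h1, by rw [h2]; simp⟩
    | succ d ih =>
      intro W _ _ _ τ hd hN hN'
      have : Nontrivial W := Module.nontrivial_of_finrank_pos (R := k) (by omega)
      obtain ⟨N', hN'n, hN'f, hpow, htriv⟩ := hN'
      obtain ⟨w, hw0, hw⟩ := h40f_fixedVec p k Γ N' hN'n hN'f hpow W τ htriv
      have hfr : Module.finrank k (W ⧸ Submodule.span k {w}) = d := by
        have h1 := Submodule.finrank_quotient_add_finrank (Submodule.span k {w})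
        rw [finrank_span_singleton hw0, hd] at h1
        omega
      obtain ⟨N, hNL, hNt⟩ := hN
      obtain ⟨hq1, hq2⟩ := ih (W ⧸ Submodule.span k {w})
        (τ.quotient (Submodule.span k {w}) (h12u_stab τ hw)) hfr
        ⟨N, hNL, fun s hs x => h12u_quot_triv τ _ _ (hNt s hs) x⟩
        ⟨N', hN'n, hN'f, hpow, fun s hs x => h12u_quot_triv τ _ _ (htriv s hs) x⟩
      obtain ⟨hs1, hs2, _⟩ := h12u_step hSES L hL hfin τ ⟨N, hNL, hNt⟩ w hw0 hw hq1
      refine ⟨hs1, ?_⟩
      push_cast
      linarith
  obtain ⟨h1, h2⟩ := key _ W τ rfl hN hN'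
  refine ⟨h1, h2, ?_⟩
  intro heq w hw0 hw c hc hcB
  have hpos : 0 < Module.finrank k W := by
    have : Nontrivial W := ⟨⟨w, 0, hw0⟩⟩
    exact Module.finrank_pos
  have hfr : Module.finrank k (W ⧸ Submodule.span k {w}) + 1 = Module.finrank k W := by
    have h1 := Submodule.finrank_quotient_add_finrank (Submodule.span k {w})
    rw [finrank_span_singleton hw0] at h1
    exact h1
  obtain ⟨N, hNL, hNt⟩ := hN
  obtain ⟨N', hN'n, hN'f, hpow, htriv⟩ := hN'
  obtain ⟨hq1, hq2⟩ := key _ (W ⧸ Submodule.span k {w})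
    (τ.quotient (Submodule.span k {w}) (h12u_stab τ hw)) rfl
    ⟨N, hNL, fun s hs x => h12u_quot_triv τ _ _ (hNt s hs) x⟩
    ⟨N', hN'n, hN'f, hpow, fun s hs x => h12u_quot_triv τ _ _ (htriv s hs) x⟩
  obtain ⟨_, hs2, hs3⟩ := h12u_step hSES L hL hfin τ ⟨N, hNL, hNt⟩ w hw0 hw hq1
  refine hs3 ?_ c hc hcB
  have hcast : (Module.finrank k W : ℤ) =
      (Module.finrank k (W ⧸ Submodule.span k {w}) : ℤ) + 1 := by
    rw [← hfr]
    push_cast
    ring
  rw [hcast] at heq
  linarith

end Fermat.Agent.PT
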