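import Fermat.Agent.PT.Alg.Chi2Iface
import Fermat.Agent.PT.Alg.Tools
import Fermat.Agent.PT.Shap.SecVan

/-!
# W3-PT / ALG-CHI2, leaf CHI2-E3 (helper2): Shapiro for one group `U ⊇ V`

`theorem h2c_chi2Shap : Chi2Shap`.

Proof: helper56's one-group Shapiro (`PT/Shap/Sec*.lean`) for `G₀ = ↥U`, `U₀ = V.subgroupOf U`,
transported along the group isomorphism `↥(V.subgroupOf U) ≃* ↥V`.
-/

set_option autoImplicit false
set_option linter.unusedSectionVars false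

namespace Fermat.Agent.PT

open Fermat.Agent.PT.Shap Fermat.Agent.PT.Tools

/-! ## pull-backs of good level systems -/

theorem h2c_comap_good {G H : Type} [Group G] [Group H] (L : Lev G) (hL : L.Good)
    (f : H →* G) : (L.comap f).Good := by
  rintro N' ⟨N, hN, rfl⟩
  obtain ⟨h1, h2⟩ := hL N hN
  refine ⟨inferInstance, ⟨?_⟩⟩
  rw [Subgroup.index_comap]
  have := h2
  have : N.IsFiniteRelIndex f.range := Subgroup.isFiniteRelIndex_of_finiteIndex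
  exact Subgroup.IsFiniteRelIndex.relIndex_ne_zero

theorem h2c_isOpen_subgroupOf {G : Type} [Group G] (L : Lev G) {U V : Subgroup G}
    (hV : L.IsOpen V) : (L.comap U.subtype).IsOpen (V.subgroupOf U) := by
  obtain ⟨N, hN, hle⟩ := hV
  exact ⟨N.comap U.subtype, ⟨N, hN, rfl⟩, fun x hx => hle hx⟩

/-! ## the group isomorphism `↥(V.subgroupOf U) ≃* ↥V` and the level systems -/

section Iso

variable {G : Type} [Group G] (L : Lev G) {U V : Subgroup G} (hVU : V ≤ U)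

/-- `↥(V.subgroupOf U) → ↥V`. -/
def h2c_e : ↥(V.subgroupOf U) →* ↥V := (Subgroup.subgroupOfEquivOfLe hVU).toMonoidHom

/-- `↥V → ↥(V.subgroupOf U)`. -/
def h2c_e' : ↥V →* ↥(V.subgroupOf U) := (Subgroup.subgroupOfEquivOfLe hVU).symm.toMonoidHom

@[simp] theorem h2c_e_coe (x : ↥(V.subgroupOf U)) : ((h2c_e hVU x : ↥V) : G) = ((x : ↥U) : G) :=
  rfl

@[simp] theorem h2c_e'_coe (v : ↥V) : (((h2c_e' hVU v : ↥(V.subgroupOf U)) : ↥U) : G) = (v : G) :=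
  rfl

@[simp] theorem h2c_e_e' (v : ↥V) : h2c_e hVU (h2c_e' hVU v) = v :=
  (Subgroup.subgroupOfEquivOfLe hVU).apply_symm_apply v

@[simp] theorem h2c_e'_e (x : ↥(V.subgroupOf U)) : h2c_e' hVU (h2c_e hVU x) = x :=
  (Subgroup.subgroupOfEquivOfLe hVU).symm_apply_apply x

theorem h2c_incl_e (x : ↥(V.subgroupOf U)) :
    Subgroup.inclusion hVU (h2c_e hVU x) = (x : ↥U) := rfl

theorem h2c_isCont_e :
    IsCont ((L.comap U.subtype).comap (V.subgroupOf U).subtype) (L.comap V.subtype)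
      (h2c_e hVU) := by
  rintro _ ⟨N, hN, rfl⟩
  exact ⟨(N.comap U.subtype).comap (V.subgroupOf U).subtype, ⟨_, ⟨N, hN, rfl⟩, rfl⟩,
    fun x hx => hx⟩

theorem h2c_isCont_e' :
    IsCont (L.comap V.subtype) ((L.comap U.subtype).comap (V.subgroupOf U).subtype)
      (h2c_e' hVU) := by
  rintro _ ⟨_, ⟨N, hN, rfl⟩, rfl⟩
  exact ⟨N.comap V.subtype, ⟨N, hN, rfl⟩, fun x hx => hx⟩

end Iso


/-! ## Shapiro for one group, transported along an isomorphism `↥U₀ ≃ H` -/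

section Gen

variable {k : Type} [CommRing k] {G₀ : Type} [Group G₀] {U₀ : Subgroup G₀} (s : h56s_Sec G₀ U₀)
variable {B : Type} [AddCommGroup B] [Module k B] (τ : Representation k G₀ B)
variable {L₀ : Lev G₀} (hL₀ : L₀.Good) (hU₀ : L₀.IsOpen U₀)
variable {H : Type} [Group H] {LH : Lev H} (σ : Representation k H B)
variable (e : ↥U₀ →* H) (e' : H →* ↥U₀)
variable (hee' : ∀ v, e (e' v) = v) (he'e : ∀ x, e' (e x) = x)
variable (hce : IsCont (L₀.comap U₀.subtype) LH e) (hce' : IsCont LH (L₀.comap U₀.subtype) e')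
variable (hσ : resRep σ e = resRep τ U₀.subtype)

include he'e in
theorem h2c_res1_res1 (a : ↥U₀ → B) : res1 k B e (res1 k B e' a) = a := by
  funext x; simp [he'e]

include he'e in
theorem h2c_res2_res2 (a : ↥U₀ × ↥U₀ → B) : res2 k B e (res2 k B e' a) = a := by
  funext ⟨x, y⟩; simp [he'e]

include hee' in
theorem h2c_res1_res1' (a : H → B) : res1 k B e' (res1 k B e a) = a := by
  funext x; simp [hee']

include hee' in
theorem h2c_res2_res2' (a : H × H → B) : res2 k B e' (res2 k B e a) = a := by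
  funext ⟨x, y⟩; simp [hee']

include hee' hσ in
theorem h2c_resRep_back : resRep (resRep τ U₀.subtype) e' = σ := by
  rw [← hσ]
  ext v b
  simp [hee']

/-! ### degree 1 -/

/-- `Z¹(H, σ) → Z¹(G₀, ind τ)`, `a ↦ exU (a ∘ e)`. -/
def h2c_exZ1 : ↥(Z1 LH σ) →ₗ[k] ↥(Z1 L₀ (h56s_ind (X := G₀ ⧸ U₀) τ)) :=
  ((s.exU1L τ).comp (res1 k B e)).restrict (fun a ha => by
    have h1 : res1 k B e a ∈ Z1 (L₀.comap U₀.subtype) (resRep τ U₀.subtype) := by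
      rw [← hσ]; exact res_mem_Z1 hce ha
    exact s.exU1_mem_Z1 τ hL₀ hU₀ h1)

/-- `Z¹(H, σ) → H¹(G₀, ind τ)`. -/
def h2c_exQ1 : ↥(Z1 LH σ) →ₗ[k] HH1 L₀ (h56s_ind (X := G₀ ⧸ U₀) τ) :=
  (Submodule.mkQ _).comp (h2c_exZ1 s τ hL₀ hU₀ σ e hce hσ)

include hee' he'e hce' in
theorem h2c_exQ1_surjective : Function.Surjective (h2c_exQ1 s τ hL₀ hU₀ σ e hce hσ) := by
  intro y
  obtain ⟨f, rfl⟩ := Submodule.Quotient.mk_surjective _ y
  have h1 : res1 k B e' (s.shU1 f.1) ∈ Z1 LH σ := by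
    have := res_mem_Z1 (f := e') hce' (s.shU1_mem_Z1 τ f.2)
    rwa [h2c_resRep_back τ σ e e' hee' hσ] at this
  refine ⟨⟨_, h1⟩, ?_⟩
  change Submodule.Quotient.mk (h2c_exZ1 s τ hL₀ hU₀ σ e hce hσ ⟨_, h1⟩)
    = Submodule.Quotient.mk f
  rw [eq_comm, Submodule.Quotient.eq, Submodule.mem_comap]
  have h2 : ((f - h2c_exZ1 s τ hL₀ hU₀ σ e hce hσ ⟨_, h1⟩ :
      ↥(Z1 L₀ (h56s_ind (X := G₀ ⧸ U₀) τ))) : G₀ → (G₀ ⧸ U₀) → B)
      = f.1 - s.exU1 τ (s.shU1 f.1) := by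
    change f.1 - s.exU1 τ (res1 k B e (res1 k B e' (s.shU1 f.1))) = _
    rw [h2c_res1_res1 e e' he'e]
  change ((f - h2c_exZ1 s τ hL₀ hU₀ σ e hce hσ ⟨_, h1⟩ :
      ↥(Z1 L₀ (h56s_ind (X := G₀ ⧸ U₀) τ))) : G₀ → (G₀ ⧸ U₀) → B) ∈ _
  rw [h2]
  exact s.sub_exU_shU1_mem_B1 τ hL₀ hU₀ f.2

include hee' in
theorem h2c_exQ1_ker : LinearMap.ker (h2c_exQ1 s τ hL₀ hU₀ σ e hce hσ)
    = (B1 σ).comap (Z1 LH σ).subtype := by
  ext a
  rw [LinearMap.mem_ker, Submodule.mem_comap]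
  change Submodule.Quotient.mk (h2c_exZ1 s τ hL₀ hU₀ σ e hce hσ a) = 0 ↔ _
  rw [Submodule.Quotient.mk_eq_zero, Submodule.mem_comap]
  change s.exU1 τ (res1 k B e a.1) ∈ B1 (h56s_ind (X := G₀ ⧸ U₀) τ) ↔ a.1 ∈ B1 σ
  constructor
  · intro h
    obtain ⟨v, hv⟩ := (mem_B1 _ _).1 h
    have h1 : res1 k B e a.1 = d0 (resRep τ U₀.subtype) (s.shU0 v) := by
      rw [← s.shU_d0 τ v, hv, s.shU_exU1]
    refine (mem_B1 _ _).2 ⟨s.shU0 v, ?_⟩
    have h2 : res1 k B e' (res1 k B e a.1) = a.1 := h2c_res1_res1' e e' hee' a.1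
    rw [← h2, h1]
    funext x
    have h3 := congrArg (fun ρ : Representation k ↥U₀ B => ρ (e' x) (s.shU0 v)) hσ
    simp only [resRep_apply, hee'] at h3
    simp only [d0_apply, res1_apply, resRep_apply]
    rw [h3]
  · intro h
    have h1 : res1 k B e a.1 ∈ B1 (resRep τ U₀.subtype) := by
      rw [← hσ]; exact res_mem_B1 e h
    exact s.exU1_mem_B1 τ hL₀ hU₀ h1

include s hL₀ hU₀ hce hσ hee' he'e hce' in
/-- Shapiro in degree one. -/
theorem h2c_equivHH1 : Nonempty (HH1 LH σ ≃ₗ[k] HH1 L₀ (h56s_ind (X := G₀ ⧸ U₀) τ)) := by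
  refine ⟨(Submodule.quotEquivOfEq _ _
    (h2c_exQ1_ker s τ hL₀ hU₀ σ e e' hee' hce hσ).symm).trans
    ((h2c_exQ1 s τ hL₀ hU₀ σ e hce hσ).quotKerEquivOfSurjective
      (h2c_exQ1_surjective s τ hL₀ hU₀ σ e e' hee' he'e hce hce' hσ))⟩

/-! ### degree 2 -/

include he'e in
theorem h2c_res3_res3 (a : ↥U₀ × ↥U₀ × ↥U₀ → B) : res3 k B e (res3 k B e' a) = a := by
  funext ⟨x, y, z⟩; simp [he'e]

/-- `Z²(H, σ) → Z²(G₀, ind τ)`, `a ↦ exU (a ∘ e)`. -/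
def h2c_exZ2 : ↥(Z2 LH σ) →ₗ[k] ↥(Z2 L₀ (h56s_ind (X := G₀ ⧸ U₀) τ)) :=
  ((s.exU2L τ).comp (res2 k B e)).restrict (fun a ha => by
    have h1 : res2 k B e a ∈ Z2 (L₀.comap U₀.subtype) (resRep τ U₀.subtype) := by
      rw [← hσ]; exact res_mem_Z2 hce ha
    exact s.exU2_mem_Z2 τ hL₀ hU₀ h1)

/-- `Z²(H, σ) → H²(G₀, ind τ)`. -/
def h2c_exQ2 : ↥(Z2 LH σ) →ₗ[k] HH2 L₀ (h56s_ind (X := G₀ ⧸ U₀) τ) :=
  (Submodule.mkQ _).comp (h2c_exZ2 s τ hL₀ hU₀ σ e hce hσ)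

include hee' he'e hce' in
theorem h2c_exQ2_surjective : Function.Surjective (h2c_exQ2 s τ hL₀ hU₀ σ e hce hσ) := by
  intro y
  obtain ⟨f, rfl⟩ := Submodule.Quotient.mk_surjective _ y
  have h1 : res2 k B e' (s.shU2 f.1) ∈ Z2 LH σ := by
    have := res_mem_Z2 (f := e') hce' (s.shU2_mem_Z2 τ f.2)
    rwa [h2c_resRep_back τ σ e e' hee' hσ] at this
  refine ⟨⟨_, h1⟩, ?_⟩
  change Submodule.Quotient.mk (h2c_exZ2 s τ hL₀ hU₀ σ e hce hσ ⟨_, h1⟩)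
    = Submodule.Quotient.mk f
  rw [eq_comm, Submodule.Quotient.eq, Submodule.mem_comap]
  have h2 : ((f - h2c_exZ2 s τ hL₀ hU₀ σ e hce hσ ⟨_, h1⟩ :
      ↥(Z2 L₀ (h56s_ind (X := G₀ ⧸ U₀) τ))) : G₀ × G₀ → (G₀ ⧸ U₀) → B)
      = f.1 - s.exU2 τ (s.shU2 f.1) := by
    change f.1 - s.exU2 τ (res2 k B e (res2 k B e' (s.shU2 f.1))) = _
    rw [h2c_res2_res2 e e' he'e]
  change ((f - h2c_exZ2 s τ hL₀ hU₀ σ e hce hσ ⟨_, h1⟩ :
      ↥(Z2 L₀ (h56s_ind (X := G₀ ⧸ U₀) τ))) : G₀ × G₀ → (G₀ ⧸ U₀) → B) ∈ _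
  rw [h2]
  exact s.sub_exU_shU2_mem_B2 τ hL₀ hU₀ f.2

include hee' hce' in
theorem h2c_exQ2_ker : LinearMap.ker (h2c_exQ2 s τ hL₀ hU₀ σ e hce hσ)
    = (B2 LH σ).comap (Z2 LH σ).subtype := by
  ext a
  rw [LinearMap.mem_ker, Submodule.mem_comap]
  change Submodule.Quotient.mk (h2c_exZ2 s τ hL₀ hU₀ σ e hce hσ a) = 0 ↔ _
  rw [Submodule.Quotient.mk_eq_zero, Submodule.mem_comap]
  change s.exU2 τ (res2 k B e a.1) ∈ B2 L₀ (h56s_ind (X := G₀ ⧸ U₀) τ) ↔ a.1 ∈ B2 LH σ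
  constructor
  · intro h
    obtain ⟨x, hx, hxd⟩ := (mem_B2 _ _ _).1 h
    have h1 : res2 k B e a.1 ∈ B2 (L₀.comap U₀.subtype) (resRep τ U₀.subtype) := by
      refine (mem_B2 _ _ _).2 ⟨s.shU1 x, s.isLC1_shU x hx, ?_⟩
      rw [← s.shU_d1 τ x, hxd, s.shU_exU2]
    have h2 := res_mem_B2 (f := e') hce' h1
    rwa [h2c_resRep_back τ σ e e' hee' hσ, h2c_res2_res2' e e' hee'] at h2
  · intro h
    have h1 : res2 k B e a.1 ∈ B2 (L₀.comap U₀.subtype) (resRep τ U₀.subtype) := by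
      rw [← hσ]; exact res_mem_B2 hce h
    exact s.exU2_mem_B2 τ hL₀ hU₀ h1

include s hL₀ hU₀ hce hσ hee' he'e hce' in
/-- Shapiro in degree two. -/
theorem h2c_equivHH2 : Nonempty (HH2 LH σ ≃ₗ[k] HH2 L₀ (h56s_ind (X := G₀ ⧸ U₀) τ)) := by
  refine ⟨(Submodule.quotEquivOfEq _ _
    (h2c_exQ2_ker s τ hL₀ hU₀ σ e e' hee' hce hce' hσ).symm).trans
    ((h2c_exQ2 s τ hL₀ hU₀ σ e hce hσ).quotKerEquivOfSurjective
      (h2c_exQ2_surjective s τ hL₀ hU₀ σ e e' hee' he'e hce hce' hσ))⟩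

/-! ### degree 3 -/

include s hL₀ hU₀ in
/-- a `3`-cocycle of the induced module whose `shU` is a coboundary is a coboundary. -/
theorem h2c_mem_B3_of_shU {f : G₀ × G₀ × G₀ → (G₀ ⧸ U₀) → B}
    (hf : f ∈ Z3 L₀ (h56s_ind (X := G₀ ⧸ U₀) τ))
    (h1 : s.shU3 f ∈ B3 (L₀.comap U₀.subtype) (resRep τ U₀.subtype)) :
    f ∈ B3 L₀ (h56s_ind (X := G₀ ⧸ U₀) τ) := by
  rw [mem_B3] at h1 ⊢
  obtain ⟨c, hc, hcf⟩ := h1
  rw [mem_Z3] at hf
  refine ⟨s.exU2 τ c - s.god.hh3 f,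
    h56s_isLC2_sub (s.isLC2_exU τ hL₀ hU₀ c hc) (s.isLC2_hh3 hL₀ hU₀ f hf.2), ?_⟩
  have h3 := s.homU3 τ f
  rw [hf.1, h56s_Sec.hh4_zero, sub_zero] at h3
  rw [map_sub, s.exU_d2, hcf]
  exact h3.symm

include s hL₀ hU₀ hce hσ he'e in
theorem h2c_mem_B3_of_res {f : G₀ × G₀ × G₀ → (G₀ ⧸ U₀) → B}
    (hf : f ∈ Z3 L₀ (h56s_ind (X := G₀ ⧸ U₀) τ))
    (h1 : res3 k B e' (s.shU3 f) ∈ B3 LH σ) :
    f ∈ B3 L₀ (h56s_ind (X := G₀ ⧸ U₀) τ) := by
  refine h2c_mem_B3_of_shU s τ hL₀ hU₀ hf ?_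
  have h2 := res_mem_B3 (f := e) hce h1
  rwa [hσ, h2c_res3_res3 e e' he'e] at h2

include s hL₀ hU₀ hce hσ hee' he'e hce' in
theorem h2c_h3Vanishes (h : H3Vanishes LH σ) :
    H3Vanishes L₀ (h56s_ind (X := G₀ ⧸ U₀) τ) := by
  intro f hf
  refine h2c_mem_B3_of_res s τ hL₀ hU₀ σ e e' he'e hce hσ hf (h ?_)
  have := res_mem_Z3 (f := e') hce' (s.shU3_mem_Z3 τ hf)
  rwa [h2c_resRep_back τ σ e e' hee' hσ] at this

end Gen

/-! ## invariants of the permutation module -/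

theorem h2c_invariants_finrank (k : Type) [Field k] {G : Type} [Group G] (U₀ : Subgroup G) :
    Module.finrank k (permRep k U₀).invariants = 1 := by
  rw [finrank_eq_one_iff']
  have hc : (fun _ : G ⧸ U₀ => (1 : k)) ∈ (permRep k U₀).invariants := by
    intro g
    funext x
    simp
  refine ⟨⟨_, hc⟩, ?_, ?_⟩
  · intro h
    have h1 := congrArg (fun f : (permRep k U₀).invariants =>
      (f : (G ⧸ U₀) → k) (QuotientGroup.mk 1)) h
    simp at h1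
  · intro w
    refine ⟨(w : (G ⧸ U₀) → k) (QuotientGroup.mk 1), ?_⟩
    apply Subtype.ext
    funext x
    induction x using QuotientGroup.induction_on with
    | H g =>
      have h1 := congrFun (w.2 g) (QuotientGroup.mk g)
      rw [permRep_apply, MulAction.Quotient.smul_mk, smul_eq_mul, inv_mul_cancel] at h1
      simp only [Submodule.coe_smul, Pi.smul_apply, smul_eq_mul, mul_one]
      exact h1

/-! ## the leaf -/

/-- **CHI2-E3**: Shapiro for one group `U ⊇ V`. -/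
theorem h2c_chi2Shap : Chi2Shap := by
  intro k _ G _ L hL U V hVU hV
  obtain ⟨s⟩ := h56s_Sec.nonempty ↥U (V.subgroupOf U)
  have hL₀ : (L.comap U.subtype).Good := h2c_comap_good L hL _
  have hU₀ : (L.comap U.subtype).IsOpen (V.subgroupOf U) := h2c_isOpen_subgroupOf L hV
  have hσ : resRep (chi2Triv k V) (h2c_e hVU)
      = resRep (Representation.trivial k ↥U k) (V.subgroupOf U).subtype := rfl
  obtain ⟨E1⟩ := h2c_equivHH1 s (Representation.trivial k ↥U k) hL₀ hU₀ (chi2Triv k V)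
    (h2c_e hVU) (h2c_e' hVU) (h2c_e_e' hVU) (h2c_e'_e hVU) (h2c_isCont_e L hVU)
    (h2c_isCont_e' L hVU) hσ
  obtain ⟨E2⟩ := h2c_equivHH2 s (Representation.trivial k ↥U k) hL₀ hU₀ (chi2Triv k V)
    (h2c_e hVU) (h2c_e' hVU) (h2c_e_e' hVU) (h2c_e'_e hVU) (h2c_isCont_e L hVU)
    (h2c_isCont_e' L hVU) hσ
  refine ⟨?_, ?_, ?_, h2c_invariants_finrank k _, ?_, ?_⟩
  · rw [h56s_permRep_eq]
    constructor
    · rintro ⟨h1, h2⟩
      exact ⟨Module.Finite.equiv E1.symm, Module.Finite.equiv E2.symm⟩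
    · rintro ⟨h1, h2⟩
      exact ⟨Module.Finite.equiv E1, Module.Finite.equiv E2⟩
  · rw [h56s_permRep_eq]
    exact E1.finrank_eq.symm
  · rw [h56s_permRep_eq]
    exact E2.finrank_eq.symm
  · rw [h56s_permRep_eq]
    exact h2c_h3Vanishes s (Representation.trivial k ↥U k) hL₀ hU₀ (chi2Triv k V)
      (h2c_e hVU) (h2c_e' hVU) (h2c_e_e' hVU) (h2c_e'_e hVU) (h2c_isCont_e L hVU)
      (h2c_isCont_e' L hVU) hσ
  · intro c hc hres
    rw [h56s_permRep_eq]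
    rw [mem_Z3] at hc
    have hf : (fun x => c x • (fun _ : ↥U ⧸ V.subgroupOf U => (1 : k)))
        ∈ Z3 (L.comap U.subtype)
          (h56s_ind (X := ↥U ⧸ V.subgroupOf U) (Representation.trivial k ↥U k)) := by
      rw [mem_Z3]
      refine ⟨?_, hc.2.comp (fun a : k => a • (fun _ : ↥U ⧸ V.subgroupOf U => (1 : k)))⟩
      funext ⟨g, h, j, l⟩
      funext x
      have h0 := congrFun hc.1 (g, h, j, l)
      simp only [d3_apply, Representation.trivial_apply, Pi.zero_apply] at h0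
      simp only [d3_apply, h56s_ind_apply, Representation.trivial_apply, Pi.sub_apply,
        Pi.add_apply, Pi.smul_apply, smul_eq_mul, mul_one, Pi.zero_apply]
      exact h0
    refine h2c_mem_B3_of_res s (Representation.trivial k ↥U k) hL₀ hU₀ (chi2Triv k V)
      (h2c_e hVU) (h2c_e' hVU) (h2c_e'_e hVU) (h2c_isCont_e L hVU) hσ hf ?_
    have h1 : res3 k k (h2c_e' hVU)
        (s.shU3 (fun x => c x • (fun _ : ↥U ⧸ V.subgroupOf U => (1 : k))))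
        = res3 k k (Subgroup.inclusion hVU) c := by
      funext ⟨x, y, z⟩
      simp only [res3_apply, h56s_Sec.shU3, Pi.smul_apply, smul_eq_mul, mul_one]
      rfl
    rw [h1]
    exact hres

end Fermat.Agent.PT
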