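import Fermat.Agent.PT.Alg.ToolsSES

/-!
# W3-PT, row ALG-CHI2 (helper54), part 1: the long exact sequence in linear form

For a short exact sequence `0 → V₁ → V₂ → V₃ → 0` of representations with discrete middle term:

* `h54c_push0/1/2`   : the maps induced on `H⁰ = invariants`, `HH1`, `HH2`;
* `h54c_delta0/1`    : existence of the connecting homomorphisms as linear maps, with
                       `ker δ = range ψ_*` and `range δ = ker φ_*`;
* `h54c_ses_euler`   : finiteness of `HH1`, `HH2` of the middle term and the Euler characteristic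
                       identity `χ(V₂) + e = χ(V₁) + χ(V₃)`, where `e` is the codimension of the
                       image of `HH2(V₂) → HH2(V₃)`;
* `h54c_ses_inj3`    : if `HH2(V₂) → HH2(V₃)` is onto, then `H³(V₁) → H³(V₂)` is injective
                       (cocycle form).
-/

set_option autoImplicit false

namespace Fermat.Agent.PT

open Fermat.Agent.PT.Tools Module

noncomputable section H54ChiLES

variable {k : Type} [Field k] {G : Type} [Group G] {L : Lev G}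

/-- A total, single valued, additive and homogeneous relation is the graph of a linear map. -/
theorem h54c_linear_of_rel {M N : Type} [AddCommGroup M] [Module k M] [AddCommGroup N]
    [Module k N] (R : M → N → Prop) (htot : ∀ m, ∃ n, R m n)
    (hfun : ∀ m n n', R m n → R m n' → n = n')
    (hadd : ∀ m m' n n', R m n → R m' n' → R (m + m') (n + n'))
    (hsmul : ∀ (a : k) m n, R m n → R (a • m) (a • n)) :
    ∃ f : M →ₗ[k] N, ∀ m n, f m = n ↔ R m n := by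
  classical
  choose f hf using htot
  refine ⟨{ toFun := f
            map_add' := fun a b => hfun _ _ _ (hf _) (hadd _ _ _ _ (hf a) (hf b))
            map_smul' := fun a m => hfun _ _ _ (hf _) (hsmul a _ _ (hf m)) }, fun m n => ?_⟩
  constructor
  · intro h
    have := hf m
    rw [← h]
    exact this
  · intro h
    exact hfun _ _ _ (hf m) h

section Push

variable {V W : Type} [AddCommGroup V] [Module k V] [AddCommGroup W] [Module k W]
variable {ρ : Representation k G V} {σ : Representation k G W} {φ : V →ₗ[k] W}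

/-- the map induced on invariants. -/
def h54c_push0 (hφ : IsHom ρ σ φ) : ↥ρ.invariants →ₗ[k] ↥σ.invariants :=
  φ.restrict (fun _ hv => hφ.map_invariants hv)

@[simp] lemma h54c_push0_coe (hφ : IsHom ρ σ φ) (v : ↥ρ.invariants) :
    ((h54c_push0 hφ v : ↥σ.invariants) : W) = φ (v : V) := rfl

/-- the map induced on `1`-cocycles. -/
def h54c_pushZ1 (L : Lev G) (hφ : IsHom ρ σ φ) : ↥(Z1 L ρ) →ₗ[k] ↥(Z1 L σ) :=
  (φ.compLeft G).restrict (fun _ hx => push_mem_Z1 hφ hx)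

/-- the map induced on `2`-cocycles. -/
def h54c_pushZ2 (L : Lev G) (hφ : IsHom ρ σ φ) : ↥(Z2 L ρ) →ₗ[k] ↥(Z2 L σ) :=
  (φ.compLeft (G × G)).restrict (fun _ hx => push_mem_Z2 hφ hx)

@[simp] lemma h54c_pushZ1_coe (hφ : IsHom ρ σ φ) (x : ↥(Z1 L ρ)) :
    ((h54c_pushZ1 L hφ x : ↥(Z1 L σ)) : G → W) = φ.compLeft G (x : G → V) := rfl

@[simp] lemma h54c_pushZ2_coe (hφ : IsHom ρ σ φ) (x : ↥(Z2 L ρ)) :
    ((h54c_pushZ2 L hφ x : ↥(Z2 L σ)) : G × G → W) = φ.compLeft (G × G) (x : G × G → V) := rfl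

/-- the map induced on `HH1`. -/
def h54c_push1 (L : Lev G) (hφ : IsHom ρ σ φ) : HH1 L ρ →ₗ[k] HH1 L σ :=
  Submodule.mapQ _ _ (h54c_pushZ1 L hφ) (fun x hx => by
    have hx' : (x : G → V) ∈ B1 ρ := hx
    exact push_mem_B1 hφ hx')

/-- the map induced on `HH2`. -/
def h54c_push2 (L : Lev G) (hφ : IsHom ρ σ φ) : HH2 L ρ →ₗ[k] HH2 L σ :=
  Submodule.mapQ _ _ (h54c_pushZ2 L hφ) (fun x hx => by
    have hx' : (x : G × G → V) ∈ B2 L ρ := hx
    exact push_mem_B2 hφ hx')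

lemma h54c_push1_mk (hφ : IsHom ρ σ φ) (x : ↥(Z1 L ρ)) :
    h54c_push1 L hφ (Submodule.Quotient.mk x) = Submodule.Quotient.mk (h54c_pushZ1 L hφ x) := rfl

lemma h54c_push2_mk (hφ : IsHom ρ σ φ) (x : ↥(Z2 L ρ)) :
    h54c_push2 L hφ (Submodule.Quotient.mk x) = Submodule.Quotient.mk (h54c_pushZ2 L hφ x) := rfl

/-- classes in `HH1`: equality to zero. -/
lemma h54c_mk1_eq_zero (ρ : Representation k G V) (x : ↥(Z1 L ρ)) :
    (Submodule.Quotient.mk x : HH1 L ρ) = 0 ↔ (x : G → V) ∈ B1 ρ := by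
  rw [Submodule.Quotient.mk_eq_zero]
  rfl

/-- classes in `HH2`: equality to zero. -/
lemma h54c_mk2_eq_zero (ρ : Representation k G V) (x : ↥(Z2 L ρ)) :
    (Submodule.Quotient.mk x : HH2 L ρ) = 0 ↔ (x : G × G → V) ∈ B2 L ρ := by
  rw [Submodule.Quotient.mk_eq_zero]
  rfl

lemma h54c_mk1_eq (ρ : Representation k G V) (x y : ↥(Z1 L ρ)) :
    (Submodule.Quotient.mk x : HH1 L ρ) = Submodule.Quotient.mk y ↔
      (x : G → V) - (y : G → V) ∈ B1 ρ := by
  rw [Submodule.Quotient.eq]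
  rfl

lemma h54c_mk2_eq (ρ : Representation k G V) (x y : ↥(Z2 L ρ)) :
    (Submodule.Quotient.mk x : HH2 L ρ) = Submodule.Quotient.mk y ↔
      (x : G × G → V) - (y : G × G → V) ∈ B2 L ρ := by
  rw [Submodule.Quotient.eq]
  rfl

end Push

section SESmaps

variable {V₁ V₂ V₃ : Type} [AddCommGroup V₁] [Module k V₁] [AddCommGroup V₂] [Module k V₂]
  [AddCommGroup V₃] [Module k V₃]
variable {ρ₁ : Representation k G V₁} {ρ₂ : Representation k G V₂}
  {ρ₃ : Representation k G V₃} {φ : V₁ →ₗ[k] V₂} {ψ : V₂ →ₗ[k] V₃}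

/-- `H⁰(V₁) → H⁰(V₂)` is injective. -/
theorem h54c_push0_ker (h : SES ρ₁ ρ₂ ρ₃ φ ψ) : LinearMap.ker (h54c_push0 h.homφ) = ⊥ := by
  rw [LinearMap.ker_eq_bot]
  intro a b hab
  apply Subtype.ext
  apply h.inj
  have := congrArg Subtype.val hab
  simpa using this

/-- exactness at `H⁰(V₂)`. -/
theorem h54c_exact_B0 (h : SES ρ₁ ρ₂ ρ₃ φ ψ) :
    LinearMap.range (h54c_push0 h.homφ) = LinearMap.ker (h54c_push0 h.homψ) := by
  ext v
  rw [LinearMap.mem_range, LinearMap.mem_ker]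
  constructor
  · rintro ⟨u, rfl⟩
    apply Subtype.ext
    simp only [h54c_push0_coe, Submodule.coe_zero]
    exact h.comp_zero _
  · intro hv
    have hv' : ψ (v : V₂) = 0 := by
      have := congrArg Subtype.val hv
      simpa using this
    obtain ⟨u, hu⟩ := (h.exact _).1 hv'
    have hinv : u ∈ ρ₁.invariants := by
      intro g
      apply h.inj
      rw [h.homφ g u, hu]
      exact v.2 g
    exact ⟨⟨u, hinv⟩, Subtype.ext hu⟩

/-- exactness at `HH1(V₂)`. -/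
theorem h54c_exact_B1 (h : SES ρ₁ ρ₂ ρ₃ φ ψ) (hρ₂ : IsDisc L ρ₂) :
    LinearMap.range (h54c_push1 L h.homφ) = LinearMap.ker (h54c_push1 L h.homψ) := by
  ext q
  rw [LinearMap.mem_range, LinearMap.mem_ker]
  constructor
  · rintro ⟨q', rfl⟩
    obtain ⟨x, rfl⟩ := Submodule.Quotient.mk_surjective _ q'
    rw [h54c_push1_mk, h54c_push1_mk, h54c_mk1_eq_zero]
    simp only [h54c_pushZ1_coe]
    rw [h.psi_phi]
    exact (B1 ρ₃).zero_mem
  · intro hq
    obtain ⟨y, rfl⟩ := Submodule.Quotient.mk_surjective _ q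
    rw [h54c_push1_mk, h54c_mk1_eq_zero] at hq
    obtain ⟨x, hx, hxy⟩ := h.mid1 hρ₂ y.2 hq
    refine ⟨Submodule.Quotient.mk ⟨x, hx⟩, ?_⟩
    rw [h54c_push1_mk, eq_comm, h54c_mk1_eq]
    exact hxy

/-- exactness at `HH2(V₂)`. -/
theorem h54c_exact_B2 (h : SES ρ₁ ρ₂ ρ₃ φ ψ) (hL : L.Good) (hρ₂ : IsDisc L ρ₂) :
    LinearMap.range (h54c_push2 L h.homφ) = LinearMap.ker (h54c_push2 L h.homψ) := by
  ext q
  rw [LinearMap.mem_range, LinearMap.mem_ker]
  constructor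
  · rintro ⟨q', rfl⟩
    obtain ⟨x, rfl⟩ := Submodule.Quotient.mk_surjective _ q'
    rw [h54c_push2_mk, h54c_push2_mk, h54c_mk2_eq_zero]
    simp only [h54c_pushZ2_coe]
    rw [h.psi_phi]
    exact (B2 L ρ₃).zero_mem
  · intro hq
    obtain ⟨y, rfl⟩ := Submodule.Quotient.mk_surjective _ q
    rw [h54c_push2_mk, h54c_mk2_eq_zero] at hq
    obtain ⟨x, hx, hxy⟩ := h.mid2 hL hρ₂ y.2 hq
    refine ⟨Submodule.Quotient.mk ⟨x, hx⟩, ?_⟩
    rw [h54c_push2_mk, eq_comm, h54c_mk2_eq]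
    exact hxy

/-- the connecting homomorphism `H⁰(V₃) → HH1(V₁)`. -/
theorem h54c_delta0 (h : SES ρ₁ ρ₂ ρ₃ φ ψ) (hρ₂ : IsDisc L ρ₂) :
    ∃ δ : ↥ρ₃.invariants →ₗ[k] HH1 L ρ₁,
      LinearMap.range (h54c_push0 h.homψ) = LinearMap.ker δ ∧
      LinearMap.range δ = LinearMap.ker (h54c_push1 L h.homφ) := by
  obtain ⟨δ, hδ⟩ := h54c_linear_of_rel (k := k) (M := ↥ρ₃.invariants) (N := HH1 L ρ₁)
    (fun z q => ∃ x : ↥(Z1 L ρ₁), Conn0 ρ₂ φ ψ (z : V₃) (x : G → V₁) ∧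
      Submodule.Quotient.mk x = q)
    (fun z => by
      obtain ⟨x, hx, hc⟩ := h.conn0_exists (L := L) hρ₂ z.2
      exact ⟨_, ⟨x, hx⟩, hc, rfl⟩)
    (fun z q q' => by
      rintro ⟨x, hc, rfl⟩ ⟨x', hc', rfl⟩
      rw [h54c_mk1_eq]
      exact h.conn0_unique hc hc')
    (fun z z' q q' => by
      rintro ⟨x, hc, rfl⟩ ⟨x', hc', rfl⟩
      exact ⟨x + x', hc.add hc', rfl⟩)
    (fun a z q => by
      rintro ⟨x, hc, rfl⟩
      exact ⟨a • x, hc.smul a, rfl⟩)
  refine ⟨δ, ?_, ?_⟩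
  · ext z
    rw [LinearMap.mem_range, LinearMap.mem_ker, hδ]
    constructor
    · rintro ⟨v, rfl⟩
      refine ⟨0, ⟨(v : V₂), rfl, ?_⟩, rfl⟩
      rw [(d0_eq_zero_iff ρ₂ _).2 v.2]
      simp
    · rintro ⟨x, hc, hx⟩
      rw [h54c_mk1_eq_zero] at hx
      obtain ⟨v, hv, hvz⟩ := h.conn0_exact_right hc hx
      exact ⟨⟨v, hv⟩, Subtype.ext hvz⟩
  · ext q
    rw [LinearMap.mem_range, LinearMap.mem_ker]
    constructor
    · rintro ⟨z, rfl⟩
      obtain ⟨x, ⟨v, -, hd⟩, hx⟩ := (hδ z _).1 rfl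
      rw [← hx, h54c_push1_mk, h54c_mk1_eq_zero]
      simp only [h54c_pushZ1_coe]
      exact ⟨v, hd⟩
    · intro hq
      obtain ⟨x, rfl⟩ := Submodule.Quotient.mk_surjective _ q
      rw [h54c_push1_mk, h54c_mk1_eq_zero] at hq
      obtain ⟨z, hz, hc⟩ := h.conn0_exact_left hq
      exact ⟨⟨z, hz⟩, (hδ _ _).2 ⟨x, hc, rfl⟩⟩

/-- the connecting homomorphism `HH1(V₃) → HH2(V₁)`. -/
theorem h54c_delta1 (h : SES ρ₁ ρ₂ ρ₃ φ ψ) (hL : L.Good) (hρ₂ : IsDisc L ρ₂) :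
    ∃ δ : HH1 L ρ₃ →ₗ[k] HH2 L ρ₁,
      LinearMap.range (h54c_push1 L h.homψ) = LinearMap.ker δ ∧
      LinearMap.range δ = LinearMap.ker (h54c_push2 L h.homφ) := by
  obtain ⟨δ, hδ⟩ := h54c_linear_of_rel (k := k) (M := HH1 L ρ₃) (N := HH2 L ρ₁)
    (fun p q => ∃ (z : ↥(Z1 L ρ₃)) (x : ↥(Z2 L ρ₁)),
      Conn1 L ρ₂ φ ψ (z : G → V₃) (x : G × G → V₁) ∧
      Submodule.Quotient.mk z = p ∧ Submodule.Quotient.mk x = q)
    (fun p => by
      obtain ⟨z, rfl⟩ := Submodule.Quotient.mk_surjective _ p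
      obtain ⟨x, hx, hc⟩ := h.conn1_exists hL hρ₂ z.2
      exact ⟨_, z, ⟨x, hx⟩, hc, rfl, rfl⟩)
    (fun p q q' => by
      rintro ⟨z, x, hc, rfl, rfl⟩ ⟨z', x', hc', hzz, rfl⟩
      rw [h54c_mk2_eq]
      rw [h54c_mk1_eq] at hzz
      have hsub := hc'.sub hc
      have := h.conn1_of_cobound hρ₂ hzz hsub
      have h2 := (B2 L ρ₁).neg_mem this
      rwa [neg_sub] at h2)
    (fun p p' q q' => by
      rintro ⟨z, x, hc, rfl, rfl⟩ ⟨z', x', hc', rfl, rfl⟩
      exact ⟨z + z', x + x', hc.add hc', rfl, rfl⟩)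
    (fun a p q => by
      rintro ⟨z, x, hc, rfl, rfl⟩
      exact ⟨a • z, a • x, hc.smul a, rfl, rfl⟩)
  refine ⟨δ, ?_, ?_⟩
  · ext p
    rw [LinearMap.mem_range, LinearMap.mem_ker, hδ]
    constructor
    · rintro ⟨q, rfl⟩
      obtain ⟨y, rfl⟩ := Submodule.Quotient.mk_surjective _ q
      refine ⟨h54c_pushZ1 L h.homψ y, 0, ⟨(y : G → V₂), y.2.2, rfl, ?_⟩, rfl, rfl⟩
      have hy1 : d1 ρ₂ (y : G → V₂) = 0 := ((mem_Z1 L ρ₂ _).1 y.2).1
      rw [hy1]
      simp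
    · rintro ⟨z, x, hc, rfl, hx⟩
      rw [h54c_mk2_eq_zero] at hx
      obtain ⟨y, hy, hyz⟩ := h.conn1_exact_right hc hx
      refine ⟨Submodule.Quotient.mk ⟨y, hy⟩, ?_⟩
      rw [h54c_push1_mk]
      congr 1
      exact Subtype.ext hyz
  · ext q
    rw [LinearMap.mem_range, LinearMap.mem_ker]
    constructor
    · rintro ⟨p, rfl⟩
      obtain ⟨z, x, ⟨c, hc, -, hd⟩, -, hx⟩ := (hδ p _).1 rfl
      rw [← hx, h54c_push2_mk, h54c_mk2_eq_zero]
      simp only [h54c_pushZ2_coe]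
      exact (mem_B2 L ρ₂ _).2 ⟨c, hc, hd⟩
    · intro hq
      obtain ⟨x, rfl⟩ := Submodule.Quotient.mk_surjective _ q
      rw [h54c_push2_mk, h54c_mk2_eq_zero] at hq
      obtain ⟨z, hz, hc⟩ := h.conn1_exact_left hq
      exact ⟨Submodule.Quotient.mk ⟨z, hz⟩, (hδ _ _).2 ⟨⟨z, hz⟩, x, hc, rfl, rfl⟩⟩

end SESmaps

section Count

/-- the middle term of an exact sequence of finite dimensional spaces is finite dimensional. -/
theorem h54c_finite_mid {A B C : Type} [AddCommGroup A] [Module k A] [AddCommGroup B]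
    [Module k B] [AddCommGroup C] [Module k C] [Module.Finite k A] [Module.Finite k C]
    (a : A →ₗ[k] B) (b : B →ₗ[k] C) (e : LinearMap.range a = LinearMap.ker b) :
    Module.Finite k B := by
  have : Module.Finite k ↥(LinearMap.ker b) := by
    rw [← e]
    exact Module.Finite.range a
  have : Module.Finite k (B ⧸ LinearMap.ker b) :=
    Module.Finite.equiv (LinearMap.quotKerEquivRange b).symm
  exact Module.Finite.of_submodule_quotient (LinearMap.ker b)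

/-- rank–nullity along a nine term exact sequence. -/
theorem h54c_nine {A0 B0 C0 A1 B1 C1 A2 B2 C2 : Type}
    [AddCommGroup A0] [Module k A0] [AddCommGroup B0] [Module k B0]
    [AddCommGroup C0] [Module k C0] [AddCommGroup A1] [Module k A1]
    [AddCommGroup B1] [Module k B1] [AddCommGroup C1] [Module k C1]
    [AddCommGroup A2] [Module k A2] [AddCommGroup B2] [Module k B2]
    [AddCommGroup C2] [Module k C2]
    [FiniteDimensional k A0] [FiniteDimensional k B0] [FiniteDimensional k C0]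
    [FiniteDimensional k A1] [FiniteDimensional k B1] [FiniteDimensional k C1]
    [FiniteDimensional k A2] [FiniteDimensional k B2] [FiniteDimensional k C2]
    (a0 : A0 →ₗ[k] B0) (b0 : B0 →ₗ[k] C0) (c0 : C0 →ₗ[k] A1) (a1 : A1 →ₗ[k] B1)
    (b1 : B1 →ₗ[k] C1) (c1 : C1 →ₗ[k] A2) (a2 : A2 →ₗ[k] B2) (b2 : B2 →ₗ[k] C2)
    (h0 : LinearMap.ker a0 = ⊥)
    (e1 : LinearMap.range a0 = LinearMap.ker b0) (e2 : LinearMap.range b0 = LinearMap.ker c0)
    (e3 : LinearMap.range c0 = LinearMap.ker a1) (e4 : LinearMap.range a1 = LinearMap.ker b1)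
    (e5 : LinearMap.range b1 = LinearMap.ker c1) (e6 : LinearMap.range c1 = LinearMap.ker a2)
    (e7 : LinearMap.range a2 = LinearMap.ker b2) :
    (finrank k B0 : ℤ) - finrank k B1 + finrank k B2
        + ((finrank k C2 : ℤ) - finrank k ↥(LinearMap.range b2)) =
      ((finrank k A0 : ℤ) - finrank k A1 + finrank k A2)
        + ((finrank k C0 : ℤ) - finrank k C1 + finrank k C2) := by
  have r1 := LinearMap.finrank_range_add_finrank_ker a0
  have r2 := LinearMap.finrank_range_add_finrank_ker b0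
  have r3 := LinearMap.finrank_range_add_finrank_ker c0
  have r4 := LinearMap.finrank_range_add_finrank_ker a1
  have r5 := LinearMap.finrank_range_add_finrank_ker b1
  have r6 := LinearMap.finrank_range_add_finrank_ker c1
  have r7 := LinearMap.finrank_range_add_finrank_ker a2
  have r8 := LinearMap.finrank_range_add_finrank_ker b2
  rw [h0, finrank_bot] at r1
  rw [← e1] at r2
  rw [← e2] at r3
  rw [← e3] at r4
  rw [← e4] at r5
  rw [← e5] at r6
  rw [← e6] at r7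
  rw [← e7] at r8
  omega

end Count

section Euler

variable {V₁ V₂ V₃ : Type} [AddCommGroup V₁] [Module k V₁] [AddCommGroup V₂] [Module k V₂]
  [AddCommGroup V₃] [Module k V₃]
variable {ρ₁ : Representation k G V₁} {ρ₂ : Representation k G V₂}
  {ρ₃ : Representation k G V₃} {φ : V₁ →ₗ[k] V₂} {ψ : V₂ →ₗ[k] V₃}

/-- the truncated Euler characteristic `h⁰ - h¹ + h²`. -/
def h54c_chi {V : Type} [AddCommGroup V] [Module k V] (L : Lev G) (ρ : Representation k G V) :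
    ℤ :=
  (finrank k ↥ρ.invariants : ℤ) - finrank k (HH1 L ρ) + finrank k (HH2 L ρ)

/-- finiteness of `HH1`, `HH2` of the middle term, and the Euler characteristic identity. -/
theorem h54c_ses_euler (h : SES ρ₁ ρ₂ ρ₃ φ ψ) (hL : L.Good) (hρ₂ : IsDisc L ρ₂)
    [FiniteDimensional k V₂]
    (hA1 : Module.Finite k (HH1 L ρ₁)) (hA2 : Module.Finite k (HH2 L ρ₁))
    (hC1 : Module.Finite k (HH1 L ρ₃)) (hC2 : Module.Finite k (HH2 L ρ₃)) :
    Module.Finite k (HH1 L ρ₂) ∧ Module.Finite k (HH2 L ρ₂) ∧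
    ∃ e : ℕ, h54c_chi L ρ₂ + e = h54c_chi L ρ₁ + h54c_chi L ρ₃ ∧
      (e = 0 → ∀ z ∈ Z2 L ρ₃, ∃ y ∈ Z2 L ρ₂, z - ψ.compLeft (G × G) y ∈ B2 L ρ₃) := by
  have : FiniteDimensional k V₁ := Module.Finite.of_injective φ h.inj
  have : FiniteDimensional k V₃ := Module.Finite.of_surjective ψ h.surj
  obtain ⟨δ0, hδ0a, hδ0b⟩ := h54c_delta0 (L := L) h hρ₂
  obtain ⟨δ1, hδ1a, hδ1b⟩ := h54c_delta1 h hL hρ₂
  have hB1 : Module.Finite k (HH1 L ρ₂) :=
    h54c_finite_mid _ _ (h54c_exact_B1 h hρ₂)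
  have hB2 : Module.Finite k (HH2 L ρ₂) :=
    h54c_finite_mid _ _ (h54c_exact_B2 h hL hρ₂)
  refine ⟨hB1, hB2, ?_⟩
  have hnine := h54c_nine (h54c_push0 h.homφ) (h54c_push0 h.homψ) δ0
    (h54c_push1 L h.homφ) (h54c_push1 L h.homψ) δ1 (h54c_push2 L h.homφ)
    (h54c_push2 L h.homψ) (h54c_push0_ker h) (h54c_exact_B0 h) hδ0a hδ0b
    (h54c_exact_B1 h hρ₂) hδ1a hδ1b (h54c_exact_B2 h hL hρ₂)
  have hle : finrank k ↥(LinearMap.range (h54c_push2 L h.homψ)) ≤ finrank k (HH2 L ρ₃) :=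
    Submodule.finrank_le _
  refine ⟨finrank k (HH2 L ρ₃) - finrank k ↥(LinearMap.range (h54c_push2 L h.homψ)), ?_, ?_⟩
  · unfold h54c_chi
    rw [Nat.cast_sub hle]
    linarith
  · intro he z hz
    have heq : finrank k ↥(LinearMap.range (h54c_push2 L h.homψ)) = finrank k (HH2 L ρ₃) := by
      omega
    have htop := Submodule.eq_top_of_finrank_eq heq
    have hmem : (Submodule.Quotient.mk ⟨z, hz⟩ : HH2 L ρ₃) ∈
        LinearMap.range (h54c_push2 L h.homψ) := by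
      rw [htop]
      exact Submodule.mem_top
    obtain ⟨q, hq⟩ := hmem
    obtain ⟨y, rfl⟩ := Submodule.Quotient.mk_surjective _ q
    rw [h54c_push2_mk, eq_comm, h54c_mk2_eq] at hq
    exact ⟨(y : G × G → V₂), y.2, hq⟩

/-- if `HH2(V₂) → HH2(V₃)` is onto, then `H³(V₁) → H³(V₂)` is injective (cocycle form). -/
theorem h54c_ses_inj3 (h : SES ρ₁ ρ₂ ρ₃ φ ψ) (hL : L.Good) (hρ₂ : IsDisc L ρ₂)
    (hsurj : ∀ z ∈ Z2 L ρ₃, ∃ y ∈ Z2 L ρ₂, z - ψ.compLeft (G × G) y ∈ B2 L ρ₃)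
    {x : G × G × G → V₁} (hφx : φ.compLeft (G × G × G) x ∈ B3 L ρ₂) : x ∈ B3 L ρ₁ := by
  obtain ⟨z, hz, hc⟩ := h.conn2_exact_left hφx
  obtain ⟨y, hy, hzy⟩ := hsurj z hz
  have hc' : Conn2 L ρ₂ φ ψ (ψ.compLeft (G × G) y) (0 : G × G × G → V₁) := by
    refine ⟨y, ((mem_Z2 L ρ₂ y).1 hy).2, rfl, ?_⟩
    rw [((mem_Z2 L ρ₂ y).1 hy).1]
    simp
  have hsub := hc.sub hc'
  rw [sub_zero] at hsub
  exact h.conn2_of_cobound hL hρ₂ hzy hsub

end Euler



end H54ChiLES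

end Fermat.Agent.PT
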