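import Fermat.Agent.PT.Alg.Chi2Iface
import Fermat.Agent.PT.Alg.H54ChiLES

/-!
# W3-PT / ALG-CHI2, leaf CHI2-E1 (helper87): `Chi2SES`

`χ₂ = h⁰ - h¹ + h²` is sub-additive in short exact sequences of finite dimensional uniformly
discrete representations, and equality forces `H³(V₁) → H³(V₂)` to be injective.

This is the frozen leaf `Fermat.Agent.PT.Chi2SES` of `PT/Alg/Chi2Iface.lean`, obtained from the
long exact sequence in linear form of `PT/Alg/H54ChiLES.lean` (helper54: `h54c_ses_euler`,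
`h54c_ses_inj3`).
-/

set_option autoImplicit false

namespace Fermat.Agent.PT

open Fermat.Agent.PT.Tools

/-- (CHI2-E1) the leaf `Chi2SES`. -/
theorem h87c_chi2SES : Chi2SES := by
  intro k _ G _ L hL V₁ V₂ V₃ _ _ _ _ _ _ _ ρ₁ ρ₂ ρ₃ φ ψ hφ hψ hinj hsurj hex hunif hF1 hF3
  have h : SES ρ₁ ρ₂ ρ₃ φ ψ :=
    { homφ := hφ
      homψ := hψ
      inj := hinj
      surj := hsurj
      exact := fun v => by
        rw [← LinearMap.mem_ker, ← hex, LinearMap.mem_range] }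
  have hρ₂ : IsDisc L ρ₂ := by
    obtain ⟨N, hN, hfix⟩ := hunif
    exact fun v => ⟨N, hN, fun s hs => hfix s hs v⟩
  obtain ⟨hB1, hB2, e, he, hesurj⟩ := h54c_ses_euler h hL hρ₂ hF1.1 hF1.2 hF3.1 hF3.2
  have he' : chi2 L ρ₂ + (e : ℤ) = chi2 L ρ₁ + chi2 L ρ₃ := he
  refine ⟨⟨hB1, hB2⟩, ?_, ?_⟩
  · have he0 : (0 : ℤ) ≤ (e : ℤ) := Int.natCast_nonneg e
    linarith
  · intro heq c hc hφc
    have he0 : e = 0 := by
      have : (e : ℤ) = 0 := by linarith
      exact_mod_cast this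
    exact h54c_ses_inj3 h hL hρ₂ (hesurj he0) hφc

end Fermat.Agent.PT
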