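import Mathlib
import Fermat.Agent.PT.Alg.Chi2Asm
import Fermat.Agent.PT.Alg.H87Chi2SES
import Fermat.Agent.PT.Alg.H12Chi2Unip
import Fermat.Agent.PT.Alg.H2Chi2Shap

/-!
# W3-PT / ALG-CHI2: the partial Euler characteristic (unconditional)

* `chi2Ineq : Chi2Ineq` : `χ₂(V) ≤ p χ₂(U)` for `V` normal of index `p` in `U`;
* `chi2Res  : Chi2Res`  : in case of equality `res : H³(U, k) → H³(V, k)` is injective;
* `chi2Van  : Chi2Van`  : equality for all index-`p` steps implies `H³ = 0`.

Leaves: `h87c_chi2SES` (helper87), `h12u_chi2Unip` (helper12), `h2c_chi2Shap` (helper2),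
assembly `h98c_*` (helper98).
-/

set_option autoImplicit false

namespace Fermat.Agent.PT

theorem chi2Unip : Chi2Unip := h12u_chi2Unip h87c_chi2SES

theorem chi2Ineq : Chi2Ineq := h98c_chi2Ineq chi2Unip h2c_chi2Shap

theorem chi2Res : Chi2Res := h98c_chi2Res chi2Unip h2c_chi2Shap

theorem chi2Van : Chi2Van := h98c_chi2Van chi2Res h2c_chi2Shap

end Fermat.Agent.PT
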