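import Mathlib
import Fermat.Agent.PT.Defs

/-!
# W3-PT / ALG-COUNT, GLUE part (helper42)

Small lemmas turning the hypotheses of `Count2` (frame v1.2) into the hypotheses of the abstract
counting theorem `h93c_count` (helper93, CORE):

* `h42g_finite_Z1`, `h42g_finite_ZC1`, `h42g_finite_HC1` : `H¹` finite and `V` finite dimensional
  give `H¹_c` finite (indeed the cone cocycles `ZC1` are already finite dimensional).
* `h42g_repAt_dualTw` : restriction to a local group commutes with the twisted dual.
* `h42g_isEquivariant_id` : the evaluation pairing `ρ^D × ρ → k(χ)` is equivariant.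
* `h42g_hL0` : the first half of the local duality `LPerf2` for `(ρ, ρ^D, eval)` is the local
  injectivity hypothesis of the CORE for `(ρ^D, ρ, id)`.
-/

set_option autoImplicit false

namespace Fermat.Agent.PT

section Finite

variable {k : Type} [Field k] {G : Type} [Group G] (L : Lev G)
variable {V : Type} [AddCommGroup V] [Module k V] (ρ : Representation k G V)

/-- If `V` is finite dimensional and `H¹` is finite dimensional, then so is `Z¹`. -/
theorem h42g_finite_Z1 [FiniteDimensional k V] (h1 : Module.Finite k (HH1 L ρ)) :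
    Module.Finite k ↥(Z1 L ρ) := by
  have : Module.Finite k ↥(B1 ρ) := by
    unfold B1
    infer_instance
  have : Module.Finite k ↥((B1 ρ).comap (Z1 L ρ).subtype) := by
    let f : ↥((B1 ρ).comap (Z1 L ρ).subtype) →ₗ[k] ↥(B1 ρ) :=
      { toFun := fun x => ⟨x.1.1, x.2⟩
        map_add' := fun _ _ => rfl
        map_smul' := fun _ _ => rfl }
    refine Module.Finite.of_injective f ?_
    intro x y hxy
    have h : (x.1.1 : G → V) = y.1.1 := congrArg (fun t : ↥(B1 ρ) => (t : G → V)) hxy
    exact Subtype.ext (Subtype.ext h)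
  have : Module.Finite k (↥(Z1 L ρ) ⧸ (B1 ρ).comap (Z1 L ρ).subtype) := h1
  exact Module.Finite.of_submodule_quotient ((B1 ρ).comap (Z1 L ρ).subtype)

end Finite

section Cone

variable {k : Type} [Field k] (D : Datum k)
variable {V : Type} [AddCommGroup V] [Module k V] (ρ : Representation k D.G V)

/-- The global component of a cone `1`-cocycle is a `1`-cocycle. -/
theorem h42g_fst_mem_Z1 {z : D.CC1 V} (hz : z ∈ D.ZC1 ρ) : z.1 ∈ Z1 D.lev ρ := by
  obtain ⟨hker, hlc⟩ := hz
  refine ⟨?_, hlc.1⟩
  have h := congrArg Prod.fst (LinearMap.mem_ker.mp hker)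
  simpa using h

/-- If `V` is finite dimensional and `H¹` is finite dimensional, then the cone `1`-cocycles
form a finite dimensional space. -/
theorem h42g_finite_ZC1 [FiniteDimensional k V] (h1 : Module.Finite k (HH1 D.lev ρ)) :
    Module.Finite k ↥(D.ZC1 ρ) := by
  have : Module.Finite k ↥(Z1 D.lev ρ) := h42g_finite_Z1 D.lev ρ h1
  let f : ↥(D.ZC1 ρ) →ₗ[k] ↥(Z1 D.lev ρ) × (D.P → V) :=
    { toFun := fun z => (⟨z.1.1, h42g_fst_mem_Z1 D ρ z.2⟩, z.1.2)
      map_add' := fun _ _ => rfl
      map_smul' := fun _ _ => rfl }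
  refine Module.Finite.of_injective f ?_
  intro x y hxy
  have h1 : (x.1.1 : D.G → V) = y.1.1 :=
    congrArg (fun t : ↥(Z1 D.lev ρ) × (D.P → V) => (t.1 : D.G → V)) hxy
  have h2 : (x.1.2 : D.P → V) = y.1.2 :=
    congrArg (fun t : ↥(Z1 D.lev ρ) × (D.P → V) => t.2) hxy
  exact Subtype.ext (Prod.ext h1 h2)

/-- If `V` is finite dimensional and `H¹` is finite dimensional, then so is `H¹_c`. -/
theorem h42g_finite_HC1 [FiniteDimensional k V] (h1 : Module.Finite k (HH1 D.lev ρ)) :
    Module.Finite k (D.HC1 ρ) := by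
  have : Module.Finite k ↥(D.ZC1 ρ) := h42g_finite_ZC1 D ρ h1
  infer_instance

end Cone

section Dual

variable {k : Type} [Field k] (D : Datum k)
variable {V : Type} [AddCommGroup V] [Module k V] (ρ : Representation k D.G V)

/-- Restriction to the local group commutes with the twisted dual. -/
theorem h42g_repAt_dualTw (v : D.P) :
    D.repAt (dualTw D.chi ρ) v = dualTw (D.chiAt v) (D.repAt ρ v) := by
  refine MonoidHom.ext fun h => ?_
  refine LinearMap.ext fun f => ?_
  rw [dualTw_apply]
  change dualTw D.chi ρ (D.loc v h) f = _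
  rw [dualTw_apply]
  simp only [Datum.repAt, Datum.chiAt, resRep_apply, MonoidHom.comp_apply, map_inv]

/-- The evaluation pairing `ρ^D × ρ → k(χ)` is equivariant. -/
theorem h42g_isEquivariant_id {G : Type} [Group G] (χ : G →* kˣ) (ρ : Representation k G V) :
    IsEquivariant χ (dualTw χ ρ) ρ (LinearMap.id : Module.Dual k V →ₗ[k] Module.Dual k V) := by
  intro g f w
  rw [dualTw_apply]
  simp only [LinearMap.id_coe, id_eq, LinearMap.smul_apply, LinearMap.coe_comp,
    Function.comp_apply, smul_eq_mul]
  rw [← Module.End.mul_apply, ← map_mul, inv_mul_cancel, map_one, Module.End.one_apply]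

/-- For an invariant functional `w` the two cup products `y ∪ w` (via `eval`) and `w ∪ y`
(via `id`) are the same `2`-cochain. -/
theorem h42g_cup20_eq_cup02 {H : Type} [Group H] (χ : H →* kˣ) (τ : Representation k H V)
    (y : H × H → V) (w : Module.Dual k V) (hw : w ∈ (dualTw χ τ).invariants) :
    cup20 (Module.Dual.eval k V) (dualTw χ τ) y w =
      cup02 (LinearMap.id : Module.Dual k V →ₗ[k] Module.Dual k V) w y := by
  funext p
  obtain ⟨g, h⟩ := p
  rw [cup20_apply, cup02_apply, (Representation.mem_invariants _ _).mp hw (g * h)]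
  rfl

/-- The first half of the local duality `LPerf2` for `(ρ, ρ^D, eval)` gives the local
injectivity `H²_v(ρ) ↪ H⁰_v(ρ^D)^*` in the form used by the abstract count. -/
theorem h42g_hL0 (tr : D.CC3 k →ₗ[k] k)
    (hL : ∀ v, LPerf2 (D.levH v) (D.invAt tr v) (D.repAt ρ v)
      (dualTw (D.chiAt v) (D.repAt ρ v)) (Module.Dual.eval k V)) :
    ∀ v, ∀ y ∈ Z2 (D.levH v) (D.repAt ρ v),
      (∀ b ∈ (D.repAt (dualTw D.chi ρ) v).invariants,
        D.invAt tr v (cup02 (LinearMap.id : Module.Dual k V →ₗ[k] Module.Dual k V) b y) = 0) →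
      y ∈ B2 (D.levH v) (D.repAt ρ v) := by
  intro v y hy h
  refine (hL v).1 y hy ?_
  intro w hw
  rw [h42g_cup20_eq_cup02 (D.chiAt v) (D.repAt ρ v) y w hw]
  exact h w (by rw [h42g_repAt_dualTw]; exact hw)

end Dual

end Fermat.Agent.PT
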