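import Mathlib
import Fermat.Agent.PT.Defs
import Fermat.Agent.PT.Iface
import Fermat.Agent.PT.Iface2
import Fermat.Agent.PT.Alg.H42CountGlue

/-!
# W3-PT / ALG-COUNT: `Count2` from the abstract counting theorem (helper42)

`h42g_Core` is the statement of the abstract counting theorem (CORE, helper93: `h93c_count`):
for an equivariant pairing `β : ρ × σ → k(χ)` with `σ` discrete, the first duality `Perf1`, the
local injectivity `H²_v(σ) ↪ H⁰_v(ρ)^*` and `H¹_c(ρ)` finite dimensional give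
`dim Ш¹(ρ) = dim Ш²(σ)`.  `h42g_count2_of_core : h42g_Core → Count2` is the specialisation
`ρ := σ₀^D`, `σ := σ₀`, `β := id`.
-/

set_option autoImplicit false

namespace Fermat.Agent.PT

/-- The statement of the abstract counting theorem (CORE). -/
def h42g_Core : Prop :=
  ∀ {k : Type} [Field k] (D : Datum k) (_hg : D.Good) {V W : Type} [AddCommGroup V] [Module k V]
    [AddCommGroup W] [Module k W] (ρ : Representation k D.G V) (σ : Representation k D.G W)
    (tr : D.CC3 k →ₗ[k] k) (β : V →ₗ[k] W →ₗ[k] k) (_hβ : IsEquivariant D.chi ρ σ β)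
    (_hσ : IsDisc D.lev σ) (_htr : D.TrOK tr) (_hP1 : D.Perf1 ρ σ tr β)
    (_hL0 : ∀ v, ∀ y ∈ Z2 (D.levH v) (D.repAt σ v),
      (∀ b ∈ (D.repAt ρ v).invariants, D.invAt tr v (cup02 β b y) = 0) →
        y ∈ B2 (D.levH v) (D.repAt σ v))
    (_hfin : Module.Finite k (D.HC1 ρ)),
    Module.Finite k (D.Sha1 ρ) ∧ Module.Finite k (D.Sha2 σ) ∧
      Module.finrank k (D.Sha1 ρ) = Module.finrank k (D.Sha2 σ)

/-- `Count2` (frame v1.2) from the abstract counting theorem. -/
theorem h42g_count2_of_core (hcore : h42g_Core) : Count2 := by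
  intro k _ D tr hg htr V _ _ _ ρ hd hVV hP1 hL
  have hfin : Module.Finite k (D.HC1 (dualTw D.chi ρ)) :=
    h42g_finite_HC1 D (dualTw D.chi ρ) hVV.1
  obtain ⟨f1, f2, heq⟩ := hcore D hg (dualTw D.chi ρ) ρ tr
    (LinearMap.id : Module.Dual k V →ₗ[k] Module.Dual k V)
    (h42g_isEquivariant_id D.chi ρ) hd htr hP1 (h42g_hL0 D ρ tr hL) hfin
  exact ⟨f2, f1, heq.symm⟩

end Fermat.Agent.PT
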