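import Mathlib

/-!
# W3-PT, COUNT (abstract linear algebra)

`h93c_abs`: for a bilinear pairing `P : X × Y → k` whose left and right kernels are `X₀`, `Y₀`
with `X ⧸ X₀` finite-dimensional, and a submodule `K ≥ X₀` with annihilator `Y₁`,
the pairing induces an isomorphism `Y₁ ⧸ Y₀ ≃ (X ⧸ K)^*`.
-/

set_option autoImplicit false
set_option linter.style.haveILetI false

namespace Fermat.Agent.PT

section Abs

variable {k X Y : Type*} [Field k] [AddCommGroup X] [Module k X] [AddCommGroup Y] [Module k Y]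

/-- the functional `x mod K ↦ P x y` for `y` in the annihilator of `K`. -/
noncomputable def h93c_psi (P : X →ₗ[k] Y →ₗ[k] k) (K : Submodule k X) (Y₁ : Submodule k Y)
    (hY₁ : ∀ y ∈ Y₁, ∀ x ∈ K, P x y = 0) : Y₁ →ₗ[k] Module.Dual k (X ⧸ K) where
  toFun y := K.liftQ (P.flip y.1) (fun x hx => by
    simp only [LinearMap.mem_ker, LinearMap.flip_apply]
    exact hY₁ y.1 y.2 x hx)
  map_add' y y' := by
    ext x
    simp [LinearMap.flip_apply]
  map_smul' c y := by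
    ext x
    simp [LinearMap.flip_apply]

@[simp] lemma h93c_psi_apply (P : X →ₗ[k] Y →ₗ[k] k) (K : Submodule k X) (Y₁ : Submodule k Y)
    (hY₁ : ∀ y ∈ Y₁, ∀ x ∈ K, P x y = 0) (y : Y₁) (x : X) :
    h93c_psi P K Y₁ hY₁ y (Submodule.Quotient.mk x) = P x y.1 := rfl

/-- injectivity modulo the right kernel gives a dimension bound. -/
lemma h93c_finrank_le (P : X →ₗ[k] Y →ₗ[k] k) (X₀ : Submodule k X) (Y₀ : Submodule k Y)
    (hX₀ : ∀ x ∈ X₀, ∀ y, P x y = 0)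
    (hY₀ : ∀ y, (∀ x, P x y = 0) → y ∈ Y₀)
    [Module.Finite k (X ⧸ X₀)] :
    Module.Finite k (Y ⧸ Y₀) ∧ Module.finrank k (Y ⧸ Y₀) ≤ Module.finrank k (X ⧸ X₀) := by
  -- the map `Y → (X/X₀)^*`
  let Ψ : Y →ₗ[k] Module.Dual k (X ⧸ X₀) :=
    (h93c_psi P X₀ ⊤ (fun y _ x hx => hX₀ x hx y)).comp
      (LinearMap.codRestrict ⊤ LinearMap.id (fun _ => Submodule.mem_top))
  have hΨ : ∀ (y : Y) (x : X), Ψ y (Submodule.Quotient.mk x) = P x y := fun y x => rfl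
  have hker : LinearMap.ker Ψ ≤ Y₀ := by
    intro y hy
    apply hY₀
    intro x
    rw [← hΨ, LinearMap.mem_ker.mp hy]
    rfl
  -- induced injective map `Y/Y₀ → (X/X₀)^*`?  we only know ker ≤ Y₀, so use `Y/ker ↠ Y/Y₀`
  have hfin : Module.Finite k (Y ⧸ LinearMap.ker Ψ) := by
    have e := Ψ.quotKerEquivRange
    exact Module.Finite.equiv e.symm
  have hle1 : Module.finrank k (Y ⧸ LinearMap.ker Ψ) ≤ Module.finrank k (X ⧸ X₀) := by
    rw [LinearEquiv.finrank_eq Ψ.quotKerEquivRange]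
    calc Module.finrank k (LinearMap.range Ψ) ≤ Module.finrank k (Module.Dual k (X ⧸ X₀)) :=
          Submodule.finrank_le _
      _ = Module.finrank k (X ⧸ X₀) := Subspace.dual_finrank_eq
  let q : (Y ⧸ LinearMap.ker Ψ) →ₗ[k] (Y ⧸ Y₀) := Submodule.factor hker
  have hq : Function.Surjective q := Submodule.factor_surjective hker
  refine ⟨Module.Finite.of_surjective q hq, ?_⟩
  exact (LinearMap.finrank_le_finrank_of_surjective hq).trans hle1

/-- **COUNT, abstract form.** -/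
theorem h93c_abs (P : X →ₗ[k] Y →ₗ[k] k) (X₀ K : Submodule k X) (Y₀ Y₁ : Submodule k Y)
    (hX₀ : ∀ x, x ∈ X₀ ↔ ∀ y, P x y = 0)
    (hY₀ : ∀ y, y ∈ Y₀ ↔ ∀ x, P x y = 0)
    (hK : X₀ ≤ K)
    (hY₁ : ∀ y, y ∈ Y₁ ↔ ∀ x ∈ K, P x y = 0)
    [Module.Finite k (X ⧸ X₀)] :
    ∃ e : (Y₁ ⧸ Y₀.comap Y₁.subtype) ≃ₗ[k] Module.Dual k (X ⧸ K),
      ∀ (y : Y₁) (x : X), e (Submodule.Quotient.mk y) (Submodule.Quotient.mk x) = P x y.1 := by
  -- dimensions
  obtain ⟨hfY, hle⟩ := h93c_finrank_le P X₀ Y₀ (fun x hx => (hX₀ x).1 hx)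
    (fun y hy => (hY₀ y).2 hy)
  haveI := hfY
  obtain ⟨_, hge⟩ := h93c_finrank_le P.flip Y₀ X₀ (fun y hy x => (hY₀ y).1 hy x)
    (fun x hx => (hX₀ x).2 hx)
  have hdim : Module.finrank k (Y ⧸ Y₀) = Module.finrank k (X ⧸ X₀) := le_antisymm hle hge
  -- the injective map `Y/Y₀ → (X/X₀)^*` is bijective
  let Ψ₀ : Y →ₗ[k] Module.Dual k (X ⧸ X₀) :=
    (h93c_psi P X₀ ⊤ (fun y _ x hx => (hX₀ x).1 hx y)).comp
      (LinearMap.codRestrict ⊤ LinearMap.id (fun _ => Submodule.mem_top))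
  have hΨ₀ : ∀ (y : Y) (x : X), Ψ₀ y (Submodule.Quotient.mk x) = P x y := fun y x => rfl
  have hker₀ : LinearMap.ker Ψ₀ = Y₀ := by
    ext y
    rw [hY₀, LinearMap.mem_ker]
    constructor
    · intro h x
      rw [← hΨ₀, h]; rfl
    · intro h
      ext x
      simp only [LinearMap.coe_comp, Function.comp_apply, Submodule.mkQ_apply]
      rw [hΨ₀, h x]; rfl
  have hsurj₀ : Function.Surjective Ψ₀ := by
    rw [← LinearMap.range_eq_top]
    apply Submodule.eq_top_of_finrank_eq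
    rw [← LinearEquiv.finrank_eq Ψ₀.quotKerEquivRange, Subspace.dual_finrank_eq, ← hdim]
    exact LinearEquiv.finrank_eq (Submodule.quotEquivOfEq _ _ hker₀)
  -- the map on `Y₁`
  let Ψ : Y₁ →ₗ[k] Module.Dual k (X ⧸ K) :=
    h93c_psi P K Y₁ (fun y hy x hx => (hY₁ y).1 hy x hx)
  have hΨsurj : Function.Surjective Ψ := by
    intro φ
    obtain ⟨y, hy⟩ := hsurj₀ (φ.comp (Submodule.factor hK))
    have hyx : ∀ x, P x y = φ (Submodule.Quotient.mk x) := by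
      intro x
      rw [← hΨ₀, hy]
      rfl
    have hy₁ : y ∈ Y₁ := by
      rw [hY₁]
      intro x hx
      rw [hyx, (Submodule.Quotient.mk_eq_zero K).mpr hx, map_zero]
    refine ⟨⟨y, hy₁⟩, ?_⟩
    ext x
    simp only [LinearMap.coe_comp, Function.comp_apply, Submodule.mkQ_apply]
    rw [h93c_psi_apply]
    exact hyx x
  have hΨker : LinearMap.ker Ψ = Y₀.comap Y₁.subtype := by
    ext y
    rw [LinearMap.mem_ker, Submodule.mem_comap, hY₀]
    constructor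
    · intro h x
      have h2 : Ψ y (Submodule.Quotient.mk x) = 0 := by rw [h]; rfl
      exact h2
    · intro h
      ext x
      simp only [LinearMap.coe_comp, Function.comp_apply, Submodule.mkQ_apply]
      rw [h93c_psi_apply]
      exact h x
  refine ⟨(Submodule.quotEquivOfEq _ _ hΨker.symm).trans (Ψ.quotKerEquivOfSurjective hΨsurj), ?_⟩
  intro y x
  rfl

/-- **COUNT, abstract form with explicit models** `A` of `X ⧸ K` and `B` of `Y₁ ⧸ Y₀`. -/
theorem h93c_abs_finrank {A B : Type*} [AddCommGroup A] [Module k A] [AddCommGroup B]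
    [Module k B] (P : X →ₗ[k] Y →ₗ[k] k) (X₀ : Submodule k X) (Y₀ Y₁ : Submodule k Y)
    (hX₀ : ∀ x, x ∈ X₀ ↔ ∀ y, P x y = 0)
    (hY₀ : ∀ y, y ∈ Y₀ ↔ ∀ x, P x y = 0)
    (φ : X →ₗ[k] A) (hφ : Function.Surjective φ) (hφ₀ : ∀ x ∈ X₀, φ x = 0)
    (hY₁ : ∀ y, y ∈ Y₁ ↔ ∀ x, φ x = 0 → P x y = 0)
    (ψ : Y₁ →ₗ[k] B) (hψ : Function.Surjective ψ) (hψ₀ : ∀ y : Y₁, ψ y = 0 ↔ (y : Y) ∈ Y₀)
    [Module.Finite k (X ⧸ X₀)] :
    Module.Finite k A ∧ Module.Finite k B ∧ Module.finrank k A = Module.finrank k B := by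
  have hK : X₀ ≤ LinearMap.ker φ := fun x hx => LinearMap.mem_ker.mpr (hφ₀ x hx)
  obtain ⟨e, -⟩ := h93c_abs P X₀ (LinearMap.ker φ) Y₀ Y₁ hX₀ hY₀ hK
    (fun y => by
      rw [hY₁ y]
      exact ⟨fun h x hx => h x (LinearMap.mem_ker.mp hx),
        fun h x hx => h x (LinearMap.mem_ker.mpr hx)⟩)
  have eA : (X ⧸ LinearMap.ker φ) ≃ₗ[k] A := φ.quotKerEquivOfSurjective hφ
  have hker : LinearMap.ker ψ = Y₀.comap Y₁.subtype := by
    ext y
    rw [LinearMap.mem_ker, hψ₀ y]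
    rfl
  have eB : (Y₁ ⧸ Y₀.comap Y₁.subtype) ≃ₗ[k] B :=
    (Submodule.quotEquivOfEq _ _ hker.symm).trans (ψ.quotKerEquivOfSurjective hψ)
  haveI : Module.Finite k (X ⧸ LinearMap.ker φ) :=
    Module.Finite.of_surjective (Submodule.factor hK) (Submodule.factor_surjective hK)
  haveI hA : Module.Finite k A := Module.Finite.equiv eA
  haveI hB : Module.Finite k B := Module.Finite.equiv (e.symm.trans eB)
  refine ⟨hA, hB, ?_⟩
  rw [← LinearEquiv.finrank_eq eA, ← LinearEquiv.finrank_eq eB, LinearEquiv.finrank_eq e,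
    Subspace.dual_finrank_eq]

end Abs

end Fermat.Agent.PT
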