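import Fermat.Agent.PT.Defs

/-!
# W3-PT, COUNT: the cochain identities (Leibniz rules in low degree)

* `h93c_leib_d0_glob` : `d⁰α ∪ y = d²(α ∪ y)` for a `2`-cocycle `y`;
* `h93c_leib_d1_glob` : `a ∪ d¹x = - d²(a ∪ x)` for a `1`-cocycle `a`;
* `h93c_leib_d1_loc`  : `d⁰b ∪ x - d¹(b ∪ x) = - b ∪ d¹x`;
* `h93c_leib_loc`     : `b ∪ d¹x = d¹(b ∪ x)` for an invariant vector `b`.
-/

set_option autoImplicit false
set_option linter.style.haveILetI false
set_option linter.unusedSectionVars false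

namespace Fermat.Agent.PT

open Datum

section Local

variable {k : Type} [Field k] {H : Type} [Group H] (χ : H →* kˣ)
variable {V W : Type} [AddCommGroup V] [Module k V] [AddCommGroup W] [Module k W]
variable (ρ : Representation k H V) (σ : Representation k H W) (β : V →ₗ[k] W →ₗ[k] k)

/-- `b ∪ x` for a vector `b` and a `1`-cochain `x`. -/
def h93c_cup01 (b : V) (x : H → W) : H → k := fun g => β b (x g)

@[simp] lemma h93c_cup01_apply (b : V) (x : H → W) (g : H) :
    h93c_cup01 β b x g = β b (x g) := rfl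

/-- `b ∪ d¹x = d¹(b ∪ x)` for an invariant vector `b`. -/
theorem h93c_leib_loc (hβ : IsEquivariant χ ρ σ β) (b : V) (hb : ∀ g, ρ g b = b) (x : H → W) :
    cup02 β b (d1 σ x) = d1 (chiRep χ) (h93c_cup01 β b x) := by
  funext ⟨g, h⟩
  simp only [cup02_apply, d1_apply, h93c_cup01_apply, chiRep_apply, map_add, map_sub]
  have h1 : β b (σ g (x h)) = (χ g : k) * β b (x h) := by
    have := hβ g b (x h)
    rwa [hb g] at this
  rw [h1]

/-- `d⁰α ∪ y = d²(α ∪ y)` for a `2`-cocycle `y`. -/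
theorem h93c_leib_d0_glob (hβ : IsEquivariant χ ρ σ β) (α : V) (y : H × H → W)
    (hy : d2 σ y = 0) :
    cup12 β σ (d0 ρ α) y = d2 (chiRep χ) (cup02 β α y) := by
  funext ⟨g, h, j⟩
  have hy' := congrFun hy (g, h, j)
  simp only [d2_apply, Pi.zero_apply] at hy'
  simp only [cup12_apply, d0_apply, d2_apply, cup02_apply, chiRep_apply, map_sub,
    LinearMap.sub_apply]
  have h1 : β (ρ g α) (σ g (y (h, j))) = (χ g : k) * β α (y (h, j)) := hβ g α (y (h, j))
  have h2 : σ g (y (h, j)) = y (g * h, j) - y (g, h * j) + y (g, h) := by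
    rw [← sub_eq_zero, ← hy']
    abel
  rw [h1, h2]
  simp only [map_add, map_sub]
  ring

/-- `a ∪ d¹x = - d²(a ∪ x)` for a `1`-cocycle `a`. -/
theorem h93c_leib_d1_glob (hβ : IsEquivariant χ ρ σ β) (a : H → V) (ha : d1 ρ a = 0)
    (x : H → W) :
    cup12 β σ a (d1 σ x) = - d2 (chiRep χ) (cup11 β σ a x) := by
  funext ⟨g, h, j⟩
  have ha' := congrFun ha (g, h)
  simp only [d1_apply, Pi.zero_apply] at ha'
  simp only [cup12_apply, d1_apply, d2_apply, cup11_apply, chiRep_apply, Pi.neg_apply, map_add,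
    map_sub, map_mul]
  have h1 : β (ρ g (a h)) (σ g (σ h (x j))) = (χ g : k) * β (a h) (σ h (x j)) :=
    hβ g (a h) (σ h (x j))
  have h2 : a (g * h) = ρ g (a h) + a g := by
    have h3 : ρ g (a h) + a g - a (g * h) = 0 := by
      rw [← ha']
      abel
    exact (sub_eq_zero.mp h3).symm
  rw [h2]
  simp only [map_add, LinearMap.add_apply, Module.End.mul_apply]
  rw [h1]
  ring

/-- `d⁰b ∪ x - d¹(b ∪ x) = - b ∪ d¹x`. -/
theorem h93c_leib_d1_loc (hβ : IsEquivariant χ ρ σ β) (b : V) (x : H → W) :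
    cup11 β σ (d0 ρ b) x - d1 (chiRep χ) (h93c_cup01 β b x) = - cup02 β b (d1 σ x) := by
  funext ⟨g, h⟩
  simp only [Pi.sub_apply, cup11_apply, d0_apply, d1_apply, h93c_cup01_apply, chiRep_apply,
    Pi.neg_apply, cup02_apply, map_add, map_sub, LinearMap.sub_apply]
  have h1 : β (ρ g b) (σ g (x h)) = (χ g : k) * β b (x h) := hβ g b (x h)
  rw [h1]
  ring

end Local

end Fermat.Agent.PT
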