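import Fermat.Agent.PT.Defs
import Fermat.Agent.PT.Alg.H93CountLeib

/-!
# W3-PT, COUNT: level-constancy of the auxiliary cochains

* `h93c_lev_finset`  : finitely many levels contain a common level;
* `h93c_unif_fix`    : a level-constant `1`-cochain with values in a discrete module has all its
                       values fixed by one level (levels of finite index);
* `h93c_lc_cup02`, `h93c_lc_cup01`, `h93c_lc_cup11` : the cups are level-constant;
* `h93c_lc_res1`, `h93c_lc_res2` : restrictions to the local groups are level-constant;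
* `h93c_d1_res`, `h93c_d2_res`   : restriction commutes with the differentials.
-/

set_option autoImplicit false
set_option linter.style.haveILetI false
set_option linter.unusedSectionVars false

namespace Fermat.Agent.PT

open Datum

section Lev

variable {k : Type} [Field k] {G : Type} [Group G] (L : Lev G)
variable {V W : Type} [AddCommGroup V] [Module k V] [AddCommGroup W] [Module k W]
variable (σ : Representation k G W) (β : V →ₗ[k] W →ₗ[k] k)

/-- finitely many levels contain a common level. -/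
lemma h93c_lev_finset {ι : Type*} (s : Finset ι) (N : ι → Subgroup G)
    (hN : ∀ i ∈ s, N i ∈ L.sets) : ∃ M ∈ L.sets, ∀ i ∈ s, M ≤ N i := by
  classical
  induction s using Finset.induction_on with
  | empty =>
    obtain ⟨M, hM⟩ := L.nonempty
    exact ⟨M, hM, fun i hi => absurd hi (Finset.notMem_empty i)⟩
  | insert a s _ ih =>
    obtain ⟨M, hM, hle⟩ := ih (fun i hi => hN i (Finset.mem_insert_of_mem hi))
    obtain ⟨M', hM', hle'⟩ := L.directed M hM (N a) (hN a (Finset.mem_insert_self a s))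
    refine ⟨M', hM', fun i hi => ?_⟩
    rcases Finset.mem_insert.mp hi with rfl | hi
    · exact hle'.trans inf_le_right
    · exact (hle'.trans inf_le_left).trans (hle i hi)

/-- all values of a level-constant cochain with values in a discrete module are fixed by one
level. -/
lemma h93c_unif_fix (hL : L.Good) (hσ : IsDisc L σ) (x : G → W) (hx : IsLC1 L x) :
    ∃ M ∈ L.sets, ∀ s ∈ M, ∀ h, σ s (x h) = x h := by
  classical
  obtain ⟨N, hN, hxN⟩ := hx
  haveI : N.FiniteIndex := (hL N hN).2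
  haveI : Fintype (G ⧸ N) := Fintype.ofFinite _
  choose M hM hfix using fun c : G ⧸ N => hσ (x (Quotient.out c))
  obtain ⟨M₀, hM₀, hle⟩ := h93c_lev_finset L (Finset.univ : Finset (G ⧸ N)) M
    (fun c _ => hM c)
  refine ⟨M₀, hM₀, fun s hs h => ?_⟩
  have h1 : (Quotient.out (QuotientGroup.mk h : G ⧸ N))⁻¹ * h ∈ N := by
    rw [← QuotientGroup.eq]
    exact Quotient.out_eq _
  have h2 : x h = x (Quotient.out (QuotientGroup.mk h : G ⧸ N)) := by
    have := hxN (Quotient.out (QuotientGroup.mk h : G ⧸ N)) _ h1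
    rwa [mul_inv_cancel_left] at this
  rw [h2]
  exact hfix _ s (hle _ (Finset.mem_univ _) hs)

variable {L}

lemma h93c_lc_cup02 (α : V) {y : G × G → W} (hy : IsLC2 L y) : IsLC2 L (cup02 β α y) :=
  hy.comp (β α)

lemma h93c_lc_cup01 (α : V) {x : G → W} (hx : IsLC1 L x) : IsLC1 L (h93c_cup01 β α x) :=
  hx.comp (β α)

lemma h93c_lc_cup11 (hL : L.Good) (hσ : IsDisc L σ) {a : G → V} (ha : IsLC1 L a)
    {x : G → W} (hx : IsLC1 L x) : IsLC2 L (cup11 β σ a x) := by
  obtain ⟨M, hM, hfix⟩ := h93c_unif_fix L σ hL hσ x hx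
  obtain ⟨Na, hNa, haN⟩ := ha
  obtain ⟨Nx, hNx, hxN⟩ := hx
  obtain ⟨N₁, hN₁, hle₁⟩ := L.directed Na hNa Nx hNx
  obtain ⟨N, hN, hle⟩ := L.directed N₁ hN₁ M hM
  refine ⟨N, hN, fun g g' s s' hs hs' => ?_⟩
  have hsa : s ∈ Na := (hle₁ (hle hs).1).1
  have hsx' : s' ∈ Nx := (hle₁ (hle hs').1).2
  have hsM : s ∈ M := (hle hs).2
  simp only [cup11_apply]
  rw [haN g s hsa, hxN g' s' hsx', map_mul, Module.End.mul_apply, hfix s hsM g']

end Lev

section Res

variable {k : Type} [Field k] (D : Datum k)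
variable {W : Type} [AddCommGroup W] [Module k W] (σ : Representation k D.G W)

lemma h93c_lc_res1 (hg : D.Good) (v : D.P) {X : Type*} {x : D.G → X} (hx : IsLC1 D.lev x) :
    IsLC1 (D.levH v) (fun h => x (D.loc v h)) := by
  obtain ⟨N, hN, hxN⟩ := hx
  obtain ⟨N', hN', hle⟩ := hg.2.2.2.1 v N hN
  refine ⟨N', hN', fun g s hs => ?_⟩
  have : D.loc v s ∈ N := hle hs
  simp only [map_mul]
  exact hxN _ _ this

lemma h93c_lc_res2 (hg : D.Good) (v : D.P) {X : Type*} {y : D.G × D.G → X}
    (hy : IsLC2 D.lev y) :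
    IsLC2 (D.levH v) (fun p : D.H v × D.H v => y (D.loc v p.1, D.loc v p.2)) := by
  obtain ⟨N, hN, hyN⟩ := hy
  obtain ⟨N', hN', hle⟩ := hg.2.2.2.1 v N hN
  refine ⟨N', hN', fun g g' s s' hs hs' => ?_⟩
  have h1 : D.loc v s ∈ N := hle hs
  have h2 : D.loc v s' ∈ N := hle hs'
  simp only [map_mul]
  exact hyN _ _ _ _ h1 h2

lemma h93c_d1_res (v : D.P) (x : D.G → W) :
    d1 (D.repAt σ v) (res1 k W (D.loc v) x) = res2 k W (D.loc v) (d1 σ x) := by
  funext ⟨g, h⟩
  simp [repAt]

lemma h93c_d2_res (v : D.P) (y : D.G × D.G → W) :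
    d2 (D.repAt σ v) (res2 k W (D.loc v) y) = res3 k W (D.loc v) (d2 σ y) := by
  funext ⟨g, h, j⟩
  simp [repAt]

lemma h93c_d0_res {V : Type} [AddCommGroup V] [Module k V] (ρ : Representation k D.G V)
    (v : D.P) (α : V) :
    d0 (D.repAt ρ v) α = res1 k V (D.loc v) (d0 ρ α) := by
  funext g
  simp [repAt]

lemma h93c_res2_mem_Z2 (hg : D.Good) (v : D.P) {y : D.G × D.G → W} (hy : y ∈ Z2 D.lev σ) :
    res2 k W (D.loc v) y ∈ Z2 (D.levH v) (D.repAt σ v) := by
  rw [mem_Z2] at hy ⊢
  refine ⟨?_, h93c_lc_res2 D hg v hy.2⟩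
  rw [h93c_d2_res, hy.1, map_zero]

lemma h93c_chiRep_repAt (v : D.P) : D.repAt (chiRep D.chi) v = chiRep (D.chiAt v) := by
  ext g
  simp [repAt, chiAt]

end Res

end Fermat.Agent.PT
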