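import Fermat.Agent.PT.Defs
import Fermat.Agent.PT.Alg.H93CountLeib
import Fermat.Agent.PT.Alg.H93CountLC

/-!
# W3-PT, COUNT: the pairing `pair1` on cocycles

* `h93c_pairL`           : `pair1` as a bilinear map on all cochains;
* `h93c_pair1_coneD0`    : cone coboundaries pair to zero with `2`-cocycles;
* `h93c_pair1_d1`        : cone `1`-cocycles pair to zero with `2`-coboundaries;
* `h93c_pair1_zero_inv`  : the classes `(0, b)` pair to zero with locally trivial `2`-cocycles;
* `h93c_pair1_single`    : `pair1 (0, single v b) y = inv_v (b ∪ res_v y)`.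
-/

set_option autoImplicit false
set_option linter.style.haveILetI false
set_option linter.unusedSectionVars false

namespace Fermat.Agent.PT

open Datum

section Pair

variable {k : Type} [Field k] (D : Datum k)
variable {V W : Type} [AddCommGroup V] [Module k V] [AddCommGroup W] [Module k W]
variable (ρ : Representation k D.G V) (σ : Representation k D.G W)
variable (tr : D.CC3 k →ₗ[k] k) (β : V →ₗ[k] W →ₗ[k] k)

/-- `pair1` as a bilinear map. -/
def h93c_pairL : D.CC1 V →ₗ[k] (D.G × D.G → W) →ₗ[k] k :=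
  LinearMap.mk₂ k (fun z y => D.pair1 σ tr β z y)
    (fun z z' y => by
      simp only [pair1]
      rw [← map_add]
      congr 1
      refine Prod.ext (funext fun p => ?_) (funext fun v => funext fun p => ?_) <;>
        simp [cup12, cup02])
    (fun c z y => by
      simp only [pair1]
      rw [← map_smul]
      congr 1
      refine Prod.ext (funext fun p => ?_) (funext fun v => funext fun p => ?_) <;>
        simp [cup12, cup02])
    (fun z y y' => by
      simp only [pair1]
      rw [← map_add]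
      congr 1
      refine Prod.ext (funext fun p => ?_) (funext fun v => funext fun p => ?_) <;>
        simp [cup12, cup02])
    (fun c z y => by
      simp only [pair1]
      rw [← map_smul]
      congr 1
      refine Prod.ext (funext fun p => ?_) (funext fun v => funext fun p => ?_) <;>
        simp [cup12, cup02])

@[simp] lemma h93c_pairL_apply (z : D.CC1 V) (y : D.G × D.G → W) :
    h93c_pairL D σ tr β z y = D.pair1 σ tr β z y := rfl

/-- cone coboundaries pair to zero with `2`-cocycles. -/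
theorem h93c_pair1_coneD0 (hβ : IsEquivariant D.chi ρ σ β) (htr : D.TrOK tr) (α : V)
    {y : D.G × D.G → W} (hy : y ∈ Z2 D.lev σ) :
    D.pair1 σ tr β (D.coneD0 ρ α) y = 0 := by
  rw [mem_Z2] at hy
  have hmem : ((cup02 β α y, 0) : D.CC2 k) ∈ D.lcC2 k := by
    refine ⟨h93c_lc_cup02 β α hy.2, ?_⟩
    intro v _
    exact isLC1_const (D.levH v) (0 : k)
  have hval : D.coneD2 (chiRep D.chi) ((cup02 β α y, 0) : D.CC2 k)
      = (cup12 β σ (d0 ρ α) y, fun v => cup02 β α (res2 k W (D.loc v) y)) := by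
    rw [coneD2_apply]
    refine Prod.ext ?_ (funext fun v => ?_)
    · exact (h93c_leib_d0_glob D.chi ρ σ β hβ α y hy.1).symm
    · funext ⟨g, h⟩
      simp
  have := htr _ (Submodule.mem_map_of_mem (f := D.coneD2 (chiRep D.chi)) hmem)
  rw [hval] at this
  exact this

/-- cone `1`-cocycles pair to zero with `2`-coboundaries. -/
theorem h93c_pair1_d1 (hg : D.Good) (hβ : IsEquivariant D.chi ρ σ β) (hσ : IsDisc D.lev σ)
    (htr : D.TrOK tr) {z : D.CC1 V} (hz : z ∈ D.ZC1 ρ) {x : D.G → W} (hx : IsLC1 D.lev x) :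
    D.pair1 σ tr β z (d1 σ x) = 0 := by
  have hz1 : D.coneD1 ρ z = 0 := hz.1
  have hz2 : z ∈ D.lcC1 V := hz.2
  rw [coneD1_apply, Prod.mk_eq_zero] at hz1
  obtain ⟨hza, hzb⟩ := hz1
  have hzb' : ∀ v, res1 k V (D.loc v) z.1 = d0 (D.repAt ρ v) (z.2 v) := fun v =>
    sub_eq_zero.mp (congrFun hzb v)
  have hzlc : IsLC1 D.lev z.1 := hz2.1
  have hmem : ((cup11 β σ z.1 x, fun v => h93c_cup01 β (z.2 v) (res1 k W (D.loc v) x)) :
      D.CC2 k) ∈ D.lcC2 k := by
    refine ⟨h93c_lc_cup11 σ β hg.1 hσ hzlc hx, ?_⟩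
    intro v _
    exact h93c_lc_cup01 β (z.2 v) (h93c_lc_res1 D hg v hx)
  have hval : D.coneD2 (chiRep D.chi)
      ((cup11 β σ z.1 x, fun v => h93c_cup01 β (z.2 v) (res1 k W (D.loc v) x)) : D.CC2 k)
      = - ((cup12 β σ z.1 (d1 σ x), fun v => cup02 β (z.2 v) (res2 k W (D.loc v) (d1 σ x))) :
        D.CC3 k) := by
    rw [coneD2_apply]
    refine Prod.ext ?_ (funext fun v => ?_)
    · simp only [Prod.fst_neg]
      rw [h93c_leib_d1_glob D.chi ρ σ β hβ z.1 hza x, neg_neg]
    · simp only [Prod.snd_neg, Pi.neg_apply]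
      have hloc := h93c_leib_d1_loc (D.chiAt v) (D.repAt ρ v) (D.repAt σ v) β
        (fun g w w' => hβ (D.loc v g) w w') (z.2 v) (res1 k W (D.loc v) x)
      rw [h93c_d1_res, ← hzb' v] at hloc
      rw [← hloc, h93c_chiRep_repAt]
      rfl
  have := htr _ (Submodule.mem_map_of_mem (f := D.coneD2 (chiRep D.chi)) hmem)
  rw [hval, map_neg, neg_eq_zero] at this
  exact this

/-- the classes `(0, b)`, `b_v` invariant, pair to zero with locally trivial `2`-cocycles. -/
theorem h93c_pair1_zero_inv (hβ : IsEquivariant D.chi ρ σ β) (htr : D.TrOK tr)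
    (b : D.P → V) (hb : ∀ v, ∀ g, D.repAt ρ v g (b v) = b v)
    {y : D.G × D.G → W}
    (hy : ∀ v, res2 k W (D.loc v) y ∈ B2 (D.levH v) (D.repAt σ v)) :
    D.pair1 σ tr β ((0, b) : D.CC1 V) y = 0 := by
  have hy' : ∀ v, ∃ x : D.H v → W, IsLC1 (D.levH v) x ∧
      d1 (D.repAt σ v) x = res2 k W (D.loc v) y := fun v => (mem_B2 _ _ _).mp (hy v)
  choose x hxlc hxy using hy'
  have hmem : (((0 : D.G × D.G → k), fun v => h93c_cup01 β (b v) (x v)) : D.CC2 k)
      ∈ D.lcC2 k := by
    refine ⟨isLC2_const D.lev (0 : k), ?_⟩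
    intro v _
    exact h93c_lc_cup01 β (b v) (hxlc v)
  have hval : D.coneD2 (chiRep D.chi)
      (((0 : D.G × D.G → k), fun v => h93c_cup01 β (b v) (x v)) : D.CC2 k)
      = - ((cup12 β σ (0 : D.G → V) y, fun v => cup02 β (b v) (res2 k W (D.loc v) y)) :
        D.CC3 k) := by
    rw [coneD2_apply]
    refine Prod.ext ?_ (funext fun v => ?_)
    · simp only [Prod.fst_neg, map_zero]
      funext ⟨g, h, j⟩
      simp
    · simp only [Prod.snd_neg, Pi.neg_apply, map_zero, zero_sub]
      rw [← hxy v, h93c_leib_loc (D.chiAt v) (D.repAt ρ v) (D.repAt σ v) β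
        (fun g w w' => hβ (D.loc v g) w w') (b v) (hb v) (x v), h93c_chiRep_repAt]
  have := htr _ (Submodule.mem_map_of_mem (f := D.coneD2 (chiRep D.chi)) hmem)
  rw [hval, map_neg, neg_eq_zero] at this
  exact this

/-- `pair1 (0, single v b) y = inv_v (b ∪ res_v y)`. -/
theorem h93c_pair1_single (v : D.P) (b : V) (y : D.G × D.G → W) :
    D.pair1 σ tr β ((0, Pi.single v b) : D.CC1 V) y
      = D.invAt tr v (cup02 β b (res2 k W (D.loc v) y)) := by
  simp only [pair1, invAt, LinearMap.coe_comp, Function.comp_apply, LinearMap.inr_apply,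
    LinearMap.coe_single]
  congr 1
  refine Prod.ext ?_ (funext fun w => ?_)
  · funext ⟨g, h, j⟩
    simp
  · by_cases hw : w = v
    · subst hw
      simp
    · simp only [Pi.single_eq_of_ne hw]
      funext ⟨g, h⟩
      simp

end Pair

end Fermat.Agent.PT
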