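import Fermat.Agent.PT.Defs
import Fermat.Agent.PT.Alg.H93CountAbs
import Fermat.Agent.PT.Alg.H93CountLeib
import Fermat.Agent.PT.Alg.H93CountLC
import Fermat.Agent.PT.Alg.H93CountPair

/-!
# W3-PT, COUNT (core): `dim Ш¹(ρ) = dim Ш²(σ)` from the first duality

For an equivariant pairing `β : ρ × σ → k(χ)`, if `H¹_c(ρ) × H²(σ) → k` is perfect (`Perf1`),
`H¹_c(ρ)` is finite-dimensional and the local pairings `H⁰_v(ρ) × H²_v(σ) → k` have trivial
right kernel, then `Ш¹(ρ)` and `Ш²(σ)` are finite-dimensional of the same dimension.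

Proof: `H¹_c(ρ) → Ш¹(ρ)`, `(a, b) ↦ a`, is onto with kernel `K` = the classes of the `(0, b)`,
`b_v ∈ H⁰_v(ρ)`, and the annihilator of `K` in `H²(σ)` is `Ш²(σ)`.
-/

set_option autoImplicit false
set_option linter.style.haveILetI false
set_option linter.unusedSectionVars false

namespace Fermat.Agent.PT

open Datum

section Count

variable {k : Type} [Field k] (D : Datum k)
variable {V W : Type} [AddCommGroup V] [Module k V] [AddCommGroup W] [Module k W]
variable (ρ : Representation k D.G V) (σ : Representation k D.G W)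
variable (tr : D.CC3 k →ₗ[k] k) (β : V →ₗ[k] W →ₗ[k] k)

/-- the first component of a cone `1`-cocycle lies in `ZSha1`. -/
lemma h93c_fst_mem_ZSha1 {z : D.CC1 V} (hz : z ∈ D.ZC1 ρ) : z.1 ∈ D.ZSha1 ρ := by
  have hz1 : D.coneD1 ρ z = 0 := hz.1
  have hz2 : z ∈ D.lcC1 V := hz.2
  rw [coneD1_apply, Prod.mk_eq_zero] at hz1
  obtain ⟨hza, hzb⟩ := hz1
  refine Submodule.mem_inf.mpr ⟨⟨hza, hz2.1⟩, (Submodule.mem_iInf _).mpr fun v => ?_⟩
  rw [Submodule.mem_comap, mem_B1]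
  exact ⟨z.2 v, (sub_eq_zero.mp (congrFun hzb v)).symm⟩

/-- the map `Z¹_c(ρ) → Ш¹(ρ)`, `(a, b) ↦ [a]`. -/
def h93c_phi : ↥(D.ZC1 ρ) →ₗ[k] D.Sha1 ρ :=
  (Submodule.mkQ _).comp
    (LinearMap.codRestrict (D.ZSha1 ρ) ((LinearMap.fst k _ _).comp (D.ZC1 ρ).subtype)
      (fun z => h93c_fst_mem_ZSha1 D ρ z.2))

lemma h93c_phi_eq_zero_iff (z : ↥(D.ZC1 ρ)) :
    h93c_phi D ρ z = 0 ↔ (z : D.CC1 V).1 ∈ B1 ρ := by
  simp only [h93c_phi, LinearMap.coe_comp, Function.comp_apply, Submodule.mkQ_apply]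
  rw [Submodule.Quotient.mk_eq_zero, Submodule.mem_comap]
  rfl

lemma h93c_phi_surjective : Function.Surjective (h93c_phi D ρ) := by
  intro s
  obtain ⟨⟨a, ha⟩, rfl⟩ := Submodule.Quotient.mk_surjective _ s
  have ha1 : a ∈ Z1 D.lev ρ := ha.1
  have ha2 : ∀ v, ∃ b : V, d0 (D.repAt ρ v) b = res1 k V (D.loc v) a := by
    intro v
    have := (Submodule.mem_iInf _).mp ha.2 v
    rw [Submodule.mem_comap, mem_B1] at this
    exact this
  choose b hb using ha2
  have hz : ((a, b) : D.CC1 V) ∈ D.ZC1 ρ := by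
    refine ⟨?_, ⟨ha1.2, Submodule.mem_top⟩⟩
    rw [SetLike.mem_coe, LinearMap.mem_ker, coneD1_apply, Prod.mk_eq_zero]
    refine ⟨ha1.1, funext fun v => ?_⟩
    simp only [Pi.zero_apply]
    rw [hb v, sub_self]
  exact ⟨⟨(a, b), hz⟩, rfl⟩

/-- the map `{y ∈ Z²(σ) | y ∈ ZSha2} → Ш²(σ)`. -/
def h93c_psiSha : ↥((D.ZSha2 σ).comap (Z2 D.lev σ).subtype) →ₗ[k] D.Sha2 σ :=
  (Submodule.mkQ _).comp
    (LinearMap.codRestrict (D.ZSha2 σ)
      ((Z2 D.lev σ).subtype.comp ((D.ZSha2 σ).comap (Z2 D.lev σ).subtype).subtype)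
      (fun y => y.2))

lemma h93c_psiSha_eq_zero_iff (y : ↥((D.ZSha2 σ).comap (Z2 D.lev σ).subtype)) :
    h93c_psiSha D σ y = 0 ↔ ((y : ↥(Z2 D.lev σ)) : D.G × D.G → W) ∈ B2 D.lev σ := by
  simp only [h93c_psiSha, LinearMap.coe_comp, Function.comp_apply, Submodule.mkQ_apply]
  rw [Submodule.Quotient.mk_eq_zero, Submodule.mem_comap]
  rfl

lemma h93c_psiSha_surjective : Function.Surjective (h93c_psiSha D σ) := by
  intro s
  obtain ⟨⟨y, hy⟩, rfl⟩ := Submodule.Quotient.mk_surjective _ s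
  have hy1 : y ∈ Z2 D.lev σ := hy.1
  exact ⟨⟨⟨y, hy1⟩, hy⟩, rfl⟩

/-- **COUNT (core).** -/
theorem h93c_count (hg : D.Good) (hβ : IsEquivariant D.chi ρ σ β) (hσ : IsDisc D.lev σ)
    (htr : D.TrOK tr) (hP1 : D.Perf1 ρ σ tr β)
    (hL0 : ∀ v, ∀ y ∈ Z2 (D.levH v) (D.repAt σ v),
      (∀ b ∈ (D.repAt ρ v).invariants, D.invAt tr v (cup02 β b y) = 0) →
        y ∈ B2 (D.levH v) (D.repAt σ v))
    (hfin : Module.Finite k (D.HC1 ρ)) :
    Module.Finite k (D.Sha1 ρ) ∧ Module.Finite k (D.Sha2 σ) ∧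
      Module.finrank k (D.Sha1 ρ) = Module.finrank k (D.Sha2 σ) := by
  classical
  -- the pairing on cocycles
  let P : ↥(D.ZC1 ρ) →ₗ[k] ↥(Z2 D.lev σ) →ₗ[k] k :=
    (h93c_pairL D σ tr β).domRestrict₁₂ (D.ZC1 ρ) (Z2 D.lev σ)
  have hP : ∀ (z : ↥(D.ZC1 ρ)) (y : ↥(Z2 D.lev σ)),
      P z y = D.pair1 σ tr β (z : D.CC1 V) (y : D.G × D.G → W) := fun z y => rfl
  haveI : Module.Finite k (↥(D.ZC1 ρ) ⧸ (D.BC1 ρ).comap (D.ZC1 ρ).subtype) := hfin
  refine h93c_abs_finrank P ((D.BC1 ρ).comap (D.ZC1 ρ).subtype)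
    ((B2 D.lev σ).comap (Z2 D.lev σ).subtype) ((D.ZSha2 σ).comap (Z2 D.lev σ).subtype)
    ?_ ?_ (h93c_phi D ρ) (h93c_phi_surjective D ρ) ?_ ?_ (h93c_psiSha D σ)
    (h93c_psiSha_surjective D σ) ?_
  · -- left kernel
    intro z
    constructor
    · intro hz y
      rw [hP]
      obtain ⟨α, hα⟩ := (Submodule.mem_comap.mp hz : (z : D.CC1 V) ∈ D.BC1 ρ)
      have : (z : D.CC1 V) = D.coneD0 ρ α := hα.symm
      rw [this]
      exact h93c_pair1_coneD0 D ρ σ tr β hβ htr α y.2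
    · intro h
      rw [Submodule.mem_comap]
      exact hP1.1 _ z.2 (fun y hy => h ⟨y, hy⟩)
  · -- right kernel
    intro y
    constructor
    · intro hy z
      rw [hP]
      obtain ⟨x, hx, hxy⟩ := (mem_B2 _ _ _).mp
        (Submodule.mem_comap.mp hy : (y : D.G × D.G → W) ∈ B2 D.lev σ)
      have : (y : D.G × D.G → W) = d1 σ x := hxy.symm
      rw [this]
      exact h93c_pair1_d1 D ρ σ tr β hg hβ hσ htr z.2 hx
    · intro h
      rw [Submodule.mem_comap]
      exact hP1.2 _ y.2 (fun z hz => h ⟨z, hz⟩)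
  · -- coboundaries map to zero
    intro z hz
    rw [h93c_phi_eq_zero_iff]
    obtain ⟨α, hα⟩ := (Submodule.mem_comap.mp hz : (z : D.CC1 V) ∈ D.BC1 ρ)
    have : (z : D.CC1 V) = D.coneD0 ρ α := hα.symm
    rw [this, mem_B1]
    exact ⟨α, rfl⟩
  · -- the annihilator of the kernel of `φ` is `ZSha2`
    intro y
    constructor
    · intro hy z hz
      rw [hP]
      rw [h93c_phi_eq_zero_iff, mem_B1] at hz
      obtain ⟨α, hα⟩ := hz
      have hy2 : (y : D.G × D.G → W) ∈ D.ZSha2 σ := Submodule.mem_comap.mp hy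
      have hy3 : ∀ v, res2 k W (D.loc v) (y : D.G × D.G → W) ∈ B2 (D.levH v) (D.repAt σ v) :=
        fun v => Submodule.mem_comap.mp ((Submodule.mem_iInf _).mp hy2.2 v)
      -- decompose `z = coneD0 α + (0, b')`
      have hz1 : D.coneD1 ρ (z : D.CC1 V) = 0 := z.2.1
      rw [coneD1_apply, Prod.mk_eq_zero] at hz1
      obtain ⟨-, hzb⟩ := hz1
      have hdec : (z : D.CC1 V) = D.coneD0 ρ α + ((0, fun v => (z : D.CC1 V).2 v - α) :
          D.CC1 V) := by
        refine Prod.ext ?_ (funext fun v => ?_)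
        · simp only [coneD0_apply, Prod.fst_add, add_zero]
          exact hα.symm
        · simp only [coneD0_apply, Prod.snd_add, Pi.add_apply]
          abel
      have hinv : ∀ v, ∀ g, D.repAt ρ v g ((z : D.CC1 V).2 v - α) = (z : D.CC1 V).2 v - α := by
        intro v g
        have h1 : res1 k V (D.loc v) (z : D.CC1 V).1 = d0 (D.repAt ρ v) ((z : D.CC1 V).2 v) :=
          sub_eq_zero.mp (congrFun hzb v)
        have h2 : d0 (D.repAt ρ v) α = res1 k V (D.loc v) (z : D.CC1 V).1 := by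
          rw [h93c_d0_res, hα]
        have h3 : d0 (D.repAt ρ v) ((z : D.CC1 V).2 v - α) = 0 := by
          rw [map_sub, h2, h1, sub_self]
        have h4 := congrFun h3 g
        simp only [d0_apply, Pi.zero_apply] at h4
        exact sub_eq_zero.mp h4
      have hlin := (h93c_pairL D σ tr β).map_add (D.coneD0 ρ α)
        ((0, fun v => (z : D.CC1 V).2 v - α) : D.CC1 V)
      have hlin2 := congrArg (fun f => f (y : D.G × D.G → W)) hlin
      simp only [LinearMap.add_apply, h93c_pairL_apply] at hlin2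
      rw [hdec, hlin2, h93c_pair1_coneD0 D ρ σ tr β hβ htr α y.2,
        h93c_pair1_zero_inv D ρ σ tr β hβ htr _ hinv hy3, add_zero]
    · intro h
      rw [Submodule.mem_comap]
      refine Submodule.mem_inf.mpr ⟨y.2, (Submodule.mem_iInf _).mpr fun v => ?_⟩
      rw [Submodule.mem_comap]
      apply hL0 v _ (h93c_res2_mem_Z2 D σ hg v y.2)
      intro b hb
      have hbinv : ∀ g, D.repAt ρ v g b = b := fun g => hb g
      have hz : ((0, Pi.single v b) : D.CC1 V) ∈ D.ZC1 ρ := by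
        refine ⟨?_, ⟨isLC1_const D.lev (0 : V), Submodule.mem_top⟩⟩
        rw [SetLike.mem_coe, LinearMap.mem_ker, coneD1_apply, Prod.mk_eq_zero]
        refine ⟨map_zero _, funext fun w => ?_⟩
        simp only [map_zero, zero_sub, Pi.zero_apply, neg_eq_zero]
        by_cases hw : w = v
        · subst hw
          funext g
          simp only [Pi.single_eq_same, d0_apply, Pi.zero_apply]
          rw [hbinv g, sub_self]
        · rw [Pi.single_eq_of_ne hw, map_zero]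
      have hzK : h93c_phi D ρ ⟨_, hz⟩ = 0 := by
        rw [h93c_phi_eq_zero_iff]
        exact (B1 ρ).zero_mem
      have := h ⟨_, hz⟩ hzK
      rw [hP, h93c_pair1_single] at this
      exact this
  · -- the kernel of `ψ`
    intro y
    rw [h93c_psiSha_eq_zero_iff, Submodule.mem_comap]
    rfl

end Count

end Fermat.Agent.PT
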