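import Mathlib
import Fermat.Agent.PT.Defs
import Fermat.Agent.PT.Iface
import Fermat.Agent.PT.Iface2
import Fermat.Agent.PT.Alg.H42CountGlue
import Fermat.Agent.PT.Alg.H42Count2
import Fermat.Agent.PT.Alg.H93Count

/-!
# W3-PT / ALG-COUNT: `count2 : Count2` (frame v1.2)

`dim Ш²(ρ) = dim Ш¹(ρ^D)` from the first duality `H¹_c(ρ^D) × H²(ρ) → k`, the local dualities
`H²_v(ρ) × H⁰_v(ρ^D) → k` and the finiteness of `H¹(ρ^D)`.
CORE = `h93c_count` (helper93), GLUE = `h42g_count2_of_core` (helper42).
-/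

set_option autoImplicit false

namespace Fermat.Agent.PT

/-- The abstract counting theorem in the packaged form used by the glue. -/
theorem h42g_core : h42g_Core := by
  intro k _ D hg V W _ _ _ _ ρ σ tr β hβ hσ htr hP1 hL0 hfin
  exact h93c_count D ρ σ tr β hg hβ hσ htr hP1 hL0 hfin

/-- COUNT, frame v1.2. -/
theorem count2 : Count2 := h42g_count2_of_core h42g_core

end Fermat.Agent.PT
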