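import Fermat.Agent.PT.Alg.H54ChiIface
import Fermat.Agent.PT.Alg.Tools
import Fermat.Agent.PT.Shap.SecVan

/-!
# W3-PT, row ALG-CHI2 (helper54), part 4: `ChiV3Abs`

If the pull-back `H³(permRep k U) → H³(permRep k V)` is injective for all steps `V ◁ U` of index
`p` below `U₀`, then `H³(permRep k U) = 0` for all open `U ≤ U₀`:

* `h54c_efface`      : a `3`-cocycle of `permRep k U` dies in `permRep k N` for a small level `N`
                       (prism homotopy of PT-SHAP);
* `h54c_inj3_retract`: the pull-back is injective when the index `[U : P]` is invertible in `k`;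
* `h54c_exists_sylow`, `h54c_exists_step` : the chain `U ≥ P ≥ … ≥ N`;
* `h54c_chiV3Abs`    : the theorem.
-/

set_option autoImplicit false

namespace Fermat.Agent.PT

open Fermat.Agent.PT.Tools Module

section H54ChiTower

variable {k : Type} [Field k] {G : Type} [Group G] {L : Lev G}

/-! ### pull-backs -/

lemma h54c_isHom_pull {U V : Subgroup G} (h : V ≤ U) :
    IsHom (permRep k U) (permRep k V) (h54c_pull k h) := by
  intro g f
  funext x
  obtain ⟨a, rfl⟩ := QuotientGroup.mk_surjective x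
  rfl

lemma h54c_pull_comp {U V N : Subgroup G} (hVU : V ≤ U) (hNV : N ≤ V) (f : (G ⧸ U) → k) :
    h54c_pull k hNV (h54c_pull k hVU f) = h54c_pull k (hNV.trans hVU) f := by
  funext x
  obtain ⟨a, rfl⟩ := QuotientGroup.mk_surjective x
  rfl

lemma h54c_pull_refl {U : Subgroup G} (h : U ≤ U) (f : (G ⧸ U) → k) :
    h54c_pull k h f = f := by
  funext x
  obtain ⟨a, rfl⟩ := QuotientGroup.mk_surjective x
  rfl

/-- composition of injective steps. -/
theorem h54c_inj3_trans {U V N : Subgroup G} (hVU : V ≤ U) (hNV : N ≤ V)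
    (h1 : h54c_Inj3 k L U V hVU) (h2 : h54c_Inj3 k L V N hNV) :
    h54c_Inj3 k L U N (hNV.trans hVU) := by
  intro z hz hB
  refine h1 z hz (h2 _ (push_mem_Z3 (h54c_isHom_pull hVU) hz) ?_)
  have : (h54c_pull k hNV).compLeft (G × G × G) ((h54c_pull k hVU).compLeft (G × G × G) z) =
      (h54c_pull k (hNV.trans hVU)).compLeft (G × G × G) z := by
    funext q
    exact h54c_pull_comp hVU hNV (z q)
  rw [this]
  exact hB

/-- the trivial step. -/
theorem h54c_inj3_of_le {U V : Subgroup G} (hVU : V ≤ U) (hUV : U ≤ V) :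
    h54c_Inj3 k L U V hVU := by
  obtain rfl : V = U := le_antisymm hVU hUV
  intro z _ hB
  have : (h54c_pull k hVU).compLeft (G × G × G) z = z := by
    funext q
    exact h54c_pull_refl hVU (z q)
  rwa [this] at hB

/-! ### effaceability -/

/-- a `3`-cocycle of `permRep k U` becomes a coboundary in `permRep k N` for a small level. -/
theorem h54c_efface (hL : L.Good) {U : Subgroup G} (hU : L.IsOpen U)
    {z : G × G × G → (G ⧸ U) → k} (hz : z ∈ Z3 L (permRep k U)) :
    ∃ N ∈ L.sets, ∃ hNU : N ≤ U,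
      (h54c_pull k hNU).compLeft (G × G × G) z ∈ B3 L (permRep k N) := by
  obtain ⟨hz1, N₁, hN₁, hconst⟩ := (mem_Z3 L _ z).1 hz
  obtain ⟨N, hN, -, h1, h2⟩ := Shap.h56s_exists_level hL hU N₁ hN₁
  refine ⟨N, hN, h2, ?_⟩
  have hF : (h54c_pull k h2).compLeft (G × G × G) z ∈ Z3 L (permRep k N) :=
    push_mem_Z3 (h54c_isHom_pull h2) hz
  obtain ⟨hF1, hF2⟩ := (mem_Z3 L _ _).1 hF
  obtain ⟨s⟩ := Shap.h56s_Sec.nonempty G N
  have hNopen : L.IsOpen N := ⟨N, hN, le_rfl⟩
  have hz0 : z (1, 1, 1) = 0 := by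
    have := congrFun hz1 (1, 1, 1, 1)
    simpa [d3_apply] using this
  have hsh : s.shU3 ((h54c_pull k h2).compLeft (G × G × G) z) = 0 := by
    funext q
    obtain ⟨u, v, w⟩ := q
    show z ((u : G), (v : G), (w : G)) _ = 0
    have := hconst 1 1 1 (u : G) (v : G) (w : G) (h1 u.2) (h1 v.2) (h1 w.2)
    rw [one_mul, one_mul, one_mul] at this
    rw [this, hz0]
    rfl
  have h3 := s.homU3 (Representation.trivial k G k) ((h54c_pull k h2).compLeft (G × G × G) z)
  rw [← Shap.h56s_permRep_eq, hF1, hsh, s.exU3_zero, s.hh4_zero, zero_sub, sub_zero] at h3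
  rw [mem_B3]
  refine ⟨- s.god.hh3 ((h54c_pull k h2).compLeft (G × G × G) z),
    Shap.h56s_isLC2_neg (s.isLC2_hh3 hL hNopen _ hF2), ?_⟩
  rw [map_neg]
  exact h3.symm

/-! ### the retract for index prime to `p` -/

section Retract

open Classical in
/-- summation over the fibres of `G/P → G/U`. -/
noncomputable def h54c_tr (k : Type) [Field k] {U P : Subgroup G} (h : P ≤ U)
    [Fintype (G ⧸ P)] : ((G ⧸ P) → k) →ₗ[k] ((G ⧸ U) → k) where
  toFun f y := ∑ x : G ⧸ P, if Subgroup.quotientMapOfLE h x = y then f x else 0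
  map_add' f f' := by
    funext y
    simp only [Pi.add_apply]
    rw [← Finset.sum_add_distrib]
    refine Finset.sum_congr rfl fun x _ => ?_
    split_ifs <;> simp
  map_smul' c f := by
    funext y
    simp only [Pi.smul_apply, smul_eq_mul, RingHom.id_apply]
    rw [Finset.mul_sum]
    refine Finset.sum_congr rfl fun x _ => ?_
    split_ifs <;> simp

open Classical in
lemma h54c_tr_apply {U P : Subgroup G} (h : P ≤ U) [Fintype (G ⧸ P)] (f : (G ⧸ P) → k)
    (y : G ⧸ U) :
    h54c_tr k h f y = ∑ x : G ⧸ P, if Subgroup.quotientMapOfLE h x = y then f x else 0 := rfl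

lemma h54c_quotientMap_smul {U P : Subgroup G} (h : P ≤ U) (g : G) (x : G ⧸ P) :
    Subgroup.quotientMapOfLE h (g • x) = g • Subgroup.quotientMapOfLE h x := by
  obtain ⟨a, rfl⟩ := QuotientGroup.mk_surjective x
  rfl

lemma h54c_isHom_tr {U P : Subgroup G} (h : P ≤ U) [Fintype (G ⧸ P)] :
    IsHom (permRep k P) (permRep k U) (h54c_tr k h) := by
  classical
  intro g f
  funext y
  show h54c_tr k h (permRep k P g f) y = h54c_tr k h f (g⁻¹ • y)
  rw [h54c_tr_apply, h54c_tr_apply]
  refine Fintype.sum_equiv (MulAction.toPerm g⁻¹) _ _ fun x => ?_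
  show (if Subgroup.quotientMapOfLE h x = y then f (g⁻¹ • x) else 0) =
    if Subgroup.quotientMapOfLE h (g⁻¹ • x) = g⁻¹ • y then f (g⁻¹ • x) else 0
  rw [h54c_quotientMap_smul]
  by_cases hx : Subgroup.quotientMapOfLE h x = y
  · rw [if_pos hx, if_pos (by rw [hx])]
  · rw [if_neg hx, if_neg]
    intro h'
    exact hx (smul_left_cancel _ h')

lemma h54c_tr_pull {U P : Subgroup G} (h : P ≤ U) [Fintype (G ⧸ P)] (f : (G ⧸ U) → k) :
    h54c_tr k h (h54c_pull k h f) = ((P.subgroupOf U).index : k) • f := by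
  classical
  funext y
  rw [h54c_tr_apply]
  have h1 : ∀ x : G ⧸ P, (if Subgroup.quotientMapOfLE h x = y then h54c_pull k h f x else 0) =
      if Subgroup.quotientMapOfLE h x = y then f y else 0 := by
    intro x
    by_cases hx : Subgroup.quotientMapOfLE h x = y
    · rw [if_pos hx, if_pos hx, h54c_pull_apply, hx]
    · rw [if_neg hx, if_neg hx]
  rw [Finset.sum_congr rfl (fun x _ => h1 x)]
  have hfin : Finite (↥U ⧸ P.subgroupOf U) :=
    Finite.of_injective (fun c => (Subgroup.quotientEquivProdOfLE h).symm (y, c))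
      (fun c c' hcc => by
        have := (Subgroup.quotientEquivProdOfLE h).symm.injective hcc
        exact (Prod.mk.inj this).2)
  have : Fintype (↥U ⧸ P.subgroupOf U) := Fintype.ofFinite _
  have hfinU : Finite (G ⧸ U) :=
    Finite.of_surjective (Subgroup.quotientMapOfLE h) (fun y' => by
      obtain ⟨a, rfl⟩ := QuotientGroup.mk_surjective y'
      exact ⟨QuotientGroup.mk a, rfl⟩)
  have : Fintype (G ⧸ U) := Fintype.ofFinite _
  have h2 : ∀ x : G ⧸ P, Subgroup.quotientMapOfLE h x = (Subgroup.quotientEquivProdOfLE h x).1 :=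
    fun x => rfl
  simp only [h2]
  rw [Fintype.sum_equiv (Subgroup.quotientEquivProdOfLE h)
    (fun x => if (Subgroup.quotientEquivProdOfLE h x).1 = y then f y else 0)
    (fun q : (G ⧸ U) × (↥U ⧸ P.subgroupOf U) => if q.1 = y then f y else 0) (fun x => rfl)]
  rw [Fintype.sum_prod_type]
  rw [Finset.sum_eq_single y (fun y' _ hne => by simp [hne])
    (fun hn => (hn (Finset.mem_univ y)).elim)]
  rw [Finset.sum_congr rfl (fun c _ => (if_pos rfl :
    (if ((y, c) : (G ⧸ U) × (↥U ⧸ P.subgroupOf U)).1 = y then f y else 0) = f y))]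
  rw [Finset.sum_const, Finset.card_univ, nsmul_eq_mul, Pi.smul_apply, smul_eq_mul,
    Subgroup.index_eq_card, Nat.card_eq_fintype_card]

/-- the pull-back on `H³` is injective when the index is invertible in `k`. -/
theorem h54c_inj3_retract {U P : Subgroup G} (h : P ≤ U) [Finite (G ⧸ P)]
    (hidx : ((P.subgroupOf U).index : k) ≠ 0) : h54c_Inj3 k L U P h := by
  have : Fintype (G ⧸ P) := Fintype.ofFinite _
  intro z _ hB
  have h1 := push_mem_B3 (h54c_isHom_tr (k := k) h) hB
  have h2 : (h54c_tr k h).compLeft (G × G × G) ((h54c_pull k h).compLeft (G × G × G) z) =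
      ((P.subgroupOf U).index : k) • z := by
    funext q
    exact h54c_tr_pull h (z q)
  rw [h2] at h1
  have h3 := (B3 L (permRep k U)).smul_mem (((P.subgroupOf U).index : k))⁻¹ h1
  rwa [smul_smul, inv_mul_cancel₀ hidx, one_smul] at h3

end Retract

/-! ### group theory: the chain `U ≥ P ≥ … ≥ N` -/

section Chain

variable {p : ℕ}

/-- subgroups of `U` containing `N` from subgroups of `U/N`. -/
lemma h54c_lift_subgroup {U N : Subgroup G} (hNU : N ≤ U) [hn : (N.subgroupOf U).Normal]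
    (K : Subgroup (↥U ⧸ N.subgroupOf U)) :
    ∃ V : Subgroup G, N ≤ V ∧ V ≤ U ∧
      V.subgroupOf U = K.comap (QuotientGroup.mk' (N.subgroupOf U)) := by
  refine ⟨(K.comap (QuotientGroup.mk' (N.subgroupOf U))).map U.subtype, ?_, ?_, ?_⟩
  · intro n hn'
    refine ⟨⟨n, hNU hn'⟩, ?_, rfl⟩
    show QuotientGroup.mk' (N.subgroupOf U) ⟨n, hNU hn'⟩ ∈ K
    have : QuotientGroup.mk' (N.subgroupOf U) ⟨n, hNU hn'⟩ = 1 := by
      rw [QuotientGroup.mk'_apply, QuotientGroup.eq_one_iff, Subgroup.mem_subgroupOf]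
      exact hn'
    rw [this]
    exact K.one_mem
  · rintro _ ⟨u, -, rfl⟩
    exact u.2
  · exact Subgroup.comap_map_eq_self_of_injective U.subtype_injective _

/-- a normal subgroup of index `p` in a `p`-group quotient. -/
theorem h54c_exists_step [hp : Fact p.Prime] {P N : Subgroup G} (hNP : N ≤ P)
    (hn : (N.subgroupOf P).Normal) (m : ℕ) (hidx : (N.subgroupOf P).index = p ^ (m + 1)) :
    ∃ V : Subgroup G, N ≤ V ∧ V ≤ P ∧ (V.subgroupOf P).Normal ∧
      (V.subgroupOf P).index = p ∧ (N.subgroupOf V).index = p ^ m := by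
  have hcard : Nat.card (↥P ⧸ N.subgroupOf P) = p ^ (m + 1) := by
    rw [← Subgroup.index_eq_card]
    exact hidx
  have hfin : Finite (↥P ⧸ N.subgroupOf P) :=
    Nat.finite_of_card_ne_zero (by rw [hcard]; exact pow_ne_zero _ hp.out.ne_zero)
  obtain ⟨K, hK⟩ := Sylow.exists_subgroup_card_pow_prime (G := ↥P ⧸ N.subgroupOf P) p
    (n := m) (by rw [hcard]; exact pow_dvd_pow p (Nat.le_succ m))
  have hKidx : K.index = p := by
    have h1 := K.card_mul_index
    rw [hK, hcard, pow_succ] at h1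
    exact Nat.eq_of_mul_eq_mul_left (pow_pos hp.out.pos m) h1
  have hKn : K.Normal := by
    apply Subgroup.normal_of_index_eq_minFac_card
    rw [hKidx, hcard, Nat.pow_minFac (Nat.succ_ne_zero m), hp.out.minFac_eq]
  obtain ⟨V, hNV, hVP, hV⟩ := h54c_lift_subgroup hNP K
  refine ⟨V, hNV, hVP, ?_, ?_, ?_⟩
  · rw [hV]
    exact hKn.comap _
  · rw [hV, Subgroup.index_comap_of_surjective _ (QuotientGroup.mk'_surjective _)]
    exact hKidx
  · have h1 := Subgroup.relIndex_mul_relIndex N V P hNV hVP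
    have h2 : V.relIndex P = p := by
      show (V.subgroupOf P).index = p
      rw [hV, Subgroup.index_comap_of_surjective _ (QuotientGroup.mk'_surjective _)]
      exact hKidx
    have h3 : N.relIndex P = p ^ (m + 1) := hidx
    rw [h2, h3, pow_succ] at h1
    exact Nat.eq_of_mul_eq_mul_right hp.out.pos h1

/-- the preimage of a `p`-Sylow subgroup of `U/N`. -/
theorem h54c_exists_sylow [hp : Fact p.Prime] {U N : Subgroup G} (hNU : N ≤ U)
    (hn : (N.subgroupOf U).Normal) (hidx : (N.subgroupOf U).index ≠ 0) :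
    ∃ P : Subgroup G, N ≤ P ∧ P ≤ U ∧ ¬ p ∣ (P.subgroupOf U).index ∧
      ∃ m : ℕ, (N.subgroupOf P).index = p ^ m := by
  have hcard : Nat.card (↥U ⧸ N.subgroupOf U) = (N.subgroupOf U).index :=
    (Subgroup.index_eq_card _).symm
  have hfin : Finite (↥U ⧸ N.subgroupOf U) :=
    Nat.finite_of_card_ne_zero (by rw [hcard]; exact hidx)
  obtain ⟨S⟩ : Nonempty (Sylow p (↥U ⧸ N.subgroupOf U)) := inferInstance
  obtain ⟨m, hm⟩ := IsPGroup.iff_card.1 S.isPGroup'
  have hnd : ¬ p ∣ (S : Subgroup (↥U ⧸ N.subgroupOf U)).index := S.not_dvd_index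
  obtain ⟨P, hNP, hPU, hP⟩ := h54c_lift_subgroup hNU (S : Subgroup (↥U ⧸ N.subgroupOf U))
  have hPidx : (P.subgroupOf U).index = (S : Subgroup (↥U ⧸ N.subgroupOf U)).index := by
    rw [hP, Subgroup.index_comap_of_surjective _ (QuotientGroup.mk'_surjective _)]
  refine ⟨P, hNP, hPU, by rw [hPidx]; exact hnd, m, ?_⟩
  have h1 := Subgroup.relIndex_mul_relIndex N P U hNP hPU
  have h2 : P.relIndex U = (S : Subgroup (↥U ⧸ N.subgroupOf U)).index := hPidx
  have h3 : N.relIndex U = Nat.card (↥U ⧸ N.subgroupOf U) := hcard.symm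
  have h4 := (S : Subgroup (↥U ⧸ N.subgroupOf U)).card_mul_index
  rw [h2, h3, ← h4, hm] at h1
  have h5 : (S : Subgroup (↥U ⧸ N.subgroupOf U)).index ≠ 0 := fun h0 => hnd (by rw [h0]; exact dvd_zero p)
  exact Nat.eq_of_mul_eq_mul_right (Nat.pos_of_ne_zero h5) h1

end Chain

/-! ### the theorem -/

section Main

variable {p : ℕ}

/-- the chain of steps of index `p` from `P` down to `N`. -/
theorem h54c_inj3_pgroup [Fact p.Prime] (hL : L.Good) (U₀ : Subgroup G)
    (hInj : ∀ (U V : Subgroup G) (hVU : V ≤ U), U ≤ U₀ → L.IsOpen V →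
      (V.subgroupOf U).Normal → (V.subgroupOf U).index = p → h54c_Inj3 k L U V hVU)
    {N : Subgroup G} (hN : N ∈ L.sets) :
    ∀ (m : ℕ) (P : Subgroup G) (hNP : N ≤ P), P ≤ U₀ → (N.subgroupOf P).index = p ^ m →
      h54c_Inj3 k L P N hNP := by
  intro m
  induction m with
  | zero =>
    intro P hNP _ hidx
    rw [pow_zero] at hidx
    exact h54c_inj3_of_le hNP (Subgroup.relIndex_eq_one.1 hidx)
  | succ m ih =>
    intro P hNP hP hidx
    have hn : (N.subgroupOf P).Normal := (hL N hN).1.subgroupOf P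
    obtain ⟨V, hNV, hVP, hVn, hVi, hNVi⟩ := h54c_exists_step hNP hn m hidx
    have h1 := hInj P V hVP hP ⟨N, hN, hNV⟩ hVn hVi
    have h2 := ih V hNV (hVP.trans hP) hNVi
    exact h54c_inj3_trans hVP hNV h1 h2

/-- (A-V3). -/
theorem h54c_chiV3Abs : ChiV3Abs := by
  intro p _ k _ _ G _ L hL U₀ hInj U hU hUo z hz
  obtain ⟨N, hN, hNU, hB⟩ := h54c_efface hL hUo hz
  have hNn : N.Normal := (hL N hN).1
  have hNf : N.FiniteIndex := (hL N hN).2
  have hn : (N.subgroupOf U).Normal := hNn.subgroupOf U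
  have hidx : (N.subgroupOf U).index ≠ 0 := by
    have h1 : N.relIndex U ∣ N.index := Subgroup.relIndex_dvd_index_of_normal N U
    intro h0
    have h2 : N.relIndex U = 0 := h0
    rw [h2, zero_dvd_iff] at h1
    exact hNf.index_ne_zero h1
  obtain ⟨P, hNP, hPU, hnd, m, hm⟩ := h54c_exists_sylow (p := p) hNU hn hidx
  have h1 : h54c_Inj3 k L U P hPU := by
    have hPf : P.FiniteIndex := Subgroup.finiteIndex_of_le hNP
    have : Finite (G ⧸ P) := Subgroup.finite_quotient_of_finiteIndex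
    apply h54c_inj3_retract hPU
    rw [Ne, CharP.cast_eq_zero_iff k p]
    exact hnd
  have h2 := h54c_inj3_pgroup hL U₀ hInj hN m P hNP (hPU.trans hU) hm
  exact h54c_inj3_trans hPU hNP h1 h2 z hz hB

/-- the combination: multiplicativity of `χ₂` below `U₀` implies `H³ = 0` below `U₀`. -/
theorem h54c_chiCountAbs_of_ineq (h1 : ChiIneqAbs) : ChiCountAbs :=
  h54c_chiCountAbs_of h1 h54c_chiV3Abs

end Main


end H54ChiTower

end Fermat.Agent.PT
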