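import Fermat.Agent.PT.Alg.H54ChiIneq
import Fermat.Agent.PT.Alg.H54ChiTower

/-!
# W3-PT, row ALG-CHI2 (helper54): the counting theorems

* `chiIneqAbs  : ChiIneqAbs`  — `χ₂(V) ≤ p χ₂(U)` for `V ◁ U` of index `p`;
* `chiV3Abs    : ChiV3Abs`    — injectivity on `H³` in all steps of index `p` gives `H³ = 0`;
* `chiCountAbs : ChiCountAbs` — multiplicativity of `χ₂` below `U₀` gives `H³ = 0` below `U₀`.
-/

set_option autoImplicit false

namespace Fermat.Agent.PT

theorem chiIneqAbs : ChiIneqAbs := h54c_chiIneqAbs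

theorem chiV3Abs : ChiV3Abs := h54c_chiV3Abs

theorem chiCountAbs : ChiCountAbs := h54c_chiCountAbs_of h54c_chiIneqAbs h54c_chiV3Abs

end Fermat.Agent.PT
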