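import Mathlib
import Fermat.Agent.PT.Defs

/-!
# W3-PT, row ALG-LTH2: tools (helper54)

Self-contained cochain tools for one group `H` with a level system `L`:

* `h54_IsHom`                : equivariant linear maps; push-forward of cochains is `φ ∘ b`.
* `h54_d1_comp`, `h54_d2_comp`, `h54_d3_d2` : functoriality of the differentials, `d³ ∘ d² = 0`.
* `h54_isLC3_d2`             : `d²` of a level-constant cochain is level-constant.
* `h54_exists_level_trivial` : a finite dimensional discrete module is killed by a level.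
* `h54_subRep`, `h54_piRep`  : subrepresentations and finite powers.
* `h54_permMap`              : the equivariant map `Fun(H/N, k) → V`, `δ₁ ↦ v`.
* `h54_lift_Z2`              : lifting of `2`-cocycles along a surjection whose kernel has `H³ = 0`.
-/

set_option autoImplicit false

namespace Fermat.Agent.PT

section H54Tools

variable {k : Type} [Field k] {H : Type} [Group H]

/-- Equivariant linear maps. -/
def h54_IsHom {V W : Type} [AddCommGroup V] [Module k V] [AddCommGroup W] [Module k W]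
    (ρ : Representation k H V) (σ : Representation k H W) (φ : V →ₗ[k] W) : Prop :=
  ∀ (g : H) (v : V), φ (ρ g v) = σ g (φ v)

section Diff

variable {V W : Type} [AddCommGroup V] [Module k V] [AddCommGroup W] [Module k W]
variable {ρ : Representation k H V} {σ : Representation k H W} {φ : V →ₗ[k] W}

lemma h54_d1_comp (hφ : h54_IsHom ρ σ φ) (x : H → V) :
    d1 σ (φ ∘ x) = φ ∘ d1 ρ x := by
  have hφ' : ∀ (g : H) (v : V), φ (ρ g v) = σ g (φ v) := hφ
  funext ⟨g, h⟩
  simp only [d1_apply, Function.comp_apply, map_add, map_sub, hφ']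

lemma h54_d2_comp (hφ : h54_IsHom ρ σ φ) (x : H × H → V) :
    d2 σ (φ ∘ x) = φ ∘ d2 ρ x := by
  have hφ' : ∀ (g : H) (v : V), φ (ρ g v) = σ g (φ v) := hφ
  funext ⟨g, h, j⟩
  simp only [d2_apply, Function.comp_apply, map_add, map_sub, hφ']

lemma h54_d3_comp (hφ : h54_IsHom ρ σ φ) (x : H × H × H → V) :
    d3 σ (φ ∘ x) = φ ∘ d3 ρ x := by
  have hφ' : ∀ (g : H) (v : V), φ (ρ g v) = σ g (φ v) := hφ
  funext ⟨g, h, j, l⟩
  simp only [d3_apply, Function.comp_apply, map_add, map_sub, hφ']

lemma h54_d3_d2 (ρ : Representation k H V) (x : H × H → V) : d3 ρ (d2 ρ x) = 0 := by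
  funext ⟨g, h, j, l⟩
  simp only [d3_apply, d2_apply, map_add, map_sub, map_mul, Module.End.mul_apply, mul_assoc,
    Pi.zero_apply]
  abel

end Diff

section LCtools

variable (L : Lev H)

lemma h54_exists_level_le {ι : Type} (s : Finset ι) (N : ι → Subgroup H)
    (hN : ∀ i ∈ s, N i ∈ L.sets) : ∃ M ∈ L.sets, ∀ i ∈ s, M ≤ N i := by
  classical
  induction s using Finset.induction_on with
  | empty =>
    obtain ⟨M, hM⟩ := L.nonempty
    exact ⟨M, hM, fun i hi => absurd hi (Finset.notMem_empty i)⟩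
  | insert a s ha ih =>
    obtain ⟨M, hM, hle⟩ := ih (fun i hi => hN i (Finset.mem_insert_of_mem hi))
    obtain ⟨M', hM', hle'⟩ := L.directed M hM (N a) (hN a (Finset.mem_insert_self a s))
    refine ⟨M', hM', fun i hi => ?_⟩
    rcases Finset.mem_insert.1 hi with rfl | hi
    · exact hle'.trans inf_le_right
    · exact (hle'.trans inf_le_left).trans (hle i hi)

variable {L}

lemma h54_IsLC1_sub {X : Type} [AddGroup X] {f f' : H → X} (hf : IsLC1 L f)
    (hf' : IsLC1 L f') : IsLC1 L (f - f') := by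
  obtain ⟨N₁, h₁, hf⟩ := hf
  obtain ⟨N₂, h₂, hf'⟩ := hf'
  obtain ⟨N, hN, hle⟩ := L.directed N₁ h₁ N₂ h₂
  refine ⟨N, hN, fun g s hs => ?_⟩
  simp only [Pi.sub_apply]
  rw [hf g s (hle hs).1, hf' g s (hle hs).2]

lemma h54_IsLC2_sub {X : Type} [AddGroup X] {f f' : H × H → X} (hf : IsLC2 L f)
    (hf' : IsLC2 L f') : IsLC2 L (f - f') := by
  obtain ⟨N₁, h₁, hf⟩ := hf
  obtain ⟨N₂, h₂, hf'⟩ := hf'
  obtain ⟨N, hN, hle⟩ := L.directed N₁ h₁ N₂ h₂
  refine ⟨N, hN, fun g g' s s' hs hs' => ?_⟩
  simp only [Pi.sub_apply]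
  rw [hf g g' s s' (hle hs).1 (hle hs').1, hf' g g' s s' (hle hs).2 (hle hs').2]

/-- A finite family of level-constant `1`-cochains is a level-constant cochain with values in the
product. -/
lemma h54_IsLC1_pi {ι : Type} [Finite ι] {X : Type} (x : ι → H → X)
    (hx : ∀ i, IsLC1 L (x i)) : IsLC1 L (fun h i => x i h) := by
  classical
  have := Fintype.ofFinite ι
  choose N hN hx using hx
  obtain ⟨M, hM, hle⟩ := h54_exists_level_le L Finset.univ N (fun i _ => hN i)
  refine ⟨M, hM, fun g s hs => ?_⟩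
  funext i
  exact hx i g s (hle i (Finset.mem_univ i) hs)

variable {V : Type} [AddCommGroup V] [Module k V]

/-- `d²` of a level-constant cochain with values in a module killed by a level is
level-constant. -/
lemma h54_isLC3_d2 (hgood : L.Good) (ρ : Representation k H V)
    (htriv : ∃ N ∈ L.sets, ∀ s ∈ N, ∀ v, ρ s v = v) {y : H × H → V} (hy : IsLC2 L y) :
    IsLC3 L (d2 ρ y) := by
  obtain ⟨N₀, h₀, htriv⟩ := htriv
  obtain ⟨N₁, h₁, hy⟩ := hy
  obtain ⟨N, hN, hle⟩ := L.directed N₀ h₀ N₁ h₁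
  have hnorm : N.Normal := (hgood N hN).1
  refine ⟨N, hN, fun g g' g'' s s' s'' hs hs' hs'' => ?_⟩
  have e1 : g * s * (g' * s') = g * g' * (g'⁻¹ * s * g' * s') := by group
  have e2 : g' * s' * (g'' * s'') = g' * g'' * (g''⁻¹ * s' * g'' * s'') := by group
  have m1 : g'⁻¹ * s * g' * s' ∈ N := by
    have := hnorm.conj_mem s hs g'⁻¹
    rw [inv_inv] at this
    exact N.mul_mem this hs'
  have m2 : g''⁻¹ * s' * g'' * s'' ∈ N := by
    have := hnorm.conj_mem s' hs' g''⁻¹
    rw [inv_inv] at this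
    exact N.mul_mem this hs''
  simp only [d2_apply]
  rw [e1, e2, hy (g * g') g'' _ s'' (hle m1).2 (hle hs'').2,
    hy g (g' * g'') s _ (hle hs).2 (hle m2).2, hy g g' s s' (hle hs).2 (hle hs').2,
    hy g' g'' s' s'' (hle hs').2 (hle hs'').2, map_mul, Module.End.mul_apply,
    htriv s (hle hs).1]

/-- A finite dimensional discrete module is killed by a level. -/
lemma h54_exists_level_trivial [FiniteDimensional k V] (ρ : Representation k H V)
    (hd : IsDisc L ρ) : ∃ N ∈ L.sets, ∀ s ∈ N, ∀ v, ρ s v = v := by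
  classical
  obtain ⟨S, hS⟩ := (Module.finite_def.1 (inferInstance : Module.Finite k V))
  choose N hN hfix using hd
  obtain ⟨M, hM, hle⟩ := h54_exists_level_le L S N (fun i _ => hN i)
  refine ⟨M, hM, fun s hs v => ?_⟩
  have hv : v ∈ Submodule.span k (S : Set V) := by rw [hS]; trivial
  induction hv using Submodule.span_induction with
  | mem x hx => exact hfix x s (hle x hx hs)
  | zero => simp
  | add x y _ _ hx hy => rw [map_add, hx, hy]
  | smul c x _ hx => rw [map_smul, hx]

end LCtools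


/-! ### Push-forward of cocycles -/

section Push

variable {L : Lev H}
variable {V W : Type} [AddCommGroup V] [Module k V] [AddCommGroup W] [Module k W]
variable {ρ : Representation k H V} {σ : Representation k H W} {φ : V →ₗ[k] W}

lemma h54_comp_mem_Z2 (hφ : h54_IsHom ρ σ φ) {b : H × H → V} (hb : b ∈ Z2 L ρ) :
    (φ ∘ b) ∈ Z2 L σ := by
  rw [mem_Z2] at hb ⊢
  refine ⟨?_, hb.2.comp φ⟩
  rw [h54_d2_comp hφ, hb.1]
  funext p
  simp

lemma h54_comp_mem_B2 (hφ : h54_IsHom ρ σ φ) {b : H × H → V} (hb : b ∈ B2 L ρ) :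
    (φ ∘ b) ∈ B2 L σ := by
  rw [mem_B2] at hb ⊢
  obtain ⟨x, hx, rfl⟩ := hb
  exact ⟨φ ∘ x, hx.comp φ, h54_d1_comp hφ x⟩

end Push

/-! ### Invariants of the twisted dual -/

section Inv

variable {V : Type} [AddCommGroup V] [Module k V]

lemma h54_mem_invariants_dualTw (χ : H →* kˣ) (ρ : Representation k H V)
    (w : Module.Dual k V) :
    w ∈ (dualTw χ ρ).invariants ↔ ∀ (g : H) (v : V), w (ρ g v) = (χ g : k) * w v := by
  rw [Representation.mem_invariants]
  constructor
  · intro h g v
    have h1 := LinearMap.congr_fun (h g⁻¹) v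
    rw [dualTw_apply, inv_inv] at h1
    simp only [LinearMap.smul_apply, LinearMap.coe_comp, Function.comp_apply, smul_eq_mul,
      map_inv, Units.val_inv_eq_inv_val] at h1
    have hne : (χ g : k) ≠ 0 := (χ g).ne_zero
    rw [← h1]
    field_simp
  · intro h g
    ext v
    rw [dualTw_apply]
    simp only [LinearMap.smul_apply, LinearMap.coe_comp, Function.comp_apply, smul_eq_mul]
    rw [h g⁻¹ v, map_inv, Units.val_inv_eq_inv_val]
    have hne : (χ g : k) ≠ 0 := (χ g).ne_zero
    field_simp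

lemma h54_cup20_of_invariant (χ : H →* kˣ) (ρ : Representation k H V) (b : H × H → V)
    {w : Module.Dual k V} (hw : w ∈ (dualTw χ ρ).invariants) :
    cup20 (Module.Dual.eval k V) (dualTw χ ρ) b w = w ∘ b := by
  funext ⟨g, h⟩
  rw [cup20_apply, (Representation.mem_invariants _ _).1 hw (g * h)]
  rfl

/-- Pull-back of an invariant functional along an equivariant map. -/
lemma h54_comp_mem_invariants (χ : H →* kˣ) {W : Type} [AddCommGroup W] [Module k W]
    {ρ : Representation k H V} {σ : Representation k H W} {φ : V →ₗ[k] W}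
    (hφ : h54_IsHom ρ σ φ) {w : Module.Dual k W} (hw : w ∈ (dualTw χ σ).invariants) :
    w ∘ₗ φ ∈ (dualTw χ ρ).invariants := by
  rw [h54_mem_invariants_dualTw] at hw ⊢
  intro g v
  rw [LinearMap.comp_apply, LinearMap.comp_apply, hφ g v, hw]

end Inv

/-! ### Subrepresentations and finite powers -/

section Constructions

variable {V : Type} [AddCommGroup V] [Module k V]

/-- The subrepresentation on an invariant submodule. -/
def h54_subRep (ρ : Representation k H V) (K : Submodule k V)
    (hK : ∀ (g : H), ∀ x ∈ K, ρ g x ∈ K) : Representation k H K where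
  toFun g := (ρ g).restrict (hK g)
  map_one' := by
    ext x
    simp
  map_mul' g h := by
    ext x
    simp

@[simp] lemma h54_subRep_apply (ρ : Representation k H V) (K : Submodule k V)
    (hK : ∀ (g : H), ∀ x ∈ K, ρ g x ∈ K) (g : H) (x : K) :
    ((h54_subRep ρ K hK g x : K) : V) = ρ g (x : V) := rfl

lemma h54_subRep_isHom (ρ : Representation k H V) (K : Submodule k V)
    (hK : ∀ (g : H), ∀ x ∈ K, ρ g x ∈ K) : h54_IsHom (h54_subRep ρ K hK) ρ K.subtype :=
  fun _ _ => rfl

/-- The power `ρ^ι` on `ι → V`. -/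
def h54_piRep (ρ : Representation k H V) (ι : Type) : Representation k H (ι → V) where
  toFun g := (ρ g).compLeft ι
  map_one' := by
    ext f i
    simp
  map_mul' g h := by
    ext f i
    simp

@[simp] lemma h54_piRep_apply (ρ : Representation k H V) (ι : Type) (g : H) (f : ι → V)
    (i : ι) : h54_piRep ρ ι g f i = ρ g (f i) := rfl

lemma h54_piRep_proj_isHom (ρ : Representation k H V) (ι : Type) (i : ι) :
    h54_IsHom (h54_piRep ρ ι) ρ (LinearMap.proj i) :=
  fun _ _ => rfl

end Constructions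


/-! ### The map from a permutation module -/

section Perm

variable {V : Type} [AddCommGroup V] [Module k V]

/-- The linear map `Fun(H/N, k) → V`, `f ↦ ∑ₓ f(x) • x̃ v`. -/
noncomputable def h54_permMap (ρ : Representation k H V) (N : Subgroup H) [Fintype (H ⧸ N)]
    (v : V) : ((H ⧸ N) → k) →ₗ[k] V where
  toFun f := ∑ x : H ⧸ N, f x • ρ (Quotient.out x) v
  map_add' f f' := by simp [add_smul, Finset.sum_add_distrib]
  map_smul' c f := by simp [mul_smul, Finset.smul_sum]

lemma h54_permMap_apply (ρ : Representation k H V) (N : Subgroup H) [Fintype (H ⧸ N)]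
    (v : V) (f : (H ⧸ N) → k) :
    h54_permMap ρ N v f = ∑ x : H ⧸ N, f x • ρ (Quotient.out x) v := rfl

lemma h54_out_smul (ρ : Representation k H V) (N : Subgroup H)
    (htriv : ∀ s ∈ N, ∀ v, ρ s v = v) (g : H) (y : H ⧸ N) (v : V) :
    ρ (Quotient.out (g • y)) v = ρ g (ρ (Quotient.out y) v) := by
  have hmem : (g * Quotient.out y)⁻¹ * Quotient.out (g • y) ∈ N := by
    rw [← QuotientGroup.eq, QuotientGroup.out_eq']
    conv_rhs => rw [← QuotientGroup.out_eq' y]
    rfl
  have e : Quotient.out (g • y)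
      = g * Quotient.out y * ((g * Quotient.out y)⁻¹ * Quotient.out (g • y)) := by group
  rw [e, map_mul, map_mul, Module.End.mul_apply, Module.End.mul_apply, htriv _ hmem]

lemma h54_permMap_isHom (ρ : Representation k H V) (N : Subgroup H) [Fintype (H ⧸ N)]
    (htriv : ∀ s ∈ N, ∀ v, ρ s v = v) (v : V) :
    h54_IsHom (permRep k N) ρ (h54_permMap ρ N v) := by
  intro g f
  rw [h54_permMap_apply, h54_permMap_apply, map_sum]
  rw [← Equiv.sum_comp (MulAction.toPerm g : Equiv.Perm (H ⧸ N))]
  refine Finset.sum_congr rfl (fun y _ => ?_)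
  simp only [MulAction.toPerm_apply, permRep_apply, inv_smul_smul, map_smul]
  rw [h54_out_smul ρ N htriv]

lemma h54_permMap_single (ρ : Representation k H V) (N : Subgroup H) [Fintype (H ⧸ N)]
    [DecidableEq (H ⧸ N)] (htriv : ∀ s ∈ N, ∀ v, ρ s v = v) (v : V) :
    h54_permMap ρ N v (Pi.single ((1 : H) : H ⧸ N) 1) = v := by
  rw [h54_permMap_apply, Finset.sum_eq_single ((1 : H) : H ⧸ N)]
  · rw [Pi.single_eq_same, one_smul]
    have hmem : Quotient.out ((1 : H) : H ⧸ N) ∈ N := by
      have h1 : ((Quotient.out ((1 : H) : H ⧸ N) : H) : H ⧸ N) = ((1 : H) : H ⧸ N) :=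
        QuotientGroup.out_eq' _
      rw [QuotientGroup.eq] at h1
      simpa using N.inv_mem h1
    exact htriv _ hmem v
  · intro x _ hx
    rw [Pi.single_eq_of_ne hx, zero_smul]
  · intro h
    exact absurd (Finset.mem_univ _) h

/-- A permutation module of a normal subgroup is killed by that subgroup. -/
lemma h54_permRep_trivial (N : Subgroup H) [N.Normal] (s : H) (hs : s ∈ N)
    (f : (H ⧸ N) → k) : permRep k N s f = f := by
  funext x
  rw [permRep_apply]
  congr 1
  induction x using QuotientGroup.induction_on with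
  | H g =>
    show ((s⁻¹ * g : H) : H ⧸ N) = (g : H ⧸ N)
    rw [QuotientGroup.eq]
    have := ‹N.Normal›.conj_mem s hs g⁻¹
    simpa [mul_assoc] using this

end Perm

/-! ### Lifting of cocycles (right exactness of `H²`) -/

section Lift

variable {L : Lev H}
variable {P V : Type} [AddCommGroup P] [Module k P] [AddCommGroup V] [Module k V]
variable {ρP : Representation k H P} {ρ : Representation k H V} {π : P →ₗ[k] V}

lemma h54_ker_stable (hπ : h54_IsHom ρP ρ π) (g : H) :
    ∀ x ∈ LinearMap.ker π, ρP g x ∈ LinearMap.ker π := by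
  intro x hx
  rw [LinearMap.mem_ker] at hx ⊢
  rw [hπ g x, hx, map_zero]

/-- Lifting of `2`-cocycles along an equivariant surjection whose kernel has `H³ = 0`:
every `z ∈ Z²(ρ)` is `π ∘ y` with `y ∈ Z²(ρP)`. -/
theorem h54_lift_Z2 (hgood : L.Good) (htrivP : ∃ N ∈ L.sets, ∀ s ∈ N, ∀ x, ρP s x = x)
    (hπ : h54_IsHom ρP ρ π) (hsurj : Function.Surjective π)
    (hH3 : H3Vanishes L (h54_subRep ρP (LinearMap.ker π) (h54_ker_stable hπ)))
    {z : H × H → V} (hz : z ∈ Z2 L ρ) : ∃ y ∈ Z2 L ρP, π ∘ y = z := by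
  rw [mem_Z2] at hz
  obtain ⟨s, hs⟩ := π.exists_rightInverse_of_surjective (LinearMap.range_eq_top.2 hsurj)
  have hs' : ∀ v, π (s v) = v := fun v => LinearMap.congr_fun hs v
  set y₀ : H × H → P := s ∘ z with hy₀
  have hy₀LC : IsLC2 L y₀ := hz.2.comp s
  have hπy₀ : π ∘ y₀ = z := by
    funext p
    simp [hy₀, hs']
  have hπc₀ : ∀ p, π (d2 ρP y₀ p) = 0 := by
    intro p
    have := congrFun (h54_d2_comp hπ y₀) p
    rw [hπy₀, hz.1] at this
    simpa using this.symm
  set K := LinearMap.ker π with hKdef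
  set σK := h54_subRep ρP K (h54_ker_stable hπ) with hσK
  have hιhom : h54_IsHom σK ρP K.subtype := h54_subRep_isHom ρP K (h54_ker_stable hπ)
  let c : H × H × H → K := fun p => ⟨d2 ρP y₀ p, LinearMap.mem_ker.2 (hπc₀ p)⟩
  have hιc : K.subtype ∘ c = d2 ρP y₀ := rfl
  have hc : c ∈ Z3 L σK := by
    rw [mem_Z3]
    constructor
    · have h1 : K.subtype ∘ d3 σK c = 0 := by
        rw [← h54_d3_comp hιhom c, hιc, h54_d3_d2]
      funext p
      apply Subtype.ext
      exact congrFun h1 p
    · obtain ⟨N, hN, hconst⟩ := h54_isLC3_d2 hgood ρP htrivP hy₀LC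
      exact ⟨N, hN, fun g g' g'' t t' t'' ht ht' ht'' =>
        Subtype.ext (hconst g g' g'' t t' t'' ht ht' ht'')⟩
  obtain ⟨x, hxLC, hx⟩ := (mem_B3 L σK c).1 (hH3 hc)
  refine ⟨y₀ - K.subtype ∘ x, ?_, ?_⟩
  · rw [mem_Z2]
    constructor
    · rw [map_sub, h54_d2_comp hιhom x, hx, hιc, sub_self]
    · exact h54_IsLC2_sub hy₀LC (hxLC.comp K.subtype)
  · funext p
    have hk : π ((x p : K) : P) = 0 := LinearMap.mem_ker.1 (x p).2
    simp only [Function.comp_apply, Pi.sub_apply, map_sub, Submodule.subtype_apply, hk, sub_zero]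
    exact congrFun hπy₀ p

end Lift

end H54Tools

end Fermat.Agent.PT
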