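import Fermat.Agent.PT.Alg.H54ChiLES
import Fermat.Agent.PT.Alg.LTheta2Tools

/-!
# W3-PT, row ALG-CHI2 (helper54), part 2: the filtration of a cyclic covering

`G` acts on `X` and `Y`, `π : X → Y` is an equivariant surjection whose fibres are the orbits of a
free action of `ℤ/p` (generated by `r : X → X`, commuting with `G`). On `M = Fun(X, k)`
(`char k = p`) the operator `t = r^* - 1` is nilpotent, `t^p = 0`, `ker t = π^* Fun(Y, k)
= range t^(p-1)`, and the exact sequences `0 → Fun(Y, k) → range t^i → range t^(i+1) → 0`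
(`i < p`) give `χ(Fun(X, k)) ≤ p χ(Fun(Y, k))`.
-/

set_option autoImplicit false

namespace Fermat.Agent.PT

open Fermat.Agent.PT.Tools Module Polynomial

noncomputable section H54ChiFilt

variable {k : Type} [Field k] {G : Type} [Group G]

/-- the permutation representation on `X → k`, `(g f)(x) = f(g⁻¹ x)`. -/
def h54c_funRep (k : Type) [Field k] (G : Type) [Group G] (X : Type) [MulAction G X] :
    Representation k G (X → k) where
  toFun g := LinearMap.funLeft k k (fun x : X => g⁻¹ • x)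
  map_one' := by
    ext f x
    simp [LinearMap.funLeft_apply]
  map_mul' g h := by
    ext f x
    simp [LinearMap.funLeft_apply, mul_smul]

lemma h54c_funRep_apply (X : Type) [MulAction G X] (g : G) (f : X → k) (x : X) :
    h54c_funRep k G X g f x = f (g⁻¹ • x) := rfl

lemma h54c_permRep_eq (U : Subgroup G) : permRep k U = h54c_funRep k G (G ⧸ U) := rfl

/-- a cyclic covering of degree `p` of `G`-sets. -/
structure h54c_Cyc (G : Type) [Group G] (p : ℕ) {X Y : Type} [MulAction G X] [MulAction G Y]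
    (π : X → Y) (r : X → X) : Prop where
  π_smul : ∀ (g : G) (x : X), π (g • x) = g • π x
  π_surj : Function.Surjective π
  r_smul : ∀ (g : G) (x : X), r (g • x) = g • r x
  π_r : ∀ x, π (r x) = π x
  fib : ∀ x x', π x = π x' → ∃ j : ℕ, r^[j] x = x'
  r_pow : ∀ x, r^[p] x = x
  free : ∀ (x : X) (j : ℕ), 0 < j → j < p → r^[j] x ≠ x

variable {X Y : Type} [MulAction G X] [MulAction G Y]

/-- the operator `r^*`. -/
def h54c_R (k : Type) [Field k] (r : X → X) : Module.End k (X → k) := LinearMap.funLeft k k r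

/-- the operator `t = r^* - 1`. -/
def h54c_t (k : Type) [Field k] (r : X → X) : Module.End k (X → k) := h54c_R k r - 1

/-- the pull-back `π^*`. -/
def h54c_pi (k : Type) [Field k] (π : X → Y) : (Y → k) →ₗ[k] (X → k) := LinearMap.funLeft k k π

lemma h54c_R_apply (r : X → X) (f : X → k) (x : X) : h54c_R k r f x = f (r x) := rfl

lemma h54c_t_apply (r : X → X) (f : X → k) (x : X) : h54c_t k r f x = f (r x) - f x := rfl

lemma h54c_pi_apply (π : X → Y) (f : Y → k) (x : X) : h54c_pi k π f x = f (π x) := rfl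

lemma h54c_R_pow (r : X → X) (j : ℕ) (f : X → k) (x : X) :
    ((h54c_R k r) ^ j) f x = f (r^[j] x) := by
  induction j generalizing f with
  | zero => simp
  | succ n ih =>
    rw [pow_succ, Module.End.mul_apply, ih, h54c_R_apply, Function.iterate_succ_apply']

lemma h54c_t_eq_aeval (r : X → X) :
    h54c_t k r = Polynomial.aeval (h54c_R k r) ((Polynomial.X : k[X]) - 1) := by
  simp [h54c_t]

/-- `t^p = 0`. -/
lemma h54c_t_pow_p {p : ℕ} [Fact p.Prime] [CharP k p] {r : X → X}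
    (hr : ∀ x, r^[p] x = x) : (h54c_t k r) ^ p = 0 := by
  have h1 : ((Polynomial.X : k[X]) - 1) ^ p = Polynomial.X ^ p - 1 := by
    rw [sub_pow_char, one_pow]
  have h2 := congrArg (Polynomial.aeval (h54c_R k r)) h1
  rw [map_pow, ← h54c_t_eq_aeval] at h2
  rw [h2]
  simp only [map_sub, map_pow, Polynomial.aeval_X, map_one]
  ext f x
  simp only [LinearMap.sub_apply, Pi.sub_apply, Module.End.one_apply, LinearMap.zero_apply,
    Pi.zero_apply]
  rw [h54c_R_pow, hr, sub_self]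

/-- `t^(p-1) = 1 + r^* + … + (r^*)^(p-1)`. -/
lemma h54c_t_pow_pred {p : ℕ} [hp : Fact p.Prime] [CharP k p] (r : X → X) :
    (h54c_t k r) ^ (p - 1) = ∑ j ∈ Finset.range p, (h54c_R k r) ^ j := by
  have h0 : ((Polynomial.X : k[X]) - 1) ^ (p - 1) = ∑ j ∈ Finset.range p, (Polynomial.X : k[X]) ^ j := by
    have h1 : ((Polynomial.X : k[X]) - 1) ^ p = Polynomial.X ^ p - 1 := by
      rw [sub_pow_char, one_pow]
    have h2 : ((Polynomial.X : k[X]) - 1) * ∑ j ∈ Finset.range p, (Polynomial.X : k[X]) ^ j = Polynomial.X ^ p - 1 :=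
      mul_geom_sum _ _
    have h3 : ((Polynomial.X : k[X]) - 1) ≠ 0 := by
      have := Polynomial.X_sub_C_ne_zero (1 : k)
      simpa using this
    apply mul_left_cancel₀ h3
    rw [h2, ← h1]
    have hp1 : p = (p - 1) + 1 := (Nat.succ_pred_eq_of_pos hp.out.pos).symm
    conv_rhs => rw [hp1, pow_succ']
  have h2 := congrArg (Polynomial.aeval (h54c_R k r)) h0
  rw [map_pow, ← h54c_t_eq_aeval] at h2
  rw [h2]
  simp only [map_sum, map_pow, Polynomial.aeval_X]

/-! ### equivariance -/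

lemma h54c_isHom_R {r : X → X} (hr : ∀ (g : G) (x : X), r (g • x) = g • r x) :
    IsHom (h54c_funRep k G X) (h54c_funRep k G X) (h54c_R k r) := by
  intro g f
  funext x
  rw [h54c_R_apply, h54c_funRep_apply, h54c_funRep_apply, h54c_R_apply, hr]

lemma h54c_isHom_t {r : X → X} (hr : ∀ (g : G) (x : X), r (g • x) = g • r x) :
    IsHom (h54c_funRep k G X) (h54c_funRep k G X) (h54c_t k r) := by
  intro g f
  funext x
  rw [h54c_t_apply, h54c_funRep_apply, h54c_funRep_apply, h54c_funRep_apply, h54c_t_apply, hr]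

lemma h54c_isHom_t_pow {r : X → X} (hr : ∀ (g : G) (x : X), r (g • x) = g • r x) (i : ℕ) :
    IsHom (h54c_funRep k G X) (h54c_funRep k G X) ((h54c_t k r) ^ i) := by
  induction i with
  | zero =>
    intro g f
    simp
  | succ n ih =>
    intro g f
    rw [pow_succ, Module.End.mul_apply, h54c_isHom_t hr g f, ih g, Module.End.mul_apply]

lemma h54c_isHom_pi {π : X → Y} (hπ : ∀ (g : G) (x : X), π (g • x) = g • π x) :
    IsHom (h54c_funRep k G Y) (h54c_funRep k G X) (h54c_pi k π) := by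
  intro g f
  funext x
  rw [h54c_pi_apply, h54c_funRep_apply, h54c_funRep_apply, h54c_pi_apply, hπ]

/-! ### kernel and image of `t` -/

section KerRange

variable {p : ℕ} {π : X → Y} {r : X → X}

lemma h54c_iterate_mul (hc : h54c_Cyc G p π r) (q : ℕ) (x : X) : r^[p * q] x = x := by
  rw [Function.iterate_mul]
  exact Function.iterate_fixed (hc.r_pow x) q

lemma h54c_iterate_mod (hc : h54c_Cyc G p π r) (j : ℕ) (x : X) : r^[j % p] x = r^[j] x := by
  conv_rhs => rw [← Nat.mod_add_div j p, Function.iterate_add_apply, h54c_iterate_mul hc]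

lemma h54c_pi_iterate (hc : h54c_Cyc G p π r) (j : ℕ) (x : X) : π (r^[j] x) = π x := by
  induction j with
  | zero => rfl
  | succ n ih => rw [Function.iterate_succ_apply', hc.π_r, ih]

lemma h54c_iterate_inj_aux (hc : h54c_Cyc G p π r) (x : X) {j j' : ℕ} (hjj : j < j')
    (hj' : j' < p) (h : r^[j] x = r^[j'] x) : False := by
  have h1 : r^[j' - j] (r^[j] x) = r^[j] x := by
    rw [← Function.iterate_add_apply, Nat.sub_add_cancel hjj.le, ← h]
  exact hc.free (r^[j] x) (j' - j) (by omega) (by omega) h1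

lemma h54c_iterate_inj (hc : h54c_Cyc G p π r) (x : X) {j j' : ℕ} (hj : j < p) (hj' : j' < p)
    (h : r^[j] x = r^[j'] x) : j = j' := by
  rcases lt_trichotomy j j' with h1 | h1 | h1
  · exact (h54c_iterate_inj_aux hc x h1 hj' h).elim
  · exact h1
  · exact (h54c_iterate_inj_aux hc x h1 hj h.symm).elim

lemma h54c_t_pi (hc : h54c_Cyc G p π r) (f : Y → k) : h54c_t k r (h54c_pi k π f) = 0 := by
  funext x
  rw [h54c_t_apply, h54c_pi_apply, h54c_pi_apply, hc.π_r, sub_self]
  rfl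

lemma h54c_ker_iterate {f : X → k} (hf : h54c_t k r f = 0) (j : ℕ) (x : X) :
    f (r^[j] x) = f x := by
  induction j with
  | zero => rfl
  | succ n ih =>
    rw [Function.iterate_succ_apply', ← ih]
    have := congrFun hf (r^[n] x)
    rw [h54c_t_apply] at this
    exact sub_eq_zero.1 this

/-- `ker t = π^* Fun(Y, k)`. -/
lemma h54c_ker_t (hc : h54c_Cyc G p π r) :
    LinearMap.ker (h54c_t k r) = LinearMap.range (h54c_pi k π) := by
  ext f
  rw [LinearMap.mem_ker, LinearMap.mem_range]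
  constructor
  · intro hf
    refine ⟨fun y => f (Function.surjInv hc.π_surj y), ?_⟩
    funext x
    rw [h54c_pi_apply]
    obtain ⟨j, hj⟩ := hc.fib x (Function.surjInv hc.π_surj (π x))
      (Function.surjInv_eq hc.π_surj (π x)).symm
    rw [← hj, h54c_ker_iterate hf]
  · rintro ⟨h, rfl⟩
    exact h54c_t_pi hc h

/-- `ker t ⊆ range t^(p-1)`. -/
lemma h54c_ker_le_range_pred [Fact p.Prime] [CharP k p] (hc : h54c_Cyc G p π r) :
    LinearMap.ker (h54c_t k r) ≤ LinearMap.range ((h54c_t k r) ^ (p - 1)) := by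
  classical
  intro f hf
  rw [LinearMap.mem_ker] at hf
  rw [LinearMap.mem_range]
  let s : Y → X := Function.surjInv hc.π_surj
  refine ⟨fun x => if x = s (π x) then f x else 0, ?_⟩
  funext x
  rw [h54c_t_pow_pred, LinearMap.sum_apply, Finset.sum_apply]
  obtain ⟨j, hj⟩ := hc.fib x (s (π x)) (Function.surjInv_eq hc.π_surj (π x)).symm
  have hj0 : r^[j % p] x = s (π x) := by rw [h54c_iterate_mod hc, hj]
  have hlt : j % p < p := Nat.mod_lt _ (Fact.out : p.Prime).pos
  rw [Finset.sum_eq_single (j % p)]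
  · rw [h54c_R_pow]
    show (if r^[j % p] x = s (π (r^[j % p] x)) then f (r^[j % p] x) else 0) = f x
    rw [h54c_pi_iterate hc, if_pos hj0, h54c_ker_iterate hf]
  · intro i hi hne
    rw [h54c_R_pow]
    show (if r^[i] x = s (π (r^[i] x)) then f (r^[i] x) else 0) = 0
    rw [h54c_pi_iterate hc, if_neg]
    intro heq
    exact hne (h54c_iterate_inj hc x (Finset.mem_range.1 hi) hlt (heq.trans hj0.symm))
  · intro hn
    exact (hn (Finset.mem_range.2 hlt)).elim

/-- `ker t ⊆ range t^i` for `i < p`. -/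
lemma h54c_ker_le_range_pow [Fact p.Prime] [CharP k p] (hc : h54c_Cyc G p π r) (i : ℕ)
    (hi : i + 1 ≤ p) :
    LinearMap.ker (h54c_t k r) ≤ LinearMap.range ((h54c_t k r) ^ i) := by
  intro f hf
  obtain ⟨h, rfl⟩ := h54c_ker_le_range_pred hc hf
  refine ⟨((h54c_t k r) ^ (p - 1 - i)) h, ?_⟩
  rw [← Module.End.mul_apply, ← pow_add]
  congr 2
  omega

end KerRange

/-! ### the filtration and its exact sequences -/

section SESgen

variable {p : ℕ} {π : X → Y} {r : X → X}

lemma h54c_range_stable (hr : ∀ (g : G) (x : X), r (g • x) = g • r x) (i : ℕ) (g : G) :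
    ∀ f ∈ LinearMap.range ((h54c_t k r) ^ i),
      h54c_funRep k G X g f ∈ LinearMap.range ((h54c_t k r) ^ i) := by
  rintro _ ⟨h, rfl⟩
  exact ⟨h54c_funRep k G X g h, h54c_isHom_t_pow hr i g h⟩

/-- the sub-representation `F_i = range t^i`. -/
def h54c_F (k : Type) [Field k] {r : X → X} (hr : ∀ (g : G) (x : X), r (g • x) = g • r x)
    (i : ℕ) : Representation k G ↥(LinearMap.range ((h54c_t k r) ^ i)) :=
  h54_subRep (h54c_funRep k G X) _ (h54c_range_stable hr i)

lemma h54c_F_coe (hr : ∀ (g : G) (x : X), r (g • x) = g • r x) (i : ℕ) (g : G)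
    (f : ↥(LinearMap.range ((h54c_t k r) ^ i))) :
    ((h54c_F k hr i g f : ↥(LinearMap.range ((h54c_t k r) ^ i))) : X → k) =
      h54c_funRep k G X g (f : X → k) := rfl

lemma h54c_isDisc_funRep (L : Lev G) (hX : ∃ N ∈ L.sets, ∀ s ∈ N, ∀ x : X, s • x = x) :
    IsDisc L (h54c_funRep k G X) := by
  intro f
  obtain ⟨N, hN, hfix⟩ := hX
  refine ⟨N, hN, fun s hs => ?_⟩
  funext x
  rw [h54c_funRep_apply, hfix s⁻¹ (N.inv_mem hs)]

lemma h54c_isDisc_F (L : Lev G) (hX : ∃ N ∈ L.sets, ∀ s ∈ N, ∀ x : X, s • x = x)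
    (hr : ∀ (g : G) (x : X), r (g • x) = g • r x) (i : ℕ) : IsDisc L (h54c_F k hr i) := by
  intro f
  obtain ⟨N, hN, hfix⟩ := h54c_isDisc_funRep (k := k) L hX (f : X → k)
  exact ⟨N, hN, fun s hs => Subtype.ext (hfix s hs)⟩

/-- the exact sequence `0 → Fun(Y, k) → B → F_(i+1) → 0` for `B ≅ F_i`, `i < p`. -/
theorem h54c_ses_gen [Fact p.Prime] [CharP k p] (hc : h54c_Cyc G p π r) {B : Type}
    [AddCommGroup B] [Module k B] (ρB : Representation k G B) (ι : B →ₗ[k] (X → k))
    (hι : IsHom ρB (h54c_funRep k G X) ι) (hinj : Function.Injective ι) (i : ℕ)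
    (hi : i + 1 ≤ p) (hrange : LinearMap.range ι = LinearMap.range ((h54c_t k r) ^ i)) :
    ∃ (φ : (Y → k) →ₗ[k] B) (ψ : B →ₗ[k] ↥(LinearMap.range ((h54c_t k r) ^ (i + 1)))),
      SES (h54c_funRep k G Y) ρB (h54c_F k hc.r_smul (i + 1)) φ ψ ∧
        ∀ f, ι (φ f) = h54c_pi k π f := by
  have hmem : ∀ f, h54c_pi k π f ∈ LinearMap.range ι := by
    intro f
    rw [hrange]
    exact h54c_ker_le_range_pow hc i hi (LinearMap.mem_ker.2 (h54c_t_pi hc f))
  let e : B ≃ₗ[k] ↥(LinearMap.range ι) := LinearEquiv.ofInjective ι hinj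
  have he : ∀ y : ↥(LinearMap.range ι), ι (e.symm y) = (y : X → k) := by
    intro y
    have h1 : ((e (e.symm y) : ↥(LinearMap.range ι)) : X → k) = ι (e.symm y) :=
      LinearEquiv.ofInjective_apply ι (e.symm y)
    rw [← h1, e.apply_symm_apply]
  let φ : (Y → k) →ₗ[k] B := e.symm.toLinearMap ∘ₗ (h54c_pi k π).codRestrict _ hmem
  have hφ : ∀ f, ι (φ f) = h54c_pi k π f := by
    intro f
    show ι (e.symm ((h54c_pi k π).codRestrict _ hmem f)) = _
    rw [he]
    rfl
  have hψmem : ∀ b, (h54c_t k r ∘ₗ ι) b ∈ LinearMap.range ((h54c_t k r) ^ (i + 1)) := by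
    intro b
    have hb : ι b ∈ LinearMap.range ((h54c_t k r) ^ i) := by
      rw [← hrange]
      exact ⟨b, rfl⟩
    obtain ⟨m, hm⟩ := hb
    refine ⟨m, ?_⟩
    rw [pow_succ', Module.End.mul_apply, hm]
    rfl
  let ψ : B →ₗ[k] ↥(LinearMap.range ((h54c_t k r) ^ (i + 1))) :=
    (h54c_t k r ∘ₗ ι).codRestrict _ hψmem
  have hψ : ∀ b, ((ψ b : ↥(LinearMap.range ((h54c_t k r) ^ (i + 1)))) : X → k) =
      h54c_t k r (ι b) := fun b => rfl
  refine ⟨φ, ψ, ⟨?_, ?_, ?_, ?_, ?_⟩, hφ⟩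
  · intro g f
    apply hinj
    rw [hφ, hι g (φ f), hφ, h54c_isHom_pi hc.π_smul g f]
  · intro g b
    apply Subtype.ext
    rw [hψ, h54c_F_coe, hψ, hι g b, h54c_isHom_t hc.r_smul g (ι b)]
  · intro f f' hff
    have h1 : h54c_pi k π f = h54c_pi k π f' := by rw [← hφ, ← hφ, hff]
    funext y
    obtain ⟨x, rfl⟩ := hc.π_surj y
    exact congrFun h1 x
  · rintro ⟨y, m, hm⟩
    have hb : ((h54c_t k r) ^ i) m ∈ LinearMap.range ι := by
      rw [hrange]
      exact ⟨m, rfl⟩
    obtain ⟨b, hb⟩ := hb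
    refine ⟨b, Subtype.ext ?_⟩
    rw [hψ, hb, ← Module.End.mul_apply, ← pow_succ']
    exact hm
  · intro b
    constructor
    · intro hb
      have h1 : h54c_t k r (ι b) = 0 := by
        rw [← hψ, hb]
        rfl
      have h2 : ι b ∈ LinearMap.range (h54c_pi k π) := by
        rw [← h54c_ker_t hc]
        exact LinearMap.mem_ker.2 h1
      obtain ⟨f, hf⟩ := h2
      exact ⟨f, hinj (by rw [hφ, hf])⟩
    · rintro ⟨f, rfl⟩
      apply Subtype.ext
      rw [hψ, hφ, h54c_t_pi hc]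
      rfl

end SESgen

/-! ### the chain of inequalities -/

section Chain

variable {p : ℕ} {π : X → Y} {r : X → X} {L : Lev G}

/-- the cohomology of a zero module. -/
lemma h54c_chi_subsingleton {V : Type} [AddCommGroup V] [Module k V] [Subsingleton V]
    (L : Lev G) (ρ : Representation k G V) :
    Module.Finite k (HH1 L ρ) ∧ Module.Finite k (HH2 L ρ) ∧ h54c_chi L ρ = 0 := by
  have s1 : Subsingleton (HH1 L ρ) := inferInstance
  have s2 : Subsingleton (HH2 L ρ) := inferInstance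
  have s0 : Subsingleton ↥ρ.invariants := inferInstance
  refine ⟨inferInstance, inferInstance, ?_⟩
  unfold h54c_chi
  rw [finrank_zero_of_subsingleton, finrank_zero_of_subsingleton, finrank_zero_of_subsingleton]
  simp

theorem h54c_chain [Fact p.Prime] [CharP k p] [Finite X] (hc : h54c_Cyc G p π r)
    (hL : L.Good) (hX : ∃ N ∈ L.sets, ∀ s ∈ N, ∀ x : X, s • x = x)
    (h1 : Module.Finite k (HH1 L (h54c_funRep k G Y)))
    (h2 : Module.Finite k (HH2 L (h54c_funRep k G Y))) :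
    ∀ d i : ℕ, i + d = p →
      Module.Finite k (HH1 L (h54c_F k hc.r_smul i)) ∧
      Module.Finite k (HH2 L (h54c_F k hc.r_smul i)) ∧
      h54c_chi L (h54c_F k hc.r_smul i) ≤ (d : ℤ) * h54c_chi L (h54c_funRep k G Y) := by
  intro d
  induction d with
  | zero =>
    intro i hi
    obtain rfl : i = p := by omega
    have hbot : LinearMap.range ((h54c_t k r) ^ i) = ⊥ := by
      rw [h54c_t_pow_p hc.r_pow]
      exact LinearMap.range_zero
    have hsub : Subsingleton ↥(LinearMap.range ((h54c_t k r) ^ i)) := by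
      constructor
      intro a b
      apply Subtype.ext
      have ha : (a : X → k) ∈ (⊥ : Submodule k (X → k)) := hbot ▸ a.2
      have hb : (b : X → k) ∈ (⊥ : Submodule k (X → k)) := hbot ▸ b.2
      rw [Submodule.mem_bot] at ha hb
      rw [ha, hb]
    obtain ⟨f1, f2, hchi⟩ := h54c_chi_subsingleton L (h54c_F k hc.r_smul i)
    refine ⟨f1, f2, ?_⟩
    rw [hchi]
    simp
  | succ d ih =>
    intro i hi
    obtain ⟨f1, f2, hchi⟩ := ih (i + 1) (by omega)
    obtain ⟨φ, ψ, hses, -⟩ := h54c_ses_gen hc (h54c_F k hc.r_smul i)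
      (LinearMap.range ((h54c_t k r) ^ i)).subtype (fun _ _ => rfl)
      Subtype.val_injective i (by omega) (Submodule.range_subtype _)
    obtain ⟨g1, g2, e, he, -⟩ := h54c_ses_euler hses hL (h54c_isDisc_F L hX hc.r_smul i)
      h1 h2 f1 f2
    refine ⟨g1, g2, ?_⟩
    push_cast
    have he0 : (0 : ℤ) ≤ e := Int.natCast_nonneg e
    linarith

/-- the main theorem on cyclic coverings: `χ(Fun(X, k)) ≤ p χ(Fun(Y, k))`. -/
theorem h54c_filt_main [Fact p.Prime] [CharP k p] [Finite X] (hc : h54c_Cyc G p π r)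
    (hL : L.Good) (hX : ∃ N ∈ L.sets, ∀ s ∈ N, ∀ x : X, s • x = x)
    (h1 : Module.Finite k (HH1 L (h54c_funRep k G Y)))
    (h2 : Module.Finite k (HH2 L (h54c_funRep k G Y))) :
    Module.Finite k (HH1 L (h54c_funRep k G X)) ∧
    Module.Finite k (HH2 L (h54c_funRep k G X)) ∧
    h54c_chi L (h54c_funRep k G X) ≤ (p : ℤ) * h54c_chi L (h54c_funRep k G Y) ∧
    (h54c_chi L (h54c_funRep k G X) = (p : ℤ) * h54c_chi L (h54c_funRep k G Y) →
      ∀ z : G × G × G → (Y → k),
        (h54c_pi k π).compLeft (G × G × G) z ∈ B3 L (h54c_funRep k G X) →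
        z ∈ B3 L (h54c_funRep k G Y)) := by
  have hp : 1 ≤ p := (Fact.out : p.Prime).pos
  obtain ⟨f1, f2, hchi⟩ := h54c_chain hc hL hX h1 h2 (p - 1) 1 (by omega)
  have hrange : LinearMap.range (LinearMap.id : (X → k) →ₗ[k] (X → k)) =
      LinearMap.range ((h54c_t k r) ^ 0) := by
    rw [pow_zero]
    rfl
  obtain ⟨φ, ψ, hses, hφ⟩ := h54c_ses_gen hc (h54c_funRep k G X) LinearMap.id
    (fun _ _ => rfl) (fun _ _ h => h) 0 (by omega) hrange
  have hφ' : φ = h54c_pi k π := LinearMap.ext hφ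
  subst hφ'
  have hdisc : IsDisc L (h54c_funRep k G X) := h54c_isDisc_funRep L hX
  obtain ⟨g1, g2, e, he, hsurj⟩ := h54c_ses_euler hses hL hdisc h1 h2 f1 f2
  have he0 : (0 : ℤ) ≤ e := Int.natCast_nonneg e
  have hcast : ((p - 1 : ℕ) : ℤ) = (p : ℤ) - 1 := by
    rw [Nat.cast_sub hp]
    simp
  rw [hcast] at hchi
  refine ⟨g1, g2, by linarith, fun heq z hz => ?_⟩
  have he1 : e = 0 := by
    have : (e : ℤ) = 0 := by linarith
    exact_mod_cast this
  exact h54c_ses_inj3 hses hL hdisc (hsurj he1) hz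

end Chain

/-! ### the covering `G/V → G/U` -/

section Concrete

variable {p : ℕ}

/-- a generator of `U/V`. -/
theorem h54c_exists_gen [hp : Fact p.Prime] {U V : Subgroup G} (hVU : V ≤ U)
    (hn : (V.subgroupOf U).Normal) (hi : (V.subgroupOf U).index = p) :
    ∃ τ : G, τ ∈ U ∧ (∀ v ∈ V, τ⁻¹ * v * τ ∈ V) ∧ (∀ w ∈ U, ∃ j : ℕ, (τ ^ j)⁻¹ * w ∈ V) ∧
      τ ^ p ∈ V ∧ ∀ j : ℕ, 0 < j → j < p → τ ^ j ∉ V := by
  have := hn
  have hcard : Nat.card (↥U ⧸ V.subgroupOf U) = p := by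
    rw [← Subgroup.index_eq_card]
    exact hi
  have : Finite (↥U ⧸ V.subgroupOf U) :=
    Nat.finite_of_card_ne_zero (by rw [hcard]; exact hp.out.ne_zero)
  have : Nontrivial (↥U ⧸ V.subgroupOf U) := by
    rw [← Finite.one_lt_card_iff_nontrivial, hcard]
    exact hp.out.one_lt
  obtain ⟨q, hq⟩ := exists_ne (1 : ↥U ⧸ V.subgroupOf U)
  obtain ⟨u, rfl⟩ := QuotientGroup.mk_surjective q
  have key : ∀ w : ↥U, (QuotientGroup.mk w : ↥U ⧸ V.subgroupOf U) = 1 ↔ (w : G) ∈ V := by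
    intro w
    rw [QuotientGroup.eq_one_iff, Subgroup.mem_subgroupOf]
  have hpow : (QuotientGroup.mk u : ↥U ⧸ V.subgroupOf U) ^ p = 1 := by
    have := pow_card_eq_one' (G := ↥U ⧸ V.subgroupOf U) (x := QuotientGroup.mk u)
    rwa [hcard] at this
  refine ⟨(u : G), u.2, ?_, ?_, ?_, ?_⟩
  · intro v hv
    have hv' : (⟨v, hVU hv⟩ : ↥U) ∈ V.subgroupOf U := Subgroup.mem_subgroupOf.2 hv
    have h1 := hn.conj_mem _ hv' u⁻¹
    rw [Subgroup.mem_subgroupOf] at h1
    simpa using h1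
  · intro w hw
    have h1 : (QuotientGroup.mk (⟨w, hw⟩ : ↥U) : ↥U ⧸ V.subgroupOf U) ∈
        Subgroup.zpowers (QuotientGroup.mk u : ↥U ⧸ V.subgroupOf U) :=
      mem_zpowers_of_prime_card hcard hq
    rw [← mem_powers_iff_mem_zpowers, Submonoid.mem_powers_iff] at h1
    obtain ⟨j, hj⟩ := h1
    refine ⟨j, ?_⟩
    have h2 : (QuotientGroup.mk ((u ^ j)⁻¹ * ⟨w, hw⟩) : ↥U ⧸ V.subgroupOf U) = 1 := by
      rw [QuotientGroup.mk_mul, QuotientGroup.mk_inv, QuotientGroup.mk_pow, hj]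
      exact inv_mul_cancel _
    have h3 := (key _).1 h2
    simpa using h3
  · have h2 : (QuotientGroup.mk (u ^ p) : ↥U ⧸ V.subgroupOf U) = 1 := by
      rw [QuotientGroup.mk_pow, hpow]
    have h3 := (key _).1 h2
    simpa using h3
  · intro j hj0 hjp hmem
    have h2 : (QuotientGroup.mk u : ↥U ⧸ V.subgroupOf U) ^ j = 1 := by
      rw [← QuotientGroup.mk_pow]
      exact (key _).2 (by simpa using hmem)
    have h3 : orderOf (QuotientGroup.mk u : ↥U ⧸ V.subgroupOf U) = p :=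
      orderOf_eq_prime hpow hq
    have h4 := orderOf_dvd_of_pow_eq_one h2
    rw [h3] at h4
    have := Nat.le_of_dvd hj0 h4
    omega

/-- right translation by `τ` on `G/V`. -/
def h54c_rt {V : Subgroup G} (τ : G) (hτ : ∀ v ∈ V, τ⁻¹ * v * τ ∈ V) : G ⧸ V → G ⧸ V :=
  Quotient.map' (fun g => g * τ) (fun a b hab => by
    rw [QuotientGroup.leftRel_apply] at hab ⊢
    have := hτ _ hab
    have h2 : (a * τ)⁻¹ * (b * τ) = τ⁻¹ * (a⁻¹ * b) * τ := by group
    rw [h2]
    exact this)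

lemma h54c_rt_mk {V : Subgroup G} (τ : G) (hτ : ∀ v ∈ V, τ⁻¹ * v * τ ∈ V) (g : G) :
    h54c_rt τ hτ (QuotientGroup.mk g : G ⧸ V) = QuotientGroup.mk (g * τ) := rfl

lemma h54c_rt_iterate {V : Subgroup G} (τ : G) (hτ : ∀ v ∈ V, τ⁻¹ * v * τ ∈ V) (j : ℕ)
    (g : G) : (h54c_rt τ hτ)^[j] (QuotientGroup.mk g : G ⧸ V) = QuotientGroup.mk (g * τ ^ j) := by
  induction j with
  | zero => simp
  | succ n ih => rw [Function.iterate_succ_apply', ih, h54c_rt_mk, pow_succ, mul_assoc]

/-- the covering `G/V → G/U` is cyclic of degree `p`. -/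
theorem h54c_exists_cyc [hp : Fact p.Prime] {U V : Subgroup G} (hVU : V ≤ U)
    (hn : (V.subgroupOf U).Normal) (hi : (V.subgroupOf U).index = p) :
    ∃ r : G ⧸ V → G ⧸ V, h54c_Cyc G p (Subgroup.quotientMapOfLE hVU) r := by
  obtain ⟨τ, hτU, hτ, hgen, hτp, hfree⟩ := h54c_exists_gen hVU hn hi
  refine ⟨h54c_rt τ hτ, ⟨?_, ?_, ?_, ?_, ?_, ?_, ?_⟩⟩
  · intro g x
    obtain ⟨a, rfl⟩ := QuotientGroup.mk_surjective x
    rfl
  · intro y
    obtain ⟨a, rfl⟩ := QuotientGroup.mk_surjective y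
    exact ⟨QuotientGroup.mk a, rfl⟩
  · intro g x
    obtain ⟨a, rfl⟩ := QuotientGroup.mk_surjective x
    show h54c_rt τ hτ (QuotientGroup.mk (g * a)) = g • h54c_rt τ hτ (QuotientGroup.mk a)
    rw [h54c_rt_mk, h54c_rt_mk, mul_assoc]
    rfl
  · intro x
    obtain ⟨a, rfl⟩ := QuotientGroup.mk_surjective x
    rw [h54c_rt_mk, Subgroup.quotientMapOfLE_apply_mk, Subgroup.quotientMapOfLE_apply_mk,
      QuotientGroup.eq]
    simpa using hτU
  · intro x x' hxx
    obtain ⟨a, rfl⟩ := QuotientGroup.mk_surjective x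
    obtain ⟨b, rfl⟩ := QuotientGroup.mk_surjective x'
    rw [Subgroup.quotientMapOfLE_apply_mk, Subgroup.quotientMapOfLE_apply_mk,
      QuotientGroup.eq] at hxx
    obtain ⟨j, hj⟩ := hgen _ hxx
    refine ⟨j, ?_⟩
    rw [h54c_rt_iterate, QuotientGroup.eq]
    have h2 : (a * τ ^ j)⁻¹ * b = (τ ^ j)⁻¹ * (a⁻¹ * b) := by group
    rw [h2]
    exact hj
  · intro x
    obtain ⟨a, rfl⟩ := QuotientGroup.mk_surjective x
    rw [h54c_rt_iterate, eq_comm, QuotientGroup.eq]
    simpa using hτp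
  · intro x j hj0 hjp hfix
    obtain ⟨a, rfl⟩ := QuotientGroup.mk_surjective x
    rw [h54c_rt_iterate, eq_comm, QuotientGroup.eq] at hfix
    have : τ ^ j ∈ V := by simpa using hfix
    exact hfree j hj0 hjp this

end Concrete



end H54ChiFilt

end Fermat.Agent.PT
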