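import Mathlib
import Fermat.Agent.PT.Defs

/-!
# W3-PT, row ALG-CHI2 (helper54): interface

Pure frame algebra behind the counting argument of the global design (findings 791):
for `V ≤ U` open, `V` normal in `U` of index `p`, `k` of characteristic `p`, and
`χ₂(U) := 1 - dim HH1 (permRep k U) + dim HH2 (permRep k U)`:

* `ChiIneqAbs` : finiteness of `HH1`, `HH2` passes from `U` to `V`, `χ₂(V) ≤ p χ₂(U)`, and in the
                 case of equality the pull-back `H³(permRep k U) → H³(permRep k V)` is injective;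
* `ChiV3Abs`   : if the pull-back on `H³` is injective for all such pairs below `U₀`, then
                 `H³(permRep k U) = 0` for every open `U ≤ U₀`;
* `ChiCountAbs`: the combination: multiplicativity of `χ₂` below `U₀` implies `H³ = 0` below `U₀`.
-/

set_option autoImplicit false

namespace Fermat.Agent.PT

open Module

/-- pull-back of functions along the projection `G/V → G/U`. -/
def h54c_pull (k : Type) [CommRing k] {G : Type} [Group G] {U V : Subgroup G} (h : V ≤ U) :
    ((G ⧸ U) → k) →ₗ[k] ((G ⧸ V) → k) :=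
  LinearMap.funLeft k k (Subgroup.quotientMapOfLE h)

@[simp] lemma h54c_pull_apply (k : Type) [CommRing k] {G : Type} [Group G] {U V : Subgroup G}
    (h : V ≤ U) (f : (G ⧸ U) → k) (x : G ⧸ V) :
    h54c_pull k h f x = f (Subgroup.quotientMapOfLE h x) := rfl

/-- the pull-back `H³(permRep k U) → H³(permRep k V)` is injective (cocycle form). -/
def h54c_Inj3 (k : Type) [Field k] {G : Type} [Group G] (L : Lev G) (U V : Subgroup G)
    (h : V ≤ U) : Prop :=
  ∀ z ∈ Z3 L (permRep k U),
    (h54c_pull k h).compLeft (G × G × G) z ∈ B3 L (permRep k V) → z ∈ B3 L (permRep k U)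

/-- the truncated Euler characteristic `1 - h¹ + h²` of `permRep k U`. -/
noncomputable def h54c_chi2 (k : Type) [Field k] {G : Type} [Group G] (L : Lev G)
    (U : Subgroup G) : ℤ :=
  1 - (finrank k (HH1 L (permRep k U)) : ℤ) + (finrank k (HH2 L (permRep k U)) : ℤ)

/-- (A-INEQ): `χ₂(V) ≤ p χ₂(U)` for `V` normal of index `p` in `U`. -/
def ChiIneqAbs : Prop :=
  ∀ (p : ℕ) [Fact p.Prime] (k : Type) [Field k] [CharP k p] (G : Type) [Group G] (L : Lev G),
    L.Good → ∀ (U V : Subgroup G) (hVU : V ≤ U), L.IsOpen V → (V.subgroupOf U).Normal →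
      (V.subgroupOf U).index = p →
      Module.Finite k (HH1 L (permRep k U)) → Module.Finite k (HH2 L (permRep k U)) →
      Module.Finite k (HH1 L (permRep k V)) ∧ Module.Finite k (HH2 L (permRep k V)) ∧
        h54c_chi2 k L V ≤ p * h54c_chi2 k L U ∧
        (h54c_chi2 k L V = p * h54c_chi2 k L U → h54c_Inj3 k L U V hVU)

/-- (A-V3): injectivity on `H³` in all steps of index `p` below `U₀` implies `H³ = 0`. -/
def ChiV3Abs : Prop :=
  ∀ (p : ℕ) [Fact p.Prime] (k : Type) [Field k] [CharP k p] (G : Type) [Group G] (L : Lev G),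
    L.Good → ∀ U₀ : Subgroup G,
      (∀ (U V : Subgroup G) (hVU : V ≤ U), U ≤ U₀ → L.IsOpen V → (V.subgroupOf U).Normal →
        (V.subgroupOf U).index = p → h54c_Inj3 k L U V hVU) →
      ∀ U : Subgroup G, U ≤ U₀ → L.IsOpen U → H3Vanishes L (permRep k U)

/-- the combination: if `HH1`, `HH2` are finite and `χ₂` is multiplicative in all steps of index
`p` below `U₀`, then `H³(permRep k U) = 0` for all open `U ≤ U₀`. -/
def ChiCountAbs : Prop :=
  ∀ (p : ℕ) [Fact p.Prime] (k : Type) [Field k] [CharP k p] (G : Type) [Group G] (L : Lev G),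
    L.Good → ∀ U₀ : Subgroup G,
      (∀ U : Subgroup G, U ≤ U₀ → L.IsOpen U →
        Module.Finite k (HH1 L (permRep k U)) ∧ Module.Finite k (HH2 L (permRep k U))) →
      (∀ (U V : Subgroup G), V ≤ U → U ≤ U₀ → L.IsOpen V → (V.subgroupOf U).Normal →
        (V.subgroupOf U).index = p → h54c_chi2 k L V = p * h54c_chi2 k L U) →
      ∀ U : Subgroup G, U ≤ U₀ → L.IsOpen U → H3Vanishes L (permRep k U)

/-- `ChiCountAbs` from the two halves. -/
theorem h54c_chiCountAbs_of (h1 : ChiIneqAbs) (h2 : ChiV3Abs) : ChiCountAbs := by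
  intro p _ k _ _ G _ L hL U₀ hfin hmul U hU hUo
  refine h2 p k G L hL U₀ (fun U' V' hVU hU' hV' hn hi => ?_) U hU hUo
  have hU'o : L.IsOpen U' := by
    obtain ⟨N, hN, hle⟩ := hV'
    exact ⟨N, hN, hle.trans hVU⟩
  obtain ⟨hf1, hf2⟩ := hfin U' hU' hU'o
  exact (h1 p k G L hL U' V' hVU hV' hn hi hf1 hf2).2.2.2 (hmul U' V' hVU hU' hV' hn hi)

end Fermat.Agent.PT
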