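import Fermat.Agent.PT.Alg.H54ChiFilt
import Fermat.Agent.PT.Alg.H54ChiIface

/-!
# W3-PT, row ALG-CHI2 (helper54), part 3: `ChiIneqAbs`

`theorem h54c_chiIneqAbs : ChiIneqAbs`: for `V ≤ U` open, `V` normal of index `p` in `U`,
finiteness of `HH1`, `HH2` passes from `permRep k U` to `permRep k V`,
`χ₂(V) ≤ p χ₂(U)`, and equality implies the injectivity of the pull-back on `H³`.
-/

set_option autoImplicit false

namespace Fermat.Agent.PT

open Fermat.Agent.PT.Tools Module

section H54ChiIneq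

variable {k : Type} [Field k] {G : Type} [Group G]

/-- the invariants of a permutation module `Fun(G/W, k)` are the constants. -/
theorem h54c_finrank_invariants (W : Subgroup G) :
    finrank k ↥(permRep k W).invariants = 1 := by
  have h1 : (permRep k W).invariants = Submodule.span k {(fun _ => 1 : (G ⧸ W) → k)} := by
    ext f
    rw [Submodule.mem_span_singleton]
    constructor
    · intro hf
      refine ⟨f (QuotientGroup.mk 1), ?_⟩
      funext x
      obtain ⟨a, rfl⟩ := QuotientGroup.mk_surjective x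
      have h2 := congrFun (hf a⁻¹) (QuotientGroup.mk 1)
      have h3 : (permRep k W a⁻¹ f) (QuotientGroup.mk 1) = f (QuotientGroup.mk a) := by
        show f ((a⁻¹)⁻¹ • (QuotientGroup.mk 1 : G ⧸ W)) = _
        rw [inv_inv]
        congr 1
        show (QuotientGroup.mk (a * 1) : G ⧸ W) = _
        rw [mul_one]
      rw [h3] at h2
      simp [h2]
    · rintro ⟨c, rfl⟩
      intro g
      rfl
  rw [h1]
  refine finrank_span_singleton ?_
  intro h0
  have := congrFun h0 (QuotientGroup.mk 1 : G ⧸ W)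
  simp at this

lemma h54c_chi_permRep (L : Lev G) (W : Subgroup G) :
    h54c_chi L (permRep k W) = h54c_chi2 k L W := by
  unfold h54c_chi h54c_chi2
  rw [h54c_finrank_invariants]
  simp

lemma h54c_finite_quotient {L : Lev G} (hL : L.Good) {V : Subgroup G} (hV : L.IsOpen V) :
    Finite (G ⧸ V) := by
  obtain ⟨N, hN, hle⟩ := hV
  have := (hL N hN).2
  have : V.FiniteIndex := Subgroup.finiteIndex_of_le hle
  exact Subgroup.finite_quotient_of_finiteIndex

lemma h54c_level_trivial {L : Lev G} (hL : L.Good) {V : Subgroup G} (hV : L.IsOpen V) :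
    ∃ N ∈ L.sets, ∀ s ∈ N, ∀ x : G ⧸ V, s • x = x := by
  obtain ⟨N, hN, hle⟩ := hV
  refine ⟨N, hN, fun s hs x => ?_⟩
  obtain ⟨a, rfl⟩ := QuotientGroup.mk_surjective x
  show (QuotientGroup.mk (s * a) : G ⧸ V) = _
  rw [QuotientGroup.eq]
  apply hle
  have h1 := (hL N hN).1.conj_mem _ (N.inv_mem hs) a⁻¹
  have h2 : (s * a)⁻¹ * a = a⁻¹ * s⁻¹ * a⁻¹⁻¹ := by group
  rw [h2]
  exact h1

/-- (A-INEQ). -/
theorem h54c_chiIneqAbs : ChiIneqAbs := by
  intro p _ k _ _ G _ L hL U V hVU hV hn hi h1 h2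
  obtain ⟨r, hc⟩ := h54c_exists_cyc hVU hn hi
  have hfin : Finite (G ⧸ V) := h54c_finite_quotient hL hV
  obtain ⟨f1, f2, hle, heq⟩ := h54c_filt_main (k := k) (L := L) hc hL
    (h54c_level_trivial hL hV) h1 h2
  refine ⟨f1, f2, ?_, ?_⟩
  · have := hle
    rw [← h54c_permRep_eq, ← h54c_permRep_eq, h54c_chi_permRep, h54c_chi_permRep] at this
    exact this
  · intro he z _ hz
    refine heq ?_ z hz
    rw [← h54c_permRep_eq, ← h54c_permRep_eq, h54c_chi_permRep, h54c_chi_permRep]
    exact he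

end H54ChiIneq

end Fermat.Agent.PT
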