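import Mathlib
import Fermat.Agent.PT.Defs
import Fermat.Agent.PT.Iface

/-!
# W3-PT, row ALG-AUX: `LocalAux` (helper57)

The local data induced by a good global datum:
* the local character is trivial on a local level;
* the local invariant induced by a good trace kills the continuous local `2`-coboundaries;
* the restriction of a discrete representation is discrete;
* the twisted dual of a finite dimensional discrete representation is finite dimensional
  and discrete.
-/

set_option autoImplicit false

namespace Fermat.Agent.PT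

/-- Finitely many levels have a common lower bound in the level system. -/
lemma h57_exists_level_le {G : Type} [Group G] (L : Lev G) {ι : Type*} (s : Finset ι)
    (N : ι → Subgroup G) (hN : ∀ i ∈ s, N i ∈ L.sets) :
    ∃ M ∈ L.sets, ∀ i ∈ s, M ≤ N i := by
  classical
  induction s using Finset.induction_on with
  | empty =>
    obtain ⟨M, hM⟩ := L.nonempty
    exact ⟨M, hM, by simp⟩
  | insert a s ha ih =>
    obtain ⟨M, hM, hle⟩ := ih (fun i hi => hN i (Finset.mem_insert_of_mem hi))
    obtain ⟨M', hM', hle'⟩ := L.directed M hM (N a) (hN a (Finset.mem_insert_self a s))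
    refine ⟨M', hM', fun i hi => ?_⟩
    rcases Finset.mem_insert.mp hi with rfl | hi
    · exact hle'.trans inf_le_right
    · exact (hle'.trans inf_le_left).trans (hle i hi)

/-- A finite dimensional discrete representation is trivial on a level. -/
lemma h57_exists_level_trivial {k : Type} [Field k] {G : Type} [Group G] (L : Lev G)
    {V : Type} [AddCommGroup V] [Module k V] [FiniteDimensional k V]
    (ρ : Representation k G V) (h : IsDisc L ρ) :
    ∃ N ∈ L.sets, ∀ s ∈ N, ρ s = LinearMap.id := by
  classical
  have b := Module.finBasis k V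
  choose N hN hfix using fun i => h (b i)
  obtain ⟨M, hM, hle⟩ := h57_exists_level_le L Finset.univ N (fun i _ => hN i)
  refine ⟨M, hM, fun s hs => ?_⟩
  apply b.ext
  intro i
  simpa using hfix i s (hle i (Finset.mem_univ i) hs)

/-- The twisted dual of a finite dimensional discrete representation is discrete, as soon as
the character is trivial on a level. -/
lemma h57_isDisc_dualTw {k : Type} [Field k] {G : Type} [Group G] (L : Lev G)
    (χ : G →* kˣ) (hχ : ∃ N ∈ L.sets, ∀ s ∈ N, χ s = 1)
    {V : Type} [AddCommGroup V] [Module k V] [FiniteDimensional k V]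
    (ρ : Representation k G V) (h : IsDisc L ρ) : IsDisc L (dualTw χ ρ) := by
  obtain ⟨N₁, hN₁, h₁⟩ := hχ
  obtain ⟨N₂, hN₂, h₂⟩ := h57_exists_level_trivial L ρ h
  obtain ⟨N, hN, hle⟩ := L.directed N₁ hN₁ N₂ hN₂
  intro f
  refine ⟨N, hN, fun s hs => ?_⟩
  have hs1 : χ s = 1 := h₁ s (hle hs).1
  have hs2 : ρ s⁻¹ = LinearMap.id := h₂ s⁻¹ (N₂.inv_mem (hle hs).2)
  rw [dualTw_apply, hs1, hs2]
  simp

/-- The restriction of the module `k(χ)` to the local group at `v`. -/
lemma h57_repAt_chiRep {k : Type} [Field k] (D : Datum k) (v : D.P) :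
    D.repAt (chiRep D.chi) v = chiRep (D.chiAt v) := by
  ext h
  simp [Datum.repAt, Datum.chiAt]

/-- The restriction of a discrete representation to a local group is discrete. -/
lemma h57_isDisc_repAt {k : Type} [Field k] (D : Datum k) (hD : D.Good) (v : D.P)
    {V : Type} [AddCommGroup V] [Module k V] (ρ : Representation k D.G V)
    (h : IsDisc D.lev ρ) : IsDisc (D.levH v) (D.repAt ρ v) := by
  intro x
  obtain ⟨N, hN, hfix⟩ := h x
  obtain ⟨N', hN', hle⟩ := hD.2.2.2.1 v N hN
  exact ⟨N', hN', fun s hs => hfix (D.loc v s) (hle hs)⟩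

/-- The local character is trivial on a local level. -/
lemma h57_chiAt_level_trivial {k : Type} [Field k] (D : Datum k) (hD : D.Good) (v : D.P) :
    ∃ N ∈ (D.levH v).sets, ∀ s ∈ N, D.chiAt v s = 1 := by
  obtain ⟨N, hN, hχ⟩ := hD.2.2.2.2
  obtain ⟨N', hN', hle⟩ := hD.2.2.2.1 v N hN
  exact ⟨N', hN', fun s hs => hχ (D.loc v s) (hle hs)⟩

/-- The local invariant induced by a good trace kills the continuous local `2`-coboundaries. -/
lemma h57_invOK {k : Type} [Field k] (D : Datum k) (tr : D.CC3 k →ₗ[k] k) (htr : D.TrOK tr)
    (v : D.P) : InvOK (D.levH v) (D.chiAt v) (D.invAt tr v) := by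
  intro c hc
  obtain ⟨x, hx, rfl⟩ := (mem_B2 _ _ _).1 hc
  have hmem : ((0 : D.G × D.G × D.G → k),
      Pi.single (M := fun w : D.P => D.H w × D.H w → k) v
        (d1 (chiRep (D.chiAt v)) x)) ∈ D.BC3 (chiRep D.chi) := by
    refine ⟨((0 : D.G × D.G → k), Pi.single (M := fun w : D.P => D.H w → k) v (-x)), ?_, ?_⟩
    · refine ⟨?_, ?_⟩
      · exact (lc2 D.lev k k).zero_mem
      · intro w _
        by_cases hw : w = v
        · subst hw
          simp only [Pi.single_eq_same]
          exact (lc1 (D.levH w) k k).neg_mem hx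
        · simp only [Pi.single_eq_of_ne hw]
          exact (lc1 (D.levH w) k k).zero_mem
    · rw [Datum.coneD2_apply]
      refine Prod.ext ?_ ?_
      · simp
      · funext w
        by_cases hw : w = v
        · subst hw
          simp only [Pi.single_eq_same, map_zero, map_neg, zero_sub, neg_neg]
          rw [h57_repAt_chiRep]
        · simp only [Pi.single_eq_of_ne hw, map_zero, sub_zero]
  have := htr _ hmem
  simpa [Datum.invAt] using this

/-- Row ALG-AUX of W3-PT: the local data induced by a good global datum. -/
theorem localAux : LocalAux := by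
  intro k _ D tr hD htr v
  refine ⟨h57_chiAt_level_trivial D hD v, h57_invOK D tr htr v,
    fun V _ _ ρ h => h57_isDisc_repAt D hD v ρ h, fun V _ _ _ ρ h => ⟨inferInstance, ?_⟩⟩
  exact h57_isDisc_dualTw D.lev D.chi hD.2.2.2.2 ρ h

end Fermat.Agent.PT
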