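import Mathlib
import Fermat.Agent.PT.Defs
import Fermat.Agent.PT.Iface
import Fermat.Agent.PT.Alg.LTheta2Tools

/-!
# W3-PT, row ALG-LTH2: `LTheta2Abs` (helper54)

The local duality `H²(ρ) × H⁰(ρ^D) → k` is perfect for all finite dimensional discrete `ρ` as soon
as it is for the permutation modules and `H³` vanishes.

* right kernel: one permutation module `Fun(H/N, k) → V`, `δ₁ ↦ v`, suffices;
* left kernel: presentation `Fun(H/N, k)^n → V`, exact lifting of `2`-cocycles (`H³(ker) = 0`),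
  and the right kernel statement for the kernel.
-/

set_option autoImplicit false

namespace Fermat.Agent.PT

section H54Main

variable {k : Type} [Field k] {H : Type} [Group H] {L : Lev H} {χ : H →* kˣ}
variable {inv : (H × H → k) →ₗ[k] k}

/-- `LPerf2` for the evaluation pairing, with the cup product made explicit. -/
lemma h54_LPerf2_iff {V : Type} [AddCommGroup V] [Module k V] (ρ : Representation k H V) :
    LPerf2 L inv ρ (dualTw χ ρ) (Module.Dual.eval k V) ↔
      (∀ b ∈ Z2 L ρ, (∀ w ∈ (dualTw χ ρ).invariants, inv (⇑w ∘ b) = 0) → b ∈ B2 L ρ) ∧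
      (∀ w ∈ (dualTw χ ρ).invariants, (∀ b ∈ Z2 L ρ, inv (⇑w ∘ b) = 0) → w = 0) := by
  unfold LPerf2
  constructor
  · rintro ⟨h1, h2⟩
    refine ⟨fun b hb h => h1 b hb (fun w hw => ?_), fun w hw h => h2 w hw (fun b hb => ?_)⟩
    · rw [h54_cup20_of_invariant χ ρ b hw]
      exact h w hw
    · rw [h54_cup20_of_invariant χ ρ b hw]
      exact h b hb
  · rintro ⟨h1, h2⟩
    refine ⟨fun b hb h => h1 b hb (fun w hw => ?_), fun w hw h => h2 w hw (fun b hb => ?_)⟩
    · rw [← h54_cup20_of_invariant χ ρ b hw]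
      exact h w hw
    · rw [← h54_cup20_of_invariant χ ρ b hw]
      exact h b hb

/-- A level killing `V` on which `χ` is trivial. -/
lemma h54_common_level (hχ : ∃ N ∈ L.sets, ∀ s ∈ N, χ s = 1)
    {V : Type} [AddCommGroup V] [Module k V] [FiniteDimensional k V]
    (ρ : Representation k H V) (hd : IsDisc L ρ) :
    ∃ N ∈ L.sets, (∀ s ∈ N, χ s = 1) ∧ ∀ s ∈ N, ∀ v, ρ s v = v := by
  obtain ⟨N₁, h₁, hχ⟩ := hχ
  obtain ⟨N₂, h₂, htriv⟩ := h54_exists_level_trivial ρ hd
  obtain ⟨N, hN, hle⟩ := L.directed N₁ h₁ N₂ h₂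
  exact ⟨N, hN, fun s hs => hχ s (hle hs).1, fun s hs v => htriv s (hle hs).2 v⟩

/-- RIGHT KERNEL for all modules, from the right kernel statement for permutation modules. -/
theorem h54_right_kernel (hgood : L.Good) (hχ : ∃ N ∈ L.sets, ∀ s ∈ N, χ s = 1)
    (hperm : ∀ U : Subgroup H, L.IsOpen U → (∀ u ∈ U, χ u = 1) →
      LPerf2 L inv (permRep k U) (dualTw χ (permRep k U)) (Module.Dual.eval k _))
    {V : Type} [AddCommGroup V] [Module k V] [FiniteDimensional k V]
    (ρ : Representation k H V) (hd : IsDisc L ρ)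
    (w : Module.Dual k V) (hw : w ∈ (dualTw χ ρ).invariants)
    (h0 : ∀ b ∈ Z2 L ρ, inv (⇑w ∘ b) = 0) : w = 0 := by
  classical
  obtain ⟨N, hN, hχN, htriv⟩ := h54_common_level hχ ρ hd
  have : N.FiniteIndex := (hgood N hN).2
  let _ : Fintype (H ⧸ N) := Fintype.ofFinite _
  have hP := ((h54_LPerf2_iff (L := L) (χ := χ) (inv := inv) (permRep k N)).1
    (hperm N ⟨N, hN, le_rfl⟩ hχN)).2
  ext v
  have hπ := h54_permMap_isHom ρ N htriv v
  have hw' : w ∘ₗ h54_permMap ρ N v ∈ (dualTw χ (permRep k N)).invariants :=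
    h54_comp_mem_invariants χ hπ hw
  have hzero : w ∘ₗ h54_permMap ρ N v = 0 := by
    refine hP _ hw' (fun b' hb' => ?_)
    have := h0 _ (h54_comp_mem_Z2 hπ hb')
    exact this
  have := LinearMap.congr_fun hzero (Pi.single ((1 : H) : H ⧸ N) 1)
  rw [LinearMap.comp_apply, h54_permMap_single ρ N htriv v] at this
  simpa using this

/-- LEFT KERNEL for a finite power. -/
lemma h54_left_kernel_pi {P : Type} [AddCommGroup P] [Module k P] (σ : Representation k H P)
    (ι : Type) [Finite ι]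
    (hσ : ∀ b ∈ Z2 L σ, (∀ w ∈ (dualTw χ σ).invariants, inv (⇑w ∘ b) = 0) → b ∈ B2 L σ)
    (b : H × H → (ι → P)) (hb : b ∈ Z2 L (h54_piRep σ ι))
    (h0 : ∀ w ∈ (dualTw χ (h54_piRep σ ι)).invariants, inv (⇑w ∘ b) = 0) :
    b ∈ B2 L (h54_piRep σ ι) := by
  have hcomp : ∀ i : ι, ∃ x : H → P, IsLC1 L x ∧ d1 σ x = ⇑(LinearMap.proj (R := k) i) ∘ b := by
    intro i
    have hi := h54_piRep_proj_isHom σ ι i
    have hbi : (⇑(LinearMap.proj (R := k) (φ := fun _ : ι => P) i) ∘ b) ∈ Z2 L σ :=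
      h54_comp_mem_Z2 hi hb
    have := hσ _ hbi (fun w hw => by
      have := h0 _ (h54_comp_mem_invariants χ hi hw)
      exact this)
    exact (mem_B2 L σ _).1 this
  choose x hxLC hx using hcomp
  rw [mem_B2]
  refine ⟨fun h i => x i h, h54_IsLC1_pi x hxLC, ?_⟩
  funext p i
  have := congrFun (hx i) p
  simp only [Function.comp_apply, LinearMap.proj_apply] at this
  rw [← this]
  rfl

/-- The pairing `Z²(ρ) × H⁰(ρ^D) → k` as a bilinear map. -/
noncomputable def h54_pairing (L : Lev H) (χ : H →* kˣ) (inv : (H × H → k) →ₗ[k] k)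
    {V : Type} [AddCommGroup V] [Module k V] (ρ : Representation k H V) :
    ↥(Z2 L ρ) →ₗ[k] ↥(dualTw χ ρ).invariants →ₗ[k] k :=
  LinearMap.mk₂ k (fun c w => inv (⇑(w : Module.Dual k V) ∘ (c : H × H → V)))
    (fun c c' w => by
      rw [← map_add]
      congr 1
      funext p
      simp)
    (fun a c w => by
      rw [← map_smul]
      congr 1
      funext p
      simp)
    (fun c w w' => by
      rw [← map_add]
      congr 1)
    (fun a c w => by
      rw [← map_smul]
      congr 1)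

lemma h54_pairing_apply {V : Type} [AddCommGroup V] [Module k V] (ρ : Representation k H V)
    (c : ↥(Z2 L ρ)) (w : ↥(dualTw χ ρ).invariants) :
    h54_pairing L χ inv ρ c w = inv (⇑(w : Module.Dual k V) ∘ (c : H × H → V)) := rfl

/-- Every functional on `H⁰(ρ^D)` is represented by a `2`-cocycle, if the right kernel of the
pairing is trivial. -/
lemma h54_exists_rep {V : Type} [AddCommGroup V] [Module k V] [FiniteDimensional k V]
    (ρ : Representation k H V)
    (hB : ∀ w ∈ (dualTw χ ρ).invariants, (∀ b ∈ Z2 L ρ, inv (⇑w ∘ b) = 0) → w = 0)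
    (Λ : ↥(dualTw χ ρ).invariants →ₗ[k] k) :
    ∃ c ∈ Z2 L ρ, ∀ w (hw : w ∈ (dualTw χ ρ).invariants), inv (⇑w ∘ c) = Λ ⟨w, hw⟩ := by
  have hinj : Function.Injective (h54_pairing L χ inv ρ).flip := by
    intro w w' h
    have hsub : w - w' = 0 := by
      apply Subtype.ext
      refine hB (w - w').1 (w - w').2 (fun b hb => ?_)
      have h1 := LinearMap.congr_fun h ⟨b, hb⟩
      simp only [LinearMap.flip_apply, h54_pairing_apply] at h1
      have e : ⇑((w - w' : ↥(dualTw χ ρ).invariants) : Module.Dual k V) ∘ b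
          = ⇑(w : Module.Dual k V) ∘ b - ⇑(w' : Module.Dual k V) ∘ b := by
        funext p
        simp
      rw [e, map_sub, h1, sub_self]
    exact sub_eq_zero.1 hsub
  obtain ⟨c, hc⟩ := (LinearMap.flip_injective_iff₂ (K := k) (V₁ := ↥(Z2 L ρ))
    (V₂ := ↥(dualTw χ ρ).invariants) (B := h54_pairing L χ inv ρ)).1 hinj Λ
  refine ⟨c.1, c.2, fun w hw => ?_⟩
  have := LinearMap.congr_fun hc ⟨w, hw⟩
  simpa [h54_pairing_apply] using this

/-- LEFT KERNEL for all modules. -/
theorem h54_left_kernel (hgood : L.Good) (hχ : ∃ N ∈ L.sets, ∀ s ∈ N, χ s = 1)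
    (hH3 : ∀ (V : Type) [AddCommGroup V] [Module k V] [FiniteDimensional k V]
      (ρ : Representation k H V), IsDisc L ρ → H3Vanishes L ρ)
    (hperm : ∀ U : Subgroup H, L.IsOpen U → (∀ u ∈ U, χ u = 1) →
      LPerf2 L inv (permRep k U) (dualTw χ (permRep k U)) (Module.Dual.eval k _))
    {V : Type} [AddCommGroup V] [Module k V] [FiniteDimensional k V]
    (ρ : Representation k H V) (hd : IsDisc L ρ)
    (b : H × H → V) (hb : b ∈ Z2 L ρ)
    (h0 : ∀ w ∈ (dualTw χ ρ).invariants, inv (⇑w ∘ b) = 0) : b ∈ B2 L ρ := by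
  classical
  obtain ⟨N, hN, hχN, htriv⟩ := h54_common_level hχ ρ hd
  have hNn : N.Normal := (hgood N hN).1
  have hNf : N.FiniteIndex := (hgood N hN).2
  let _ : Fintype (H ⧸ N) := Fintype.ofFinite _
  have hP := ((h54_LPerf2_iff (L := L) (χ := χ) (inv := inv) (permRep k N)).1
    (hperm N ⟨N, hN, le_rfl⟩ hχN)).1
  let bas := Module.finBasis k V
  let ρ₀ := h54_piRep (permRep k N) (Fin (Module.finrank k V))
  let π : (Fin (Module.finrank k V) → ((H ⧸ N) → k)) →ₗ[k] V :=
    ∑ i, (h54_permMap ρ N (bas i)) ∘ₗ LinearMap.proj i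
  have hπapp : ∀ f, π f = ∑ i, h54_permMap ρ N (bas i) (f i) := by
    intro f
    simp [π, LinearMap.sum_apply]
  have hπ : h54_IsHom ρ₀ ρ π := by
    intro g f
    rw [hπapp, hπapp, map_sum]
    refine Finset.sum_congr rfl (fun i _ => ?_)
    exact h54_permMap_isHom ρ N htriv (bas i) g (f i)
  have hsurj : Function.Surjective π := by
    rw [← LinearMap.range_eq_top, eq_top_iff, ← bas.span_eq, Submodule.span_le]
    rintro _ ⟨i, rfl⟩
    refine ⟨Pi.single i (Pi.single ((1 : H) : H ⧸ N) 1), ?_⟩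
    rw [hπapp, Finset.sum_eq_single i]
    · rw [Pi.single_eq_same]
      exact h54_permMap_single ρ N htriv (bas i)
    · intro j _ hj
      rw [Pi.single_eq_of_ne hj, map_zero]
    · intro h
      exact absurd (Finset.mem_univ _) h
  have htrivP : ∃ N ∈ L.sets, ∀ s ∈ N, ∀ x, ρ₀ s x = x := by
    refine ⟨N, hN, fun s hs x => ?_⟩
    funext i
    exact h54_permRep_trivial N s hs (x i)
  -- the kernel
  have hιhom := h54_subRep_isHom ρ₀ (LinearMap.ker π) (h54_ker_stable hπ)
  have hdK : IsDisc L (h54_subRep ρ₀ (LinearMap.ker π) (h54_ker_stable hπ)) := by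
    intro x
    obtain ⟨N', hN', h'⟩ := htrivP
    exact ⟨N', hN', fun s hs => Subtype.ext (h' s hs x.1)⟩
  have hH3K := hH3 _ (h54_subRep ρ₀ (LinearMap.ker π) (h54_ker_stable hπ)) hdK
  obtain ⟨y, hy, hπy⟩ := h54_lift_Z2 hgood htrivP hπ hsurj hH3K hb
  -- right kernel statement for the kernel
  have hBK := h54_right_kernel (inv := inv) hgood hχ hperm
    (h54_subRep ρ₀ (LinearMap.ker π) (h54_ker_stable hπ)) hdK
  -- the restriction map on invariant functionals
  let r : ↥(dualTw χ ρ₀).invariants →ₗ[k]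
      ↥(dualTw χ (h54_subRep ρ₀ (LinearMap.ker π) (h54_ker_stable hπ))).invariants :=
    { toFun := fun w => ⟨(w : Module.Dual k _) ∘ₗ (LinearMap.ker π).subtype,
        h54_comp_mem_invariants χ hιhom w.2⟩
      map_add' := fun w w' => rfl
      map_smul' := fun a w => rfl }
  let θ : ↥(dualTw χ ρ₀).invariants →ₗ[k] k :=
    (h54_pairing L χ inv ρ₀ ⟨y, hy⟩)
  have hker : LinearMap.ker r ≤ LinearMap.ker θ := by
    intro w hw
    rw [LinearMap.mem_ker] at hw ⊢
    have hw0 : (w : Module.Dual k _) ∘ₗ (LinearMap.ker π).subtype = 0 :=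
      congrArg Subtype.val hw
    have hann : (w : Module.Dual k _) ∈ (LinearMap.ker π).dualAnnihilator := by
      rw [Submodule.mem_dualAnnihilator]
      intro x hx
      exact LinearMap.congr_fun hw0 ⟨x, hx⟩
    rw [← LinearMap.range_dualMap_eq_dualAnnihilator_ker] at hann
    obtain ⟨w₁, hw₁⟩ := hann
    have hw₁' : ∀ x, w₁ (π x) = (w : Module.Dual k _) x := fun x =>
      LinearMap.congr_fun hw₁ x
    have hw₁inv : w₁ ∈ (dualTw χ ρ).invariants := by
      rw [h54_mem_invariants_dualTw]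
      intro g v
      obtain ⟨x, rfl⟩ := hsurj v
      rw [← hπ g x, hw₁', hw₁', (h54_mem_invariants_dualTw χ ρ₀ _).1 w.2 g x]
    have := h0 w₁ hw₁inv
    show inv (⇑(w : Module.Dual k _) ∘ y) = 0
    rw [← hπy] at this
    have e : ⇑(w : Module.Dual k _) ∘ y = ⇑w₁ ∘ (⇑π ∘ y) := by
      funext p
      simp [hw₁']
    rw [e]
    exact this
  have hθ : θ ∈ LinearMap.range r.dualMap := by
    have hr := LinearMap.range_dualMap_eq_dualAnnihilator_ker (K := k)
      (V₁ := ↥(dualTw χ ρ₀).invariants)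
      (V₂ := ↥(dualTw χ (h54_subRep ρ₀ (LinearMap.ker π) (h54_ker_stable hπ))).invariants) r
    rw [hr, Submodule.mem_dualAnnihilator]
    intro w hw
    exact LinearMap.mem_ker.1 (hker hw)
  obtain ⟨Λ, hΛ⟩ := hθ
  obtain ⟨c, hc, hcΛ⟩ := h54_exists_rep (inv := inv) _ hBK Λ
  -- the corrected cocycle
  have hy' : (y - ⇑(LinearMap.ker π).subtype ∘ c) ∈ Z2 L ρ₀ :=
    (Z2 L ρ₀).sub_mem hy (h54_comp_mem_Z2 hιhom hc)
  have hy'B : (y - ⇑(LinearMap.ker π).subtype ∘ c) ∈ B2 L ρ₀ := by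
    refine h54_left_kernel_pi (inv := inv) (χ := χ) (permRep k N) _ hP _ hy' (fun w hw => ?_)
    have h1 : inv (⇑w ∘ y) = θ ⟨w, hw⟩ := rfl
    have h2 : inv (⇑(w ∘ₗ (LinearMap.ker π).subtype) ∘ c) = Λ (r ⟨w, hw⟩) :=
      hcΛ _ (r ⟨w, hw⟩).2
    have h3 : Λ (r ⟨w, hw⟩) = θ ⟨w, hw⟩ := LinearMap.congr_fun hΛ ⟨w, hw⟩
    have e : ⇑w ∘ (y - ⇑(LinearMap.ker π).subtype ∘ c)
        = ⇑w ∘ y - ⇑(w ∘ₗ (LinearMap.ker π).subtype) ∘ c := by
      funext p
      simp
    rw [e, map_sub, h1, h2, h3, sub_self]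
  have hfin := h54_comp_mem_B2 hπ hy'B
  have e : ⇑π ∘ (y - ⇑(LinearMap.ker π).subtype ∘ c) = b := by
    funext p
    have hk : π ((c p : LinearMap.ker π) : _) = 0 := LinearMap.mem_ker.1 (c p).2
    simp only [Function.comp_apply, Pi.sub_apply, map_sub, Submodule.subtype_apply, hk, sub_zero]
    exact congrFun hπy p
  rw [e] at hfin
  exact hfin

/-- **ALG-LTH2**: the local duality `H²(ρ) × H⁰(ρ^D) → k` is perfect for all `ρ` as soon as it is
for the permutation modules. -/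
theorem lTheta2Abs : LTheta2Abs := by
  intro k _ H _ L χ inv hgood hχ _ hH3 hperm V _ _ _ ρ hd
  rw [h54_LPerf2_iff]
  exact ⟨fun b hb h0 => h54_left_kernel hgood hχ hH3 hperm ρ hd b hb h0,
    fun w hw h0 => h54_right_kernel hgood hχ hperm ρ hd w hw h0⟩

end H54Main

end Fermat.Agent.PT
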