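import Mathlib
import Fermat.Agent.PT.Defs
import Fermat.Agent.PT.Iface
import Fermat.Agent.PT.Alg.LTheta2Tools
import Fermat.Agent.PT.Alg.LTheta2
import Fermat.Agent.PT.Alg.H93CountPair
import Fermat.Agent.PT.Alg.H42CountGlue
import Fermat.Agent.PT.Alg.H57LocalAux

/-!
# W3-PT, row ALG-TH1, right half (helper54)

`h54t_right`: the right kernel of the pairing `H¹_c(ρ^D) × H²(ρ) → k` is trivial for all finite
dimensional discrete `ρ`, as soon as it is for the permutation modules, the left kernel is trivial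
for all modules, and `H¹` is finite, `H³ = 0` for all modules.

Proof: presentation `π : P = Fun(G/N, k)^n ↠ V`, `K = ker π`; exact lifting `y = π ∘ y₀`
(`H³(K) = 0`); the functional `⟨·, y₀⟩` on the finite dimensional space `ZC¹(P^D)` vanishes on
the common kernel of the functionals `⟨·, ι ∘ c⟩`, `c ∈ Z²(K)` (left kernel for `K`, middle
exactness of `ZC¹`, adjunction), hence equals one of them; then `y₀ - ι ∘ c` is orthogonal to
`ZC¹(P^D)`, so it is a coboundary.
-/

set_option autoImplicit false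

namespace Fermat.Agent.PT

section H54T

variable {k : Type} [Field k]

/-! ### Transposes -/

lemma h54t_dualMap_isHom {G : Type} [Group G] (χ : G →* kˣ)
    {A B : Type} [AddCommGroup A] [Module k A] [AddCommGroup B] [Module k B]
    {ρA : Representation k G A} {ρB : Representation k G B} {φ : A →ₗ[k] B}
    (hφ : h54_IsHom ρA ρB φ) : h54_IsHom (dualTw χ ρB) (dualTw χ ρA) φ.dualMap := by
  have hφ' : ∀ (g : G) (v : A), φ (ρA g v) = ρB g (φ v) := hφ
  intro g f
  ext a
  rw [dualTw_apply, dualTw_apply]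
  simp only [LinearMap.dualMap_apply, LinearMap.smul_apply, LinearMap.coe_comp,
    Function.comp_apply, hφ']

/-! ### Push-forward of cone cochains -/

section Push

variable (D : Datum k)
variable {V W : Type} [AddCommGroup V] [Module k V] [AddCommGroup W] [Module k W]

/-- Push-forward of cone `1`-cochains. -/
def h54t_push1 (ψ : V →ₗ[k] W) : D.CC1 V →ₗ[k] D.CC1 W :=
  LinearMap.prodMap (ψ.compLeft D.G) (ψ.compLeft D.P)

@[simp] lemma h54t_push1_fst (ψ : V →ₗ[k] W) (z : D.CC1 V) :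
    (h54t_push1 D ψ z).1 = ⇑ψ ∘ z.1 := rfl

@[simp] lemma h54t_push1_snd (ψ : V →ₗ[k] W) (z : D.CC1 V) (v : D.P) :
    (h54t_push1 D ψ z).2 v = ψ (z.2 v) := rfl

variable {D}
variable {ρ : Representation k D.G V} {σ : Representation k D.G W} {ψ : V →ₗ[k] W}

lemma h54t_push1_coneD0 (hψ : h54_IsHom ρ σ ψ) (w : V) :
    h54t_push1 D ψ (D.coneD0 ρ w) = D.coneD0 σ (ψ w) := by
  have hψ' : ∀ (g : D.G) (v : V), ψ (ρ g v) = σ g (ψ v) := hψ
  rw [Datum.coneD0_apply, Datum.coneD0_apply]
  refine Prod.ext ?_ rfl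
  funext g
  simp [hψ']

lemma h54t_push1_mem_ZC1 (hψ : h54_IsHom ρ σ ψ) {z : D.CC1 V} (hz : z ∈ D.ZC1 ρ) :
    h54t_push1 D ψ z ∈ D.ZC1 σ := by
  have hψ' : ∀ (g : D.G) (v : V), ψ (ρ g v) = σ g (ψ v) := hψ
  have hker : D.coneD1 ρ z = 0 := hz.1
  have hlc : z ∈ D.lcC1 V := hz.2
  rw [Datum.coneD1_apply, Prod.mk_eq_zero] at hker
  obtain ⟨h1, h2⟩ := hker
  refine ⟨?_, ?_⟩
  · show D.coneD1 σ (h54t_push1 D ψ z) = 0
    rw [Datum.coneD1_apply, Prod.mk_eq_zero]
    constructor
    · rw [h54t_push1_fst, h54_d1_comp hψ, h1]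
      funext p
      simp
    · funext v
      funext h
      have := congrFun (congrFun h2 v) h
      simp only [Pi.sub_apply, res1_apply, d0_apply, Pi.zero_apply, Datum.repAt,
        resRep_apply] at this ⊢
      simp only [h54t_push1_fst, h54t_push1_snd, Function.comp_apply]
      rw [← hψ', ← map_sub, ← map_sub, this, map_zero]
  · exact ⟨hlc.1.comp ψ, trivial⟩

lemma h54t_coneD1_push1 (hψ : h54_IsHom ρ σ ψ) (z : D.CC1 V) :
    D.coneD1 σ (h54t_push1 D ψ z)
      = (⇑ψ ∘ (D.coneD1 ρ z).1, fun v => ⇑ψ ∘ (D.coneD1 ρ z).2 v) := by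
  have hψ' : ∀ (g : D.G) (v : V), ψ (ρ g v) = σ g (ψ v) := hψ
  rw [Datum.coneD1_apply, Datum.coneD1_apply]
  refine Prod.ext ?_ ?_
  · exact h54_d1_comp hψ z.1
  · funext v
    funext h
    simp only [Pi.sub_apply, res1_apply, d0_apply, Datum.repAt, resRep_apply,
      h54t_push1_fst, h54t_push1_snd, Function.comp_apply, map_sub, hψ']

/-- A cone coboundary of a discrete module is a cone cocycle. -/
lemma h54t_coneD0_mem_ZC1 (hd : IsDisc D.lev ρ) (w : V) : D.coneD0 ρ w ∈ D.ZC1 ρ := by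
  refine ⟨?_, ?_, trivial⟩
  · show D.coneD1 ρ (D.coneD0 ρ w) = 0
    rw [Datum.coneD0_apply, Datum.coneD1_apply, Prod.mk_eq_zero]
    constructor
    · funext ⟨g, h⟩
      simp only [d1_apply, d0_apply, map_sub, map_mul, Module.End.mul_apply, Pi.zero_apply]
      abel
    · funext v
      funext h
      simp [Datum.repAt]
  · obtain ⟨N, hN, hfix⟩ := hd w
    refine ⟨N, hN, fun g s hs => ?_⟩
    simp only [Datum.coneD0_apply, d0_apply, map_mul, Module.End.mul_apply, hfix s hs]

end Push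

/-! ### Adjunction -/

lemma h54t_adjunction (D : Datum k) (tr : D.CC3 k →ₗ[k] k)
    {A B : Type} [AddCommGroup A] [Module k A] [AddCommGroup B] [Module k B]
    {ρA : Representation k D.G A} {ρB : Representation k D.G B} {φ : A →ₗ[k] B}
    (hφ : h54_IsHom ρA ρB φ) (z : D.CC1 (Module.Dual k B)) (y : D.G × D.G → A) :
    D.pair1 ρB tr LinearMap.id z (⇑φ ∘ y)
      = D.pair1 ρA tr LinearMap.id (h54t_push1 D φ.dualMap z) y := by
  have hφ' : ∀ (g : D.G) (v : A), φ (ρA g v) = ρB g (φ v) := hφ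
  unfold Datum.pair1
  congr 1
  refine Prod.ext ?_ ?_
  · funext ⟨g, h, j⟩
    simp [hφ']
  · funext v
    funext ⟨g, h⟩
    simp

/-! ### Linear algebra -/

/-- A functional on a finite dimensional space which vanishes on the common kernel of a linear
family of functionals belongs to the family. -/
lemma h54t_mem_range_of_vanish {W Z : Type} [AddCommGroup W] [Module k W]
    [FiniteDimensional k W] [AddCommGroup Z] [Module k Z] (T : Z →ₗ[k] Module.Dual k W)
    (Θ : Module.Dual k W) (h : ∀ w : W, (∀ c : Z, T c w = 0) → Θ w = 0) : ∃ c, T c = Θ := by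
  have hmem : Θ ∈ ((LinearMap.range T).dualCoannihilator).dualAnnihilator := by
    rw [Submodule.mem_dualAnnihilator]
    intro w hw
    refine h w (fun c => ?_)
    exact (Submodule.mem_dualCoannihilator w).1 hw (T c) ⟨c, rfl⟩
  rw [Subspace.dualCoannihilator_dualAnnihilator_eq] at hmem
  exact hmem

/-! ### Presentations -/

/-- Presentation of a finite dimensional module killed by `N` by a power of `Fun(G/N, k)`. -/
lemma h54t_presentation {G : Type} [Group G] {V : Type} [AddCommGroup V] [Module k V]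
    [FiniteDimensional k V] (ρ : Representation k G V) (N : Subgroup G) [Fintype (G ⧸ N)]
    (htriv : ∀ s ∈ N, ∀ v, ρ s v = v) :
    ∃ π : (Fin (Module.finrank k V) → ((G ⧸ N) → k)) →ₗ[k] V,
      h54_IsHom (h54_piRep (permRep k N) (Fin (Module.finrank k V))) ρ π ∧
        Function.Surjective π := by
  classical
  let bas := Module.finBasis k V
  let π : (Fin (Module.finrank k V) → ((G ⧸ N) → k)) →ₗ[k] V :=
    ∑ i, (h54_permMap ρ N (bas i)) ∘ₗ LinearMap.proj i
  have hπapp : ∀ f, π f = ∑ i, h54_permMap ρ N (bas i) (f i) := by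
    intro f
    simp [π, LinearMap.sum_apply]
  refine ⟨π, ?_, ?_⟩
  · intro g f
    rw [hπapp, hπapp, map_sum]
    refine Finset.sum_congr rfl (fun i _ => ?_)
    exact h54_permMap_isHom ρ N htriv (bas i) g (f i)
  · rw [← LinearMap.range_eq_top, eq_top_iff, ← bas.span_eq, Submodule.span_le]
    rintro _ ⟨i, rfl⟩
    refine ⟨Pi.single i (Pi.single ((1 : G) : G ⧸ N) 1), ?_⟩
    rw [hπapp, Finset.sum_eq_single i]
    · rw [Pi.single_eq_same]
      exact h54_permMap_single ρ N htriv (bas i)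
    · intro j _ hj
      rw [Pi.single_eq_of_ne hj, map_zero]
    · intro h
      exact absurd (Finset.mem_univ _) h


/-! ### Middle exactness of `ZC¹` for `0 → V^D → P^D → K^D → 0` -/

lemma h54t_middle (D : Datum k) {P V : Type} [AddCommGroup P] [Module k P] [AddCommGroup V]
    [Module k V] {ρP : Representation k D.G P} {ρ : Representation k D.G V} {π : P →ₗ[k] V}
    (hπ : h54_IsHom ρP ρ π) (hsurj : Function.Surjective π)
    (hdP : IsDisc D.lev (dualTw D.chi ρP))
    {z' : D.CC1 (Module.Dual k P)} (hz' : z' ∈ D.ZC1 (dualTw D.chi ρP))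
    (hres : h54t_push1 D (LinearMap.ker π).subtype.dualMap z'
      ∈ D.BC1 (dualTw D.chi (h54_subRep ρP (LinearMap.ker π) (h54_ker_stable hπ)))) :
    ∃ z ∈ D.ZC1 (dualTw D.chi ρ), ∃ w₀ : Module.Dual k P,
      z' = h54t_push1 D π.dualMap z + D.coneD0 (dualTw D.chi ρP) w₀ := by
  have hιhom := h54_subRep_isHom ρP (LinearMap.ker π) (h54_ker_stable hπ)
  have hιD := h54t_dualMap_isHom D.chi hιhom
  have hπD := h54t_dualMap_isHom D.chi hπ
  obtain ⟨wK, hwK⟩ := hres
  obtain ⟨w₀, hw₀⟩ :=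
    LinearMap.dualMap_surjective_of_injective (LinearMap.ker π).injective_subtype wK
  have hz'' : z' - D.coneD0 (dualTw D.chi ρP) w₀ ∈ D.ZC1 (dualTw D.chi ρP) :=
    (D.ZC1 (dualTw D.chi ρP)).sub_mem hz' (h54t_coneD0_mem_ZC1 hdP w₀)
  have hvan : h54t_push1 D (LinearMap.ker π).subtype.dualMap
      (z' - D.coneD0 (dualTw D.chi ρP) w₀) = 0 := by
    rw [map_sub, h54t_push1_coneD0 hιD, hw₀, ← hwK, sub_self]
  obtain ⟨s, hs⟩ := π.exists_rightInverse_of_surjective (LinearMap.range_eq_top.2 hsurj)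
  have hs' : ∀ v, π (s v) = v := fun v => LinearMap.congr_fun hs v
  -- functionals vanishing on the kernel descend
  have hdesc : ∀ f : Module.Dual k P, (LinearMap.ker π).subtype.dualMap f = 0 →
      π.dualMap (s.dualMap f) = f := by
    intro f hf
    ext x
    have hx : x - s (π x) ∈ LinearMap.ker π := by
      rw [LinearMap.mem_ker, map_sub, hs', sub_self]
    have h0 : f (x - s (π x)) = 0 := LinearMap.congr_fun hf ⟨x - s (π x), hx⟩
    rw [map_sub, sub_eq_zero] at h0
    simp only [LinearMap.dualMap_apply]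
    exact h0.symm
  set z'' := z' - D.coneD0 (dualTw D.chi ρP) w₀ with hz''def
  have hπz : h54t_push1 D π.dualMap (h54t_push1 D s.dualMap z'') = z'' := by
    refine Prod.ext ?_ ?_
    · funext g
      exact hdesc _ (congrFun (congrArg Prod.fst hvan) g)
    · funext v
      exact hdesc _ (congrFun (congrArg Prod.snd hvan) v)
  have hinj : Function.Injective π.dualMap := LinearMap.dualMap_injective_of_surjective hsurj
  refine ⟨h54t_push1 D s.dualMap z'', ⟨?_, ?_⟩, w₀, ?_⟩
  · show D.coneD1 (dualTw D.chi ρ) (h54t_push1 D s.dualMap z'') = 0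
    have h1 := h54t_coneD1_push1 hπD (h54t_push1 D s.dualMap z'')
    rw [hπz] at h1
    have h2 : D.coneD1 (dualTw D.chi ρP) z'' = 0 := hz''.1
    rw [h2] at h1
    refine Prod.ext ?_ ?_
    · funext p
      apply hinj
      have := congrFun (congrArg Prod.fst h1) p
      simp only [Prod.fst_zero, Pi.zero_apply, Function.comp_apply] at this
      show π.dualMap _ = π.dualMap 0
      rw [map_zero]
      exact this.symm
    · funext v
      funext h
      apply hinj
      have := congrFun (congrFun (congrArg Prod.snd h1) v) h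
      simp only [Prod.snd_zero, Pi.zero_apply, Function.comp_apply] at this
      show π.dualMap _ = π.dualMap 0
      rw [map_zero]
      exact this.symm
  · exact ⟨(hz''.2.1).comp s.dualMap, trivial⟩
  · rw [hπz, hz''def, sub_add_cancel]

/-! ### The right kernel for a finite power -/

lemma h54t_right_pi (D : Datum k) (tr : D.CC3 k →ₗ[k] k) {P : Type} [AddCommGroup P]
    [Module k P] (σ : Representation k D.G P) (ι : Type) [Finite ι]
    (hσ : ∀ y ∈ Z2 D.lev σ,
      (∀ z ∈ D.ZC1 (dualTw D.chi σ), D.pair1 σ tr LinearMap.id z y = 0) → y ∈ B2 D.lev σ)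
    (y : D.G × D.G → (ι → P)) (hy : y ∈ Z2 D.lev (h54_piRep σ ι))
    (h0 : ∀ z ∈ D.ZC1 (dualTw D.chi (h54_piRep σ ι)),
      D.pair1 (h54_piRep σ ι) tr LinearMap.id z y = 0) :
    y ∈ B2 D.lev (h54_piRep σ ι) := by
  have hcomp : ∀ i : ι, ∃ x : D.G → P, IsLC1 D.lev x ∧
      d1 σ x = ⇑(LinearMap.proj (R := k) (φ := fun _ : ι => P) i) ∘ y := by
    intro i
    have hi := h54_piRep_proj_isHom σ ι i
    have hyi : (⇑(LinearMap.proj (R := k) (φ := fun _ : ι => P) i) ∘ y) ∈ Z2 D.lev σ :=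
      h54_comp_mem_Z2 hi hy
    have := hσ _ hyi (fun z hz => by
      rw [h54t_adjunction D tr hi z y]
      exact h0 _ (h54t_push1_mem_ZC1 (h54t_dualMap_isHom D.chi hi) hz))
    exact (mem_B2 D.lev σ _).1 this
  choose x hxLC hx using hcomp
  rw [mem_B2]
  refine ⟨fun h i => x i h, h54_IsLC1_pi x hxLC, ?_⟩
  funext p i
  have := congrFun (hx i) p
  simp only [Function.comp_apply, LinearMap.proj_apply] at this
  rw [← this]
  rfl

/-! ### The right kernel for all modules -/

/-- **TH1-(R)**: the right kernel of `H¹_c(ρ^D) × H²(ρ) → k` is trivial for all finite dimensional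
discrete `ρ`. -/
theorem h54t_right (D : Datum k) (tr : D.CC3 k →ₗ[k] k) (hg : D.Good) (htr : D.TrOK tr)
    (hVV : ∀ (V : Type) [AddCommGroup V] [Module k V] [FiniteDimensional k V]
      (ρ : Representation k D.G V), IsDisc D.lev ρ → D.VV ρ)
    (hL : ∀ (V : Type) [AddCommGroup V] [Module k V] [FiniteDimensional k V]
      (ρ : Representation k D.G V), IsDisc D.lev ρ →
      ∀ z ∈ D.ZC1 (dualTw D.chi ρ),
        (∀ y ∈ Z2 D.lev ρ, D.pair1 ρ tr LinearMap.id z y = 0) → z ∈ D.BC1 (dualTw D.chi ρ))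
    (hbase : ∀ U : Subgroup D.G, D.lev.IsOpen U → (∀ u ∈ U, D.chi u = 1) →
      ∀ y ∈ Z2 D.lev (permRep k U),
        (∀ z ∈ D.ZC1 (dualTw D.chi (permRep k U)),
          D.pair1 (permRep k U) tr LinearMap.id z y = 0) → y ∈ B2 D.lev (permRep k U))
    (V : Type) [AddCommGroup V] [Module k V] [FiniteDimensional k V]
    (ρ : Representation k D.G V) (hρ : IsDisc D.lev ρ) :
    ∀ y ∈ Z2 D.lev ρ, (∀ z ∈ D.ZC1 (dualTw D.chi ρ), D.pair1 ρ tr LinearMap.id z y = 0) →
      y ∈ B2 D.lev ρ := by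
  intro y hy h0
  classical
  have hχ : ∃ N ∈ D.lev.sets, ∀ s ∈ N, D.chi s = 1 := hg.2.2.2.2
  obtain ⟨N, hN, hχN, htriv⟩ := h54_common_level hχ ρ hρ
  have hNn : N.Normal := (hg.1 N hN).1
  have hNf : N.FiniteIndex := (hg.1 N hN).2
  let _ : Fintype (D.G ⧸ N) := Fintype.ofFinite _
  obtain ⟨π, hπ, hsurj⟩ := h54t_presentation ρ N htriv
  have htrivP : ∃ N' ∈ D.lev.sets, ∀ s ∈ N',
      ∀ x, h54_piRep (permRep k N) (Fin (Module.finrank k V)) s x = x := by
    refine ⟨N, hN, fun s hs x => ?_⟩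
    funext i
    exact h54_permRep_trivial N s hs (x i)
  have hdP : IsDisc D.lev (h54_piRep (permRep k N) (Fin (Module.finrank k V))) := by
    intro x
    obtain ⟨N', hN', h'⟩ := htrivP
    exact ⟨N', hN', fun s hs => h' s hs x⟩
  have hιhom := h54_subRep_isHom (h54_piRep (permRep k N) (Fin (Module.finrank k V)))
    (LinearMap.ker π) (h54_ker_stable hπ)
  have hdK : IsDisc D.lev (h54_subRep (h54_piRep (permRep k N) (Fin (Module.finrank k V)))
      (LinearMap.ker π) (h54_ker_stable hπ)) := by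
    intro x
    obtain ⟨N', hN', h'⟩ := htrivP
    exact ⟨N', hN', fun s hs => Subtype.ext (h' s hs x.1)⟩
  have hH3K := (hVV _ (h54_subRep (h54_piRep (permRep k N) (Fin (Module.finrank k V)))
      (LinearMap.ker π) (h54_ker_stable hπ)) hdK).2
  obtain ⟨y₀, hy₀, hπy₀⟩ := h54_lift_Z2 hg.1 htrivP hπ hsurj hH3K hy
  have hdPD : IsDisc D.lev
      (dualTw D.chi (h54_piRep (permRep k N) (Fin (Module.finrank k V)))) :=
    h57_isDisc_dualTw D.lev D.chi hχ _ hdP
  have hfin : Module.Finite k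
      ↥(D.ZC1 (dualTw D.chi (h54_piRep (permRep k N) (Fin (Module.finrank k V))))) :=
    h42g_finite_ZC1 D _ (hVV _ _ hdPD).1
  have hιD := h54t_dualMap_isHom D.chi hιhom
  -- the linear family and the functional
  let T : ↥(Z2 D.lev (h54_subRep (h54_piRep (permRep k N) (Fin (Module.finrank k V)))
      (LinearMap.ker π) (h54_ker_stable hπ))) →ₗ[k]
      Module.Dual k ↥(D.ZC1 (dualTw D.chi
        (h54_piRep (permRep k N) (Fin (Module.finrank k V))))) :=
    (D.ZC1 (dualTw D.chi (h54_piRep (permRep k N)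
      (Fin (Module.finrank k V))))).subtype.dualMap ∘ₗ
    (h93c_pairL D (h54_piRep (permRep k N) (Fin (Module.finrank k V))) tr LinearMap.id).flip ∘ₗ
    ((LinearMap.ker π).subtype.compLeft (D.G × D.G)) ∘ₗ
    (Z2 D.lev (h54_subRep (h54_piRep (permRep k N) (Fin (Module.finrank k V)))
      (LinearMap.ker π) (h54_ker_stable hπ))).subtype
  let Θ : Module.Dual k ↥(D.ZC1 (dualTw D.chi
      (h54_piRep (permRep k N) (Fin (Module.finrank k V))))) :=
    (D.ZC1 (dualTw D.chi (h54_piRep (permRep k N)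
      (Fin (Module.finrank k V))))).subtype.dualMap
      ((h93c_pairL D (h54_piRep (permRep k N) (Fin (Module.finrank k V))) tr
        LinearMap.id).flip y₀)
  have hT : ∀ c w, T c w = D.pair1 (h54_piRep (permRep k N) (Fin (Module.finrank k V))) tr
      LinearMap.id w.1 (⇑(LinearMap.ker π).subtype ∘ c.1) := fun c w => rfl
  have hΘ : ∀ w, Θ w = D.pair1 (h54_piRep (permRep k N) (Fin (Module.finrank k V))) tr
      LinearMap.id w.1 y₀ := fun w => rfl
  have hkey : ∀ w, (∀ c, T c w = 0) → Θ w = 0 := by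
    intro w hw
    have hw1 := h54t_push1_mem_ZC1 hιD w.2
    have hw2 := hL _ _ hdK _ hw1 (fun c hc => by
      rw [← h54t_adjunction D tr hιhom]
      exact hw ⟨c, hc⟩)
    obtain ⟨z, hz, w₀, hzw⟩ := h54t_middle D hπ hsurj hdPD w.2 hw2
    rw [hΘ, hzw]
    have hadd := map_add (h93c_pairL D (h54_piRep (permRep k N) (Fin (Module.finrank k V)))
      tr LinearMap.id) (h54t_push1 D π.dualMap z)
      (D.coneD0 (dualTw D.chi (h54_piRep (permRep k N) (Fin (Module.finrank k V)))) w₀)
    have hadd' := LinearMap.congr_fun hadd y₀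
    simp only [LinearMap.add_apply, h93c_pairL_apply] at hadd'
    rw [hadd', ← h54t_adjunction D tr hπ, hπy₀, h0 z hz,
      h93c_pair1_coneD0 D _ _ tr LinearMap.id (h42g_isEquivariant_id D.chi _) htr w₀ hy₀,
      add_zero]
  obtain ⟨c, hc⟩ := h54t_mem_range_of_vanish
    (W := ↥(D.ZC1 (dualTw D.chi (h54_piRep (permRep k N) (Fin (Module.finrank k V))))))
    (Z := ↥(Z2 D.lev (h54_subRep (h54_piRep (permRep k N) (Fin (Module.finrank k V)))
      (LinearMap.ker π) (h54_ker_stable hπ)))) T Θ hkey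
  -- the corrected cocycle
  have hy' : (y₀ - ⇑(LinearMap.ker π).subtype ∘ c.1)
      ∈ Z2 D.lev (h54_piRep (permRep k N) (Fin (Module.finrank k V))) :=
    (Z2 D.lev (h54_piRep (permRep k N) (Fin (Module.finrank k V)))).sub_mem hy₀
      (h54_comp_mem_Z2 hιhom c.2)
  have hy'B : (y₀ - ⇑(LinearMap.ker π).subtype ∘ c.1)
      ∈ B2 D.lev (h54_piRep (permRep k N) (Fin (Module.finrank k V))) := by
    refine h54t_right_pi D tr (permRep k N) _ (hbase N ⟨N, hN, le_rfl⟩ hχN) _ hy'
      (fun z hz => ?_)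
    have h1 := LinearMap.congr_fun hc ⟨z, hz⟩
    rw [hT, hΘ] at h1
    have hsub := map_sub ((h93c_pairL D (h54_piRep (permRep k N) (Fin (Module.finrank k V)))
      tr LinearMap.id) z) y₀ (⇑(LinearMap.ker π).subtype ∘ c.1)
    simp only [h93c_pairL_apply] at hsub
    rw [hsub, h1, sub_self]
  have hfinal := h54_comp_mem_B2 hπ hy'B
  have e : ⇑π ∘ (y₀ - ⇑(LinearMap.ker π).subtype ∘ c.1) = y := by
    funext p
    have hk : π ((c.1 p : LinearMap.ker π) : _) = 0 := LinearMap.mem_ker.1 (c.1 p).2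
    simp only [Function.comp_apply, Pi.sub_apply, map_sub, Submodule.subtype_apply, hk, sub_zero]
    exact congrFun hπy₀ p
  rw [e] at hfinal
  exact hfinal

end H54T

end Fermat.Agent.PT
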