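import Mathlib
import Fermat.Agent.PT.Defs
import Fermat.Agent.PT.Iface
import Fermat.Agent.PT.Alg.LTheta2Tools
import Fermat.Agent.PT.Alg.LTheta2
import Fermat.Agent.PT.Alg.H54Theta1R

/-!
# W3-PT, row ALG-TH1, left half and the final theorem (helper54)

* `h54t_left`  : the left kernel of `H¹_c(ρ^D) × H²(ρ) → k` is trivial for all finite dimensional
  discrete `ρ` as soon as it is for the permutation modules (one permutation module
  `Fun(G/N, k) → V`, `δ₁ ↦ v`, for every `v`).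
* `h54t_theta1Abs : Theta1Abs`.
-/

set_option autoImplicit false

namespace Fermat.Agent.PT

section H54TL

variable {k : Type} [Field k]

/-- **TH1-(L)**: the left kernel of `H¹_c(ρ^D) × H²(ρ) → k` is trivial. -/
theorem h54t_left (D : Datum k) (tr : D.CC3 k →ₗ[k] k) (hg : D.Good)
    (hbase : ∀ U : Subgroup D.G, D.lev.IsOpen U → (∀ u ∈ U, D.chi u = 1) →
      ∀ z ∈ D.ZC1 (dualTw D.chi (permRep k U)),
        (∀ y ∈ Z2 D.lev (permRep k U), D.pair1 (permRep k U) tr LinearMap.id z y = 0) →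
        z ∈ D.BC1 (dualTw D.chi (permRep k U)))
    (V : Type) [AddCommGroup V] [Module k V] [FiniteDimensional k V]
    (ρ : Representation k D.G V) (hρ : IsDisc D.lev ρ) :
    ∀ z ∈ D.ZC1 (dualTw D.chi ρ),
      (∀ y ∈ Z2 D.lev ρ, D.pair1 ρ tr LinearMap.id z y = 0) → z ∈ D.BC1 (dualTw D.chi ρ) := by
  intro z hz h0
  classical
  have hχ : ∃ N ∈ D.lev.sets, ∀ s ∈ N, D.chi s = 1 := hg.2.2.2.2
  obtain ⟨N, hN, hχN, htriv⟩ := h54_common_level hχ ρ hρ
  have hNf : N.FiniteIndex := (hg.1 N hN).2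
  let _ : Fintype (D.G ⧸ N) := Fintype.ofFinite _
  obtain ⟨w₀⟩ : Nonempty D.P := hg.2.2.1
  have key : ∀ v : V, ∃ m : Module.Dual k ((D.G ⧸ N) → k),
      D.coneD0 (dualTw D.chi (permRep k N)) m
        = h54t_push1 D (h54_permMap ρ N v).dualMap z := by
    intro v
    have hπ := h54_permMap_isHom ρ N htriv v
    have hzv := h54t_push1_mem_ZC1 (h54t_dualMap_isHom D.chi hπ) hz
    exact hbase N ⟨N, hN, le_rfl⟩ hχN _ hzv (fun y hy => by
      rw [← h54t_adjunction D tr hπ]
      exact h0 _ (h54_comp_mem_Z2 hπ hy))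
  have hsnd : ∀ w : D.P, z.2 w = z.2 w₀ := by
    intro w
    ext v
    obtain ⟨m, hm⟩ := key v
    have h1 := congrFun (congrArg Prod.snd hm) w
    have h2 := congrFun (congrArg Prod.snd hm) w₀
    simp only [Datum.coneD0_apply, h54t_push1_snd] at h1 h2
    have h3 := LinearMap.congr_fun (h1.symm.trans h2) (Pi.single ((1 : D.G) : D.G ⧸ N) 1)
    simpa [LinearMap.dualMap_apply, h54_permMap_single ρ N htriv v] using h3
  refine ⟨z.2 w₀, ?_⟩
  rw [Datum.coneD0_apply]
  refine Prod.ext ?_ ?_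
  · funext g
    ext v
    obtain ⟨m, hm⟩ := key v
    have hπ := h54_permMap_isHom ρ N htriv v
    have hπD := h54t_dualMap_isHom D.chi hπ
    have h1 := congrFun (congrArg Prod.fst hm) g
    have h2 := congrFun (congrArg Prod.snd hm) w₀
    simp only [Datum.coneD0_apply, h54t_push1_snd, h54t_push1_fst, Function.comp_apply,
      d0_apply] at h1 h2
    rw [h2, ← hπD g (z.2 w₀)] at h1
    have h3 := LinearMap.congr_fun h1 (Pi.single ((1 : D.G) : D.G ⧸ N) 1)
    simp only [LinearMap.sub_apply, LinearMap.dualMap_apply,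
      h54_permMap_single ρ N htriv v] at h3
    simp only [d0_apply, LinearMap.sub_apply]
    exact h3
  · funext w
    exact (hsnd w).symm

/-- **ALG-TH1**: `H¹_c(ρ^D) × H²(ρ) → k` is perfect for all `ρ` as soon as it is for the
permutation modules. -/
theorem h54t_theta1Abs : Theta1Abs := by
  intro k _ D tr hg htr hVV hperm V _ _ _ ρ hd
  have hLall : ∀ (V : Type) [AddCommGroup V] [Module k V] [FiniteDimensional k V]
      (ρ : Representation k D.G V), IsDisc D.lev ρ →
      ∀ z ∈ D.ZC1 (dualTw D.chi ρ),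
        (∀ y ∈ Z2 D.lev ρ, D.pair1 ρ tr LinearMap.id z y = 0) →
        z ∈ D.BC1 (dualTw D.chi ρ) :=
    fun V _ _ _ ρ hρ => h54t_left D tr hg (fun U hU hχ => (hperm U hU hχ).1) V ρ hρ
  exact ⟨hLall V ρ hd,
    h54t_right D tr hg htr hVV hLall (fun U hU hχ => (hperm U hU hχ).2) V ρ hd⟩

end H54TL

end Fermat.Agent.PT
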