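import Mathlib
import Fermat.Agent.PT.Defs
import Fermat.Agent.PT.Alg.VanSkel

/-!
# W3-PT / ALG-VAN, leaf f (helper57): properties of the induced representation `h40v_ind`

* `h57_indDisc    : h40v_IndDisc`    — `Ind_U^G τ` is trivial on a normal `N ≤ U` on which `τ` is;
* `h57_indRetract : h40v_IndRetract` — `V` is a retract of `Ind_U^G Res_U V` when `[G : U]` is
  invertible in `k`;
* `h57_indExact   : h40v_IndExact`   — induction of `0 → k w → W → W' → 0`.
-/

set_option autoImplicit false

namespace Fermat.Agent.PT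

/-! ## d1: uniform discreteness -/

lemma h57_inv_smul_eq {G : Type} [Group G] (U N : Subgroup G) (hN : N.Normal) (hNU : N ≤ U)
    (s : G) (hs : s ∈ N) (x : G ⧸ U) : s⁻¹ • x = x := by
  induction x using QuotientGroup.induction_on with
  | H a =>
    change ((s⁻¹ * a : G) : G ⧸ U) = (a : G ⧸ U)
    rw [QuotientGroup.eq]
    apply hNU
    have h := hN.conj_mem s hs a⁻¹
    simpa [mul_assoc] using h

theorem h57_indDisc : h40v_IndDisc := by
  intro k _ G _ U N hN hNU W _ _ τ hτ s hs f
  funext x
  have hx : s⁻¹ • x = x := h57_inv_smul_eq U N hN hNU s hs x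
  have hmem : (Quotient.out x)⁻¹ * s * Quotient.out x ∈ N := by
    have h := hN.conj_mem s hs (Quotient.out x)⁻¹
    simpa [mul_assoc] using h
  have hc : h40v_coc U s x = ⟨(Quotient.out x)⁻¹ * s * Quotient.out x, hNU hmem⟩ := by
    apply Subtype.ext
    simp only [h40v_coc_coe, hx]
  rw [h40v_ind_apply, hc, hx]
  exact hτ _ hmem _

/-! ## d2: the retract -/

lemma h57_coc_out {G : Type} [Group G] (U : Subgroup G) (g : G) (x : G ⧸ U) :
    Quotient.out x * (h40v_coc U g x : G) = g * Quotient.out (g⁻¹ • x) := by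
  simp only [h40v_coc_coe]
  group

theorem h57_indRetract : h40v_IndRetract := by
  classical
  intro k _ G _ U hU hUk V _ _ ρ
  have : Fintype (G ⧸ U) := Subgroup.fintypeOfIndexNeZero hU
  have hcard : (Fintype.card (G ⧸ U) : k) ≠ 0 := by
    have : Fintype.card (G ⧸ U) = U.index := by
      rw [Subgroup.index, Nat.card_eq_fintype_card]
    rw [this]
    exact hUk
  let i : V →ₗ[k] (G ⧸ U → V) :=
    LinearMap.pi fun x => (ρ (Quotient.out x)⁻¹ : V →ₗ[k] V)
  let S : (G ⧸ U → V) →ₗ[k] V :=
    ∑ x : G ⧸ U, (ρ (Quotient.out x) : V →ₗ[k] V) ∘ₗ LinearMap.proj x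
  have hS : ∀ f : G ⧸ U → V, S f = ∑ x : G ⧸ U, ρ (Quotient.out x) (f x) := by
    intro f
    simp [S, LinearMap.sum_apply]
  refine ⟨i, ((Fintype.card (G ⧸ U) : k)⁻¹) • S, ?_, ?_, ?_⟩
  · intro g v
    funext x
    simp only [i, LinearMap.pi_apply, h40v_ind_apply, resRep_apply, Subgroup.coe_subtype,
      h40v_coc_coe]
    rw [← Module.End.mul_apply, ← map_mul, ← Module.End.mul_apply, ← map_mul]
    congr 2
    group
  · intro g f
    simp only [LinearMap.smul_apply, hS, h40v_ind_apply, resRep_apply, Subgroup.coe_subtype,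
      map_smul]
    congr 1
    rw [map_sum]
    have h1 : ∀ x : G ⧸ U, ρ (Quotient.out x) (ρ (h40v_coc U g x : G) (f (g⁻¹ • x)))
        = ρ g (ρ (Quotient.out (g⁻¹ • x)) (f (g⁻¹ • x))) := by
      intro x
      rw [← Module.End.mul_apply, ← map_mul, h57_coc_out, map_mul, Module.End.mul_apply]
    simp only [h1]
    exact Fintype.sum_equiv (MulAction.toPerm g⁻¹) _ _ (fun x => rfl)
  · intro v
    simp only [LinearMap.smul_apply, hS, i, LinearMap.pi_apply]
    have h2 : ∀ x : G ⧸ U, ρ (Quotient.out x) (ρ (Quotient.out x)⁻¹ v) = v := by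
      intro x
      rw [← Module.End.mul_apply, ← map_mul, mul_inv_cancel, map_one, Module.End.one_apply]
    simp only [h2, Finset.sum_const, Finset.card_univ]
    rw [← Nat.cast_smul_eq_nsmul k, smul_smul, inv_mul_cancel₀ hcard, one_smul]

/-! ## d3: induction of the extension by a fixed line -/

theorem h57_indExact : h40v_IndExact := by
  intro k _ G _ U W W' _ _ _ _ τ τ' q w hw hfix hq hsurj hker
  let φ : (G ⧸ U → k) →ₗ[k] (G ⧸ U → W) :=
    LinearMap.pi fun x => (LinearMap.toSpanSingleton k W w) ∘ₗ LinearMap.proj x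
  let ψ : (G ⧸ U → W) →ₗ[k] (G ⧸ U → W') :=
    LinearMap.pi fun x => q ∘ₗ LinearMap.proj x
  have hφ : ∀ (f : G ⧸ U → k) (x : G ⧸ U), φ f x = f x • w := fun f x => rfl
  have hψ : ∀ (f : G ⧸ U → W) (x : G ⧸ U), ψ f x = q (f x) := fun f x => rfl
  refine ⟨φ, ψ, ?_, ?_, ?_, ?_, ?_⟩
  · intro g f
    funext x
    rw [hφ, h40v_ind_apply, hφ, permRep_apply, map_smul, hfix]
  · intro g f
    funext x
    rw [hψ, h40v_ind_apply, h40v_ind_apply, hψ, hq]
  · intro f f' h
    funext x
    have h1 := congrFun h x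
    rw [hφ, hφ] at h1
    exact smul_left_injective k hw h1
  · intro f
    refine ⟨fun x => Function.surjInv hsurj (f x), ?_⟩
    funext x
    rw [hψ]
    exact Function.surjInv_eq hsurj (f x)
  · ext f
    simp only [LinearMap.mem_range, LinearMap.mem_ker]
    constructor
    · rintro ⟨c, rfl⟩
      funext x
      rw [hψ, hφ, map_smul]
      have : w ∈ LinearMap.ker q := by
        rw [hker]
        exact Submodule.mem_span_singleton_self w
      rw [LinearMap.mem_ker.1 this, smul_zero]
      rfl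
    · intro h
      have h1 : ∀ x, ∃ c : k, c • w = f x := by
        intro x
        have h2 : f x ∈ LinearMap.ker q := by
          rw [LinearMap.mem_ker, ← hψ, h]
          rfl
        rw [hker] at h2
        exact Submodule.mem_span_singleton.1 h2
      choose c hc using h1
      refine ⟨c, ?_⟩
      funext x
      rw [hφ, hc]

end Fermat.Agent.PT
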