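import Mathlib
import Fermat.Agent.PT.Defs
import Fermat.Agent.PT.Alg.VanSkel

/-!
# W3-PT / ALG-VAN, leaf a (helper66): `H¹` finite and `H³ = 0` pass to retracts

`i : V → W`, `π : W → V` equivariant with `π ∘ i = id`.

* push-forward along an equivariant map commutes with the differentials `d⁰ … d³` and
  preserves level-constant cochains, hence maps `Z¹ → Z¹`, `B¹ → B¹`, `Z³ → Z³`;
* the map `HH¹(σ) → HH¹(ρ)` induced by `π` is surjective;
* a `3`-cocycle `z` of `ρ` is `π ∘ d² x = d² (π ∘ x)` for `i ∘ z = d² x`.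
-/

set_option autoImplicit false

namespace Fermat.Agent.PT

section Push

variable {k : Type} [CommRing k] {G : Type} [Group G]
variable {V W : Type} [AddCommGroup V] [Module k V] [AddCommGroup W] [Module k W]
variable {ρ : Representation k G V} {σ : Representation k G W}

theorem h66r_d0_push {φ : V →ₗ[k] W} (h : h40v_IsHom ρ σ φ) (v : V) :
    d0 σ (φ v) = φ.compLeft G (d0 ρ v) := by
  funext g
  simp only [d0_apply, LinearMap.compLeft_apply, Function.comp_apply, map_sub, h g v]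

theorem h66r_d1_push {φ : V →ₗ[k] W} (h : h40v_IsHom ρ σ φ) (x : G → V) :
    d1 σ (φ.compLeft G x) = φ.compLeft (G × G) (d1 ρ x) := by
  funext ⟨g, g'⟩
  simp only [d1_apply, LinearMap.compLeft_apply, Function.comp_apply, map_sub, map_add, h g]

theorem h66r_d2_push {φ : V →ₗ[k] W} (h : h40v_IsHom ρ σ φ) (x : G × G → V) :
    d2 σ (φ.compLeft (G × G) x) = φ.compLeft (G × G × G) (d2 ρ x) := by
  funext ⟨g, g', g''⟩
  simp only [d2_apply, LinearMap.compLeft_apply, Function.comp_apply, map_sub, map_add, h g]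

theorem h66r_d3_push {φ : V →ₗ[k] W} (h : h40v_IsHom ρ σ φ) (x : G × G × G → V) :
    d3 σ (φ.compLeft (G × G × G) x) = φ.compLeft (G × G × G × G) (d3 ρ x) := by
  funext ⟨g, g', g'', g'''⟩
  simp only [d3_apply, LinearMap.compLeft_apply, Function.comp_apply, map_sub, map_add, h g]

variable {L : Lev G}

theorem h66r_push_mem_Z1 {φ : V →ₗ[k] W} (h : h40v_IsHom ρ σ φ) {x : G → V}
    (hx : x ∈ Z1 L ρ) : φ.compLeft G x ∈ Z1 L σ := by
  rw [mem_Z1] at hx ⊢
  refine ⟨?_, hx.2.comp φ⟩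
  rw [h66r_d1_push h, hx.1, map_zero]

theorem h66r_push_mem_B1 {φ : V →ₗ[k] W} (h : h40v_IsHom ρ σ φ) {x : G → V}
    (hx : x ∈ B1 ρ) : φ.compLeft G x ∈ B1 σ := by
  rw [mem_B1] at hx ⊢
  obtain ⟨v, rfl⟩ := hx
  exact ⟨φ v, h66r_d0_push h v⟩

theorem h66r_push_mem_Z3 {φ : V →ₗ[k] W} (h : h40v_IsHom ρ σ φ) {x : G × G × G → V}
    (hx : x ∈ Z3 L ρ) : φ.compLeft (G × G × G) x ∈ Z3 L σ := by
  rw [mem_Z3] at hx ⊢
  refine ⟨?_, hx.2.comp φ⟩
  rw [h66r_d3_push h, hx.1, map_zero]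

/-- the push-forward `Z¹(ρ) → Z¹(σ)` along an equivariant map. -/
def h66r_pushZ1 (L : Lev G) {φ : V →ₗ[k] W} (h : h40v_IsHom ρ σ φ) :
    ↥(Z1 L ρ) →ₗ[k] ↥(Z1 L σ) :=
  (φ.compLeft G).restrict (fun _ hx => h66r_push_mem_Z1 h hx)

theorem h66r_pushZ1_coe (L : Lev G) {φ : V →ₗ[k] W} (h : h40v_IsHom ρ σ φ) (x : ↥(Z1 L ρ)) :
    ((h66r_pushZ1 L h x : ↥(Z1 L σ)) : G → W) = φ.compLeft G (x : G → V) := rfl

/-- the map `HH¹(ρ) → HH¹(σ)` induced by an equivariant map. -/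
def h66r_pushHH1 (L : Lev G) {φ : V →ₗ[k] W} (h : h40v_IsHom ρ σ φ) :
    HH1 L ρ →ₗ[k] HH1 L σ :=
  Submodule.mapQ _ _ (h66r_pushZ1 L h) (fun x hx => by
    rw [Submodule.mem_comap] at hx ⊢
    exact h66r_push_mem_B1 h hx)

theorem h66r_pushHH1_mk (L : Lev G) {φ : V →ₗ[k] W} (h : h40v_IsHom ρ σ φ) (x : ↥(Z1 L ρ)) :
    h66r_pushHH1 L h (Submodule.Quotient.mk x) = Submodule.Quotient.mk (h66r_pushZ1 L h x) :=
  rfl

/-- the map induced by a retraction is surjective on `HH¹`. -/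
theorem h66r_pushHH1_surjective (L : Lev G) {i : V →ₗ[k] W} {π : W →ₗ[k] V}
    (hi : h40v_IsHom ρ σ i) (hπ : h40v_IsHom σ ρ π) (hπi : ∀ v, π (i v) = v) :
    Function.Surjective (h66r_pushHH1 L hπ) := by
  intro y
  obtain ⟨z, rfl⟩ := Submodule.Quotient.mk_surjective _ y
  refine ⟨Submodule.Quotient.mk (h66r_pushZ1 L hi z), ?_⟩
  rw [h66r_pushHH1_mk]
  congr 1
  apply Subtype.ext
  funext g
  simp only [h66r_pushZ1_coe, LinearMap.compLeft_apply, Function.comp_apply, hπi]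

end Push

/-- **Leaf a1.**  Finiteness of `H¹` passes to retracts. -/
theorem h66r_retractH1 : h40v_RetractH1 := by
  intro k _ G _ L V W _ _ _ _ ρ σ i π hi hπ hπi hfin
  exact Module.Finite.of_surjective (h66r_pushHH1 L hπ) (h66r_pushHH1_surjective L hi hπ hπi)

/-- **Leaf a2.**  Vanishing of `H³` passes to retracts. -/
theorem h66r_retractH3 : h40v_RetractH3 := by
  intro k _ G _ L V W _ _ _ _ ρ σ i π hi hπ hπi hvan z hz
  have h1 : i.compLeft (G × G × G) z ∈ B3 L σ := hvan (h66r_push_mem_Z3 hi hz)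
  rw [mem_B3] at h1 ⊢
  obtain ⟨x, hx, hxz⟩ := h1
  refine ⟨π.compLeft (G × G) x, hx.comp π, ?_⟩
  rw [h66r_d2_push hπ, hxz]
  funext p
  simp only [LinearMap.compLeft_apply, Function.comp_apply, hπi]

end Fermat.Agent.PT
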