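import Fermat.Agent.PT.Alg.Tools

/-!
# PT-ALG / PT-SHAP: invariance of the duality package under isomorphisms (helper69)

`e : V ≃ₗ[k] V'`, `f : W ≃ₗ[k] W'` equivariant, `β' (e v) (f w) = β v w`.  Then

* `H3Vanishes`, finiteness of `HH1` pass from `ρ` to `ρ'` (`h69i_h3Vanishes_of_iso`,
  `h69i_finite_HH1_of_iso`);
* the local dualities `LPerf0/1/2` and the global dualities `Perf1/2/3` pass from `(ρ, σ, β)` to
  `(ρ', σ', β')` (`h69i_lPerf2_of_iso`, `h69i_perf1_of_iso`, …).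
-/

set_option autoImplicit false

namespace Fermat.Agent.PT

open Fermat.Agent.PT.Tools

/-! ## equivariant isomorphisms -/

section Basic

variable {k : Type} [CommRing k] {G : Type} [Group G]
variable {V V' : Type} [AddCommGroup V] [Module k V] [AddCommGroup V'] [Module k V']
variable {ρ : Representation k G V} {ρ' : Representation k G V'}

/-- the inverse of an equivariant isomorphism is equivariant. -/
theorem h69i_isHom_symm (e : V ≃ₗ[k] V') (he : IsHom ρ ρ' e.toLinearMap) :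
    IsHom ρ' ρ e.symm.toLinearMap := by
  intro g v'
  apply e.injective
  have h := he g (e.symm v')
  simp only [LinearEquiv.coe_coe, LinearEquiv.apply_symm_apply] at h ⊢
  exact h.symm

theorem h69i_compLeft_symm (e : V ≃ₗ[k] V') (I : Type*) (x : I → V') :
    e.toLinearMap.compLeft I (e.symm.toLinearMap.compLeft I x) = x := by
  funext i
  simp [LinearMap.compLeft_apply]

theorem h69i_compLeft_symm' (e : V ≃ₗ[k] V') (I : Type*) (x : I → V) :
    e.symm.toLinearMap.compLeft I (e.toLinearMap.compLeft I x) = x := by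
  funext i
  simp [LinearMap.compLeft_apply]

theorem h69i_mem_invariants_symm (e : V ≃ₗ[k] V') (he : IsHom ρ ρ' e.toLinearMap) {v' : V'}
    (hv : v' ∈ ρ'.invariants) : e.symm v' ∈ ρ.invariants :=
  (h69i_isHom_symm e he).map_invariants hv

variable (L : Lev G)

/-- `H³ = 0` is invariant under isomorphisms. -/
theorem h69i_h3Vanishes_of_iso (e : V ≃ₗ[k] V') (he : IsHom ρ ρ' e.toLinearMap)
    (h : H3Vanishes L ρ) : H3Vanishes L ρ' := by
  intro z hz
  have h1 := push_mem_Z3 (L := L) (h69i_isHom_symm e he) hz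
  have h2 := push_mem_B3 (L := L) he (h h1)
  rwa [h69i_compLeft_symm] at h2

theorem h69i_h3Vanishes_iff (e : V ≃ₗ[k] V') (he : IsHom ρ ρ' e.toLinearMap) :
    H3Vanishes L ρ ↔ H3Vanishes L ρ' :=
  ⟨h69i_h3Vanishes_of_iso L e he, h69i_h3Vanishes_of_iso L e.symm (h69i_isHom_symm e he)⟩

/-- the map induced on `1`-cocycles by an equivariant map. -/
def h69i_pushZ1 (φ : V →ₗ[k] V') (hφ : IsHom ρ ρ' φ) : ↥(Z1 L ρ) →ₗ[k] ↥(Z1 L ρ') :=
  (φ.compLeft G).restrict (fun _ hx => push_mem_Z1 hφ hx)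

/-- the map induced on `H¹` by an equivariant map. -/
def h69i_pushHH1 (φ : V →ₗ[k] V') (hφ : IsHom ρ ρ' φ) : HH1 L ρ →ₗ[k] HH1 L ρ' :=
  Submodule.mapQ _ _ (h69i_pushZ1 L φ hφ) (fun x hx => by
    rw [Submodule.mem_comap] at hx ⊢
    exact push_mem_B1 hφ hx)

theorem h69i_pushHH1_surjective (e : V ≃ₗ[k] V') (he : IsHom ρ ρ' e.toLinearMap) :
    Function.Surjective (h69i_pushHH1 L e.toLinearMap he) := by
  intro y
  obtain ⟨z, rfl⟩ := Submodule.Quotient.mk_surjective _ y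
  refine ⟨Submodule.Quotient.mk
    ⟨e.symm.toLinearMap.compLeft G z.1, push_mem_Z1 (h69i_isHom_symm e he) z.2⟩, ?_⟩
  unfold h69i_pushHH1
  rw [Submodule.mapQ_apply]
  congr 1
  apply Subtype.ext
  exact h69i_compLeft_symm e G z.1

/-- finiteness of `H¹` is invariant under isomorphisms. -/
theorem h69i_finite_HH1_of_iso (e : V ≃ₗ[k] V') (he : IsHom ρ ρ' e.toLinearMap)
    (h : Module.Finite k (HH1 L ρ)) : Module.Finite k (HH1 L ρ') :=
  Module.Finite.of_surjective (h69i_pushHH1 L e.toLinearMap he) (h69i_pushHH1_surjective L e he)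

theorem h69i_finite_HH1_iff (e : V ≃ₗ[k] V') (he : IsHom ρ ρ' e.toLinearMap) :
    Module.Finite k (HH1 L ρ) ↔ Module.Finite k (HH1 L ρ') :=
  ⟨h69i_finite_HH1_of_iso L e he, h69i_finite_HH1_of_iso L e.symm (h69i_isHom_symm e he)⟩

/-- discreteness is invariant under isomorphisms. -/
theorem h69i_isDisc_of_iso (e : V ≃ₗ[k] V') (he : IsHom ρ ρ' e.toLinearMap)
    (h : IsDisc L ρ) : IsDisc L ρ' := by
  intro v'
  obtain ⟨N, hN, hfix⟩ := h (e.symm v')
  refine ⟨N, hN, fun s hs => ?_⟩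
  have h1 := he s (e.symm v')
  rw [hfix s hs] at h1
  simp only [LinearEquiv.coe_coe, LinearEquiv.apply_symm_apply] at h1
  exact h1.symm

end Basic

/-! ## cup products -/

section Cup

variable {k : Type} [CommRing k] {G : Type} [Group G]
variable {V V' W W' : Type} [AddCommGroup V] [Module k V] [AddCommGroup V'] [Module k V']
  [AddCommGroup W] [Module k W] [AddCommGroup W'] [Module k W']
variable {σ : Representation k G W} {σ' : Representation k G W'}
variable {β : V →ₗ[k] W →ₗ[k] k} {β' : V' →ₗ[k] W' →ₗ[k] k}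
variable (e : V →ₗ[k] V') (f : W →ₗ[k] W') (hf : IsHom σ σ' f)
  (hβ : ∀ v w, β' (e v) (f w) = β v w)

include hβ

omit [Group G] in
theorem h69i_cup02 (v : V) (y : G × G → W) :
    cup02 β' (e v) (f.compLeft (G × G) y) = cup02 β v y := by
  funext p
  simp only [cup02, LinearMap.compLeft_apply, Function.comp_apply, hβ]

include hf

theorem h69i_cup11 (b : G → V) (y : G → W) :
    cup11 β' σ' (e.compLeft G b) (f.compLeft G y) = cup11 β σ b y := by
  funext p
  simp only [cup11, LinearMap.compLeft_apply, Function.comp_apply, ← hf p.1, hβ]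

theorem h69i_cup20 (b : G × G → V) (w : W) :
    cup20 β' σ' (e.compLeft (G × G) b) (f w) = cup20 β σ b w := by
  funext p
  simp only [cup20, LinearMap.compLeft_apply, Function.comp_apply, ← hf (p.1 * p.2), hβ]

theorem h69i_cup12 (a : G → V) (y : G × G → W) :
    cup12 β' σ' (e.compLeft G a) (f.compLeft (G × G) y) = cup12 β σ a y := by
  funext p
  simp only [cup12, LinearMap.compLeft_apply, Function.comp_apply, ← hf p.1, hβ]

theorem h69i_cup21 (a : G × G → V) (y : G → W) :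
    cup21 β' σ' (e.compLeft (G × G) a) (f.compLeft G y) = cup21 β σ a y := by
  funext p
  simp only [cup21, LinearMap.compLeft_apply, Function.comp_apply, ← hf (p.1 * p.2.1), hβ]

theorem h69i_cup30 (a : G × G × G → V) (w : W) :
    cup30 β' σ' (e.compLeft (G × G × G) a) (f w) = cup30 β σ a w := by
  funext p
  simp only [cup30, LinearMap.compLeft_apply, Function.comp_apply,
    ← hf (p.1 * p.2.1 * p.2.2), hβ]

end Cup

/-! ## local dualities -/

section Local

variable {k : Type} [Field k] {H : Type} [Group H] (L : Lev H)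
variable (inv : (H × H → k) →ₗ[k] k)
variable {V V' W W' : Type} [AddCommGroup V] [Module k V] [AddCommGroup V'] [Module k V']
  [AddCommGroup W] [Module k W] [AddCommGroup W'] [Module k W']
variable {ρ : Representation k H V} {ρ' : Representation k H V'}
variable {σ : Representation k H W} {σ' : Representation k H W'}
variable {β : V →ₗ[k] W →ₗ[k] k} {β' : V' →ₗ[k] W' →ₗ[k] k}
variable (e : V ≃ₗ[k] V') (f : W ≃ₗ[k] W') (he : IsHom ρ ρ' e.toLinearMap)
  (hf : IsHom σ σ' f.toLinearMap) (hβ : ∀ v w, β' (e v) (f w) = β v w)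

include he hf hβ

/-- `LPerf0` is invariant under isomorphisms. -/
theorem h69i_lPerf0_of_iso (h : LPerf0 L inv ρ σ β) : LPerf0 L inv ρ' σ' β' := by
  have he' := h69i_isHom_symm e he
  have hf' := h69i_isHom_symm f hf
  refine ⟨fun v' hv' hz => ?_, fun y' hy' hz => ?_⟩
  · have h0 : e.symm v' = 0 := h.1 (e.symm v') (he'.map_invariants hv') (fun y hy => by
      have h1 := hz _ (push_mem_Z2 (L := L) hf hy)
      have h2 := h69i_cup02 (G := H) e.toLinearMap f.toLinearMap hβ (e.symm v') y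
      simp only [LinearEquiv.coe_coe, LinearEquiv.apply_symm_apply] at h2
      rwa [h2] at h1)
    simpa using congrArg e h0
  · have h0 := h.2 _ (push_mem_Z2 (L := L) hf' hy') (fun v hv => by
      have h1 := hz _ (he.map_invariants hv)
      have h2 := h69i_cup02 (G := H) e.toLinearMap f.toLinearMap hβ v
        (f.symm.toLinearMap.compLeft (H × H) y')
      rw [h69i_compLeft_symm] at h2
      rwa [h2] at h1)
    have h3 := push_mem_B2 (L := L) hf h0
    rwa [h69i_compLeft_symm] at h3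

/-- `LPerf1` is invariant under isomorphisms. -/
theorem h69i_lPerf1_of_iso (h : LPerf1 L inv ρ σ β) : LPerf1 L inv ρ' σ' β' := by
  have he' := h69i_isHom_symm e he
  have hf' := h69i_isHom_symm f hf
  refine ⟨fun b' hb' hz => ?_, fun y' hy' hz => ?_⟩
  · have h0 := h.1 _ (push_mem_Z1 (L := L) he' hb') (fun y hy => by
      have h1 := hz _ (push_mem_Z1 (L := L) hf hy)
      have h2 := h69i_cup11 e.toLinearMap f.toLinearMap hf hβ
        (e.symm.toLinearMap.compLeft H b') y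
      rw [h69i_compLeft_symm] at h2
      rwa [h2] at h1)
    have h3 := push_mem_B1 he h0
    rwa [h69i_compLeft_symm] at h3
  · have h0 := h.2 _ (push_mem_Z1 (L := L) hf' hy') (fun b hb => by
      have h1 := hz _ (push_mem_Z1 (L := L) he hb)
      have h2 := h69i_cup11 e.toLinearMap f.toLinearMap hf hβ b
        (f.symm.toLinearMap.compLeft H y')
      rw [h69i_compLeft_symm] at h2
      rwa [h2] at h1)
    have h3 := push_mem_B1 hf h0
    rwa [h69i_compLeft_symm] at h3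

/-- `LPerf2` is invariant under isomorphisms. -/
theorem h69i_lPerf2_of_iso (h : LPerf2 L inv ρ σ β) : LPerf2 L inv ρ' σ' β' := by
  have he' := h69i_isHom_symm e he
  have hf' := h69i_isHom_symm f hf
  refine ⟨fun b' hb' hz => ?_, fun w' hw' hz => ?_⟩
  · have h0 := h.1 _ (push_mem_Z2 (L := L) he' hb') (fun w hw => by
      have h1 := hz _ (hf.map_invariants hw)
      have h2 := h69i_cup20 e.toLinearMap f.toLinearMap hf hβ
        (e.symm.toLinearMap.compLeft (H × H) b') w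
      rw [h69i_compLeft_symm] at h2
      rwa [h2] at h1)
    have h3 := push_mem_B2 (L := L) he h0
    rwa [h69i_compLeft_symm] at h3
  · have h0 : f.symm w' = 0 := h.2 _ (hf'.map_invariants hw') (fun b hb => by
      have h1 := hz _ (push_mem_Z2 (L := L) he hb)
      have h2 := h69i_cup20 e.toLinearMap f.toLinearMap hf hβ b (f.symm w')
      simp only [LinearEquiv.coe_coe, LinearEquiv.apply_symm_apply] at h2
      rwa [h2] at h1)
    simpa using congrArg f h0

end Local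

/-! ## the cone complex -/

section Cone

variable {k : Type} [Field k] (D : Datum k)
variable {V V' : Type} [AddCommGroup V] [Module k V] [AddCommGroup V'] [Module k V']
variable {ρ : Representation k D.G V} {ρ' : Representation k D.G V'}

/-- push-forward of cone `1`-cochains. -/
def h69i_pushC1 (φ : V →ₗ[k] V') (z : D.CC1 V) : D.CC1 V' :=
  (φ.compLeft D.G z.1, fun v => φ (z.2 v))

/-- push-forward of cone `2`-cochains. -/
def h69i_pushC2 (φ : V →ₗ[k] V') (z : D.CC2 V) : D.CC2 V' :=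
  (φ.compLeft (D.G × D.G) z.1, fun v => φ.compLeft (D.H v) (z.2 v))

/-- push-forward of cone `3`-cochains. -/
def h69i_pushC3 (φ : V →ₗ[k] V') (z : D.CC3 V) : D.CC3 V' :=
  (φ.compLeft (D.G × D.G × D.G) z.1, fun v => φ.compLeft (D.H v × D.H v) (z.2 v))

/-- push-forward of cone `4`-cochains. -/
def h69i_pushC4 (φ : V →ₗ[k] V') (z : D.CC4 V) : D.CC4 V' :=
  (φ.compLeft (D.G × D.G × D.G × D.G) z.1,
    fun v => φ.compLeft (D.H v × D.H v × D.H v) (z.2 v))

theorem h69i_pushC1_symm (e : V ≃ₗ[k] V') (z : D.CC1 V') :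
    h69i_pushC1 D e.toLinearMap (h69i_pushC1 D e.symm.toLinearMap z) = z := by
  refine Prod.ext (h69i_compLeft_symm e _ _) ?_
  funext v
  simp [h69i_pushC1]

theorem h69i_pushC2_symm (e : V ≃ₗ[k] V') (z : D.CC2 V') :
    h69i_pushC2 D e.toLinearMap (h69i_pushC2 D e.symm.toLinearMap z) = z := by
  refine Prod.ext (h69i_compLeft_symm e _ _) ?_
  funext v
  exact h69i_compLeft_symm e _ _

theorem h69i_pushC3_symm (e : V ≃ₗ[k] V') (z : D.CC3 V') :
    h69i_pushC3 D e.toLinearMap (h69i_pushC3 D e.symm.toLinearMap z) = z := by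
  refine Prod.ext (h69i_compLeft_symm e _ _) ?_
  funext v
  exact h69i_compLeft_symm e _ _

variable {D}

theorem h69i_isHom_repAt {φ : V →ₗ[k] V'} (hφ : IsHom ρ ρ' φ) (v : D.P) :
    IsHom (D.repAt ρ v) (D.repAt ρ' v) φ :=
  fun h x => hφ (D.loc v h) x

theorem h69i_coneD0_push {φ : V →ₗ[k] V'} (hφ : IsHom ρ ρ' φ) (α : V) :
    D.coneD0 ρ' (φ α) = h69i_pushC1 D φ (D.coneD0 ρ α) := by
  simp only [Datum.coneD0_apply, h69i_pushC1, d0_push hφ]

theorem h69i_coneD1_push {φ : V →ₗ[k] V'} (hφ : IsHom ρ ρ' φ) (z : D.CC1 V) :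
    D.coneD1 ρ' (h69i_pushC1 D φ z) = h69i_pushC2 D φ (D.coneD1 ρ z) := by
  simp only [Datum.coneD1_apply, h69i_pushC1, h69i_pushC2, d1_push hφ]
  refine Prod.ext rfl ?_
  funext v
  simp only [d0_push (h69i_isHom_repAt hφ v), map_sub]
  rfl

theorem h69i_coneD2_push {φ : V →ₗ[k] V'} (hφ : IsHom ρ ρ' φ) (z : D.CC2 V) :
    D.coneD2 ρ' (h69i_pushC2 D φ z) = h69i_pushC3 D φ (D.coneD2 ρ z) := by
  simp only [Datum.coneD2_apply, h69i_pushC2, h69i_pushC3, d2_push hφ]
  refine Prod.ext rfl ?_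
  funext v
  simp only [d1_push (h69i_isHom_repAt hφ v), map_sub]
  rfl

theorem h69i_coneD3_push {φ : V →ₗ[k] V'} (hφ : IsHom ρ ρ' φ) (z : D.CC3 V) :
    D.coneD3 ρ' (h69i_pushC3 D φ z) = h69i_pushC4 D φ (D.coneD3 ρ z) := by
  simp only [Datum.coneD3_apply, h69i_pushC3, h69i_pushC4, d3_push hφ]
  refine Prod.ext rfl ?_
  funext v
  simp only [d2_push (h69i_isHom_repAt hφ v), map_sub]
  rfl

theorem h69i_push_mem_lcC1 (φ : V →ₗ[k] V') {z : D.CC1 V} (hz : z ∈ D.lcC1 V) :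
    h69i_pushC1 D φ z ∈ D.lcC1 V' := by
  rw [Datum.lcC1, Submodule.mem_prod] at hz ⊢
  exact ⟨isLC1_push hz.1 φ, Submodule.mem_top⟩

theorem h69i_push_mem_lcC2 (φ : V →ₗ[k] V') {z : D.CC2 V} (hz : z ∈ D.lcC2 V) :
    h69i_pushC2 D φ z ∈ D.lcC2 V' := by
  rw [Datum.lcC2, Submodule.mem_prod] at hz ⊢
  refine ⟨isLC2_push hz.1 φ, ?_⟩
  rw [Submodule.mem_pi]
  intro v hv
  exact isLC1_push ((Submodule.mem_pi.1 hz.2) v hv) φ

theorem h69i_push_mem_lcC3 (φ : V →ₗ[k] V') {z : D.CC3 V} (hz : z ∈ D.lcC3 V) :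
    h69i_pushC3 D φ z ∈ D.lcC3 V' := by
  rw [Datum.lcC3, Submodule.mem_prod] at hz ⊢
  refine ⟨isLC3_push hz.1 φ, ?_⟩
  rw [Submodule.mem_pi]
  intro v hv
  exact isLC2_push ((Submodule.mem_pi.1 hz.2) v hv) φ

theorem h69i_pushC2_zero (φ : V →ₗ[k] V') : h69i_pushC2 D φ 0 = 0 := by
  refine Prod.ext (map_zero _) ?_
  funext v
  exact map_zero _

theorem h69i_pushC3_zero (φ : V →ₗ[k] V') : h69i_pushC3 D φ 0 = 0 := by
  refine Prod.ext (map_zero _) ?_
  funext v
  exact map_zero _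

theorem h69i_pushC4_zero (φ : V →ₗ[k] V') : h69i_pushC4 D φ 0 = 0 := by
  refine Prod.ext (map_zero _) ?_
  funext v
  exact map_zero _

theorem h69i_push_mem_ZC1 {φ : V →ₗ[k] V'} (hφ : IsHom ρ ρ' φ) {z : D.CC1 V}
    (hz : z ∈ D.ZC1 ρ) : h69i_pushC1 D φ z ∈ D.ZC1 ρ' := by
  obtain ⟨h1, h2⟩ := Submodule.mem_inf.1 hz
  refine Submodule.mem_inf.2 ⟨?_, h69i_push_mem_lcC1 φ h2⟩
  rw [LinearMap.mem_ker] at h1 ⊢
  rw [h69i_coneD1_push hφ, h1, h69i_pushC2_zero]

theorem h69i_push_mem_ZC2 {φ : V →ₗ[k] V'} (hφ : IsHom ρ ρ' φ) {z : D.CC2 V}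
    (hz : z ∈ D.ZC2 ρ) : h69i_pushC2 D φ z ∈ D.ZC2 ρ' := by
  obtain ⟨h1, h2⟩ := Submodule.mem_inf.1 hz
  refine Submodule.mem_inf.2 ⟨?_, h69i_push_mem_lcC2 φ h2⟩
  rw [LinearMap.mem_ker] at h1 ⊢
  rw [h69i_coneD2_push hφ, h1, h69i_pushC3_zero]

theorem h69i_push_mem_ZC3 {φ : V →ₗ[k] V'} (hφ : IsHom ρ ρ' φ) {z : D.CC3 V}
    (hz : z ∈ D.ZC3 ρ) : h69i_pushC3 D φ z ∈ D.ZC3 ρ' := by
  obtain ⟨h1, h2⟩ := Submodule.mem_inf.1 hz
  refine Submodule.mem_inf.2 ⟨?_, h69i_push_mem_lcC3 φ h2⟩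
  rw [LinearMap.mem_ker] at h1 ⊢
  rw [h69i_coneD3_push hφ, h1, h69i_pushC4_zero]

theorem h69i_push_mem_BC1 {φ : V →ₗ[k] V'} (hφ : IsHom ρ ρ' φ) {z : D.CC1 V}
    (hz : z ∈ D.BC1 ρ) : h69i_pushC1 D φ z ∈ D.BC1 ρ' := by
  obtain ⟨α, rfl⟩ := hz
  exact ⟨φ α, h69i_coneD0_push hφ α⟩

theorem h69i_push_mem_BC2 {φ : V →ₗ[k] V'} (hφ : IsHom ρ ρ' φ) {z : D.CC2 V}
    (hz : z ∈ D.BC2 ρ) : h69i_pushC2 D φ z ∈ D.BC2 ρ' := by
  obtain ⟨c, hc, rfl⟩ := hz
  exact ⟨h69i_pushC1 D φ c, h69i_push_mem_lcC1 φ hc, h69i_coneD1_push hφ c⟩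

theorem h69i_push_mem_BC3 {φ : V →ₗ[k] V'} (hφ : IsHom ρ ρ' φ) {z : D.CC3 V}
    (hz : z ∈ D.BC3 ρ) : h69i_pushC3 D φ z ∈ D.BC3 ρ' := by
  obtain ⟨c, hc, rfl⟩ := hz
  exact ⟨h69i_pushC2 D φ c, h69i_push_mem_lcC2 φ hc, h69i_coneD2_push hφ c⟩

/-! ## global dualities -/

variable {W W' : Type} [AddCommGroup W] [Module k W] [AddCommGroup W'] [Module k W']
variable {σ : Representation k D.G W} {σ' : Representation k D.G W'}
variable {β : V →ₗ[k] W →ₗ[k] k} {β' : V' →ₗ[k] W' →ₗ[k] k}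
variable (tr : D.CC3 k →ₗ[k] k)

section Pair

variable (e : V →ₗ[k] V') (f : W →ₗ[k] W') (hf : IsHom σ σ' f)
  (hβ : ∀ v w, β' (e v) (f w) = β v w)

include hf hβ

theorem h69i_pair1 (z : D.CC1 V) (y : D.G × D.G → W) :
    D.pair1 σ' tr β' (h69i_pushC1 D e z) (f.compLeft (D.G × D.G) y) = D.pair1 σ tr β z y := by
  unfold Datum.pair1
  congr 1
  refine Prod.ext (h69i_cup12 e f hf hβ z.1 y) ?_
  funext v
  exact h69i_cup02 e f hβ (z.2 v) (res2 k W (D.loc v) y)

theorem h69i_pair2 (z : D.CC2 V) (y : D.G → W) :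
    D.pair2 σ' tr β' (h69i_pushC2 D e z) (f.compLeft D.G y) = D.pair2 σ tr β z y := by
  unfold Datum.pair2
  congr 1
  refine Prod.ext (h69i_cup21 e f hf hβ z.1 y) ?_
  funext v
  exact h69i_cup11 e f (h69i_isHom_repAt hf v) hβ (z.2 v) (res1 k W (D.loc v) y)

theorem h69i_pair3 (z : D.CC3 V) (w : W) :
    D.pair3 σ' tr β' (h69i_pushC3 D e z) (f w) = D.pair3 σ tr β z w := by
  unfold Datum.pair3
  congr 1
  refine Prod.ext (h69i_cup30 e f hf hβ z.1 w) ?_
  funext v
  exact h69i_cup20 e f (h69i_isHom_repAt hf v) hβ (z.2 v) w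

end Pair

variable (e : V ≃ₗ[k] V') (f : W ≃ₗ[k] W') (he : IsHom ρ ρ' e.toLinearMap)
  (hf : IsHom σ σ' f.toLinearMap) (hβ : ∀ v w, β' (e v) (f w) = β v w)

include he hf hβ

/-- `Perf1` is invariant under isomorphisms. -/
theorem h69i_perf1_of_iso (h : D.Perf1 ρ σ tr β) : D.Perf1 ρ' σ' tr β' := by
  have he' := h69i_isHom_symm e he
  have hf' := h69i_isHom_symm f hf
  refine ⟨fun z' hz' hp => ?_, fun y' hy' hp => ?_⟩
  · have h0 := h.1 _ (h69i_push_mem_ZC1 he' hz') (fun y hy => by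
      have h1 := hp _ (push_mem_Z2 (L := D.lev) hf hy)
      have h2 := h69i_pair1 tr e.toLinearMap f.toLinearMap hf hβ
        (h69i_pushC1 D e.symm.toLinearMap z') y
      rw [h69i_pushC1_symm] at h2
      rwa [h2] at h1)
    have h3 := h69i_push_mem_BC1 he h0
    rwa [h69i_pushC1_symm] at h3
  · have h0 := h.2 _ (push_mem_Z2 (L := D.lev) hf' hy') (fun z hz => by
      have h1 := hp _ (h69i_push_mem_ZC1 he hz)
      have h2 := h69i_pair1 tr e.toLinearMap f.toLinearMap hf hβ z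
        (f.symm.toLinearMap.compLeft (D.G × D.G) y')
      rw [h69i_compLeft_symm] at h2
      rwa [h2] at h1)
    have h3 := push_mem_B2 (L := D.lev) hf h0
    rwa [h69i_compLeft_symm] at h3

/-- `Perf2` is invariant under isomorphisms. -/
theorem h69i_perf2_of_iso (h : D.Perf2 ρ σ tr β) : D.Perf2 ρ' σ' tr β' := by
  have he' := h69i_isHom_symm e he
  have hf' := h69i_isHom_symm f hf
  refine ⟨fun z' hz' hp => ?_, fun y' hy' hp => ?_⟩
  · have h0 := h.1 _ (h69i_push_mem_ZC2 he' hz') (fun y hy => by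
      have h1 := hp _ (push_mem_Z1 (L := D.lev) hf hy)
      have h2 := h69i_pair2 tr e.toLinearMap f.toLinearMap hf hβ
        (h69i_pushC2 D e.symm.toLinearMap z') y
      rw [h69i_pushC2_symm] at h2
      rwa [h2] at h1)
    have h3 := h69i_push_mem_BC2 he h0
    rwa [h69i_pushC2_symm] at h3
  · have h0 := h.2 _ (push_mem_Z1 (L := D.lev) hf' hy') (fun z hz => by
      have h1 := hp _ (h69i_push_mem_ZC2 he hz)
      have h2 := h69i_pair2 tr e.toLinearMap f.toLinearMap hf hβ z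
        (f.symm.toLinearMap.compLeft D.G y')
      rw [h69i_compLeft_symm] at h2
      rwa [h2] at h1)
    have h3 := push_mem_B1 hf h0
    rwa [h69i_compLeft_symm] at h3

/-- `Perf3` is invariant under isomorphisms. -/
theorem h69i_perf3_of_iso (h : D.Perf3 ρ σ tr β) : D.Perf3 ρ' σ' tr β' := by
  have he' := h69i_isHom_symm e he
  have hf' := h69i_isHom_symm f hf
  refine ⟨fun z' hz' hp => ?_, fun w' hw' hp => ?_⟩
  · have h0 := h.1 _ (h69i_push_mem_ZC3 he' hz') (fun w hw => by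
      have h1 := hp _ (hf.map_invariants hw)
      have h2 := h69i_pair3 tr e.toLinearMap f.toLinearMap hf hβ
        (h69i_pushC3 D e.symm.toLinearMap z') w
      rw [h69i_pushC3_symm] at h2
      rwa [h2] at h1)
    have h3 := h69i_push_mem_BC3 he h0
    rwa [h69i_pushC3_symm] at h3
  · have h0 : f.symm w' = 0 := h.2 _ (hf'.map_invariants hw') (fun z hz => by
      have h1 := hp _ (h69i_push_mem_ZC3 he hz)
      have h2 := h69i_pair3 tr e.toLinearMap f.toLinearMap hf hβ z (f.symm w')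
      simp only [LinearEquiv.coe_coe, LinearEquiv.apply_symm_apply] at h2
      rwa [h2] at h1)
    simpa using congrArg f h0

end Cone

end Fermat.Agent.PT
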