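import Mathlib
import Fermat.Agent.PT.Defs
import Fermat.Agent.PT.Alg.VanSkel

/-!
# W3-PT / ALG-VAN leaves a3, a4: closure under extensions (helper77)

* `h77e_extH1 : h40v_ExtH1` : finiteness of `H¹` passes to extensions;
* `h77e_extH3 : h40v_ExtH3` : vanishing of `H³` passes to extensions
  (uniformly discrete middle term, normal levels).

Reusable pieces: `h77e_d0_comp … h77e_d3_comp` (differentials commute with equivariant maps),
`h77e_isLC2_d1`, `h77e_isLC3_d2` (differentials preserve level-constancy for uniformly discrete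
representations and normal levels).
-/

set_option autoImplicit false

namespace Fermat.Agent.PT

section Comp

variable {k : Type} [CommRing k] {G : Type} [Group G]
variable {V W : Type} [AddCommGroup V] [Module k V] [AddCommGroup W] [Module k W]
variable {ρ : Representation k G V} {σ : Representation k G W} {φ : V →ₗ[k] W}

lemma h77e_d0_comp (hφ : h40v_IsHom ρ σ φ) (v : V) : d0 σ (φ v) = φ ∘ d0 ρ v := by
  funext g
  simp only [d0_apply, Function.comp_apply, map_sub, hφ g v]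

lemma h77e_d1_comp (hφ : h40v_IsHom ρ σ φ) (f : G → V) : d1 σ (φ ∘ f) = φ ∘ d1 ρ f := by
  funext ⟨g, h⟩
  simp only [d1_apply, Function.comp_apply, map_sub, map_add, hφ g (f h)]

lemma h77e_d2_comp (hφ : h40v_IsHom ρ σ φ) (f : G × G → V) :
    d2 σ (φ ∘ f) = φ ∘ d2 ρ f := by
  funext ⟨g, h, j⟩
  simp only [d2_apply, Function.comp_apply, map_sub, map_add, hφ g (f (h, j))]

lemma h77e_d3_comp (hφ : h40v_IsHom ρ σ φ) (f : G × G × G → V) :
    d3 σ (φ ∘ f) = φ ∘ d3 ρ f := by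
  funext ⟨g, h, j, l⟩
  simp only [d3_apply, Function.comp_apply, map_sub, map_add, hφ g (f (h, j, l))]

end Comp

section LCd

variable {k : Type} [CommRing k] {G : Type} [Group G] {L : Lev G}
variable {V : Type} [AddCommGroup V] [Module k V] (ρ : Representation k G V)

/-- A common normal level below a given level `N₀` and a level `N₁`. -/
lemma h77e_exists_level (hG : L.Good) {N₀ N₁ : Subgroup G} (h₀ : N₀ ∈ L.sets)
    (h₁ : N₁ ∈ L.sets) : ∃ N ∈ L.sets, N.Normal ∧ N ≤ N₀ ∧ N ≤ N₁ := by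
  obtain ⟨N, hN, hle⟩ := L.directed N₀ h₀ N₁ h₁
  exact ⟨N, hN, (hG N hN).1, fun _ hx => (hle hx).1, fun _ hx => (hle hx).2⟩

lemma h77e_isLC2_d1 (hG : L.Good) (hρ : ∃ N ∈ L.sets, ∀ s ∈ N, ∀ v, ρ s v = v)
    {f : G → V} (hf : IsLC1 L f) : IsLC2 L (d1 ρ f) := by
  obtain ⟨N₀, h₀, hρ⟩ := hρ
  obtain ⟨N₁, h₁, hf⟩ := hf
  obtain ⟨N, hN, hn, hle₀, hle₁⟩ := h77e_exists_level hG h₀ h₁
  refine ⟨N, hN, fun g g' s s' hs hs' => ?_⟩
  have e1 : g * s * (g' * s') = g * g' * ((g'⁻¹ * s * g') * s') := by group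
  have hc : g'⁻¹ * s * g' ∈ N := by
    have := hn.conj_mem s hs g'⁻¹
    simpa using this
  simp only [d1_apply]
  rw [e1, hf (g * g') _ (hle₁ (N.mul_mem hc hs')), hf g' s' (hle₁ hs'), hf g s (hle₁ hs),
    map_mul, Module.End.mul_apply, hρ s (hle₀ hs)]

lemma h77e_isLC3_d2 (hG : L.Good) (hρ : ∃ N ∈ L.sets, ∀ s ∈ N, ∀ v, ρ s v = v)
    {f : G × G → V} (hf : IsLC2 L f) : IsLC3 L (d2 ρ f) := by
  obtain ⟨N₀, h₀, hρ⟩ := hρ
  obtain ⟨N₁, h₁, hf⟩ := hf
  obtain ⟨N, hN, hn, hle₀, hle₁⟩ := h77e_exists_level hG h₀ h₁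
  refine ⟨N, hN, fun g g' g'' s s' s'' hs hs' hs'' => ?_⟩
  have e1 : g * s * (g' * s') = g * g' * ((g'⁻¹ * s * g') * s') := by group
  have e2 : g' * s' * (g'' * s'') = g' * g'' * ((g''⁻¹ * s' * g'') * s'') := by group
  have hc : g'⁻¹ * s * g' ∈ N := by
    have := hn.conj_mem s hs g'⁻¹
    simpa using this
  have hc' : g''⁻¹ * s' * g'' ∈ N := by
    have := hn.conj_mem s' hs' g''⁻¹
    simpa using this
  simp only [d2_apply]
  rw [e1, e2, hf (g * g') g'' _ s'' (hle₁ (N.mul_mem hc hs')) (hle₁ hs''),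
    hf g (g' * g'') s _ (hle₁ hs) (hle₁ (N.mul_mem hc' hs'')),
    hf g g' s s' (hle₁ hs) (hle₁ hs'), hf g' g'' s' s'' (hle₁ hs') (hle₁ hs''),
    map_mul, Module.End.mul_apply, hρ s (hle₀ hs)]

end LCd

/-! ## Leaf a4 -/

theorem h77e_extH3 : h40v_ExtH3 := by
  intro k _ G _ L hG V₁ V₂ V₃ _ _ _ _ _ _ ρ₁ ρ₂ ρ₃ φ ψ hφ hψ hinj hsurj hex hN h1 h3
  intro z hz
  obtain ⟨hdz, hzlc⟩ := (mem_Z3 L ρ₂ z).1 hz
  -- push forward to `V₃`
  have hz3 : (ψ ∘ z) ∈ Z3 L ρ₃ := by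
    refine (mem_Z3 L ρ₃ _).2 ⟨?_, hzlc.comp ψ⟩
    rw [h77e_d3_comp hψ, hdz]
    funext x
    simp
  obtain ⟨y₃, hy₃lc, hy₃⟩ := (mem_B3 L ρ₃ _).1 (h3 hz3)
  -- linear section of `ψ`, linear retraction of `φ`
  obtain ⟨s, hs⟩ := LinearMap.exists_rightInverse_of_surjective ψ (LinearMap.range_eq_top.2 hsurj)
  obtain ⟨r, hr⟩ := LinearMap.exists_leftInverse_of_injective φ (LinearMap.ker_eq_bot.2 hinj)
  have hs' : ∀ x, ψ (s x) = x := fun x => by
    have := congrArg (fun f => f x) hs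
    simpa using this
  have hr' : ∀ x, r (φ x) = x := fun x => by
    have := congrArg (fun f => f x) hr
    simpa using this
  set y₂ : G × G → V₂ := s ∘ y₃ with hy₂
  have hy₂lc : IsLC2 L y₂ := hy₃lc.comp s
  have hψy₂ : ψ ∘ y₂ = y₃ := by
    funext x
    simp [hy₂, hs']
  -- the difference takes values in `ker ψ = range φ`
  set z' : G × G × G → V₂ := z - d2 ρ₂ y₂ with hz'
  have hz'lc : IsLC3 L z' := by
    have h2 : IsLC3 L (d2 ρ₂ y₂) := h77e_isLC3_d2 ρ₂ hG hN hy₂lc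
    have h3' : IsLC3 L (fun x => - d2 ρ₂ y₂ x) := h2.comp (fun v => -v)
    have := hzlc.add h3'
    have e : z' = z + fun x => - d2 ρ₂ y₂ x := by
      funext x
      simp [hz', sub_eq_add_neg]
    rw [e]
    exact this
  have hψz' : ∀ x, ψ (z' x) = 0 := by
    intro x
    have e1 : ψ (d2 ρ₂ y₂ x) = (ψ ∘ d2 ρ₂ y₂) x := rfl
    have e2 : ψ (z x) = (ψ ∘ z) x := rfl
    simp only [hz', Pi.sub_apply, map_sub]
    rw [e1, ← h77e_d2_comp hψ, hψy₂, hy₃, e2, sub_self]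
  have hφr : ∀ x, φ (r (z' x)) = z' x := by
    intro x
    have : z' x ∈ LinearMap.range φ := by
      rw [hex]
      exact hψz' x
    obtain ⟨v, hv⟩ := this
    rw [← hv, hr']
  set w : G × G × G → V₁ := r ∘ z' with hw
  have hφw : φ ∘ w = z' := by
    funext x
    simp [hw, hφr]
  have hd2d2 : d3 ρ₂ (d2 ρ₂ y₂) = 0 := by
    funext ⟨g, h, j, l⟩
    simp only [d3_apply, d2_apply, map_sub, map_add, map_mul, Module.End.mul_apply, mul_assoc,
      Pi.zero_apply]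
    abel
  have hw3 : w ∈ Z3 L ρ₁ := by
    refine (mem_Z3 L ρ₁ _).2 ⟨?_, hz'lc.comp r⟩
    have : φ ∘ d3 ρ₁ w = 0 := by
      rw [← h77e_d3_comp hφ, hφw, hz', map_sub, hdz, hd2d2, sub_zero]
    funext x
    have hx := congrArg (fun f => f x) this
    simp only [Function.comp_apply, Pi.zero_apply] at hx
    exact hinj (by rw [hx]; simp)
  obtain ⟨x₁, hx₁lc, hx₁⟩ := (mem_B3 L ρ₁ _).1 (h1 hw3)
  refine (mem_B3 L ρ₂ _).2 ⟨y₂ + φ ∘ x₁, hy₂lc.add (hx₁lc.comp φ), ?_⟩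
  rw [map_add, h77e_d2_comp hφ, hx₁, hφw, hz']
  abel

/-! ## Leaf a3 -/

section H1

variable {k : Type} [Field k] {G : Type} [Group G] (L : Lev G)
variable {V W : Type} [AddCommGroup V] [Module k V] [AddCommGroup W] [Module k W]
variable {ρ : Representation k G V} {σ : Representation k G W} {φ : V →ₗ[k] W}

/-- Push-forward of continuous `1`-cocycles along an equivariant map. -/
def h77e_pushZ1 (hφ : h40v_IsHom ρ σ φ) : ↥(Z1 L ρ) →ₗ[k] ↥(Z1 L σ) where
  toFun f := ⟨φ ∘ (f : G → V), (mem_Z1 L σ _).2 ⟨by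
    rw [h77e_d1_comp hφ, ((mem_Z1 L ρ _).1 f.2).1]
    funext x
    simp, ((mem_Z1 L ρ _).1 f.2).2.comp φ⟩⟩
  map_add' f f' := by
    apply Subtype.ext
    funext g
    simp
  map_smul' c f := by
    apply Subtype.ext
    funext g
    simp

@[simp] lemma h77e_pushZ1_coe (hφ : h40v_IsHom ρ σ φ) (f : ↥(Z1 L ρ)) :
    ((h77e_pushZ1 L hφ f : ↥(Z1 L σ)) : G → W) = φ ∘ (f : G → V) := rfl

/-- Push-forward on `H¹`. -/
def h77e_pushH1 (hφ : h40v_IsHom ρ σ φ) : HH1 L ρ →ₗ[k] HH1 L σ :=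
  Submodule.mapQ _ _ (h77e_pushZ1 L hφ) (by
    intro f hf
    obtain ⟨v, hv⟩ := (mem_B1 ρ _).1 hf
    refine (mem_B1 σ _).2 ⟨φ v, ?_⟩
    rw [h77e_d0_comp hφ, hv]
    rfl)

lemma h77e_pushH1_mk (hφ : h40v_IsHom ρ σ φ) (f : ↥(Z1 L ρ)) :
    h77e_pushH1 L hφ (Submodule.Quotient.mk f) = Submodule.Quotient.mk (h77e_pushZ1 L hφ f) :=
  rfl

end H1

theorem h77e_extH1 : h40v_ExtH1 := by
  intro k _ G _ L _ V₁ V₂ V₃ _ _ _ _ _ _ ρ₁ ρ₂ ρ₃ φ ψ hφ hψ hinj hsurj hex hN hf1 hf3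
  -- exactness in the middle: `ker ψ_* ≤ range φ_*`
  have hker : LinearMap.ker (h77e_pushH1 L hψ) ≤ LinearMap.range (h77e_pushH1 L hφ) := by
    intro c hc
    obtain ⟨z, rfl⟩ := Submodule.Quotient.mk_surjective _ c
    rw [LinearMap.mem_ker, h77e_pushH1_mk, Submodule.Quotient.mk_eq_zero] at hc
    obtain ⟨v₃, hv₃⟩ := (mem_B1 ρ₃ _).1 hc
    obtain ⟨v₂, rfl⟩ := hsurj v₃
    obtain ⟨hdz, hzlc⟩ := (mem_Z1 L ρ₂ _).1 z.2
    obtain ⟨r, hr⟩ := LinearMap.exists_leftInverse_of_injective φ (LinearMap.ker_eq_bot.2 hinj)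
    have hr' : ∀ x, r (φ x) = x := fun x => by
      have := congrArg (fun f => f x) hr
      simpa using this
    set z' : G → V₂ := (z : G → V₂) - d0 ρ₂ v₂ with hz'
    have hψz' : ∀ g, ψ (z' g) = 0 := by
      intro g
      have h1 := congrArg (fun f => f g) hv₃
      simp only [d0_apply, Submodule.coe_subtype, h77e_pushZ1_coe, Function.comp_apply] at h1
      simp only [hz', Pi.sub_apply, d0_apply, map_sub]
      rw [← h1, hψ g v₂]
      abel
    have hφr : ∀ g, φ (r (z' g)) = z' g := by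
      intro g
      have : z' g ∈ LinearMap.range φ := by
        rw [hex]
        exact hψz' g
      obtain ⟨v, hv⟩ := this
      rw [← hv, hr']
    have hd1d0 : d1 ρ₂ (d0 ρ₂ v₂) = 0 := by
      funext ⟨g, h⟩
      simp only [d1_apply, d0_apply, map_sub, map_mul, Module.End.mul_apply, Pi.zero_apply]
      abel
    have hz'1 : d1 ρ₂ z' = 0 := by
      rw [hz', map_sub, hdz, hd1d0, sub_zero]
    have hd0lc : IsLC1 L (d0 ρ₂ v₂) := by
      obtain ⟨N, hNs, hNv⟩ := hN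
      refine ⟨N, hNs, fun g s hs => ?_⟩
      simp only [d0_apply, map_mul, Module.End.mul_apply, hNv s hs]
    have hz'lc : IsLC1 L z' := by
      have h3' : IsLC1 L (fun x => - d0 ρ₂ v₂ x) := hd0lc.comp (fun v => -v)
      have := hzlc.add h3'
      have e : z' = (z : G → V₂) + fun x => - d0 ρ₂ v₂ x := by
        funext x
        simp [hz', sub_eq_add_neg]
      rw [e]
      exact this
    set w : G → V₁ := r ∘ z' with hw
    have hφw : φ ∘ w = z' := by
      funext x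
      simp [hw, hφr]
    have hw1 : w ∈ Z1 L ρ₁ := by
      refine (mem_Z1 L ρ₁ _).2 ⟨?_, hz'lc.comp r⟩
      have : φ ∘ d1 ρ₁ w = 0 := by
        rw [← h77e_d1_comp hφ, hφw, hz'1]
      funext x
      have hx := congrArg (fun f => f x) this
      simp only [Function.comp_apply, Pi.zero_apply] at hx
      exact hinj (by rw [hx]; simp)
    refine ⟨Submodule.Quotient.mk ⟨w, hw1⟩, ?_⟩
    rw [h77e_pushH1_mk, Submodule.Quotient.eq]
    refine (mem_B1 ρ₂ _).2 ⟨-v₂, ?_⟩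
    funext g
    have h1 := congrArg (fun f => f g) hφw
    simp only [Function.comp_apply] at h1
    simp only [Submodule.coe_subtype, AddSubgroupClass.coe_sub, h77e_pushZ1_coe, Pi.sub_apply,
      Function.comp_apply, h1, hz', d0_apply, map_neg]
    abel
  have : Module.Finite k (HH1 L ρ₁) := hf1
  have : Module.Finite k (HH1 L ρ₃) := hf3
  have h1 : Module.Finite k (LinearMap.range (h77e_pushH1 L hφ)) := Module.Finite.range _
  have h2 : Module.Finite k (LinearMap.ker (h77e_pushH1 L hψ)) :=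
    Submodule.finiteDimensional_of_le hker
  have h3 : Module.Finite k (LinearMap.range (h77e_pushH1 L hψ)) :=
    FiniteDimensional.finiteDimensional_submodule _
  have h4 : Module.Finite k (HH1 L ρ₂ ⧸ LinearMap.ker (h77e_pushH1 L hψ)) :=
    Module.Finite.equiv (h77e_pushH1 L hψ).quotKerEquivRange.symm
  exact Module.Finite.of_submodule_quotient (LinearMap.ker (h77e_pushH1 L hψ))

end Fermat.Agent.PT
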