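import Mathlib
import Fermat.Agent.PT.Defs
import Fermat.Agent.PT.Iface
import Fermat.Agent.PT.Alg.H54Theta1L

/-!
# W3-PT, row ALG-TH1: `theta1Abs : Theta1Abs` (helper54)

The first duality `H¹_c(ρ^D) × H²(ρ) → k` is perfect for all finite dimensional discrete `ρ` as soon
as it is for the permutation modules (left half `h54t_left`, right half `h54t_right`).
-/

set_option autoImplicit false

namespace Fermat.Agent.PT

/-- **ALG-TH1**. -/
theorem theta1Abs : Theta1Abs := h54t_theta1Abs

end Fermat.Agent.PT
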