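import Fermat.Agent.PT.Alg.Tools

/-!
# W3-PT, PT-ALG toolbox (ALG-TOOLS, sub-lead helper27), part 2: short exact sequences

For a short exact sequence `0 → V₁ -φ→ V₂ -ψ→ V₃ → 0` of representations (`SES`), with `ρ₂`
discrete and a good level system, the long exact cohomology sequence at the level of
level-constant cochains:

* `SES.mid1/2/3`      : exactness at `Hⁿ(V₂)` (T6).
* `Conn0/1/2`         : the connecting relation `x ∈ δ z`; `conn?_exists`, `conn?_mem`,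
                        `conn?_unique`, `conn?_of_cobound`.
* `conn?_exact_right` : exactness at `Hⁿ(V₃)` (`δ z = 0 ⇒ z` lifts to a cocycle) (T7).
* `conn?_exact_left`  : exactness at `Hⁿ⁺¹(V₁)` (`φ x` coboundary `⇒ x ∈ δ z`) (T8).
* `SES.surj1/2`       : `Hⁿ(V₂) → Hⁿ(V₃)` is onto when `Hⁿ⁺¹(V₁) = 0` (T7).
-/

set_option autoImplicit false

namespace Fermat.Agent.PT.Tools

open Fermat.Agent.PT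

section SESsec

variable {k : Type} [CommRing k] {G : Type} [Group G] {L : Lev G}
variable {V₁ V₂ V₃ : Type} [AddCommGroup V₁] [Module k V₁] [AddCommGroup V₂] [Module k V₂]
  [AddCommGroup V₃] [Module k V₃]

/-- a short exact sequence `0 → V₁ -φ→ V₂ -ψ→ V₃ → 0` of representations. -/
structure SES (ρ₁ : Representation k G V₁) (ρ₂ : Representation k G V₂)
    (ρ₃ : Representation k G V₃) (φ : V₁ →ₗ[k] V₂) (ψ : V₂ →ₗ[k] V₃) : Prop where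
  homφ : IsHom ρ₁ ρ₂ φ
  homψ : IsHom ρ₂ ρ₃ ψ
  inj : Function.Injective φ
  surj : Function.Surjective ψ
  exact : ∀ v, ψ v = 0 ↔ ∃ u, φ u = v

variable {ρ₁ : Representation k G V₁} {ρ₂ : Representation k G V₂}
  {ρ₃ : Representation k G V₃} {φ : V₁ →ₗ[k] V₂} {ψ : V₂ →ₗ[k] V₃}

theorem SES.comp_zero (h : SES ρ₁ ρ₂ ρ₃ φ ψ) (u : V₁) : ψ (φ u) = 0 :=
  (h.exact (φ u)).2 ⟨u, rfl⟩

/-- a family with values in `ker ψ` factors through `φ`. -/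
theorem SES.exists_factor (h : SES ρ₁ ρ₂ ρ₃ φ ψ) {I : Type*} (y : I → V₂)
    (hy : ∀ i, ψ (y i) = 0) : ∃ x : I → V₁, φ.compLeft I x = y := by
  choose x hx using fun i => (h.exact (y i)).1 (hy i)
  exact ⟨x, funext hx⟩

theorem compLeft_injective (hφ : Function.Injective φ) (I : Type*) :
    Function.Injective (φ.compLeft I) := fun _ _ hab =>
  funext fun i => hφ (congrFun hab i)

theorem isLC1_of_push (hφ : Function.Injective φ) {x : G → V₁}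
    (hx : IsLC1 L (φ.compLeft G x)) : IsLC1 L x := isLC1_of_comp_injective hφ hx

theorem isLC2_of_push (hφ : Function.Injective φ) {x : G × G → V₁}
    (hx : IsLC2 L (φ.compLeft (G × G) x)) : IsLC2 L x := isLC2_of_comp_injective hφ hx

theorem isLC3_of_push (hφ : Function.Injective φ) {x : G × G × G → V₁}
    (hx : IsLC3 L (φ.compLeft (G × G × G) x)) : IsLC3 L x := isLC3_of_comp_injective hφ hx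

/-- sub-representations of discrete representations are discrete. -/
theorem SES.isDisc_left (h : SES ρ₁ ρ₂ ρ₃ φ ψ) (hρ₂ : IsDisc L ρ₂) : IsDisc L ρ₁ := by
  intro v
  obtain ⟨N, hN, hfix⟩ := hρ₂ (φ v)
  exact ⟨N, hN, fun s hs => h.inj (by rw [h.homφ s v, hfix s hs])⟩

/-- quotients of discrete representations are discrete. -/
theorem SES.isDisc_right (h : SES ρ₁ ρ₂ ρ₃ φ ψ) (hρ₂ : IsDisc L ρ₂) : IsDisc L ρ₃ := by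
  intro w
  obtain ⟨v, rfl⟩ := h.surj w
  obtain ⟨N, hN, hfix⟩ := hρ₂ v
  exact ⟨N, hN, fun s hs => by rw [← h.homψ s v, hfix s hs]⟩

/-! ### The connecting relation -/

/-- `x ∈ δ z` for `z ∈ H⁰(V₃)`. -/
def Conn0 (ρ₂ : Representation k G V₂) (φ : V₁ →ₗ[k] V₂) (ψ : V₂ →ₗ[k] V₃) (z : V₃)
    (x : G → V₁) : Prop :=
  ∃ v : V₂, ψ v = z ∧ d0 ρ₂ v = φ.compLeft G x

/-- `x ∈ δ z` for `z ∈ H¹(V₃)`. -/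
def Conn1 (L : Lev G) (ρ₂ : Representation k G V₂) (φ : V₁ →ₗ[k] V₂) (ψ : V₂ →ₗ[k] V₃)
    (z : G → V₃) (x : G × G → V₁) : Prop :=
  ∃ c : G → V₂, IsLC1 L c ∧ ψ.compLeft G c = z ∧ d1 ρ₂ c = φ.compLeft (G × G) x

/-- `x ∈ δ z` for `z ∈ H²(V₃)`. -/
def Conn2 (L : Lev G) (ρ₂ : Representation k G V₂) (φ : V₁ →ₗ[k] V₂) (ψ : V₂ →ₗ[k] V₃)
    (z : G × G → V₃) (x : G × G × G → V₁) : Prop :=
  ∃ c : G × G → V₂, IsLC2 L c ∧ ψ.compLeft (G × G) c = z ∧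
    d2 ρ₂ c = φ.compLeft (G × G × G) x

/-! ### Pull-back of cocycles along the injection -/

theorem SES.psi_phi (h : SES ρ₁ ρ₂ ρ₃ φ ψ) {I : Type*} (x : I → V₁) :
    ψ.compLeft I (φ.compLeft I x) = 0 :=
  funext fun i => h.comp_zero (x i)

theorem SES.pull_Z1 (h : SES ρ₁ ρ₂ ρ₃ φ ψ) {x : G → V₁} (hx : φ.compLeft G x ∈ Z1 L ρ₂) :
    x ∈ Z1 L ρ₁ := by
  obtain ⟨h1, h2⟩ := (mem_Z1 L ρ₂ _).1 hx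
  refine (mem_Z1 L ρ₁ x).2 ⟨compLeft_injective h.inj _ ?_, isLC1_of_push h.inj h2⟩
  rw [← d1_push h.homφ, h1, map_zero]

theorem SES.pull_Z2 (h : SES ρ₁ ρ₂ ρ₃ φ ψ) {x : G × G → V₁}
    (hx : φ.compLeft (G × G) x ∈ Z2 L ρ₂) : x ∈ Z2 L ρ₁ := by
  obtain ⟨h1, h2⟩ := (mem_Z2 L ρ₂ _).1 hx
  refine (mem_Z2 L ρ₁ x).2 ⟨compLeft_injective h.inj _ ?_, isLC2_of_push h.inj h2⟩
  rw [← d2_push h.homφ, h1, map_zero]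

theorem SES.pull_Z3 (h : SES ρ₁ ρ₂ ρ₃ φ ψ) {x : G × G × G → V₁}
    (hx : φ.compLeft (G × G × G) x ∈ Z3 L ρ₂) : x ∈ Z3 L ρ₁ := by
  obtain ⟨h1, h2⟩ := (mem_Z3 L ρ₂ _).1 hx
  refine (mem_Z3 L ρ₁ x).2 ⟨compLeft_injective h.inj _ ?_, isLC3_of_push h.inj h2⟩
  rw [← d3_push h.homφ, h1, map_zero]

/-- a level-constant cochain killed by `ψ` is the push-forward of a level-constant cochain. -/
theorem SES.factor_lc1 (h : SES ρ₁ ρ₂ ρ₃ φ ψ) {y : G → V₂} (hy : IsLC1 L y)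
    (h0 : ψ.compLeft G y = 0) : ∃ x : G → V₁, IsLC1 L x ∧ φ.compLeft G x = y := by
  obtain ⟨x, hx⟩ := h.exists_factor y (fun i => congrFun h0 i)
  exact ⟨x, isLC1_of_push h.inj (hx ▸ hy), hx⟩

theorem SES.factor_lc2 (h : SES ρ₁ ρ₂ ρ₃ φ ψ) {y : G × G → V₂} (hy : IsLC2 L y)
    (h0 : ψ.compLeft (G × G) y = 0) :
    ∃ x : G × G → V₁, IsLC2 L x ∧ φ.compLeft (G × G) x = y := by
  obtain ⟨x, hx⟩ := h.exists_factor y (fun i => congrFun h0 i)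
  exact ⟨x, isLC2_of_push h.inj (hx ▸ hy), hx⟩

theorem SES.factor_lc3 (h : SES ρ₁ ρ₂ ρ₃ φ ψ) {y : G × G × G → V₂} (hy : IsLC3 L y)
    (h0 : ψ.compLeft (G × G × G) y = 0) :
    ∃ x : G × G × G → V₁, IsLC3 L x ∧ φ.compLeft (G × G × G) x = y := by
  obtain ⟨x, hx⟩ := h.exists_factor y (fun i => congrFun h0 i)
  exact ⟨x, isLC3_of_push h.inj (hx ▸ hy), hx⟩

/-- level-constant lifts along `ψ`. -/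
theorem SES.lift_lc1 (h : SES ρ₁ ρ₂ ρ₃ φ ψ) {c : G → V₃} (hc : IsLC1 L c) :
    ∃ c' : G → V₂, IsLC1 L c' ∧ ψ.compLeft G c' = c := by
  obtain ⟨c', h1, h2⟩ := exists_lift1 h.surj hc
  exact ⟨c', h1, funext h2⟩

theorem SES.lift_lc2 (h : SES ρ₁ ρ₂ ρ₃ φ ψ) {c : G × G → V₃} (hc : IsLC2 L c) :
    ∃ c' : G × G → V₂, IsLC2 L c' ∧ ψ.compLeft (G × G) c' = c := by
  obtain ⟨c', h1, h2⟩ := exists_lift2 h.surj hc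
  exact ⟨c', h1, funext h2⟩

theorem SES.lift_lc3 (h : SES ρ₁ ρ₂ ρ₃ φ ψ) {c : G × G × G → V₃} (hc : IsLC3 L c) :
    ∃ c' : G × G × G → V₂, IsLC3 L c' ∧ ψ.compLeft (G × G × G) c' = c := by
  obtain ⟨c', h1, h2⟩ := exists_lift3 h.surj hc
  exact ⟨c', h1, funext h2⟩

/-! ### (T6) exactness at `Hⁿ(V₂)` -/

theorem SES.mid1 (h : SES ρ₁ ρ₂ ρ₃ φ ψ) (hρ₂ : IsDisc L ρ₂) {y : G → V₂} (hy : y ∈ Z1 L ρ₂)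
    (hψy : ψ.compLeft G y ∈ B1 ρ₃) : ∃ x ∈ Z1 L ρ₁, y - φ.compLeft G x ∈ B1 ρ₂ := by
  obtain ⟨w, hw⟩ := hψy
  obtain ⟨v, rfl⟩ := h.surj w
  have hB : d0 ρ₂ v ∈ B1 ρ₂ := ⟨v, rfl⟩
  have hZ : y - d0 ρ₂ v ∈ Z1 L ρ₂ := sub_mem hy (B1_le_Z1 hρ₂ hB)
  have h0 : ψ.compLeft G (y - d0 ρ₂ v) = 0 := by
    rw [map_sub, ← d0_push h.homψ, hw, sub_self]
  obtain ⟨x, hx⟩ := h.exists_factor _ (fun i => congrFun h0 i)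
  refine ⟨x, h.pull_Z1 (hx ▸ hZ), ?_⟩
  rw [hx, sub_sub_cancel]
  exact hB

theorem SES.mid2 (h : SES ρ₁ ρ₂ ρ₃ φ ψ) (hL : L.Good) (hρ₂ : IsDisc L ρ₂) {y : G × G → V₂}
    (hy : y ∈ Z2 L ρ₂) (hψy : ψ.compLeft (G × G) y ∈ B2 L ρ₃) :
    ∃ x ∈ Z2 L ρ₁, y - φ.compLeft (G × G) x ∈ B2 L ρ₂ := by
  obtain ⟨c, hc, hw⟩ := (mem_B2 L ρ₃ _).1 hψy
  obtain ⟨c', hc', rfl⟩ := h.lift_lc1 hc
  have hB : d1 ρ₂ c' ∈ B2 L ρ₂ := (mem_B2 L ρ₂ _).2 ⟨c', hc', rfl⟩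
  have hZ : y - d1 ρ₂ c' ∈ Z2 L ρ₂ := sub_mem hy (B2_le_Z2 hL hρ₂ hB)
  have h0 : ψ.compLeft (G × G) (y - d1 ρ₂ c') = 0 := by
    rw [map_sub, ← d1_push h.homψ, hw, sub_self]
  obtain ⟨x, hx⟩ := h.exists_factor _ (fun i => congrFun h0 i)
  refine ⟨x, h.pull_Z2 (hx ▸ hZ), ?_⟩
  rw [hx, sub_sub_cancel]
  exact hB

theorem SES.mid3 (h : SES ρ₁ ρ₂ ρ₃ φ ψ) (hL : L.Good) (hρ₂ : IsDisc L ρ₂)
    {y : G × G × G → V₂} (hy : y ∈ Z3 L ρ₂) (hψy : ψ.compLeft (G × G × G) y ∈ B3 L ρ₃) :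
    ∃ x ∈ Z3 L ρ₁, y - φ.compLeft (G × G × G) x ∈ B3 L ρ₂ := by
  obtain ⟨c, hc, hw⟩ := (mem_B3 L ρ₃ _).1 hψy
  obtain ⟨c', hc', rfl⟩ := h.lift_lc2 hc
  have hB : d2 ρ₂ c' ∈ B3 L ρ₂ := (mem_B3 L ρ₂ _).2 ⟨c', hc', rfl⟩
  have hZ : y - d2 ρ₂ c' ∈ Z3 L ρ₂ := sub_mem hy (B3_le_Z3 hL hρ₂ hB)
  have h0 : ψ.compLeft (G × G × G) (y - d2 ρ₂ c') = 0 := by
    rw [map_sub, ← d2_push h.homψ, hw, sub_self]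
  obtain ⟨x, hx⟩ := h.exists_factor _ (fun i => congrFun h0 i)
  refine ⟨x, h.pull_Z3 (hx ▸ hZ), ?_⟩
  rw [hx, sub_sub_cancel]
  exact hB

/-! ### The connecting homomorphism: existence, cocycle property -/

theorem d0_eq_zero_iff (ρ : Representation k G V₁) (v : V₁) :
    d0 ρ v = 0 ↔ v ∈ ρ.invariants := by
  constructor
  · intro h0 g
    have := congrFun h0 g
    simpa only [d0_apply, Pi.zero_apply, sub_eq_zero] using this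
  · intro hv
    funext g
    simp only [d0_apply, Pi.zero_apply, sub_eq_zero]
    exact hv g

theorem SES.conn0_exists (h : SES ρ₁ ρ₂ ρ₃ φ ψ) (hρ₂ : IsDisc L ρ₂) {z : V₃}
    (hz : z ∈ ρ₃.invariants) : ∃ x ∈ Z1 L ρ₁, Conn0 ρ₂ φ ψ z x := by
  obtain ⟨v, rfl⟩ := h.surj z
  have hZ : d0 ρ₂ v ∈ Z1 L ρ₂ := B1_le_Z1 hρ₂ ⟨v, rfl⟩
  have h0 : ψ.compLeft G (d0 ρ₂ v) = 0 := by
    rw [← d0_push h.homψ]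
    exact (d0_eq_zero_iff ρ₃ _).2 hz
  obtain ⟨x, hx⟩ := h.exists_factor _ (fun i => congrFun h0 i)
  exact ⟨x, h.pull_Z1 (hx ▸ hZ), v, rfl, hx.symm⟩

theorem SES.conn1_exists (h : SES ρ₁ ρ₂ ρ₃ φ ψ) (hL : L.Good) (hρ₂ : IsDisc L ρ₂)
    {z : G → V₃} (hz : z ∈ Z1 L ρ₃) : ∃ x ∈ Z2 L ρ₁, Conn1 L ρ₂ φ ψ z x := by
  obtain ⟨hz1, hz2⟩ := (mem_Z1 L ρ₃ z).1 hz
  obtain ⟨c, hc, rfl⟩ := h.lift_lc1 hz2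
  have hZ : d1 ρ₂ c ∈ Z2 L ρ₂ := B2_le_Z2 hL hρ₂ ((mem_B2 L ρ₂ _).2 ⟨c, hc, rfl⟩)
  have h0 : ψ.compLeft (G × G) (d1 ρ₂ c) = 0 := by
    rw [← d1_push h.homψ]
    exact hz1
  obtain ⟨x, hx⟩ := h.exists_factor _ (fun i => congrFun h0 i)
  exact ⟨x, h.pull_Z2 (hx ▸ hZ), c, hc, rfl, hx.symm⟩

theorem SES.conn2_exists (h : SES ρ₁ ρ₂ ρ₃ φ ψ) (hL : L.Good) (hρ₂ : IsDisc L ρ₂)
    {z : G × G → V₃} (hz : z ∈ Z2 L ρ₃) : ∃ x ∈ Z3 L ρ₁, Conn2 L ρ₂ φ ψ z x := by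
  obtain ⟨hz1, hz2⟩ := (mem_Z2 L ρ₃ z).1 hz
  obtain ⟨c, hc, rfl⟩ := h.lift_lc2 hz2
  have hZ : d2 ρ₂ c ∈ Z3 L ρ₂ := B3_le_Z3 hL hρ₂ ((mem_B3 L ρ₂ _).2 ⟨c, hc, rfl⟩)
  have h0 : ψ.compLeft (G × G × G) (d2 ρ₂ c) = 0 := by
    rw [← d2_push h.homψ]
    exact hz1
  obtain ⟨x, hx⟩ := h.exists_factor _ (fun i => congrFun h0 i)
  exact ⟨x, h.pull_Z3 (hx ▸ hZ), c, hc, rfl, hx.symm⟩

theorem SES.conn0_mem (h : SES ρ₁ ρ₂ ρ₃ φ ψ) (hρ₂ : IsDisc L ρ₂) {z : V₃} {x : G → V₁}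
    (hc : Conn0 ρ₂ φ ψ z x) : z ∈ ρ₃.invariants ∧ x ∈ Z1 L ρ₁ := by
  obtain ⟨v, rfl, hd⟩ := hc
  refine ⟨(d0_eq_zero_iff ρ₃ _).1 ?_, h.pull_Z1 (hd ▸ B1_le_Z1 hρ₂ ⟨v, rfl⟩)⟩
  rw [d0_push h.homψ, hd, h.psi_phi]

theorem SES.conn1_mem (h : SES ρ₁ ρ₂ ρ₃ φ ψ) (hL : L.Good) (hρ₂ : IsDisc L ρ₂)
    {z : G → V₃} {x : G × G → V₁} (hc : Conn1 L ρ₂ φ ψ z x) :
    z ∈ Z1 L ρ₃ ∧ x ∈ Z2 L ρ₁ := by
  obtain ⟨c, hc, rfl, hd⟩ := hc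
  refine ⟨(mem_Z1 L ρ₃ _).2 ⟨?_, isLC1_push hc ψ⟩,
    h.pull_Z2 (hd ▸ B2_le_Z2 hL hρ₂ ((mem_B2 L ρ₂ _).2 ⟨c, hc, rfl⟩))⟩
  rw [d1_push h.homψ, hd, h.psi_phi]

theorem SES.conn2_mem (h : SES ρ₁ ρ₂ ρ₃ φ ψ) (hL : L.Good) (hρ₂ : IsDisc L ρ₂)
    {z : G × G → V₃} {x : G × G × G → V₁} (hc : Conn2 L ρ₂ φ ψ z x) :
    z ∈ Z2 L ρ₃ ∧ x ∈ Z3 L ρ₁ := by
  obtain ⟨c, hc, rfl, hd⟩ := hc
  refine ⟨(mem_Z2 L ρ₃ _).2 ⟨?_, isLC2_push hc ψ⟩,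
    h.pull_Z3 (hd ▸ B3_le_Z3 hL hρ₂ ((mem_B3 L ρ₂ _).2 ⟨c, hc, rfl⟩))⟩
  rw [d2_push h.homψ, hd, h.psi_phi]

/-! ### Linearity of the connecting relation -/

theorem Conn0.sub {z z' : V₃} {x x' : G → V₁} (hc : Conn0 ρ₂ φ ψ z x)
    (hc' : Conn0 ρ₂ φ ψ z' x') : Conn0 ρ₂ φ ψ (z - z') (x - x') := by
  obtain ⟨v, h1, h2⟩ := hc
  obtain ⟨v', h1', h2'⟩ := hc'
  exact ⟨v - v', by rw [map_sub, h1, h1'], by rw [map_sub, map_sub, h2, h2']⟩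

theorem Conn0.add {z z' : V₃} {x x' : G → V₁} (hc : Conn0 ρ₂ φ ψ z x)
    (hc' : Conn0 ρ₂ φ ψ z' x') : Conn0 ρ₂ φ ψ (z + z') (x + x') := by
  obtain ⟨v, h1, h2⟩ := hc
  obtain ⟨v', h1', h2'⟩ := hc'
  exact ⟨v + v', by rw [map_add, h1, h1'], by rw [map_add, map_add, h2, h2']⟩

theorem Conn0.smul (a : k) {z : V₃} {x : G → V₁} (hc : Conn0 ρ₂ φ ψ z x) :
    Conn0 ρ₂ φ ψ (a • z) (a • x) := by
  obtain ⟨v, h1, h2⟩ := hc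
  exact ⟨a • v, by rw [map_smul, h1], by rw [map_smul, map_smul, h2]⟩

theorem Conn1.sub {z z' : G → V₃} {x x' : G × G → V₁} (hc : Conn1 L ρ₂ φ ψ z x)
    (hc' : Conn1 L ρ₂ φ ψ z' x') : Conn1 L ρ₂ φ ψ (z - z') (x - x') := by
  obtain ⟨c, h0, h1, h2⟩ := hc
  obtain ⟨c', h0', h1', h2'⟩ := hc'
  exact ⟨c - c', (lc1 L k V₂).sub_mem h0 h0', by rw [map_sub, h1, h1'],
    by rw [map_sub, map_sub, h2, h2']⟩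

theorem Conn1.add {z z' : G → V₃} {x x' : G × G → V₁} (hc : Conn1 L ρ₂ φ ψ z x)
    (hc' : Conn1 L ρ₂ φ ψ z' x') : Conn1 L ρ₂ φ ψ (z + z') (x + x') := by
  obtain ⟨c, h0, h1, h2⟩ := hc
  obtain ⟨c', h0', h1', h2'⟩ := hc'
  exact ⟨c + c', h0.add h0', by rw [map_add, h1, h1'], by rw [map_add, map_add, h2, h2']⟩

theorem Conn1.smul (a : k) {z : G → V₃} {x : G × G → V₁} (hc : Conn1 L ρ₂ φ ψ z x) :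
    Conn1 L ρ₂ φ ψ (a • z) (a • x) := by
  obtain ⟨c, h0, h1, h2⟩ := hc
  exact ⟨a • c, (lc1 L k V₂).smul_mem a h0, by rw [map_smul, h1],
    by rw [map_smul, map_smul, h2]⟩

theorem Conn2.sub {z z' : G × G → V₃} {x x' : G × G × G → V₁} (hc : Conn2 L ρ₂ φ ψ z x)
    (hc' : Conn2 L ρ₂ φ ψ z' x') : Conn2 L ρ₂ φ ψ (z - z') (x - x') := by
  obtain ⟨c, h0, h1, h2⟩ := hc
  obtain ⟨c', h0', h1', h2'⟩ := hc'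
  exact ⟨c - c', (lc2 L k V₂).sub_mem h0 h0', by rw [map_sub, h1, h1'],
    by rw [map_sub, map_sub, h2, h2']⟩

theorem Conn2.add {z z' : G × G → V₃} {x x' : G × G × G → V₁} (hc : Conn2 L ρ₂ φ ψ z x)
    (hc' : Conn2 L ρ₂ φ ψ z' x') : Conn2 L ρ₂ φ ψ (z + z') (x + x') := by
  obtain ⟨c, h0, h1, h2⟩ := hc
  obtain ⟨c', h0', h1', h2'⟩ := hc'
  exact ⟨c + c', h0.add h0', by rw [map_add, h1, h1'], by rw [map_add, map_add, h2, h2']⟩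

theorem Conn2.smul (a : k) {z : G × G → V₃} {x : G × G × G → V₁}
    (hc : Conn2 L ρ₂ φ ψ z x) : Conn2 L ρ₂ φ ψ (a • z) (a • x) := by
  obtain ⟨c, h0, h1, h2⟩ := hc
  exact ⟨a • c, (lc2 L k V₂).smul_mem a h0, by rw [map_smul, h1],
    by rw [map_smul, map_smul, h2]⟩

/-! ### Well-definedness of the connecting homomorphism -/

theorem SES.conn0_of_zero (h : SES ρ₁ ρ₂ ρ₃ φ ψ) {x : G → V₁}
    (hc : Conn0 ρ₂ φ ψ (0 : V₃) x) : x ∈ B1 ρ₁ := by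
  obtain ⟨v, h1, h2⟩ := hc
  obtain ⟨u, rfl⟩ := (h.exact v).1 h1
  refine ⟨u, compLeft_injective h.inj _ ?_⟩
  rw [← d0_push h.homφ, h2]

theorem SES.conn1_of_cobound (h : SES ρ₁ ρ₂ ρ₃ φ ψ) (hρ₂ : IsDisc L ρ₂) {z : G → V₃}
    {x : G × G → V₁} (hz : z ∈ B1 ρ₃) (hc : Conn1 L ρ₂ φ ψ z x) : x ∈ B2 L ρ₁ := by
  obtain ⟨w, rfl⟩ := hz
  obtain ⟨v, rfl⟩ := h.surj w
  obtain ⟨c, h0, h1, h2⟩ := hc
  have hlc : IsLC1 L (c - d0 ρ₂ v) := (lc1 L k V₂).sub_mem h0 (isLC1_d0 hρ₂ v)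
  have hk : ψ.compLeft G (c - d0 ρ₂ v) = 0 := by
    rw [map_sub, h1, ← d0_push h.homψ, sub_self]
  obtain ⟨b, hb, hbc⟩ := h.factor_lc1 hlc hk
  refine (mem_B2 L ρ₁ x).2 ⟨b, hb, compLeft_injective h.inj _ ?_⟩
  rw [← d1_push h.homφ, hbc, map_sub, d1_d0, sub_zero, h2]

theorem SES.conn2_of_cobound (h : SES ρ₁ ρ₂ ρ₃ φ ψ) (hL : L.Good) (hρ₂ : IsDisc L ρ₂)
    {z : G × G → V₃} {x : G × G × G → V₁} (hz : z ∈ B2 L ρ₃)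
    (hc : Conn2 L ρ₂ φ ψ z x) : x ∈ B3 L ρ₁ := by
  obtain ⟨e, he, rfl⟩ := (mem_B2 L ρ₃ z).1 hz
  obtain ⟨e', he', rfl⟩ := h.lift_lc1 he
  obtain ⟨c, h0, h1, h2⟩ := hc
  have hlc : IsLC2 L (c - d1 ρ₂ e') := (lc2 L k V₂).sub_mem h0 (isLC2_d1 hL hρ₂ he')
  have hk : ψ.compLeft (G × G) (c - d1 ρ₂ e') = 0 := by
    rw [map_sub, h1, ← d1_push h.homψ, sub_self]
  obtain ⟨b, hb, hbc⟩ := h.factor_lc2 hlc hk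
  refine (mem_B3 L ρ₁ x).2 ⟨b, hb, compLeft_injective h.inj _ ?_⟩
  rw [← d2_push h.homφ, hbc, map_sub, d2_d1, sub_zero, h2]

theorem SES.conn0_unique (h : SES ρ₁ ρ₂ ρ₃ φ ψ) {z : V₃} {x x' : G → V₁}
    (hc : Conn0 ρ₂ φ ψ z x) (hc' : Conn0 ρ₂ φ ψ z x') : x - x' ∈ B1 ρ₁ :=
  h.conn0_of_zero (by simpa using hc.sub hc')

theorem SES.conn1_unique (h : SES ρ₁ ρ₂ ρ₃ φ ψ) (hρ₂ : IsDisc L ρ₂) {z : G → V₃}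
    {x x' : G × G → V₁} (hc : Conn1 L ρ₂ φ ψ z x) (hc' : Conn1 L ρ₂ φ ψ z x') :
    x - x' ∈ B2 L ρ₁ :=
  h.conn1_of_cobound hρ₂ (B1 ρ₃).zero_mem (by simpa using hc.sub hc')

theorem SES.conn2_unique (h : SES ρ₁ ρ₂ ρ₃ φ ψ) (hL : L.Good) (hρ₂ : IsDisc L ρ₂)
    {z : G × G → V₃} {x x' : G × G × G → V₁} (hc : Conn2 L ρ₂ φ ψ z x)
    (hc' : Conn2 L ρ₂ φ ψ z x') : x - x' ∈ B3 L ρ₁ :=
  h.conn2_of_cobound hL hρ₂ (B2 L ρ₃).zero_mem (by simpa using hc.sub hc')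

/-! ### (T7) exactness at `Hⁿ(V₃)` -/

theorem SES.conn0_exact_right (h : SES ρ₁ ρ₂ ρ₃ φ ψ) {z : V₃} {x : G → V₁}
    (hc : Conn0 ρ₂ φ ψ z x) (hx : x ∈ B1 ρ₁) : ∃ v ∈ ρ₂.invariants, ψ v = z := by
  obtain ⟨v, h1, h2⟩ := hc
  obtain ⟨u, rfl⟩ := hx
  refine ⟨v - φ u, (d0_eq_zero_iff ρ₂ _).1 ?_, by rw [map_sub, h1, h.comp_zero, sub_zero]⟩
  rw [map_sub, h2, d0_push h.homφ, sub_self]

theorem SES.conn1_exact_right (h : SES ρ₁ ρ₂ ρ₃ φ ψ) {z : G → V₃} {x : G × G → V₁}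
    (hc : Conn1 L ρ₂ φ ψ z x) (hx : x ∈ B2 L ρ₁) : ∃ y ∈ Z1 L ρ₂, ψ.compLeft G y = z := by
  obtain ⟨c, h0, h1, h2⟩ := hc
  obtain ⟨b, hb, rfl⟩ := (mem_B2 L ρ₁ x).1 hx
  refine ⟨c - φ.compLeft G b, (mem_Z1 L ρ₂ _).2 ⟨?_, (lc1 L k V₂).sub_mem h0 (isLC1_push hb φ)⟩,
    by rw [map_sub, h1, h.psi_phi, sub_zero]⟩
  rw [map_sub, h2, d1_push h.homφ, sub_self]

theorem SES.conn2_exact_right (h : SES ρ₁ ρ₂ ρ₃ φ ψ) {z : G × G → V₃}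
    {x : G × G × G → V₁} (hc : Conn2 L ρ₂ φ ψ z x) (hx : x ∈ B3 L ρ₁) :
    ∃ y ∈ Z2 L ρ₂, ψ.compLeft (G × G) y = z := by
  obtain ⟨c, h0, h1, h2⟩ := hc
  obtain ⟨b, hb, rfl⟩ := (mem_B3 L ρ₁ x).1 hx
  refine ⟨c - φ.compLeft (G × G) b,
    (mem_Z2 L ρ₂ _).2 ⟨?_, (lc2 L k V₂).sub_mem h0 (isLC2_push hb φ)⟩,
    by rw [map_sub, h1, h.psi_phi, sub_zero]⟩
  rw [map_sub, h2, d2_push h.homφ, sub_self]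

/-! ### (T8) exactness at `Hⁿ⁺¹(V₁)` -/

theorem SES.conn0_exact_left (h : SES ρ₁ ρ₂ ρ₃ φ ψ) {x : G → V₁}
    (hx : φ.compLeft G x ∈ B1 ρ₂) : ∃ z ∈ ρ₃.invariants, Conn0 ρ₂ φ ψ z x := by
  obtain ⟨v, hv⟩ := hx
  refine ⟨ψ v, (d0_eq_zero_iff ρ₃ _).1 ?_, v, rfl, hv⟩
  rw [d0_push h.homψ, hv, h.psi_phi]

theorem SES.conn1_exact_left (h : SES ρ₁ ρ₂ ρ₃ φ ψ) {x : G × G → V₁}
    (hx : φ.compLeft (G × G) x ∈ B2 L ρ₂) : ∃ z ∈ Z1 L ρ₃, Conn1 L ρ₂ φ ψ z x := by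
  obtain ⟨c, hc, hd⟩ := (mem_B2 L ρ₂ _).1 hx
  refine ⟨ψ.compLeft G c, (mem_Z1 L ρ₃ _).2 ⟨?_, isLC1_push hc ψ⟩, c, hc, rfl, hd⟩
  rw [d1_push h.homψ, hd, h.psi_phi]

theorem SES.conn2_exact_left (h : SES ρ₁ ρ₂ ρ₃ φ ψ) {x : G × G × G → V₁}
    (hx : φ.compLeft (G × G × G) x ∈ B3 L ρ₂) : ∃ z ∈ Z2 L ρ₃, Conn2 L ρ₂ φ ψ z x := by
  obtain ⟨c, hc, hd⟩ := (mem_B3 L ρ₂ _).1 hx
  refine ⟨ψ.compLeft (G × G) c, (mem_Z2 L ρ₃ _).2 ⟨?_, isLC2_push hc ψ⟩, c, hc, rfl, hd⟩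
  rw [d2_push h.homψ, hd, h.psi_phi]

/-! ### Consequences: surjectivity and vanishing -/

/-- `H⁰(V₂) → H⁰(V₃)` is onto when `H¹(V₁) = 0`. -/
theorem SES.surj0 (h : SES ρ₁ ρ₂ ρ₃ φ ψ) (hρ₂ : IsDisc L ρ₂) (hv : Z1 L ρ₁ ≤ B1 ρ₁)
    {z : V₃} (hz : z ∈ ρ₃.invariants) : ∃ v ∈ ρ₂.invariants, ψ v = z := by
  obtain ⟨x, hx, hc⟩ := h.conn0_exists (L := L) hρ₂ hz
  exact h.conn0_exact_right hc (hv hx)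

/-- `H¹(V₂) → H¹(V₃)` is onto (on cocycles) when `H²(V₁) = 0`. -/
theorem SES.surj1 (h : SES ρ₁ ρ₂ ρ₃ φ ψ) (hL : L.Good) (hρ₂ : IsDisc L ρ₂)
    (hv : Z2 L ρ₁ ≤ B2 L ρ₁) {z : G → V₃} (hz : z ∈ Z1 L ρ₃) :
    ∃ y ∈ Z1 L ρ₂, ψ.compLeft G y = z := by
  obtain ⟨x, hx, hc⟩ := h.conn1_exists hL hρ₂ hz
  exact h.conn1_exact_right hc (hv hx)

/-- `H²(V₂) → H²(V₃)` is onto (on cocycles) when `H³(V₁) = 0`. -/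
theorem SES.surj2 (h : SES ρ₁ ρ₂ ρ₃ φ ψ) (hL : L.Good) (hρ₂ : IsDisc L ρ₂)
    (hv : H3Vanishes L ρ₁) {z : G × G → V₃} (hz : z ∈ Z2 L ρ₃) :
    ∃ y ∈ Z2 L ρ₂, ψ.compLeft (G × G) y = z := by
  obtain ⟨x, hx, hc⟩ := h.conn2_exists hL hρ₂ hz
  exact h.conn2_exact_right hc (hv hx)

/-- `H¹(V₂) = 0` when `H¹(V₁) = 0 = H¹(V₃)`. -/
theorem SES.h1Vanishes_mid (h : SES ρ₁ ρ₂ ρ₃ φ ψ) (hρ₂ : IsDisc L ρ₂)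
    (h1 : Z1 L ρ₁ ≤ B1 ρ₁) (h3 : Z1 L ρ₃ ≤ B1 ρ₃) : Z1 L ρ₂ ≤ B1 ρ₂ := by
  intro y hy
  obtain ⟨x, hx, hxy⟩ := h.mid1 hρ₂ hy (h3 (push_mem_Z1 h.homψ hy))
  have := add_mem hxy (push_mem_B1 h.homφ (h1 hx))
  rwa [sub_add_cancel] at this

/-- `H²(V₂) = 0` when `H²(V₁) = 0 = H²(V₃)`. -/
theorem SES.h2Vanishes_mid (h : SES ρ₁ ρ₂ ρ₃ φ ψ) (hL : L.Good) (hρ₂ : IsDisc L ρ₂)
    (h1 : Z2 L ρ₁ ≤ B2 L ρ₁) (h3 : Z2 L ρ₃ ≤ B2 L ρ₃) : Z2 L ρ₂ ≤ B2 L ρ₂ := by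
  intro y hy
  obtain ⟨x, hx, hxy⟩ := h.mid2 hL hρ₂ hy (h3 (push_mem_Z2 h.homψ hy))
  have := add_mem hxy (push_mem_B2 h.homφ (h1 hx))
  rwa [sub_add_cancel] at this

/-- `H³(V₂) = 0` when `H³(V₁) = 0 = H³(V₃)`. -/
theorem SES.h3Vanishes_mid (h : SES ρ₁ ρ₂ ρ₃ φ ψ) (hL : L.Good) (hρ₂ : IsDisc L ρ₂)
    (h1 : H3Vanishes L ρ₁) (h3 : H3Vanishes L ρ₃) : H3Vanishes L ρ₂ := by
  intro y hy
  obtain ⟨x, hx, hxy⟩ := h.mid3 hL hρ₂ hy (h3 (push_mem_Z3 h.homψ hy))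
  have := add_mem hxy (push_mem_B3 h.homφ (h1 hx))
  rwa [sub_add_cancel] at this

/-- `H³(V₃) = 0` when `H³(V₂) = 0` and every `3`-cocycle of `V₃` lifts to a cocycle. -/
theorem SES.h3Vanishes_right_of_lift (h : SES ρ₁ ρ₂ ρ₃ φ ψ) (h2 : H3Vanishes L ρ₂)
    (hlift : ∀ z ∈ Z3 L ρ₃, ∃ y ∈ Z3 L ρ₂, ψ.compLeft (G × G × G) y = z) :
    H3Vanishes L ρ₃ := by
  intro z hz
  obtain ⟨y, hy, rfl⟩ := hlift z hz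
  exact push_mem_B3 h.homψ (h2 hy)

end SESsec

end Fermat.Agent.PT.Tools
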