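import Mathlib
import Fermat.Agent.PT.Defs
import Fermat.Agent.PT.Iface
import Fermat.Agent.PT.Alg.VanSkel

/-!
# W3-PT / ALG-VAN: assembly of `VanAbs` and `LVanAbs` from the leaf statements
-/

set_option autoImplicit false

namespace Fermat.Agent.PT

lemma h40v_units_eq_one (p : ℕ) [Fact p.Prime] (k : Type) [Field k] [CharP k p] (x : kˣ) (n : ℕ)
    (h : x ^ p ^ n = 1) : x = 1 := by
  have h1 : ((x : k) - 1) ^ p ^ n = 0 := by
    rw [sub_pow_char_pow, ← Units.val_pow_eq_pow_val, h]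
    simp
  have h2 : (x : k) - 1 = 0 := pow_eq_zero_iff (pow_ne_zero n (Fact.out : p.Prime).ne_zero) |>.1 h1
  exact Units.ext (by simpa using sub_eq_zero.1 h2)

/-- The propagation principle. -/
theorem h40v_principle (hFix : h40v_FixedVec) (hLev : h40v_Level) (hSyl : h40v_Sylow)
    (hID : h40v_IndDisc) (hIR : h40v_IndRetract) (hIE : h40v_IndExact)
    (p : ℕ) [Fact p.Prime] (k : Type) [Field k] [CharP k p]
    (G : Type) [Group G] (L : Lev G) (χ : G →* kˣ) (hL : L.Good)
    (hχ : ∃ N ∈ L.sets, ∀ s ∈ N, χ s = 1)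
    (P : ∀ (V : Type) [AddCommGroup V] [Module k V], Representation k G V → Prop)
    (hzero : ∀ (V : Type) [AddCommGroup V] [Module k V] [Subsingleton V]
      (ρ : Representation k G V), P V ρ)
    (hretract : ∀ (V W : Type) [AddCommGroup V] [Module k V] [AddCommGroup W] [Module k W]
      (ρ : Representation k G V) (σ : Representation k G W) (i : V →ₗ[k] W) (π : W →ₗ[k] V),
      h40v_IsHom ρ σ i → h40v_IsHom σ ρ π → (∀ v, π (i v) = v) → P W σ → P V ρ)
    (hext : ∀ (V₁ V₂ V₃ : Type) [AddCommGroup V₁] [Module k V₁] [AddCommGroup V₂] [Module k V₂]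
      [AddCommGroup V₃] [Module k V₃]
      (ρ₁ : Representation k G V₁) (ρ₂ : Representation k G V₂) (ρ₃ : Representation k G V₃)
      (φ : V₁ →ₗ[k] V₂) (ψ : V₂ →ₗ[k] V₃),
      h40v_IsHom ρ₁ ρ₂ φ → h40v_IsHom ρ₂ ρ₃ ψ → Function.Injective φ → Function.Surjective ψ →
      LinearMap.range φ = LinearMap.ker ψ →
      (∃ N ∈ L.sets, ∀ s ∈ N, ∀ v, ρ₂ s v = v) → P V₁ ρ₁ → P V₃ ρ₃ → P V₂ ρ₂)
    (hperm : ∀ U : Subgroup G, L.IsOpen U → (∀ u ∈ U, χ u = 1) → P (G ⧸ U → k) (permRep k U))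
    (V : Type) [AddCommGroup V] [Module k V] [FiniteDimensional k V]
    (ρ : Representation k G V) (hρ : IsDisc L ρ) : P V ρ := by
  classical
  -- the level
  obtain ⟨N, hN, hχN, hρN⟩ := hLev k G L χ hχ V ρ hρ
  obtain ⟨hNn, hNf⟩ := hL N hN
  -- the Sylow level
  obtain ⟨U, hNU, hU0, hUp, hUN⟩ := hSyl p G N hNn hNf
  have hUχ : ∀ u ∈ U, χ u = 1 := by
    intro u hu
    obtain ⟨n, hn⟩ := hUN u hu
    apply h40v_units_eq_one p k (χ u) n
    rw [← map_pow]
    exact hχN _ hn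
  have hUopen : L.IsOpen U := ⟨N, hN, hNU⟩
  have hUk : ((U.index : ℕ) : k) ≠ 0 := by
    rw [Ne, CharP.cast_eq_zero_iff k p]
    exact hUp
  -- the induction over the `U`-representations
  have key : ∀ (n : ℕ) (W : Type) [AddCommGroup W] [Module k W] [FiniteDimensional k W]
      (τ : Representation k U W), Module.finrank k W = n →
      (∀ (s : G) (hs : s ∈ N) (w : W), τ ⟨s, hNU hs⟩ w = w) →
      P (G ⧸ U → W) (h40v_ind U τ) := by
    intro n
    induction n with
    | zero =>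
      intro W _ _ _ τ hn _
      have : Subsingleton W := Module.finrank_zero_iff.1 hn
      exact hzero _ _
    | succ n ih =>
      intro W _ _ _ τ hn hτ
      have : Nontrivial W := Module.nontrivial_of_finrank_pos (R := k) (by omega)
      -- a fixed vector
      have : (N.subgroupOf U).Normal := hNn.subgroupOf U
      have : (N.subgroupOf U).FiniteIndex := by
        have := hNf
        infer_instance
      obtain ⟨w, hw0, hw⟩ := hFix p k U (N.subgroupOf U) inferInstance inferInstance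
        (fun u => by
          obtain ⟨m, hm⟩ := hUN u u.2
          exact ⟨m, by simpa [Subgroup.mem_subgroupOf] using hm⟩)
        W τ (fun s hs w => hτ s hs w)
      -- the quotient
      have hstab : ∀ u : U, Submodule.span k {w} ≤ (Submodule.span k {w}).comap (τ u) := by
        intro u
        rw [Submodule.span_le]
        intro x hx
        rw [Set.mem_singleton_iff] at hx
        subst hx
        simp only [Submodule.comap_coe, Set.mem_preimage, SetLike.mem_coe, hw u]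
        exact Submodule.mem_span_singleton_self _
      have hfr : Module.finrank k (W ⧸ Submodule.span k {w}) = n := by
        have h1 := Submodule.finrank_quotient_add_finrank (Submodule.span k {w})
        rw [finrank_span_singleton hw0, hn] at h1
        omega
      have hP3 : P (G ⧸ U → W ⧸ Submodule.span k {w})
          (h40v_ind U (τ.quotient (Submodule.span k {w}) hstab)) := by
        apply ih _ _ hfr
        intro s hs x
        induction x using Submodule.Quotient.induction_on with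
        | H x =>
          show (τ.quotient (Submodule.span k {w}) hstab) ⟨s, hNU hs⟩
            (Submodule.Quotient.mk x) = _
          rw [Representation.quotient_apply, Submodule.mapQ_apply, hτ s hs x]
      obtain ⟨φ, ψ, hφ, hψ, hinj, hsurj, hex⟩ := hIE k G U W (W ⧸ Submodule.span k {w}) τ
        (τ.quotient (Submodule.span k {w}) hstab) (Submodule.mkQ _) w hw0 hw
        (fun u x => by
          rw [Representation.quotient_apply]
          rfl)
        (Submodule.mkQ_surjective _) (Submodule.ker_mkQ _)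
      exact hext _ _ _ _ _ _ φ ψ hφ hψ hinj hsurj hex
        ⟨N, hN, hID k G U N hNn hNU W τ hτ⟩ (hperm U hUopen hUχ) hP3
  -- the retract
  obtain ⟨i, π, hi, hπ, hπi⟩ := hIR k G U hU0 hUk V ρ
  refine hretract _ _ ρ _ i π hi hπ hπi (key _ V _ rfl ?_)
  intro s hs v
  exact hρN s hs v

/-- `VanAbs` from the leaves. -/
theorem h40v_vanAbs_of (hR1 : h40v_RetractH1) (hR3 : h40v_RetractH3) (hE1 : h40v_ExtH1)
    (hE3 : h40v_ExtH3) (hFix : h40v_FixedVec) (hLev : h40v_Level) (hSyl : h40v_Sylow)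
    (hID : h40v_IndDisc) (hIR : h40v_IndRetract) (hIE : h40v_IndExact) : VanAbs := by
  intro p _ k _ _ D hD hperm V _ _ _ ρ hρ
  obtain ⟨hL, -, -, -, hχ⟩ := hD
  refine h40v_principle hFix hLev hSyl hID hIR hIE p k D.G D.lev D.chi hL hχ
    (fun V _ _ ρ => D.VV ρ) ?_ ?_ ?_ hperm V ρ hρ
  · intro V _ _ _ ρ
    refine ⟨?_, ?_⟩
    · exact Module.Finite.of_finite
    · intro z _
      have : z = d2 ρ 0 := Subsingleton.elim _ _
      rw [this]
      exact ⟨0, Submodule.zero_mem _, rfl⟩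
  · intro V W _ _ _ _ ρ σ i π hi hπ hπi h
    exact ⟨hR1 k D.G D.lev V W ρ σ i π hi hπ hπi h.1, hR3 k D.G D.lev V W ρ σ i π hi hπ hπi h.2⟩
  · intro V₁ V₂ V₃ _ _ _ _ _ _ ρ₁ ρ₂ ρ₃ φ ψ hφ hψ hinj hsurj hex hN h1 h3
    exact ⟨hE1 k D.G D.lev hL V₁ V₂ V₃ ρ₁ ρ₂ ρ₃ φ ψ hφ hψ hinj hsurj hex hN h1.1 h3.1,
      hE3 k D.G D.lev hL V₁ V₂ V₃ ρ₁ ρ₂ ρ₃ φ ψ hφ hψ hinj hsurj hex hN h1.2 h3.2⟩

/-- `LVanAbs` from the leaves. -/
theorem h40v_lVanAbs_of (hR3 : h40v_RetractH3) (hE3 : h40v_ExtH3) (hFix : h40v_FixedVec)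
    (hLev : h40v_Level) (hSyl : h40v_Sylow) (hID : h40v_IndDisc) (hIR : h40v_IndRetract)
    (hIE : h40v_IndExact) : LVanAbs := by
  intro p _ k _ _ H _ L χ hL hχ hperm V _ _ _ ρ hρ
  refine h40v_principle hFix hLev hSyl hID hIR hIE p k H L χ hL hχ
    (fun V _ _ ρ => H3Vanishes L ρ) ?_ ?_ ?_ hperm V ρ hρ
  · intro V _ _ _ ρ z _
    have : z = d2 ρ 0 := Subsingleton.elim _ _
    rw [this]
    exact ⟨0, Submodule.zero_mem _, rfl⟩
  · intro V W _ _ _ _ ρ σ i π hi hπ hπi h
    exact hR3 k H L V W ρ σ i π hi hπ hπi h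
  · intro V₁ V₂ V₃ _ _ _ _ _ _ ρ₁ ρ₂ ρ₃ φ ψ hφ hψ hinj hsurj hex hN h1 h3
    exact hE3 k H L hL V₁ V₂ V₃ ρ₁ ρ₂ ρ₃ φ ψ hφ hψ hinj hsurj hex hN h1 h3

end Fermat.Agent.PT
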