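import Mathlib
import Fermat.Agent.PT.Defs
import Fermat.Agent.PT.Iface
import Fermat.Agent.PT.Alg.VanSkel
import Fermat.Agent.PT.Alg.VanAsm
import Fermat.Agent.PT.Alg.H40Sylow
import Fermat.Agent.PT.Alg.H40FixedVec
import Fermat.Agent.PT.Alg.H57Ind
import Fermat.Agent.PT.Alg.H66Retract
import Fermat.Agent.PT.Alg.H77Ext

/-!
# W3-PT / ALG-VAN: `VanAbs` and `LVanAbs` (unconditional)

Finiteness of `H¹` and vanishing of `H³` propagate from the permutation modules of the open
subgroups on which the character is trivial to all finite dimensional discrete representations.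

Leaves: retracts (helper66), extensions (helper77), induced representations (helper57),
fixed vectors of `p`-groups, trivialising and Sylow levels (helper40); assembly `VanAsm.lean`.
-/

set_option autoImplicit false

namespace Fermat.Agent.PT

/-- `VanAbs` (pure algebra interface of `PT/Iface.lean`). -/
theorem vanAbs : VanAbs :=
  h40v_vanAbs_of h66r_retractH1 h66r_retractH3 h77e_extH1 h77e_extH3 h40f_fixedVec h40s_level
    h40s_sylow h57_indDisc h57_indRetract h57_indExact

/-- `LVanAbs` (pure algebra interface of `PT/Iface.lean`). -/
theorem lVanAbs : LVanAbs :=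
  h40v_lVanAbs_of h66r_retractH3 h77e_extH3 h40f_fixedVec h40s_level h40s_sylow h57_indDisc
    h57_indRetract h57_indExact

end Fermat.Agent.PT
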